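/-
S37 (wave 8): interface of the proof of `ModularCurve.SpecializationExists N p (JZero N)`.

Design (board #974 + the cut after it).  For a prime `ℓ ∤ N p` and a valuation ring `A` of `ℚ̄`
above `ℓ`, take a level `M` with `N ∣ M`, `[F_M : F_N]` a power of `ℓ` and good reduction
(`GenusSqueeze A M`), and the additive map

  `Red := reductionModL A M ∘ pb h : JZero N →+ JZeroC (Kb A) M`.

The frozen statement follows formally (Hecke saturation, file `Top.lean`) from three properties
of `Red`: it is invariant under inertia, it kills `σ² - T_ℓ σ + ℓ` for a Frobenius element `σ`,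
and it is injective on `p`-power torsion.  This file contains the definition of `pb` and the
interface propositions of the chains; `Assembly.lean` derives the core statement from them.
-/
import Fermat.Prelude.Def_ModularCurve_HeckeModule
import Fermat.Agent.S18.Iface
import Fermat.Agent.S18.FundId
import Fermat.Agent.S18.ROrthoRel

set_option autoImplicit false
set_option synthInstance.maxHeartbeats 400000
set_option linter.style.haveILetI false

noncomputable section

open HahnSeries IntermediateField AlgebraicCurve ModularCurve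

namespace Fermat.Agent.S37

open Fermat.Agent.S18

/-! ### Pull-back of divisor classes along a level inclusion -/

/-- The fundamental identity for `F_N ⊂ F_M`, `N ∣ M`. -/
theorem fundamentalIdentity_bar {N M : ℕ} [NeZero N] [NeZero M] (h : N ∣ M) :
    letI := algOfLE (bar_mono h)
    haveI := isScalarTower_algOfLE (bar_mono h)
    haveI : Module.Finite ↥(FN N) ↥(FN M) := ROR.finite_bar h
    haveI := ROR.hasPrincipalDivisors_bar (M := M)
    FundamentalIdentity Qb ↥(FN N) ↥(FN M) := by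
  letI := algOfLE (bar_mono h)
  haveI := isScalarTower_algOfLE (bar_mono h)
  haveI : Module.Finite ↥(FN N) ↥(FN M) := ROR.finite_bar h
  haveI := ROR.hasPrincipalDivisors_bar (M := M)
  exact FundId.fundamentalIdentity (PHyp.hyp0_bar N).deg_one (PHyp.hyp0_bar M).deg_one

/-- `π^* : J_0(N) → J_0(M)` for `N ∣ M` (the frozen `Pic0.pullbackHom` along the inclusion
`F_N ⊂ F_M`). -/
def pb {N M : ℕ} [NeZero N] [NeZero M] (h : N ∣ M) : JZero N →+ JZero M :=
  letI := algOfLE (bar_mono h)
  haveI := isScalarTower_algOfLE (bar_mono h)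
  haveI : Module.Finite ↥(FN N) ↥(FN M) := ROR.finite_bar h
  haveI := ROR.hasPrincipalDivisors_bar (M := M)
  haveI := fundamentalIdentity_bar h
  Pic0.pullbackHom (K := Qb) (F := ↥(FN N)) ↥(FN M)

/-- `pb` on the class of a divisor of degree `0`. -/
theorem pb_mk {N M : ℕ} [NeZero N] [NeZero M] (h : N ∣ M)
    (D : Divisor.degZero (K := Qb) (F := ↥(FN N))) :
    letI := algOfLE (bar_mono h)
    haveI := isScalarTower_algOfLE (bar_mono h)
    haveI : Module.Finite ↥(FN N) ↥(FN M) := ROR.finite_bar h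
    haveI := ROR.hasPrincipalDivisors_bar (M := M)
    haveI := fundamentalIdentity_bar h
    pb h (Pic0.mk D) = Pic0.mk (Pic0.pullbackDegZeroHom ↥(FN M) D) := rfl

/-! ### The core statement (same text as `Top.RedCore`) -/

/-- The core of S37: for every prime `ℓ ∤ N p`, every `A` above `ℓ` and every Frobenius element
`σ₀` there is an additive map out of `J_0(N)` which is invariant under inertia, kills
`σ₀² - T_ℓ σ₀ + ℓ` and is injective on `p`-power torsion. -/
def RedCoreStmt (N p : ℕ) [NeZero N] : Prop :=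
  ∀ ℓ (hℓ : ℓ.Prime), ¬ ℓ ∣ N * p → ∀ A : ValuationSubring (AlgebraicClosure ℚ),
    A.LiesOverPrime ℓ → ∀ σ₀ : AlgebraicClosure ℚ ≃ₐ[ℚ] AlgebraicClosure ℚ, A.IsFrobeniusAt σ₀ ℓ →
    ∃ (G : Type) (_ : AddCommGroup G) (red : JZero N →+ G),
      (∀ τ ∈ A.inertiaSubgroupIn ℚ, ∀ x : JZero N, red (τ • x) = red x) ∧
      (∀ x : JZero N,
        red (σ₀ • σ₀ • x - heckeOperatorBar N ⟨ℓ, hℓ⟩ (σ₀ • x) + ℓ • x) = 0) ∧
      (∀ x : JZero N, (∃ n : ℕ, p ^ n • x = 0) → red x = 0 → x = 0)

/-! ### Interface propositions of the chains -/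

/-- **[chain GD]** tame genus descent: the genus squeeze descends along a level map of degree
prime to `ℓ`. -/
def GenusDescentStmt : Prop :=
  ∀ (ℓ : ℕ) [Fact ℓ.Prime] (A : ValuationSubring Qb), A.LiesOverPrime ℓ →
    ∀ (M M' : ℕ) [NeZero M] [NeZero M'] (h' : M ∣ M'), ¬ ℓ ∣ M' → ¬ ℓ ∣ levelDeg h' →
      GenusSqueeze A M' → GenusSqueeze A M

/-- **[chain DEU]** Deuring: at a level with good reduction the frozen reduction inputs hold
(a reduction map on places with `r_* div y = div ȳ`, and principal divisors are generated by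
divisors of integral functions). -/
def DeuringStmt : Prop :=
  ∀ (ℓ : ℕ) [Fact ℓ.Prime] (A : ValuationSubring Qb), A.LiesOverPrime ℓ →
    ∀ (M : ℕ) [NeZero M], ¬ ℓ ∣ M → GenusSqueeze A M → ReductionInputsModL A M

/-- **[S18]** the frozen statement S18, as a proposition. -/
def TorsionStmt : Prop :=
  ∀ (M : ℕ) [NeZero M] {ℓ : ℕ} [Fact ℓ.Prime], ¬ ℓ ∣ M →
    ∀ (A : ValuationSubring (AlgebraicClosure ℚ)), A.LiesOverPrime ℓ →
    ReductionInputsModL A M → ∀ (m : ℕ), ¬ ℓ ∣ m → ∀ z : JZero M,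
      m • z = 0 → reductionModL A M z = 0 → z = 0

/-- **[chain INJ]** `π^*` is injective on torsion of order prime to the degree. -/
def PbInjStmt : Prop :=
  ∀ (N M : ℕ) [NeZero N] [NeZero M] (h : N ∣ M) (m : ℕ), Nat.Coprime m (levelDeg h) →
    ∀ x : JZero N, m • x = 0 → pb h x = 0 → x = 0

/-- **[chain GAL, inertia]** the reduction of `π^* x` is invariant under inertia. -/
def InertiaStmt : Prop :=
  ∀ (ℓ : ℕ) [Fact ℓ.Prime] (A : ValuationSubring Qb), A.LiesOverPrime ℓ →
    ∀ (N M : ℕ) [NeZero N] [NeZero M] (h : N ∣ M), ¬ ℓ ∣ M → ReductionInputsModL A M →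
    ∀ τ ∈ A.inertiaSubgroupIn ℚ, ∀ x : JZero N,
      reductionModL A M (pb h (τ • x)) = reductionModL A M (pb h x)

/-- **[chains GAL (Frobenius) + K + HECKE + ES]** the Eichler–Shimura congruence for the
reduction of `π^* x`, in the form used by the core statement. -/
def EichlerShimuraStmt : Prop :=
  ∀ (ℓ : ℕ) (hℓ : ℓ.Prime) (A : ValuationSubring Qb), A.LiesOverPrime ℓ →
    ∀ (N M : ℕ) [NeZero N] [NeZero M] (h : N ∣ M), ¬ ℓ ∣ M → ReductionInputsModL A M →
    ∀ σ₀ : Qb ≃ₐ[ℚ] Qb, A.IsFrobeniusAt σ₀ ℓ → ∀ x : JZero N,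
      reductionModL A M (pb h (σ₀ • σ₀ • x - heckeOperatorBar N ⟨ℓ, hℓ⟩ (σ₀ • x) + ℓ • x)) = 0

/-- The shape in which chains GAL and ES deliver `EichlerShimuraStmt`: an additive bijection
`Φ` of the target (the coefficientwise Frobenius) with `Red ∘ σ = Φ ∘ Red` for Frobenius
elements and `Red ∘ T_ℓ = (Φ + ℓ Φ⁻¹) ∘ Red`. -/
def FrobHeckeStmt : Prop :=
  ∀ (ℓ : ℕ) (hℓ : ℓ.Prime) (A : ValuationSubring Qb), A.LiesOverPrime ℓ →
    ∀ (N M : ℕ) [NeZero N] [NeZero M] (h : N ∣ M), ¬ ℓ ∣ M → ReductionInputsModL A M →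
    ∃ Φ Ψ : JZeroC (Kb A) M →+ JZeroC (Kb A) M, (∀ y, Ψ (Φ y) = y) ∧
      (∀ σ : Qb ≃ₐ[ℚ] Qb, A.IsFrobeniusAt σ ℓ → ∀ x : JZero N,
        reductionModL A M (pb h (σ • x)) = Φ (reductionModL A M (pb h x))) ∧
      (∀ x : JZero N, reductionModL A M (pb h (heckeOperatorBar N ⟨ℓ, hℓ⟩ x))
        = Φ (reductionModL A M (pb h x)) + ℓ • Ψ (reductionModL A M (pb h x)))

end Fermat.Agent.S37
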