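/-
S37 (wave 8): assembly of the core statement `RedCoreStmt N p` from the interface propositions
of `Iface.lean`.  Pure bookkeeping.
-/
import Fermat.Agent.S37.Iface

set_option autoImplicit false
set_option synthInstance.maxHeartbeats 400000
set_option linter.style.haveILetI false

noncomputable section

open HahnSeries IntermediateField AlgebraicCurve ModularCurve

namespace Fermat.Agent.S37

open Fermat.Agent.S18

/-- The Eichler–Shimura statement from its "Frobenius + Hecke" form. -/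
theorem eichlerShimura_of_frobHecke (hFH : FrobHeckeStmt) : EichlerShimuraStmt := by
  intro ℓ hℓ A hA N M _ _ h hℓM hRI σ₀ hσ₀ x
  obtain ⟨Φ, Ψ, hΨΦ, hF, hT⟩ := hFH ℓ hℓ A hA N M h hℓM hRI
  set g : JZero N →+ JZeroC (Kb A) M := (reductionModL A M).comp (pb h) with hg
  have hgF : ∀ y : JZero N, g (σ₀ • y) = Φ (g y) := fun y => hF σ₀ hσ₀ y
  have hgT : ∀ y : JZero N, g (heckeOperatorBar N ⟨ℓ, hℓ⟩ y) = Φ (g y) + ℓ • Ψ (g y) :=
    fun y => hT y
  show g (σ₀ • σ₀ • x - heckeOperatorBar N ⟨ℓ, hℓ⟩ (σ₀ • x) + ℓ • x) = 0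
  have h1 : g (σ₀ • σ₀ • x) = Φ (Φ (g x)) := by rw [hgF, hgF]
  have h2 : g (heckeOperatorBar N ⟨ℓ, hℓ⟩ (σ₀ • x)) = Φ (Φ (g x)) + ℓ • g x := by
    rw [hgT, hgF, hΨΦ]
  have h3 : g (ℓ • x) = ℓ • g x := map_nsmul g ℓ x
  rw [AddMonoidHom.map_add, AddMonoidHom.map_sub, h1, h2, h3]
  generalize Φ (Φ (g x)) = u
  generalize ℓ • g x = v
  abel

/-- **Assembly**: the core statement of S37 from the interface propositions. -/
theorem redCore_of_iface (hLev : LevelStmt) (hGS : GenusSqueezeStmt) (hGD : GenusDescentStmt)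
    (hDeu : DeuringStmt) (hTor : TorsionStmt) (hInj : PbInjStmt) (hIn : InertiaStmt)
    (hES : EichlerShimuraStmt) (N p : ℕ) [NeZero N] : RedCoreStmt N p := by
  intro ℓ hℓ hℓNp A hA σ₀ hσ₀
  haveI : Fact ℓ.Prime := ⟨hℓ⟩
  have hℓN : ¬ ℓ ∣ N := fun hd => hℓNp (hd.mul_right p)
  have hℓp : ¬ ℓ ∣ p := fun hd => hℓNp (hd.mul_left N)
  obtain ⟨M, M', h, h', hM'0, hadm, hd, a, ha⟩ := hLev ℓ N hℓN
  haveI : NeZero M' := ⟨hM'0⟩
  haveI : NeZero M := ⟨fun h0 => hM'0 (by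
    rw [h0] at h'
    exact Nat.eq_zero_of_zero_dvd h')⟩
  have hℓM' : ¬ ℓ ∣ M' := hadm.1
  have hℓM : ¬ ℓ ∣ M := fun hm => hℓM' (hm.trans h')
  have hGSM : GenusSqueeze A M := hGD ℓ A hA M M' h' hℓM' hd (hGS ℓ A hA M' hadm)
  have hRI : ReductionInputsModL A M := hDeu ℓ A hA M hℓM hGSM
  refine ⟨JZeroC (Kb A) M, inferInstance, (reductionModL A M).comp (pb h), ?_, ?_, ?_⟩
  · intro τ hτ x
    exact hIn ℓ A hA N M h hℓM hRI τ hτ x
  · intro x
    exact hES ℓ hℓ A hA N M h hℓM hRI σ₀ hσ₀ x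
  · rintro x ⟨n, hn⟩ hx
    have hℓpn : ¬ ℓ ∣ p ^ n := fun hd' => hℓp (hℓ.dvd_of_dvd_pow hd')
    have hz : p ^ n • pb h x = 0 := by rw [← map_nsmul, hn, map_zero]
    have h0 : pb h x = 0 := hTor M hℓM A hA hRI (p ^ n) hℓpn (pb h x) hz hx
    have hcop : Nat.Coprime (p ^ n) (levelDeg h) := by
      rw [ha]
      exact Nat.Coprime.pow _ _ ((Nat.Prime.coprime_iff_not_dvd hℓ).mpr hℓp).symm
    exact hInj N M h (p ^ n) hcop x hn h0

end Fermat.Agent.S37
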