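/-
S37, chain A (Deuring reduction of places), abstract core (helper25).

Generic setting: function fields `F / K` and `Fb / k`, a valuation ring `V` of `F` with a ring
homomorphism `rho : V → Fb` (the "Gauss reduction").  From

* Riemann's inequality for `F` with constant `g`, and the opposite inequality for all divisors of
  large degree of `Fb` with the same `g` (the genus squeeze),
* `dim_k rho (L(D) ∩ V) = ℓ(D)` for effective `D` (orthonormal bases),
* the degree inequality `deg (rho y)_∞ ≤ deg (y)_∞` for `y ∈ V` with `rho y` outside a proper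
  `k`-subspace `Sbad`,

we construct a map `r` from the places of `F` to the places of `Fb` with
`r_* (div y) = div (rho y)` for every unit `y` of `V` (`exists_reduction`).

Method (Deuring): the pole hull `pd(D)` of `rho (L(D) ∩ V)` (predicate `IsPd`), which has degree
`deg D` for large `D` by the squeeze, is additive, and `r P := pd(B + P) - pd(B)`.
-/
import Fermat.Agent.S20.RRBasic

set_option autoImplicit false

noncomputable section

open AlgebraicCurve

namespace Fermat.Agent.S37.DeuAbs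

open Fermat.Agent.S20

/-! ### Divisors on a function field all of whose places have degree one -/

section Div

variable {K F : Type*} [Field K] [Field F] [Algebra K F]

theorem degree_le_of_le {D D' : Divisor K F} (h : D ≤ D') :
    Divisor.degree D ≤ Divisor.degree D' := by
  have := RR.degree_nonneg (sub_nonneg.mpr h)
  rw [map_sub] at this
  omega

theorem eq_of_le_of_degree_eq (h1 : ∀ v : Place K F, v.deg = 1) {E E' : Divisor K F}
    (hle : E ≤ E') (hdeg : Divisor.degree E = Divisor.degree E') : E = E' := by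
  classical
  by_contra hne
  have hex : ∃ Q, E Q < E' Q := by
    by_contra hcon
    push Not at hcon
    exact hne (le_antisymm hle (Finsupp.le_def.mpr hcon))
  obtain ⟨Q, hQ⟩ := hex
  have h2 : E + Finsupp.single Q 1 ≤ E' := by
    rw [Finsupp.le_def]
    intro w
    have := Finsupp.le_def.mp hle w
    rw [Finsupp.add_apply, Finsupp.single_apply]
    split_ifs with hw
    · subst hw; omega
    · omega
  have h3 := degree_le_of_le h2
  rw [map_add, Divisor.degree_single, h1 Q] at h3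
  simp only [Nat.cast_one, mul_one] at h3
  omega

theorem eq_single_of_degree_one (h1 : ∀ v : Place K F, v.deg = 1) {E : Divisor K F}
    (hE : 0 ≤ E) (hdeg : Divisor.degree E = 1) : ∃ Q, E = Finsupp.single Q 1 := by
  classical
  have hne : E ≠ 0 := by
    rintro rfl
    simp at hdeg
  obtain ⟨Q, hQ⟩ := Finsupp.ne_iff.mp hne
  have hQ0 := Finsupp.le_def.mp hE Q
  simp only [Finsupp.coe_zero, Pi.zero_apply] at hQ hQ0
  refine ⟨Q, (eq_of_le_of_degree_eq h1 ?_ ?_).symm⟩
  · rw [Finsupp.le_def]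
    intro w
    have := Finsupp.le_def.mp hE w
    simp only [Finsupp.coe_zero, Pi.zero_apply] at this
    rw [Finsupp.single_apply]
    split_ifs with hw
    · subst hw; omega
    · exact this
  · rw [Divisor.degree_single, h1 Q, hdeg]
    simp

end Div

variable {K F k Fb : Type*} [Field K] [Field F] [Algebra K F] [Field k] [Field Fb] [Algebra k Fb]

/-! ### Pole hulls of finite-dimensional subspaces -/

/-- `E` is the pole hull of the subspace `W`: `W ⊆ L(E)` and at every place some element of `W`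
has exactly the pole order allowed by `E`. -/
def IsHull (W : Submodule k Fb) (E : Divisor k Fb) : Prop :=
  W ≤ riemannRochSpace E ∧ ∀ Q : Place k Fb, ∃ z ∈ W, z ≠ 0 ∧ Q.ord z = -E Q

theorem exists_hull (h0b : RR.Hyp0 k Fb) (W : Submodule k Fb) (hfg : W.FG) (hne : W ≠ ⊥) :
    ∃ E, IsHull W E := by
  classical
  have key : W = ⊥ ∨ ∃ E, IsHull W E := by
    refine Submodule.fg_induction (motive := fun W _ => W = ⊥ ∨ ∃ E, IsHull W E) ?_ ?_ W hfg
    · intro x
      by_cases hx : x = 0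
      · left
        rw [hx, Submodule.span_zero_singleton]
      · right
        obtain ⟨Dx, hDx, -⟩ := h0b.principal x hx
        refine ⟨-Dx, ?_, fun Q => ⟨x, Submodule.mem_span_singleton_self x, hx, ?_⟩⟩
        · rw [Submodule.span_singleton_le_iff_mem, mem_riemannRochSpace_iff]
          intro v
          right
          rw [Finsupp.neg_apply, hDx v]
          omega
        · rw [Finsupp.neg_apply, hDx Q]
          omega
    · rintro W₁ W₂ - - (h₁ | ⟨E₁, h₁⟩) (h₂ | ⟨E₂, h₂⟩)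
      · left
        rw [h₁, h₂, sup_bot_eq]
      · right
        rw [h₁, bot_sup_eq]
        exact ⟨E₂, h₂⟩
      · right
        rw [h₂, sup_bot_eq]
        exact ⟨E₁, h₁⟩
      · right
        refine ⟨E₁ ⊔ E₂, sup_le (h₁.1.trans (RR.riemannRochSpace_mono le_sup_left))
          (h₂.1.trans (RR.riemannRochSpace_mono le_sup_right)), fun Q => ?_⟩
        rcases le_total (E₂ Q) (E₁ Q) with h | h
        · obtain ⟨z, hz, hz0, hzQ⟩ := h₁.2 Q
          refine ⟨z, Submodule.mem_sup_left hz, hz0, ?_⟩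
          rw [hzQ, Finsupp.sup_apply, sup_eq_left.mpr h]
        · obtain ⟨z, hz, hz0, hzQ⟩ := h₂.2 Q
          refine ⟨z, Submodule.mem_sup_right hz, hz0, ?_⟩
          rw [hzQ, Finsupp.sup_apply, sup_eq_right.mpr h]
  exact key.resolve_left hne

/-- A generic element of `W` has exactly the pole orders of the hull at finitely many given
places, and avoids a given subspace not containing `W`. -/
theorem IsHull.exists_generic [Infinite k] {W : Submodule k Fb} {E : Divisor k Fb}
    (hW : IsHull W E) (T : Finset (Place k Fb)) (S : Submodule k Fb) (hS : ¬ W ≤ S) :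
    ∃ z ∈ W, z ∉ S ∧ ∀ Q ∈ T, Q.ord z = -E Q := by
  classical
  let s : Finset (Subspace k ↥W) :=
    insert (S.comap W.subtype) (T.image fun Q => (RR.poleLE Q (E Q - 1)).comap W.subtype)
  have hs : ⊤ ∉ s := by
    intro htop
    rcases Finset.mem_insert.mp htop with h | h
    · exact hS (Submodule.comap_subtype_eq_top.mp h.symm)
    · obtain ⟨Q, -, hQ⟩ := Finset.mem_image.mp h
      have hle : W ≤ RR.poleLE Q (E Q - 1) := Submodule.comap_subtype_eq_top.mp hQ
      obtain ⟨z, hz, hz0, hzQ⟩ := hW.2 Q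
      have := (RR.mem_poleLE_iff Q).mp (hle hz)
      rcases this with h0 | h0
      · exact hz0 h0
      · omega
  have hne := Subspace.biUnion_ne_univ_of_top_notMem hs
  obtain ⟨z, hz⟩ := (Set.ne_univ_iff_exists_notMem _).mp hne
  simp only [Set.mem_iUnion, not_exists] at hz
  refine ⟨z, z.2, ?_, ?_⟩
  · intro hzS
    exact hz _ (Finset.mem_insert_self _ _) hzS
  · intro Q hQ
    have h1 : (z : Fb) ∉ RR.poleLE Q (E Q - 1) := by
      intro hmem
      exact hz _ (Finset.mem_insert_of_mem (Finset.mem_image_of_mem _ hQ)) hmem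
    rw [RR.mem_poleLE_iff] at h1
    push Not at h1
    have h2 := (mem_riemannRochSpace_iff.mp (hW.1 z.2)) Q
    rcases h2 with h2 | h2
    · exact absurd h2 h1.1
    · omega

/-! ### The pole hull of the reduction of `L(D) ∩ V` -/

section Pd

variable (V : ValuationSubring F) (rho : ↥V →+* Fb)

/-- `E` is the pole hull of `rho (L(D) ∩ V)`. -/
def IsPd (D : Divisor K F) (E : Divisor k Fb) : Prop :=
  (∀ x : ↥V, (x : F) ∈ riemannRochSpace D → rho x ∈ riemannRochSpace E) ∧
    ∀ Q : Place k Fb, ∃ x : ↥V, (x : F) ∈ riemannRochSpace D ∧ rho x ≠ 0 ∧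
      Q.ord (rho x) = -E Q

variable {V rho}

theorem ne_zero_of_rho_ne_zero {x : ↥V} (hx : rho x ≠ 0) : (x : F) ≠ 0 := by
  intro h
  apply hx
  have : x = 0 := Subtype.ext h
  rw [this, map_zero]

theorem IsPd.le_of_le {D D' : Divisor K F} {E E' : Divisor k Fb} (hD : D ≤ D')
    (h : IsPd V rho D E) (h' : IsPd V rho D' E') : E ≤ E' := by
  rw [Finsupp.le_def]
  intro Q
  obtain ⟨x, hx, hx0, hxQ⟩ := h.2 Q
  have h1 := (mem_riemannRochSpace_iff.mp (h'.1 x (RR.riemannRochSpace_mono hD hx))) Q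
  rcases h1 with h1 | h1
  · exact absurd h1 hx0
  · omega

theorem IsPd.unique {D : Divisor K F} {E E' : Divisor k Fb}
    (h : IsPd V rho D E) (h' : IsPd V rho D E') : E = E' :=
  le_antisymm (h.le_of_le le_rfl h') (h'.le_of_le le_rfl h)

theorem IsPd.add_le {D₁ D₂ : Divisor K F} {E₁ E₂ E₃ : Divisor k Fb}
    (h₁ : IsPd V rho D₁ E₁) (h₂ : IsPd V rho D₂ E₂) (h₃ : IsPd V rho (D₁ + D₂) E₃) :
    E₁ + E₂ ≤ E₃ := by
  rw [Finsupp.le_def]
  intro Q
  obtain ⟨x₁, hx₁, hx₁0, hx₁Q⟩ := h₁.2 Q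
  obtain ⟨x₂, hx₂, hx₂0, hx₂Q⟩ := h₂.2 Q
  have hx₁F := ne_zero_of_rho_ne_zero hx₁0
  have hx₂F := ne_zero_of_rho_ne_zero hx₂0
  have hmem : ((x₁ * x₂ : ↥V) : F) ∈ riemannRochSpace (D₁ + D₂) := by
    rw [mem_riemannRochSpace_iff]
    intro v
    right
    have e₁ := ((mem_riemannRochSpace_iff.mp hx₁) v).resolve_left hx₁F
    have e₂ := ((mem_riemannRochSpace_iff.mp hx₂) v).resolve_left hx₂F
    rw [MulMemClass.coe_mul, v.ord_mul hx₁F hx₂F, Finsupp.add_apply]
    omega
  have h1 := (mem_riemannRochSpace_iff.mp (h₃.1 _ hmem)) Q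
  rw [map_mul] at h1
  rcases h1 with h1 | h1
  · exact absurd h1 (mul_ne_zero hx₁0 hx₂0)
  · rw [Q.ord_mul hx₁0 hx₂0] at h1
    rw [Finsupp.add_apply]
    omega

theorem IsPd.shift (hunit : ∀ y : ↥V, rho y ≠ 0 → IsUnit y) {D : Divisor K F}
    {E : Divisor k Fb} (h : IsPd V rho D E) (y : ↥V) (hy : rho y ≠ 0)
    (Dy : Divisor K F) (hDy : ∀ P, Dy P = P.ord (y : F))
    (Dyb : Divisor k Fb) (hDyb : ∀ Q, Dyb Q = Q.ord (rho y)) :
    IsPd V rho (D + Dy) (E + Dyb) := by
  have hyF := ne_zero_of_rho_ne_zero hy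
  refine ⟨fun x hx => ?_, fun Q => ?_⟩
  · by_cases hx0 : rho x = 0
    · rw [hx0]
      exact Submodule.zero_mem _
    · have hxF := ne_zero_of_rho_ne_zero hx0
      have hmem : ((x * y : ↥V) : F) ∈ riemannRochSpace D := by
        rw [mem_riemannRochSpace_iff]
        intro v
        right
        have e₁ := ((mem_riemannRochSpace_iff.mp hx) v).resolve_left hxF
        rw [MulMemClass.coe_mul, v.ord_mul hxF hyF]
        rw [Finsupp.add_apply, hDy v] at e₁
        omega
      have h1 := h.1 _ hmem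
      rw [map_mul] at h1
      rw [mem_riemannRochSpace_iff] at h1 ⊢
      intro Q
      right
      have h2 := (h1 Q).resolve_left (mul_ne_zero hx0 hy)
      rw [Q.ord_mul hx0 hy] at h2
      rw [Finsupp.add_apply, hDyb Q]
      omega
  · obtain ⟨x, hx, hx0, hxQ⟩ := h.2 Q
    have hxF := ne_zero_of_rho_ne_zero hx0
    obtain ⟨u, hu⟩ := hunit y hy
    have huF : (((u⁻¹ : (↥V)ˣ) : ↥V) : F) = (y : F)⁻¹ := by
      have h1 : ((u⁻¹ : (↥V)ˣ) : ↥V) * y = 1 := by
        rw [← hu]
        exact u.inv_mul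
      have h2 := congrArg (fun t : ↥V => (t : F)) h1
      simp only [MulMemClass.coe_mul, OneMemClass.coe_one] at h2
      exact eq_inv_of_mul_eq_one_left h2
    have hurho : rho ((u⁻¹ : (↥V)ˣ) : ↥V) = (rho y)⁻¹ := by
      have h1 : ((u⁻¹ : (↥V)ˣ) : ↥V) * y = 1 := by
        rw [← hu]
        exact u.inv_mul
      have h2 := congrArg rho h1
      rw [map_mul, map_one] at h2
      exact eq_inv_of_mul_eq_one_left h2
    refine ⟨x * ((u⁻¹ : (↥V)ˣ) : ↥V), ?_, ?_, ?_⟩
    · rw [mem_riemannRochSpace_iff]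
      intro v
      right
      have e₁ := ((mem_riemannRochSpace_iff.mp hx) v).resolve_left hxF
      rw [MulMemClass.coe_mul, huF, v.ord_mul hxF (inv_ne_zero hyF), v.ord_inv,
        Finsupp.add_apply, hDy v]
      omega
    · rw [map_mul, hurho]
      exact mul_ne_zero hx0 (inv_ne_zero hy)
    · rw [map_mul, hurho, Q.ord_mul hx0 (inv_ne_zero hy), Q.ord_inv, Finsupp.add_apply,
        hDyb Q, hxQ]
      omega

/-- The reduction hypothesis: `rho (L(D) ∩ V)` is a `k`-subspace of dimension `ℓ(D)`. -/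
def DimHyp (V : ValuationSubring F) (rho : ↥V →+* Fb) : Prop :=
  ∀ D : Divisor K F, 0 ≤ D → ∃ W : Submodule k Fb,
    (∀ z : Fb, z ∈ W ↔ ∃ x : ↥V, (x : F) ∈ riemannRochSpace D ∧ rho x = z) ∧
      Module.finrank k ↥W = RR.ell D

theorem one_mem_of_nonneg {D : Divisor K F} (hD : 0 ≤ D) :
    (((1 : ↥V)) : F) ∈ riemannRochSpace D := by
  rw [mem_riemannRochSpace_iff]
  intro v
  right
  have := Finsupp.le_def.mp hD v
  simp only [Finsupp.coe_zero, Pi.zero_apply] at this
  rw [OneMemClass.coe_one, v.ord_one]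
  omega

theorem IsPd.nonneg {D : Divisor K F} {E : Divisor k Fb} (h : IsPd V rho D E) (hD : 0 ≤ D) :
    0 ≤ E := by
  rw [Finsupp.le_def]
  intro Q
  have h1 := (mem_riemannRochSpace_iff.mp (h.1 1 (one_mem_of_nonneg hD))) Q
  rw [map_one] at h1
  have h2 := h1.resolve_left one_ne_zero
  rw [Q.ord_one] at h2
  simp only [Finsupp.coe_zero, Pi.zero_apply]
  omega

theorem IsPd.isHull {D : Divisor K F} {E : Divisor k Fb} (h : IsPd V rho D E)
    {W : Submodule k Fb}
    (hW : ∀ z : Fb, z ∈ W ↔ ∃ x : ↥V, (x : F) ∈ riemannRochSpace D ∧ rho x = z) :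
    IsHull W E := by
  refine ⟨fun z hz => ?_, fun Q => ?_⟩
  · obtain ⟨x, hx, rfl⟩ := (hW z).mp hz
    exact h.1 x hx
  · obtain ⟨x, hx, hx0, hxQ⟩ := h.2 Q
    exact ⟨rho x, (hW _).mpr ⟨x, hx, rfl⟩, hx0, hxQ⟩

theorem exists_isPd (h0 : RR.Hyp0 K F) (h0b : RR.Hyp0 k Fb) (hdim : DimHyp (K := K) (k := k) V rho)
    (D : Divisor K F) (hD : 0 ≤ D) : ∃ E : Divisor k Fb, IsPd V rho D E := by
  obtain ⟨W, hW, hfin⟩ := hdim D hD
  have hpos : 0 < Module.finrank k ↥W := by
    rw [hfin]
    have := RR.ell_mono h0 hD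
    rw [RR.ell_zero h0] at this
    omega
  have hfd : Module.Finite k ↥W := Module.finite_of_finrank_pos hpos
  have hfg : W.FG := (Submodule.fg_iff_finiteDimensional W).mpr hfd
  have hne : W ≠ ⊥ := by
    rintro rfl
    simp at hpos
  obtain ⟨E, hE⟩ := exists_hull h0b W hfg hne
  refine ⟨E, fun x hx => hE.1 ((hW _).mpr ⟨x, hx, rfl⟩), fun Q => ?_⟩
  obtain ⟨z, hz, hz0, hzQ⟩ := hE.2 Q
  obtain ⟨x, hx, rfl⟩ := (hW z).mp hz
  exact ⟨x, hx, hz0, hzQ⟩

/-- The degree hypothesis (A1): away from the subspace `Sbad`, reduction does not increase the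
degree of the pole divisor. -/
def DegHyp (V : ValuationSubring F) (rho : ↥V →+* Fb) (Sbad : Submodule k Fb) : Prop :=
  ∀ y : ↥V, rho y ∉ Sbad → ∀ (J : Divisor K F) (Jb : Divisor k Fb),
    (∀ P, J P = max (-(P.ord (y : F))) 0) → (∀ Q, Jb Q = max (-(Q.ord (rho y))) 0) →
      Divisor.degree Jb ≤ Divisor.degree J

theorem IsPd.degree_le [Infinite k] (h0 : RR.Hyp0 K F) (hdim : DimHyp (K := K) (k := k) V rho)
    (Sbad : Submodule k Fb) (hdeg : DegHyp (K := K) V rho Sbad) (y₀ : ↥V) (hy₀ : rho y₀ ∉ Sbad)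
    {D : Divisor K F} (hD : 0 ≤ D) (hy₀D : (y₀ : F) ∈ riemannRochSpace D)
    {E : Divisor k Fb} (h : IsPd V rho D E) :
    Divisor.degree E ≤ Divisor.degree D := by
  classical
  obtain ⟨W, hW, -⟩ := hdim D hD
  have hull := h.isHull hW
  have hS : ¬ W ≤ Sbad := fun hle => hy₀ (hle ((hW _).mpr ⟨y₀, hy₀D, rfl⟩))
  obtain ⟨z, hzW, hzS, hzT⟩ := hull.exists_generic E.support Sbad hS
  obtain ⟨y, hyD, rfl⟩ := (hW z).mp hzW
  have hy0 : rho y ≠ 0 := by
    intro h0'
    rw [h0'] at hzS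
    exact hzS (Submodule.zero_mem _)
  have hyF := ne_zero_of_rho_ne_zero hy0
  have hE0 := h.nonneg hD
  obtain ⟨Dy, hDy, -⟩ := h0.principal (y : F) hyF
  have hJ : ∀ P, ((-Dy) ⊔ 0 : Divisor K F) P = max (-(P.ord (y : F))) 0 := by
    intro P
    rw [Finsupp.sup_apply, Finsupp.neg_apply, hDy P]
    rfl
  have hJb : ∀ Q, E Q = max (-(Q.ord (rho y))) 0 := by
    intro Q
    have hQ0 := Finsupp.le_def.mp hE0 Q
    simp only [Finsupp.coe_zero, Pi.zero_apply] at hQ0
    by_cases hQ : Q ∈ E.support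
    · rw [hzT Q hQ]
      omega
    · rw [Finsupp.notMem_support_iff] at hQ
      have h2 := ((mem_riemannRochSpace_iff.mp (h.1 y hyD)) Q).resolve_left hy0
      rw [hQ] at h2 ⊢
      omega
  have h1 := hdeg y hzS _ E hJ hJb
  have h2 : ((-Dy) ⊔ 0 : Divisor K F) ≤ D := by
    rw [Finsupp.le_def]
    intro P
    rw [hJ P]
    have e₁ := ((mem_riemannRochSpace_iff.mp hyD) P).resolve_left hyF
    have e₂ := Finsupp.le_def.mp hD P
    simp only [Finsupp.coe_zero, Pi.zero_apply] at e₂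
    omega
  exact h1.trans (degree_le_of_le h2)

theorem IsPd.degree_eq [Infinite k] (h0 : RR.Hyp0 K F) (h0b : RR.Hyp0 k Fb)
    (hdim : DimHyp (K := K) (k := k) V rho)
    (Sbad : Submodule k Fb) (hdeg : DegHyp (K := K) V rho Sbad) (y₀ : ↥V) (hy₀ : rho y₀ ∉ Sbad)
    (g : ℤ) (hle : ∀ D : Divisor K F, Divisor.degree D + 1 - g ≤ (RR.ell D : ℤ))
    (c : ℤ) (hge : ∀ E : Divisor k Fb, c ≤ Divisor.degree E →
      (RR.ell E : ℤ) ≤ Divisor.degree E + 1 - g)
    {D : Divisor K F} (hD : 0 ≤ D) (hy₀D : (y₀ : F) ∈ riemannRochSpace D)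
    (hcD : c + g ≤ Divisor.degree D)
    {E : Divisor k Fb} (h : IsPd V rho D E) :
    Divisor.degree E = Divisor.degree D := by
  have h1 := h.degree_le h0 hdim Sbad hdeg y₀ hy₀ hD hy₀D
  obtain ⟨W, hW, hfin⟩ := hdim D hD
  have hull := h.isHull hW
  have hE0 := h.nonneg hD
  have hfinE := RR.finite h0b E
  have h2 : Module.finrank k ↥W ≤ RR.ell E := Submodule.finrank_mono hull.1
  have h3 := (RR.finite_and_ell_le_of_nonneg h0b E hE0).2
  have h4 := hle D
  have h5 : c ≤ Divisor.degree E := by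
    have : (Module.finrank k ↥W : ℤ) ≤ RR.ell E := by exact_mod_cast h2
    rw [hfin] at this
    omega
  have h6 := hge E h5
  have : (Module.finrank k ↥W : ℤ) ≤ RR.ell E := by exact_mod_cast h2
  rw [hfin] at this
  omega

/-- The construction of `r` from existence of pole hulls and the degree equality above a base
divisor `B`. -/
theorem exists_reduction_aux (h0 : RR.Hyp0 K F) (h0b : RR.Hyp0 k Fb)
    (hunit : ∀ y : ↥V, rho y ≠ 0 → IsUnit y) (B : Divisor K F) (hB : 0 ≤ B)
    (hex : ∀ D : Divisor K F, 0 ≤ D → ∃ E : Divisor k Fb, IsPd V rho D E)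
    (hdegeq : ∀ (D : Divisor K F) (E : Divisor k Fb), B ≤ D → IsPd V rho D E →
      Divisor.degree E = Divisor.degree D) :
    ∃ r : Place K F → Place k Fb, ∀ y : ↥V, rho y ≠ 0 → ∀ D : Divisor K F,
      (∀ P, D P = P.ord (y : F)) → ∀ Q, Finsupp.mapDomain r D Q = Q.ord (rho y) := by
  classical
  obtain ⟨EB, hEB⟩ := hex B hB
  -- additivity above `B`
  have hadd : ∀ (D₁ D₂ : Divisor K F) (E₁ E₂ E₃ : Divisor k Fb), B ≤ D₁ → B ≤ D₂ →
      IsPd V rho D₁ E₁ → IsPd V rho D₂ E₂ → IsPd V rho (D₁ + D₂) E₃ → E₁ + E₂ = E₃ := by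
    intro D₁ D₂ E₁ E₂ E₃ hB₁ hB₂ h₁ h₂ h₃
    have hB₃ : B ≤ D₁ + D₂ := by
      calc B ≤ D₁ := hB₁
        _ = D₁ + 0 := (add_zero _).symm
        _ ≤ D₁ + D₂ := add_le_add le_rfl (hB.trans hB₂)
    refine eq_of_le_of_degree_eq h0b.deg_one (h₁.add_le h₂ h₃) ?_
    rw [map_add, hdegeq _ _ hB₁ h₁, hdegeq _ _ hB₂ h₂, hdegeq _ _ hB₃ h₃, map_add]
  -- the image of a place
  have hr : ∀ P : Place K F, ∃ Q : Place k Fb,
      IsPd V rho (B + Finsupp.single P 1) (EB + Finsupp.single Q 1) := by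
    intro P
    have hBP : B ≤ B + Finsupp.single P 1 := RR.le_add_single B P
    obtain ⟨E', hE'⟩ := hex (B + Finsupp.single P 1) (hB.trans hBP)
    have h1 : EB ≤ E' := hEB.le_of_le hBP hE'
    have h2 : Divisor.degree (E' - EB) = 1 := by
      rw [map_sub, hdegeq _ _ hBP hE', hdegeq _ _ le_rfl hEB, map_add, Divisor.degree_single,
        h0.deg_one P]
      simp
    obtain ⟨Q, hQ⟩ := eq_single_of_degree_one h0b.deg_one (sub_nonneg.mpr h1) h2
    refine ⟨Q, ?_⟩
    have : E' = EB + Finsupp.single Q 1 := by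
      rw [← hQ]
      abel
    rw [← this]
    exact hE'
  choose r hr using hr
  -- the pole hull above `B`
  have hmain : ∀ D : Divisor K F, 0 ≤ D → IsPd V rho (B + D) (EB + Finsupp.mapDomain r D) := by
    intro D hD
    refine RR.induction_of_le (P := fun D => IsPd V rho (B + D) (EB + Finsupp.mapDomain r D))
      (D := 0) ?_ ?_ D hD
    · simpa using hEB
    · intro E v hE ih
      have hB1 : B ≤ B + (E + Finsupp.single v 1) := by
        calc B = B + 0 := (add_zero _).symm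
          _ ≤ B + (E + Finsupp.single v 1) :=
            add_le_add le_rfl (hE.trans (RR.le_add_single E v))
      have hB2 : B ≤ B + E := by
        calc B = B + 0 := (add_zero _).symm
          _ ≤ B + E := add_le_add le_rfl hE
      obtain ⟨E', hE'⟩ := hex (B + (E + Finsupp.single v 1)) (hB.trans hB1)
      obtain ⟨E'', hE''⟩ := hex ((B + (E + Finsupp.single v 1)) + B)
        (add_nonneg (hB.trans hB1) hB)
      have h1 := hadd _ _ _ _ _ hB1 le_rfl hE' hEB hE''
      have heq : (B + (E + Finsupp.single v 1)) + B = (B + E) + (B + Finsupp.single v 1) := by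
        abel
      rw [heq] at hE''
      have h2 := hadd _ _ _ _ _ hB2 (RR.le_add_single B v) ih (hr v) hE''
      have h3 : E' = EB + Finsupp.mapDomain r (E + Finsupp.single v 1) := by
        rw [Finsupp.mapDomain_add, Finsupp.mapDomain_single]
        have h4 : E' + EB = (EB + Finsupp.mapDomain r E) + (EB + Finsupp.single (r v) 1) := by
          rw [h1, h2]
        have h5 : E' = (EB + Finsupp.mapDomain r E) + (EB + Finsupp.single (r v) 1) - EB := by
          rw [← h4]
          abel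
        rw [h5]
        abel
      rw [← h3]
      exact hE'
  refine ⟨r, fun y hy D hD Q => ?_⟩
  obtain ⟨Db, hDb, -⟩ := h0b.principal (rho y) hy
  have hZ := hmain (D ⊔ 0) le_sup_right
  have hP := hmain ((-D) ⊔ 0) le_sup_right
  have hsh := hP.shift hunit y hy D hD Db hDb
  have heq : B + ((-D) ⊔ 0) + D = B + (D ⊔ 0) := by
    ext P
    simp only [Finsupp.add_apply, Finsupp.sup_apply, Finsupp.neg_apply, Finsupp.coe_zero,
      Pi.zero_apply]
    rcases le_total (D P) 0 with h | h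
    · rw [sup_eq_left.mpr (by omega : (0 : ℤ) ≤ -D P), sup_eq_right.mpr h]
      omega
    · rw [sup_eq_right.mpr (by omega : -D P ≤ (0 : ℤ)), sup_eq_left.mpr h]
      omega
  rw [heq] at hsh
  have h1 := hsh.unique hZ
  have hDdec : D = (D ⊔ 0) - ((-D) ⊔ 0) := by
    ext P
    simp only [Finsupp.sub_apply, Finsupp.sup_apply, Finsupp.neg_apply, Finsupp.coe_zero,
      Pi.zero_apply]
    rcases le_total (D P) 0 with h | h
    · rw [sup_eq_left.mpr (by omega : (0 : ℤ) ≤ -D P), sup_eq_right.mpr h]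
      omega
    · rw [sup_eq_right.mpr (by omega : -D P ≤ (0 : ℤ)), sup_eq_left.mpr h]
      omega
  have h2 : Finsupp.mapDomain r D = Db := by
    have h3 : Finsupp.mapDomain r D =
        Finsupp.mapDomain r (D ⊔ 0) - Finsupp.mapDomain r ((-D) ⊔ 0) := by
      conv_lhs => rw [hDdec]
      exact map_sub (Finsupp.mapDomain.addMonoidHom r) _ _
    rw [h3]
    have h4 : Db = (EB + Finsupp.mapDomain r (-D ⊔ 0) + Db) -
        (EB + Finsupp.mapDomain r (-D ⊔ 0)) := by abel
    rw [h4, h1]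
    abel
  rw [h2, hDb Q]

/-- **Deuring's reduction of places, abstract form.** -/
theorem exists_reduction [Infinite k] (h0 : RR.Hyp0 K F) (h0b : RR.Hyp0 k Fb)
    (P₀ : Place K F) (V : ValuationSubring F) (rho : ↥V →+* Fb)
    (hunit : ∀ y : ↥V, rho y ≠ 0 → IsUnit y)
    (g : ℤ) (hle : ∀ D : Divisor K F, Divisor.degree D + 1 - g ≤ (RR.ell D : ℤ))
    (c : ℤ) (hge : ∀ E : Divisor k Fb, c ≤ Divisor.degree E →
      (RR.ell E : ℤ) ≤ Divisor.degree E + 1 - g)
    (hdim : ∀ D : Divisor K F, 0 ≤ D → ∃ W : Submodule k Fb,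
      (∀ z : Fb, z ∈ W ↔ ∃ x : ↥V, (x : F) ∈ riemannRochSpace D ∧ rho x = z) ∧
        Module.finrank k ↥W = RR.ell D)
    (Sbad : Submodule k Fb)
    (hdeg : ∀ y : ↥V, rho y ∉ Sbad → ∀ (J : Divisor K F) (Jb : Divisor k Fb),
      (∀ P, J P = max (-(P.ord (y : F))) 0) → (∀ Q, Jb Q = max (-(Q.ord (rho y))) 0) →
        Divisor.degree Jb ≤ Divisor.degree J)
    (y₀ : ↥V) (hy₀ : rho y₀ ∉ Sbad) :
    ∃ r : Place K F → Place k Fb, ∀ y : ↥V, rho y ≠ 0 → ∀ D : Divisor K F,
      (∀ P, D P = P.ord (y : F)) → ∀ Q, Finsupp.mapDomain r D Q = Q.ord (rho y) := by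
  classical
  have hy₀0 : rho y₀ ≠ 0 := by
    intro h
    rw [h] at hy₀
    exact hy₀ (Submodule.zero_mem _)
  have hy₀F := ne_zero_of_rho_ne_zero hy₀0
  obtain ⟨Dy, hDy, -⟩ := h0.principal (y₀ : F) hy₀F
  -- the base divisor
  let B : Divisor K F := ((-Dy) ⊔ 0) + (c + g).toNat • Finsupp.single P₀ 1
  have hn : (0 : Divisor K F) ≤ (c + g).toNat • Finsupp.single P₀ 1 :=
    nsmul_nonneg (RR.single_one_nonneg P₀) _
  have hB0 : (-Dy) ⊔ 0 ≤ B := by
    calc (-Dy) ⊔ 0 = (-Dy) ⊔ 0 + 0 := (add_zero _).symm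
      _ ≤ B := add_le_add le_rfl hn
  have hB : 0 ≤ B := le_sup_right.trans hB0
  have hBdeg : c + g ≤ Divisor.degree B := by
    have h1 : Divisor.degree B = Divisor.degree ((-Dy) ⊔ 0 : Divisor K F) + (c + g).toNat := by
      show Divisor.degree (((-Dy) ⊔ 0) + (c + g).toNat • Finsupp.single P₀ 1) = _
      rw [map_add, map_nsmul, Divisor.degree_single, h0.deg_one P₀]
      simp
    have h2 := RR.degree_nonneg (K := K) (F := F) (E := (-Dy) ⊔ 0) le_sup_right
    have h3 := Int.self_le_toNat (c + g)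
    omega
  refine exists_reduction_aux h0 h0b hunit B hB (exists_isPd h0 h0b hdim) ?_
  intro D E hBD hpd
  have hy₀D : (y₀ : F) ∈ riemannRochSpace D := by
    rw [mem_riemannRochSpace_iff]
    intro v
    right
    have e₁ := Finsupp.le_def.mp (hB0.trans hBD) v
    rw [Finsupp.sup_apply, Finsupp.neg_apply, hDy v] at e₁
    have e₂ : -(v.ord (y₀ : F)) ≤ (-(v.ord (y₀ : F))) ⊔ (0 : Divisor K F) v := le_sup_left
    omega
  exact hpd.degree_eq h0 h0b hdim Sbad hdeg y₀ hy₀ g hle c hge (hB.trans hBD) hy₀D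
    (hBdeg.trans (degree_le_of_le hBD))

end Pd

end Fermat.Agent.S37.DeuAbs
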