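/-
S37, chain A (Deuring reduction), leaf A1: the degree inequality `[F̄ : k(ȳ)] ≤ [F : L(y)]`.

Generic part: `A ⊂ L`, `V ⊂ E` valuation rings with `V ∩ L = A`, `rho : V → K'` the residue map of
`V`.  If `y ∈ V` has transcendental residue, then `V ∩ L(y)` is a valuation ring of `L(y)` whose
residue field is `k(rho y)` (`CLRat.rho_mem_adjoin`), so the fundamental inequality
(`LiftT.RedPair.finrank_le`) gives `[K' : k(rho y)] ≤ [E : L(y)]`.
-/
import Mathlib
import Fermat.Agent.S18.CLRat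
import Fermat.Agent.S18.LiftTrace
import Fermat.Agent.S18.RGaussBar
import Fermat.Agent.S18.Defs
import Fermat.Agent.S18.PHyp0
import Fermat.Agent.S18.PModC
import Fermat.Agent.S18.PSep
import Fermat.Agent.S18.PFrob
import Fermat.Agent.S18.GSTop
import Fermat.Agent.S24.PlacesMore

set_option autoImplicit false

open Polynomial IntermediateField

namespace Fermat.Agent.S37.DeuDeg

open Fermat.Agent.S18

noncomputable section

section Generic

variable {L E k K' : Type*} [Field L] [Field E] [Algebra L E] [Field k] [Field K'] [Algebra k K']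

variable (A : ValuationSubring L) (res : A →+* k) (V : ValuationSubring E)
  (hVA : ∀ c : L, algebraMap L E c ∈ V ↔ c ∈ A) (rho : V →+* K')
  (hrho : ∀ a : A, rho (CLRat.toV A V hVA a) = algebraMap k K' (res a))
  (hunit : ∀ x : V, rho x ≠ 0 → IsUnit x)

variable (L) in
/-- The valuation ring `V ∩ L(y)` of `L(y)`. -/
def V₀ (y : E) : ValuationSubring L⟮y⟯ := V.comap (algebraMap L⟮y⟯ E)

theorem mem_V₀ (y : E) (x : L⟮y⟯) : x ∈ V₀ L V y ↔ algebraMap L⟮y⟯ E x ∈ V := Iff.rfl

variable (L) in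
/-- The inclusion `V ∩ L(y) → V`. -/
def incl₀ (y : E) : V₀ L V y →+* V :=
  ((algebraMap L⟮y⟯ E).comp (V₀ L V y).subtype).codRestrict V (fun x => x.2)

include hrho hunit in
theorem rho_incl₀_mem (y : V) (hy : Transcendental k (rho y)) (x : V₀ L V (y : E)) :
    rho (incl₀ L V (y : E) x) ∈ k⟮rho y⟯ :=
  CLRat.rho_mem_adjoin A res V hVA rho hrho hunit y hy (incl₀ L V (y : E) x) (x : L⟮(y : E)⟯).2

/-- The residue map of `V ∩ L(y)`, with values in `k(rho y)`. -/
def rho₀ (y : V) (hy : Transcendental k (rho y)) : V₀ L V (y : E) →+* k⟮rho y⟯ :=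
  (rho.comp (incl₀ L V (y : E))).codRestrict k⟮rho y⟯
    (fun x => rho_incl₀_mem A res V hVA rho hrho hunit y hy x)

include hrho hunit in
/-- `(V ∩ L(y), V)` with the residue maps to `k(rho y) ⊂ K'` is a reduction pair. -/
theorem redPair (hsurj : Function.Surjective rho) (y : V) (hy : Transcendental k (rho y)) :
    LiftT.RedPair (V₀ L V (y : E)) V (rho₀ A res V hVA rho hrho hunit y hy) rho where
  mem_iff := fun _ => Iff.rfl
  surj' := hsurj
  compat := fun _ _ => rfl

include hrho hunit in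
/-- **The degree inequality** `[K' : k(rho y)] ≤ [E : L(y)]`. -/
theorem finrank_adjoin_le (hsurj : Function.Surjective rho) (y : V)
    (hy : Transcendental k (rho y)) [FiniteDimensional L⟮(y : E)⟯ E] :
    Module.finrank k⟮rho y⟯ K' ≤ Module.finrank L⟮(y : E)⟯ E :=
  (redPair A res V hVA rho hrho hunit hsurj y hy).finrank_le

end Generic


section Level

open AlgebraicCurve ModularCurve

variable (N : ℕ) [NeZero N] {ℓ : ℕ} [Fact ℓ.Prime] (hℓN : ¬ ℓ ∣ N) (A : ValuationSubring Qb)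
  (hA : A.LiesOverPrime ℓ)

/-- An element of the Gauss valuation ring with transcendental reduction is transcendental. -/
theorem transcendental_of_rho (y : RGB.V N A)
    (hy : Transcendental (Kb A) (RGB.rho N hℓN A hA y)) : Transcendental Qb (y : FN N) := by
  intro halg
  obtain ⟨c, hc⟩ := Fermat.Agent.S24.Places.exists_algebraMap_eq_of_isAlgebraic halg
  have hcA : c ∈ A := (RG.algebraMap_mem_V_iff A N c).mp (by rw [hc]; exact y.2)
  have hy' : y = ⟨algebraMap Qb (FN N) ((⟨c, hcA⟩ : A) : Qb), RG.algebraMap_mem_V A N ⟨c, hcA⟩⟩ :=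
    Subtype.ext hc.symm
  apply hy
  rw [hy', RGB.rho_algebraMap]
  exact isAlgebraic_algebraMap _

/-- **A1, degree form**: `[F̄ : k(ȳ)] ≤ [F : ℚ̄(y)]` for `y` in the Gauss valuation ring with
transcendental reduction `ȳ`. -/
theorem finrank_le_level (y : RGB.V N A)
    (hy : Transcendental (Kb A) (RGB.rho N hℓN A hA y)) :
    Module.finrank (Kb A)⟮RGB.rho N hℓN A hA y⟯ (FbN A N)
      ≤ Module.finrank Qb⟮(y : FN N)⟯ (FN N) := by
  have := PHyp.finiteDimensional_bar N
  have : FiniteDimensional Qb⟮(y : FN N)⟯ (FN N) :=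
    Fermat.Agent.S24.Places.finiteDimensional_of_transcendental (S24.jElt Qb N)
      (transcendental_of_rho N hℓN A hA y hy)
  exact finrank_adjoin_le A (IsLocalRing.residue A) (RGB.V N A) (RG.algebraMap_mem_V_iff A N)
    (RGB.rho N hℓN A hA) (RGB.rho_algebraMap N hℓN A hA)
    (fun x hx => (RGB.isUnit_iff N hℓN A hA x).mpr hx) (RGB.rho_surjective N hℓN A hA) y hy

/-- The sum of the pole orders of `y` is `-[F : ℚ̄(y)]`. -/
theorem sum_poles_bar (y : FN N) (hy : Transcendental Qb y) :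
    ∑ᶠ P ∈ {P : Place Qb (FN N) | P.ord y < 0}, P.ord y
      = -(Module.finrank Qb⟮y⟯ (FN N) : ℤ) := by
  have := PHyp.finiteDimensional_bar N
  have : FiniteDimensional Qb⟮y⟯ (FN N) :=
    Fermat.Agent.S24.Places.finiteDimensional_of_transcendental (S24.jElt Qb N) hy
  exact (PSep.sum_ord_poles y hy).2

include hA in
/-- The sum of the pole orders of `z ∈ F̄` which is not an `ℓ`-th power is `-[F̄ : k(z)]`. -/
theorem sum_poles_Kb (z : FbN A N) (hz : ∀ w : FbN A N, w ^ ℓ ≠ z) :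
    Transcendental (Kb A) z ∧
    ∑ᶠ Q ∈ {Q : Place (Kb A) (FbN A N) | Q.ord z < 0}, Q.ord z
      = -(Module.finrank (Kb A)⟮z⟯ (FbN A N) : ℤ) := by
  have : IsAlgClosed (Kb A) := GST.isAlgClosed_Kb A
  have : CharP (Kb A) ℓ := GST.charP_Kb A hA
  have : CharP (FbN A N) ℓ :=
    charP_of_injective_algebraMap (algebraMap (Kb A) (FbN A N)).injective ℓ
  have hnot : z ∉ PFrob.Fpn (FbN A N) ℓ 1 := by
    rw [PFrob.mem_Fpn]
    rintro ⟨w, hw⟩
    rw [pow_one] at hw
    exact hz w hw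
  have htr : Transcendental (Kb A) z := PFrob.transcendental_of_not_mem ℓ hnot
  have := PModC.finiteDimensional_xJ (Kb A) N ℓ
  have : FiniteDimensional (Kb A)⟮z⟯ (FbN A N) :=
    Fermat.Agent.S24.Places.finiteDimensional_of_transcendental (PModC.xJ (Kb A) N) htr
  have : Algebra.IsSeparable (Kb A)⟮z⟯ (FbN A N) :=
    PFrob.isSeparable_of_not_mem ℓ (PModC.xJ (Kb A) N) hnot
  exact ⟨htr, (PSep.sum_ord_poles z htr).2⟩

/-- **A1, pole form**: if the reduction `ȳ` of `y ∈ V` is not an `ℓ`-th power, the number of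
poles of `ȳ` (with multiplicity) is at most that of `y`. -/
theorem sum_poles_le (y : RGB.V N A) (hy : ∀ w : FbN A N, w ^ ℓ ≠ RGB.rho N hℓN A hA y) :
    -(∑ᶠ Q ∈ {Q : Place (Kb A) (FbN A N) | Q.ord (RGB.rho N hℓN A hA y) < 0},
        Q.ord (RGB.rho N hℓN A hA y))
      ≤ -(∑ᶠ P ∈ {P : Place Qb (FN N) | P.ord (y : FN N) < 0}, P.ord (y : FN N)) := by
  obtain ⟨htr, hsum⟩ := sum_poles_Kb N A hA (RGB.rho N hℓN A hA y) hy
  rw [hsum, sum_poles_bar N (y : FN N) (transcendental_of_rho N hℓN A hA y htr), neg_neg, neg_neg]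
  exact_mod_cast finrank_le_level N hℓN A hA y htr

/-- **A1, pole form**, with the hypothesis in the `PFrob.Fpn` shape. -/
theorem sum_poles_le' [CharP (FbN A N) ℓ] (y : RGB.V N A)
    (hy : RGB.rho N hℓN A hA y ∉ PFrob.Fpn (FbN A N) ℓ 1) :
    -(∑ᶠ Q ∈ {Q : Place (Kb A) (FbN A N) | Q.ord (RGB.rho N hℓN A hA y) < 0},
        Q.ord (RGB.rho N hℓN A hA y))
      ≤ -(∑ᶠ P ∈ {P : Place Qb (FN N) | P.ord (y : FN N) < 0}, P.ord (y : FN N)) := by
  refine sum_poles_le N hℓN A hA y fun w hw => hy ?_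
  rw [PFrob.mem_Fpn]
  exact ⟨w, by rw [pow_one]; exact hw⟩

end Level

end

end Fermat.Agent.S37.DeuDeg
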