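/-
S37, chain A (Deuring's construction of the place reduction), piece DEU-pd (generic, helper20).

The POLE HULL of a finite-dimensional space of functions.  `K` is any field, `F / K` a function
field with the Prelude's places; for a `K`-subspace `Λ ⊆ F`, `IsPd Λ D` says that `D` is the
least divisor with `Λ ⊆ L(D)`, in the pointwise form: `Λ ⊆ L(D)` and at every place `v` some
nonzero `f ∈ Λ` has `ord_v f = - D v`.

* `exists_isPd`, `pd`, `isPd_pd`: existence for `Λ ≠ 0` finite-dimensional (every nonzero function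
  having a divisor), and the chosen hull `pd Λ`.
* `IsPd.le_iff`, `IsPd.unique`, `IsPd.mono`, `IsPd.nonneg`.
* `IsPd.add_le`: `Λ₁ · Λ₂ ⊆ Λ₃ ⇒ pd Λ₁ + pd Λ₂ ≤ pd Λ₃`.
* `IsPd.smul`: `pd (c · Λ) = pd Λ - div c`.
* `IsPd.exists_generic`, `IsPd.exists_poleDivisor_eq` (`K` infinite): an element of `Λ` realising
  the hull at finitely many prescribed places (resp. with pole divisor exactly the hull, if
  `1 ∈ Λ`) and avoiding finitely many subspaces not containing `Λ`.
* bookkeeping for divisors when all places have degree one: `degree_eq_sum`,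
  `degree_eq_neg_finsum_poles`, `neg_finsum_poles_le_degree`, `eq_of_le_of_degree_eq`,
  `exists_single_of_nonneg_of_degree_eq_one`.
-/
import Mathlib
import Fermat.Prelude.Def_AlgebraicCurve_Repartitions

set_option autoImplicit false

noncomputable section

namespace Fermat.Agent.S37.DeuPd

open AlgebraicCurve

variable {K F : Type*} [Field K] [Field F] [Algebra K F]

/-- `D` is the pole hull of `Λ`: `Λ ⊆ L(D)`, and at every place the bound is attained by a
nonzero element of `Λ`. -/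
def IsPd (Λ : Submodule K F) (D : Divisor K F) : Prop :=
  Λ ≤ riemannRochSpace D ∧ ∀ v : Place K F, ∃ f ∈ Λ, f ≠ 0 ∧ v.ord f = -(D v)

section Basic

variable {Λ Λ₁ Λ₂ Λ₃ : Submodule K F} {D D' D₁ D₂ D₃ : Divisor K F}

theorem IsPd.le_rr (h : IsPd Λ D) : Λ ≤ riemannRochSpace D := h.1

theorem IsPd.neg_le_ord (h : IsPd Λ D) {f : F} (hf : f ∈ Λ) (hf0 : f ≠ 0) (v : Place K F) :
    -(D v) ≤ v.ord f := by
  rcases mem_riemannRochSpace_iff.mp (h.1 hf) v with h0 | h1
  · exact absurd h0 hf0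
  · exact h1

theorem IsPd.exists_ord_eq (h : IsPd Λ D) (v : Place K F) :
    ∃ f ∈ Λ, f ≠ 0 ∧ v.ord f = -(D v) := h.2 v

/-- The pole hull is the least divisor `D'` with `Λ ⊆ L(D')`. -/
theorem IsPd.le_of_le_rr (h : IsPd Λ D) (h' : Λ ≤ riemannRochSpace D') : D ≤ D' := by
  intro v
  obtain ⟨f, hf, hf0, hv⟩ := h.2 v
  rcases mem_riemannRochSpace_iff.mp (h' hf) v with h0 | h1
  · exact absurd h0 hf0
  · omega

theorem rr_mono (h : D ≤ D') : riemannRochSpace D ≤ riemannRochSpace D' := by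
  intro f hf
  rw [mem_riemannRochSpace_iff] at hf ⊢
  intro v
  rcases hf v with h0 | h1
  · exact Or.inl h0
  · have := h v
    exact Or.inr (by omega)

theorem IsPd.le_iff (h : IsPd Λ D) : D ≤ D' ↔ Λ ≤ riemannRochSpace D' :=
  ⟨fun hle => h.1.trans (rr_mono hle), h.le_of_le_rr⟩

theorem IsPd.unique (h : IsPd Λ D) (h' : IsPd Λ D') : D = D' :=
  le_antisymm (h.le_of_le_rr h'.1) (h'.le_of_le_rr h.1)

theorem IsPd.mono (h₁ : IsPd Λ₁ D₁) (h₂ : IsPd Λ₂ D₂) (hle : Λ₁ ≤ Λ₂) : D₁ ≤ D₂ :=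
  h₁.le_of_le_rr (hle.trans h₂.1)

/-- If `1 ∈ Λ` the pole hull is effective. -/
theorem IsPd.nonneg (h : IsPd Λ D) (h1 : (1 : F) ∈ Λ) : 0 ≤ D := by
  intro v
  have := h.neg_le_ord h1 one_ne_zero v
  rw [Place.ord_one] at this
  show (0 : ℤ) ≤ D v
  omega

/-- **Super-additivity**: if `Λ₁ · Λ₂ ⊆ Λ₃` then `pd Λ₁ + pd Λ₂ ≤ pd Λ₃`. -/
theorem IsPd.add_le (h₁ : IsPd Λ₁ D₁) (h₂ : IsPd Λ₂ D₂) (h₃ : IsPd Λ₃ D₃)
    (hmul : ∀ f ∈ Λ₁, ∀ g ∈ Λ₂, f * g ∈ Λ₃) : D₁ + D₂ ≤ D₃ := by
  intro v
  obtain ⟨f, hf, hf0, hfv⟩ := h₁.2 v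
  obtain ⟨g, hg, hg0, hgv⟩ := h₂.2 v
  have h := h₃.neg_le_ord (hmul f hf g hg) (mul_ne_zero hf0 hg0) v
  rw [v.ord_mul hf0 hg0] at h
  show (D₁ + D₂) v ≤ D₃ v
  rw [Finsupp.add_apply]
  omega

/-- **Scaling**: `pd (c · Λ) = pd Λ - div c`. -/
theorem IsPd.smul (h : IsPd Λ D) {c : F} (hc : c ≠ 0) {Dc : Divisor K F}
    (hDc : ∀ v, Dc v = v.ord c) {Λ' : Submodule K F}
    (hΛ' : ∀ f, f ∈ Λ' ↔ ∃ g ∈ Λ, f = c * g) : IsPd Λ' (D - Dc) := by
  refine ⟨fun f hf => ?_, fun v => ?_⟩
  · obtain ⟨g, hg, rfl⟩ := (hΛ' f).mp hf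
    rw [mem_riemannRochSpace_iff]
    intro v
    by_cases hg0 : g = 0
    · left; rw [hg0, mul_zero]
    · right
      have := h.neg_le_ord hg hg0 v
      rw [v.ord_mul hc hg0, Finsupp.sub_apply, hDc v]
      omega
  · obtain ⟨g, hg, hg0, hgv⟩ := h.2 v
    refine ⟨c * g, (hΛ' _).mpr ⟨g, hg, rfl⟩, mul_ne_zero hc hg0, ?_⟩
    rw [v.ord_mul hc hg0, Finsupp.sub_apply, hDc v, hgv]
    ring

/-- Scaling, for the image of `Λ` under multiplication by `c`. -/
theorem IsPd.map_mulLeft (h : IsPd Λ D) {c : F} (hc : c ≠ 0) {Dc : Divisor K F}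
    (hDc : ∀ v, Dc v = v.ord c) : IsPd (Λ.map (LinearMap.mulLeft K c)) (D - Dc) := by
  refine h.smul hc hDc fun f => ?_
  rw [Submodule.mem_map]
  constructor
  · rintro ⟨g, hg, rfl⟩
    exact ⟨g, hg, rfl⟩
  · rintro ⟨g, hg, rfl⟩
    exact ⟨g, hg, rfl⟩

end Basic

/-! ### Existence -/

/-- **Existence of the pole hull** of a nonzero finite-dimensional space of functions. -/
theorem exists_isPd (hdiv : ∀ f : F, f ≠ 0 → ∃ D : Divisor K F, ∀ v, D v = v.ord f)
    (Λ : Submodule K F) [Module.Finite K Λ] (hΛ : Λ ≠ ⊥) : ∃ D : Divisor K F, IsPd Λ D := by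
  classical
  have : Nontrivial Λ := Submodule.nontrivial_iff_ne_bot.mpr hΛ
  have hn : 0 < Module.finrank K Λ := Module.finrank_pos
  let b := Module.finBasis K Λ
  have hb0 : ∀ i, ((b i : Λ) : F) ≠ 0 := fun i h => b.ne_zero i (Subtype.ext h)
  choose Db hDb using fun i => hdiv _ (hb0 i)
  have hne : (Finset.univ : Finset (Fin (Module.finrank K Λ))).Nonempty :=
    ⟨⟨0, hn⟩, Finset.mem_univ _⟩
  let m : Place K F → ℤ := fun v => Finset.univ.sup' hne (fun i => -(v.ord ((b i : Λ) : F)))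
  have hm : ∀ v, m v ≠ 0 → v ∈ Finset.univ.biUnion fun i => (Db i).support := by
    intro v hv
    by_contra hnot
    apply hv
    have h0 : ∀ i, v.ord ((b i : Λ) : F) = 0 := by
      intro i
      by_contra hi
      apply hnot
      rw [Finset.mem_biUnion]
      exact ⟨i, Finset.mem_univ _, by rw [Finsupp.mem_support_iff, hDb]; exact hi⟩
    show Finset.univ.sup' hne (fun i => -(v.ord ((b i : Λ) : F))) = 0
    apply le_antisymm
    · rw [Finset.sup'_le_iff]
      intro i _
      rw [h0 i, neg_zero]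
    · have := Finset.le_sup' (fun i => -(v.ord ((b i : Λ) : F))) (Finset.mem_univ ⟨0, hn⟩)
      rw [h0] at this
      simpa using this
  let D : Divisor K F := Finsupp.onFinset _ m hm
  have hD : ∀ v, D v = m v := fun v => rfl
  refine ⟨D, ?_, ?_⟩
  · have hspan : Λ = Submodule.span K (Λ.subtype '' Set.range b) := by
      rw [← Submodule.map_span, b.span_eq, Submodule.map_subtype_top]
    rw [hspan, Submodule.span_le]
    rintro _ ⟨_, ⟨i, rfl⟩, rfl⟩
    rw [SetLike.mem_coe, mem_riemannRochSpace_iff]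
    intro v
    right
    have := Finset.le_sup' (fun i => -(v.ord ((b i : Λ) : F))) (Finset.mem_univ i)
    rw [hD v]
    show -(m v) ≤ v.ord ((b i : Λ) : F)
    have hm' : -(v.ord ((b i : Λ) : F)) ≤ m v := this
    omega
  · intro v
    obtain ⟨i, -, hi⟩ := Finset.exists_mem_eq_sup' hne (fun i => -(v.ord ((b i : Λ) : F)))
    refine ⟨b i, (b i).2, hb0 i, ?_⟩
    rw [hD v]
    have : m v = -(v.ord ((b i : Λ) : F)) := hi
    omega

open Classical in
/-- The pole hull of `Λ` (the junk value `0` if there is none). -/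
def pd (Λ : Submodule K F) : Divisor K F := if h : ∃ D, IsPd Λ D then h.choose else 0

theorem IsPd.pd_eq {Λ : Submodule K F} {D : Divisor K F} (h : IsPd Λ D) : pd Λ = D := by
  have h' : ∃ D, IsPd Λ D := ⟨D, h⟩
  rw [pd, dif_pos h']
  exact h'.choose_spec.unique h

theorem isPd_pd (hdiv : ∀ f : F, f ≠ 0 → ∃ D : Divisor K F, ∀ v, D v = v.ord f)
    (Λ : Submodule K F) [Module.Finite K Λ] (hΛ : Λ ≠ ⊥) : IsPd Λ (pd Λ) := by
  obtain ⟨D, hD⟩ := exists_isPd hdiv Λ hΛ
  rw [hD.pd_eq]
  exact hD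

/-- `Λ ⊆ L(pd Λ)`. -/
theorem le_rr_pd (hdiv : ∀ f : F, f ≠ 0 → ∃ D : Divisor K F, ∀ v, D v = v.ord f)
    (Λ : Submodule K F) [Module.Finite K Λ] (hΛ : Λ ≠ ⊥) : Λ ≤ riemannRochSpace (pd Λ) :=
  (isPd_pd hdiv Λ hΛ).1

/-- `pd Λ ≤ D ↔ Λ ⊆ L(D)`. -/
theorem pd_le_iff (hdiv : ∀ f : F, f ≠ 0 → ∃ D : Divisor K F, ∀ v, D v = v.ord f)
    (Λ : Submodule K F) [Module.Finite K Λ] (hΛ : Λ ≠ ⊥) {D : Divisor K F} :
    pd Λ ≤ D ↔ Λ ≤ riemannRochSpace D :=
  (isPd_pd hdiv Λ hΛ).le_iff

/-! ### Generic elements -/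

section Generic

variable [Infinite K] {Λ : Submodule K F} {D : Divisor K F}

/-- **Generic elements.**  Over an infinite field, some element of `Λ` realises the pole hull at
finitely many prescribed places and avoids finitely many subspaces not containing `Λ`. -/
theorem IsPd.exists_generic (h : IsPd Λ D) (hΛ : Λ ≠ ⊥) (S : Finset (Place K F))
    (T : Finset (Submodule K F)) (hT : ∀ W ∈ T, ¬ Λ ≤ W) :
    ∃ f ∈ Λ, f ≠ 0 ∧ (∀ v ∈ S, v.ord f = -(D v)) ∧ ∀ W ∈ T, f ∉ W := by
  classical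
  -- the bad subspaces of `Λ`
  let bad : Place K F → Submodule K F := fun v => riemannRochSpace (D - Finsupp.single v 1)
  let s : Finset (Submodule K Λ) :=
    insert ⊥ (S.image (fun v => (bad v).comap Λ.subtype) ∪ T.image (fun W => W.comap Λ.subtype))
  have hs : (⊤ : Submodule K Λ) ∉ s := by
    intro htop
    rw [Finset.mem_insert, Finset.mem_union, Finset.mem_image, Finset.mem_image] at htop
    rcases htop with h0 | ⟨v, -, hv⟩ | ⟨W, hW, hWtop⟩
    · apply hΛ
      rw [eq_bot_iff]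
      intro f hf
      have : (⟨f, hf⟩ : Λ) ∈ (⊤ : Submodule K Λ) := trivial
      rw [h0, Submodule.mem_bot] at this
      rw [Submodule.mem_bot]
      exact congrArg Subtype.val this
    · obtain ⟨f, hf, hf0, hfv⟩ := h.2 v
      have hmem : (⟨f, hf⟩ : Λ) ∈ (bad v).comap Λ.subtype := by rw [hv]; trivial
      have hmem' : f ∈ riemannRochSpace (D - Finsupp.single v 1) := hmem
      rw [mem_riemannRochSpace_iff] at hmem'
      rcases hmem' v with h0 | h1
      · exact hf0 h0
      · rw [Finsupp.sub_apply, Finsupp.single_eq_same] at h1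
        omega
    · apply hT W hW
      intro f hf
      have hmem : (⟨f, hf⟩ : Λ) ∈ W.comap Λ.subtype := by rw [hWtop]; trivial
      exact hmem
  have hcov := Subspace.biUnion_ne_univ_of_top_notMem hs
  obtain ⟨x, hx⟩ : ∃ x : Λ, x ∉ ⋃ p ∈ s, (p : Set Λ) := by
    by_contra hall
    push Not at hall
    exact hcov (Set.eq_univ_of_forall hall)
  simp only [Set.mem_iUnion, not_exists] at hx
  have hx0 : (x : F) ≠ 0 := by
    intro h0
    apply hx ⊥ (Finset.mem_insert_self _ _)
    rw [SetLike.mem_coe, Submodule.mem_bot]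
    exact Subtype.ext h0
  refine ⟨x, x.2, hx0, fun v hv => ?_, fun W hW hxW => ?_⟩
  · have hnot := hx ((bad v).comap Λ.subtype)
      (Finset.mem_insert_of_mem (Finset.mem_union_left _ (Finset.mem_image_of_mem _ hv)))
    have hge := h.neg_le_ord x.2 hx0 v
    by_contra hne
    apply hnot
    rw [SetLike.mem_coe, Submodule.mem_comap, Submodule.subtype_apply, mem_riemannRochSpace_iff]
    intro w
    right
    have hw := h.neg_le_ord x.2 hx0 w
    rw [Finsupp.sub_apply]
    by_cases hwv : w = v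
    · subst hwv
      rw [Finsupp.single_eq_same]
      omega
    · rw [Finsupp.single_eq_of_ne hwv]
      omega
  · exact hx (W.comap Λ.subtype)
      (Finset.mem_insert_of_mem (Finset.mem_union_right _ (Finset.mem_image_of_mem _ hW))) hxW

/-- **Generic elements, pole divisor form.**  If `1 ∈ Λ`, some element of `Λ` has pole divisor
exactly the pole hull of `Λ` and avoids finitely many subspaces not containing `Λ`. -/
theorem IsPd.exists_poleDivisor_eq (h : IsPd Λ D) (h1 : (1 : F) ∈ Λ)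
    (T : Finset (Submodule K F)) (hT : ∀ W ∈ T, ¬ Λ ≤ W) :
    ∃ f ∈ Λ, f ≠ 0 ∧ (∀ v, D v = max (-(v.ord f)) 0) ∧ ∀ W ∈ T, f ∉ W := by
  have hΛ : Λ ≠ ⊥ := by
    intro h0
    rw [h0, Submodule.mem_bot] at h1
    exact one_ne_zero h1
  obtain ⟨f, hf, hf0, hS, hfT⟩ := h.exists_generic hΛ D.support T hT
  refine ⟨f, hf, hf0, fun v => ?_, hfT⟩
  have hnn : (0 : ℤ) ≤ D v := h.nonneg h1 v
  by_cases hv : v ∈ D.support
  · rw [hS v hv, neg_neg, max_eq_left hnn]
  · rw [Finsupp.notMem_support_iff] at hv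
    have := h.neg_le_ord hf hf0 v
    rw [hv] at this ⊢
    rw [max_eq_right (by omega)]

end Generic

/-! ### Divisors when all places have degree one -/

section Degree

variable (hdeg : ∀ v : Place K F, v.deg = 1)
include hdeg

theorem degree_eq_sum (D : Divisor K F) : Divisor.degree D = ∑ v ∈ D.support, D v := by
  show (Finsupp.liftAddHom fun v : Place K F => AddMonoidHom.mulRight (v.deg : ℤ)) D = _
  rw [Finsupp.liftAddHom_apply]
  refine Finset.sum_congr rfl fun v _ => ?_
  simp [hdeg v]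

theorem degree_nonneg_of_nonneg {E : Divisor K F} (hE : 0 ≤ E) : 0 ≤ Divisor.degree E := by
  rw [degree_eq_sum hdeg]
  exact Finset.sum_nonneg fun v _ => hE v

/-- An effective divisor of degree `0` is `0`. -/
theorem eq_zero_of_nonneg_of_degree_eq_zero {E : Divisor K F} (hE : 0 ≤ E)
    (hd : Divisor.degree E = 0) : E = 0 := by
  rw [degree_eq_sum hdeg] at hd
  have h0 := (Finset.sum_eq_zero_iff_of_nonneg fun v _ => hE v).mp hd
  ext v
  by_cases hv : v ∈ E.support
  · exact h0 v hv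
  · exact Finsupp.notMem_support_iff.mp hv

/-- Divisors `D ≤ D'` of the same degree are equal. -/
theorem eq_of_le_of_degree_eq {D D' : Divisor K F} (h : D ≤ D')
    (hd : Divisor.degree D = Divisor.degree D') : D = D' := by
  have h0 : D' - D = 0 := by
    refine eq_zero_of_nonneg_of_degree_eq_zero hdeg (fun v => ?_) (by rw [map_sub, hd, sub_self])
    have := h v
    show (0 : ℤ) ≤ (D' - D) v
    rw [Finsupp.sub_apply]
    omega
  exact (sub_eq_zero.mp h0).symm

/-- An effective divisor of degree `1` is a single place. -/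
theorem exists_single_of_nonneg_of_degree_eq_one {E : Divisor K F} (hE : 0 ≤ E)
    (hd : Divisor.degree E = 1) : ∃ v : Place K F, E = Finsupp.single v 1 := by
  classical
  have hne : E ≠ 0 := by
    rintro rfl
    rw [map_zero] at hd
    exact zero_ne_one hd
  obtain ⟨v, hv⟩ := Finsupp.support_nonempty_iff.mpr hne
  refine ⟨v, ?_⟩
  have hle : Finsupp.single v 1 ≤ E := by
    intro w
    by_cases hwv : w = v
    · subst hwv
      rw [Finsupp.single_eq_same]
      have h1 : (0 : ℤ) ≤ E w := hE w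
      have h2 : E w ≠ 0 := Finsupp.mem_support_iff.mp hv
      omega
    · rw [Finsupp.single_eq_of_ne hwv]
      exact hE w
  refine (eq_of_le_of_degree_eq hdeg hle ?_).symm
  rw [Divisor.degree_single, hdeg v, hd]
  norm_num

/-- The degree of the pole divisor of `f` is minus the sum of the orders of `f` at its
poles. -/
theorem degree_eq_neg_finsum_poles {D : Divisor K F} {f : F}
    (hf : ∀ v, D v = max (-(v.ord f)) 0) :
    {v : Place K F | v.ord f < 0}.Finite ∧
      Divisor.degree D = -∑ᶠ v ∈ {v : Place K F | v.ord f < 0}, v.ord f := by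
  have hset : {v : Place K F | v.ord f < 0} = ↑D.support := by
    ext v
    rw [Set.mem_ofPred_eq, Finset.mem_coe, Finsupp.mem_support_iff, hf v]
    constructor
    · intro h
      rw [max_eq_left (by omega)]
      omega
    · intro h
      by_contra hnot
      exact h (max_eq_right (by omega))
  refine ⟨hset ▸ D.support.finite_toSet, ?_⟩
  rw [hset, finsum_mem_coe_finset, degree_eq_sum hdeg, ← Finset.sum_neg_distrib]
  refine Finset.sum_congr rfl fun v hv => ?_
  have hv' : v.ord f < 0 := by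
    have : v ∈ {v : Place K F | v.ord f < 0} := by rw [hset]; exact hv
    exact this
  rw [hf v, max_eq_left (by omega)]

/-- For `x ∈ L(D)`, `D` effective, the pole orders of `x` add up to at most `deg D`. -/
theorem neg_finsum_poles_le_degree {D : Divisor K F} (hD : 0 ≤ D) {x : F} (hx0 : x ≠ 0)
    (hx : x ∈ riemannRochSpace D) :
    {v : Place K F | v.ord x < 0}.Finite ∧
      -∑ᶠ v ∈ {v : Place K F | v.ord x < 0}, v.ord x ≤ Divisor.degree D := by
  classical
  have hord : ∀ v, -(D v) ≤ v.ord x := by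
    intro v
    rcases mem_riemannRochSpace_iff.mp hx v with h0 | h1
    · exact absurd h0 hx0
    · exact h1
  have hsub : {v : Place K F | v.ord x < 0} ⊆ ↑D.support := by
    intro v hv
    rw [Finset.mem_coe, Finsupp.mem_support_iff]
    have h1 := hord v
    have h2 : v.ord x < 0 := hv
    omega
  have hfin : {v : Place K F | v.ord x < 0}.Finite := D.support.finite_toSet.subset hsub
  refine ⟨hfin, ?_⟩
  rw [finsum_mem_eq_finite_toFinset_sum _ hfin, ← Finset.sum_neg_distrib, degree_eq_sum hdeg]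
  calc ∑ v ∈ hfin.toFinset, -(v.ord x) ≤ ∑ v ∈ hfin.toFinset, D v :=
        Finset.sum_le_sum fun v _ => by have := hord v; omega
    _ ≤ ∑ v ∈ D.support, D v :=
        Finset.sum_le_sum_of_subset_of_nonneg
          (fun v hv => by
            have : v ∈ {v : Place K F | v.ord x < 0} := hfin.mem_toFinset.mp hv
            exact hsub this)
          (fun v _ _ => hD v)

end Degree

end Fermat.Agent.S37.DeuPd
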