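/-
S37 (wave 8), chain A (Deuring's construction of the place reduction): the modular inputs of
the abstract core at level `M`, `ℓ ∤ M`, for the Gauss valuation ring `V = RGB.V M A` of
`F_M = ℚ̄(X₀(M))` and its residue map `rho = RGB.rho M hℓM A hA : V → F̄_M`, in the shapes of the
hypotheses of `DeuAbs.exists_reduction`:

* `hunit`   : `rho y ≠ 0 → IsUnit y`;
* `hdim`    : for every divisor `D` of `F_M` the reductions of `L(D) ∩ V` form a `κ(A)`-subspace
              of `F̄_M` of dimension `ℓ(D)` (orthonormal bases);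
* `Sbad`    : the `ℓ`-th powers of `F̄_M`, a `κ(A)`-subspace; `rho_j_notMem_Sbad`;
* `hge`     : the `GenusGE` half of a genus squeeze for all divisors of large degree;
* `hdeg_of_sum_poles_le` : the degree inequality for pole divisors, from its finsum form;
* `exists_place` : `F_M` has a place.
-/
import Fermat.Agent.S37.DeuPd
import Fermat.Agent.S37.DeuAbs
import Fermat.Agent.S37.DeuDeg
import Fermat.Agent.S18.ROrthoV
import Fermat.Agent.S18.GSTop
import Fermat.Agent.S18.PModCB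
import Fermat.Agent.S18.UPts

set_option autoImplicit false
set_option synthInstance.maxHeartbeats 400000
set_option linter.style.haveILetI false

noncomputable section

namespace Fermat.Agent.S37.DeuAbsIn

open HahnSeries IntermediateField AlgebraicCurve ModularCurve Fermat.Agent.S18 Fermat.Agent.S20

variable {ℓ : ℕ} [Fact ℓ.Prime] (A : ValuationSubring Qb) (hA : A.LiesOverPrime ℓ)
  (M : ℕ) [NeZero M] (hℓM : ¬ ℓ ∣ M)

/-- Elements of the Gauss valuation ring with nonzero reduction are units. -/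
theorem hunit (y : ↥(RGB.V M A)) (hy : RGB.rho M hℓM A hA y ≠ 0) : IsUnit y :=
  (RGB.isUnit_iff M hℓM A hA y).mpr hy

/-- **Reduction of Riemann–Roch spaces**: the reductions of the Gauss-integral elements of `L(D)`
form a `κ(A)`-subspace of `F̄_M` of dimension `ℓ(D)`. -/
theorem hdim (D : Divisor Qb ↥(FN M)) :
    ∃ W : Submodule (Kb A) ↥(FbN A M),
      (∀ z : ↥(FbN A M), z ∈ W ↔
        ∃ x : ↥(RGB.V M A), (x : ↥(FN M)) ∈ riemannRochSpace D ∧ RGB.rho M hℓM A hA x = z) ∧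
      Module.finrank (Kb A) ↥W = RR.ell D := by
  haveI : Module.Finite Qb (riemannRochSpace D) := RR.finite (PHyp.hyp0_bar M) D
  obtain ⟨w, hwW, hind, -, -, hint⟩ := ROV.exists_basis M A hℓM hA (riemannRochSpace D)
  refine ⟨Submodule.span (Kb A) (Set.range fun i => RGB.rho M hℓM A hA (w i)),
    fun z => ⟨?_, ?_⟩, ?_⟩
  · intro hz
    obtain ⟨g, rfl⟩ := (Submodule.mem_span_range_iff_exists_fun (Kb A)).mp hz
    choose a ha using fun i => IsLocalRing.residue_surjective (g i)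
    refine ⟨⟨∑ i, (a i : Qb) • ((w i : ↥(RGB.V M A)) : ↥(FN M)), ROV.sum_smul_mem M A w a⟩,
      ?_, ?_⟩
    · exact Submodule.sum_mem _ fun i _ => Submodule.smul_mem _ _ (hwW i)
    · rw [ROV.rho_sum_smul M A hℓM hA w a _ rfl]
      exact Finset.sum_congr rfl fun i _ => by rw [ha]
  · rintro ⟨x, hxD, rfl⟩
    obtain ⟨a, ha⟩ := hint x hxD
    rw [ROV.rho_sum_smul M A hℓM hA w a x ha]
    exact Submodule.sum_mem _ fun i _ =>
      Submodule.smul_mem _ _ (Submodule.subset_span ⟨i, rfl⟩)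
  · rw [finrank_span_eq_card hind, Fintype.card_fin]
    rfl

/-- The `ℓ`-th powers of `F̄_M`, as a `κ(A)`-subspace (`κ(A)` is perfect of characteristic `ℓ`). -/
def Sbad : Submodule (Kb A) ↥(FbN A M) :=
  haveI : CharP (Kb A) ℓ := GST.charP_Kb A hA
  haveI : CharP ↥(FbN A M) ℓ := PModCB.charP_fullC (Kb A) M ℓ
  haveI : IsAlgClosed (Kb A) := GST.isAlgClosed_Kb A
  { carrier := {z | ∃ w : ↥(FbN A M), w ^ ℓ = z}
    add_mem' := by
      rintro _ _ ⟨a, rfl⟩ ⟨b, rfl⟩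
      exact ⟨a + b, add_pow_char a b ℓ⟩
    zero_mem' := ⟨0, zero_pow (Fact.out : ℓ.Prime).ne_zero⟩
    smul_mem' := by
      rintro c _ ⟨a, rfl⟩
      obtain ⟨d, hd⟩ := IsAlgClosed.exists_pow_nat_eq c (Fact.out : ℓ.Prime).pos
      exact ⟨d • a, by rw [smul_pow, hd]⟩ }

theorem mem_Sbad (z : ↥(FbN A M)) : z ∈ Sbad A hA M ↔ ∃ w : ↥(FbN A M), w ^ ℓ = z := Iff.rfl

theorem mem_Sbad_iff_mem_Fpn (z : ↥(FbN A M)) :
    haveI : CharP (Kb A) ℓ := GST.charP_Kb A hA
    haveI : CharP ↥(FbN A M) ℓ := PModCB.charP_fullC (Kb A) M ℓ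
    z ∈ Sbad A hA M ↔ z ∈ PFrob.Fpn ↥(FbN A M) ℓ 1 := by
  haveI : CharP (Kb A) ℓ := GST.charP_Kb A hA
  haveI : CharP ↥(FbN A M) ℓ := PModCB.charP_fullC (Kb A) M ℓ
  rw [mem_Sbad, PFrob.mem_Fpn, pow_one]

/-- `j` as an element of the Gauss valuation ring, with reduction `J̄` which is not an `ℓ`-th
power. -/
theorem exists_j_notMem_Sbad :
    ∃ y : ↥(RGB.V M A), (y : ↥(FN M)) = GenMod.jBar M ∧
      RGB.rho M hℓM A hA y = PModC.xJ (Kb A) M ∧ RGB.rho M hℓM A hA y ∉ Sbad A hA M := by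
  haveI : CharP (Kb A) ℓ := GST.charP_Kb A hA
  haveI : CharP ↥(FbN A M) ℓ := PModCB.charP_fullC (Kb A) M ℓ
  obtain ⟨y, hy, hρ⟩ := UPts.exists_j A hA hℓM
  have hρ' : RGB.rho M hℓM A hA y = PModC.xJ (Kb A) M := hρ
  refine ⟨y, hy, hρ', ?_⟩
  rw [hρ', mem_Sbad_iff_mem_Fpn]
  exact PModCB.xJ_not_mem_Fpn (Kb A) M ℓ

include hA in
/-- The `GenusGE` half of a genus squeeze, for all divisors of large degree. -/
theorem hge {g : ℤ} (hg : GenusGE (Kb A) ↥(FbN A M) g) :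
    ∃ c : ℤ, ∀ E : Divisor (Kb A) ↥(FbN A M), c ≤ Divisor.degree E →
      (RR.ell E : ℤ) ≤ Divisor.degree E + 1 - g :=
  GST.exists_bound_Kb A hA M hg

/-- `F_M` has a place. -/
theorem exists_place : Nonempty (Place Qb ↥(FN M)) := by
  by_contra hne
  rw [not_nonempty_iff] at hne
  obtain ⟨c, hc⟩ := (PHyp.hyp0_bar M).const (GenMod.jBar M) (fun v => (hne.false v).elim)
  exact GenMod.jBar_ne_const M c hc

/-- **The degree inequality for pole divisors** (A1), from its finsum form: if `rho y` is not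
an `ℓ`-th power, the pole divisor of `rho y` has degree at most the degree of the pole divisor
of `y`. -/
theorem hdeg_of_sum_poles_le
    (hA1 : ∀ y : ↥(RGB.V M A), (∀ w : ↥(FbN A M), w ^ ℓ ≠ RGB.rho M hℓM A hA y) →
      -(∑ᶠ Q ∈ {Q : Place (Kb A) ↥(FbN A M) | Q.ord (RGB.rho M hℓM A hA y) < 0},
          Q.ord (RGB.rho M hℓM A hA y)) ≤
        -(∑ᶠ P ∈ {P : Place Qb ↥(FN M) | P.ord (y : ↥(FN M)) < 0}, P.ord (y : ↥(FN M))))
    (y : ↥(RGB.V M A)) (hy : RGB.rho M hℓM A hA y ∉ Sbad A hA M)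
    (J : Divisor Qb ↥(FN M)) (Jb : Divisor (Kb A) ↥(FbN A M))
    (hJ : ∀ P, J P = max (-(P.ord (y : ↥(FN M)))) 0)
    (hJb : ∀ Q, Jb Q = max (-(Q.ord (RGB.rho M hℓM A hA y))) 0) :
    Divisor.degree Jb ≤ Divisor.degree J := by
  have h1 := (DeuPd.degree_eq_neg_finsum_poles (PHyp.hyp0_bar M).deg_one hJ).2
  have h2 := (DeuPd.degree_eq_neg_finsum_poles (GST.hyp0_Kb A hA M).deg_one hJb).2
  rw [h1, h2]
  exact hA1 y fun w hw => hy ((mem_Sbad A hA M _).mpr ⟨w, hw⟩)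

/-- **The extended reduction property (`*`) for all Gauss units at level `M`** (`ℓ ∤ M`), from a
genus squeeze at level `M`: Deuring's reduction of places. -/
theorem exists_star (hsq : GenusSqueeze A M) :
    ∃ r : Place Qb ↥(FN M) → Place (Kb A) ↥(FbN A M), ∀ y : ↥(RGB.V M A),
      RGB.rho M hℓM A hA y ≠ 0 → ∀ D : Divisor Qb ↥(FN M),
        (∀ P, D P = P.ord (y : ↥(FN M))) →
          ∀ Q, Finsupp.mapDomain r D Q = Q.ord (RGB.rho M hℓM A hA y) := by
  obtain ⟨g, hLE, hGE⟩ := hsq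
  obtain ⟨c, hc⟩ := hge A hA M hGE
  obtain ⟨y₀, -, -, hy₀⟩ := exists_j_notMem_Sbad A hA M hℓM
  obtain ⟨P₀⟩ := exists_place M
  haveI : IsAlgClosed (Kb A) := GST.isAlgClosed_Kb A
  haveI : Infinite (Kb A) := IsAlgClosed.instInfinite
  exact DeuAbs.exists_reduction (PHyp.hyp0_bar M) (GST.hyp0_Kb A hA M) P₀ (RGB.V M A)
    (RGB.rho M hℓM A hA) (hunit A hA M hℓM) g hLE c hc (fun D _ => hdim A hA M hℓM D)
    (Sbad A hA M) (hdeg_of_sum_poles_le A hA M hℓM (DeuDeg.sum_poles_le M hℓM A hA)) y₀ hy₀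

include hA hℓM in
/-- The extended (`*`) gives a place reduction in the frozen sense. -/
theorem isPlaceReductionModL_of_star (r : Place Qb ↥(FN M) → Place (Kb A) ↥(FbN A M))
    (hstar : ∀ y : ↥(RGB.V M A), RGB.rho M hℓM A hA y ≠ 0 → ∀ D : Divisor Qb ↥(FN M),
      (∀ P, D P = P.ord (y : ↥(FN M))) →
        ∀ Q, Finsupp.mapDomain r D Q = Q.ord (RGB.rho M hℓM A hA y)) :
    IsPlaceReductionModL A M r := by
  refine ⟨fun P => ?_, fun y hy hyk hne D hD Q => ?_⟩
  · rw [(GST.hyp0_Kb A hA M).deg_one, (PHyp.hyp0_bar M).deg_one]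
  · have hρ := RGB.rho_incl M hℓM A hA hy
    have h1 := hstar ⟨⟨coeffMap A.subtype y, hy⟩, RG.incl_mem_V A M hy⟩
      (by rw [hρ]; exact fun h0 => hne (congrArg Subtype.val h0)) D hD Q
    rw [h1, hρ]

include hA hℓM in
/-- **Deuring's place reduction at level `M`** in the frozen sense, from a genus squeeze. -/
theorem exists_isPlaceReductionModL (hsq : GenusSqueeze A M) :
    ∃ r : Place Qb ↥(FN M) → Place (Kb A) ↥(FbN A M), IsPlaceReductionModL A M r := by
  obtain ⟨r, hr⟩ := exists_star A hA M hℓM hsq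
  exact ⟨r, isPlaceReductionModL_of_star A hA M hℓM r hr⟩

end Fermat.Agent.S37.DeuAbsIn
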