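/-
S37 (wave 8), chain A (Deuring), piece A6 and the modular inputs of the abstract core
(owner of this file: helper22).

Level `M`, `ℓ ∤ M`, `A ⊂ ℚ̄` over `ℓ`, `V = RGB.V M A` the Gauss valuation ring of `F_M`,
`rho = RGB.rho M hℓM A hA : V → F̄_M` its residue map.

* `principalGeneratedByIntegral`: the frozen `PrincipalGeneratedByIntegral A (residue A) M`.
* `isPlaceReduction_of_star`, `reductionInputs_of_star`: a map `r` on places with
  `r_* (div x) = div (rho x)` for every unit `x` of `V` gives `ReductionInputsModL A M`.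
* the modular inputs of the abstract Deuring cores (`DeuCore`, `DeuAbs`, `DeuCoreB`):
  `hyp0`, `hyp0b`, `infinite_Kb`, `hres`, `hVA`, `hrho`, `hunit`, `exists_place`,
  `hdim` / `hdim'` (reduction of `L(D) ∩ V` has dimension `ℓ(D)`, two shapes),
  `exists_hub` (upper bound downstairs from `GenusGE`), `Pbad` (the `k`-subspace of `ℓ`-th
  powers of `F̄_M`), `A1Stmt` (the degree inequality of `DeuDeg`, finsum shape) and its two
  consumer shapes `hdeg` / `hdeg'`, `exists_poleDivisor`, `exists_B` (`B = (j)_∞`, `x_B = j`).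
-/
import Fermat.Agent.S18.ROrthoV
import Fermat.Agent.S18.GSTop
import Fermat.Agent.S18.PModCB
import Fermat.Agent.S18.GenMod
import Fermat.Agent.S37.DeuPd

set_option autoImplicit false
set_option synthInstance.maxHeartbeats 400000
set_option linter.style.haveILetI false
set_option linter.unusedSectionVars false

noncomputable section

namespace Fermat.Agent.S37.DeuInst

open ModularCurve AlgebraicCurve IntermediateField HahnSeries
open Fermat.Agent.S18 Fermat.Agent.S20 Fermat.Agent.S24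

variable (M : ℕ) [NeZero M] {ℓ : ℕ} [Fact ℓ.Prime] (hℓM : ¬ ℓ ∣ M)
  (A : ValuationSubring Qb) (hA : A.LiesOverPrime ℓ)

/-! ### `PrincipalGeneratedByIntegral` -/

include hℓM hA in
/-- The divisor of an element of `F_M` with `A`-integral `q`-expansion having a coefficient `1`
is an integral principal divisor. -/
theorem mem_integralPrincipalDivisors {a : LaurentSeries A}
    (ha : coeffMap A.subtype a ∈ modularFunctionFieldBar M) {k : ℤ} (hk : a.coeff k = 1)
    (D : Divisor Qb (FN M))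
    (hD : ∀ P, D P = P.ord (⟨coeffMap A.subtype a, ha⟩ : ↥(FN M))) :
    D ∈ integralPrincipalDivisors A (IsLocalRing.residue A) M :=
  ⟨a, ha, RN.coeffMap_residue_mem M A hℓM hA a ha, RG.red_ne_zero_of_coeff_eq_one A hk, hD⟩

include hℓM hA in
/-- **Principal divisors are generated by the divisors of functions with `A`-integral
`q`-expansion and nonzero reduction** (the second half of `ReductionInputsModL A M`). -/
theorem principalGeneratedByIntegral :
    PrincipalGeneratedByIntegral A (IsLocalRing.residue A) M := by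
  intro D hD
  obtain ⟨f, hf, hDf⟩ := hD
  obtain ⟨c, a, b, hc, ha, hb, ⟨ka, hka⟩, ⟨kb, hkb⟩, h⟩ := RG.exists_unit_form A M f hf
  have ha0 : (⟨coeffMap A.subtype a, ha⟩ : ↥(FN M)) ≠ 0 := by
    intro h0
    have h1 : coeffMap A.subtype a = 0 := congrArg Subtype.val h0
    have h2 : a = 0 := RG.incl_injective A (by rw [h1, map_zero])
    rw [h2] at hka
    simp at hka
  have hb0 : (⟨coeffMap A.subtype b, hb⟩ : ↥(FN M)) ≠ 0 := by
    intro h0
    have h1 : coeffMap A.subtype b = 0 := congrArg Subtype.val h0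
    have h2 : b = 0 := RG.incl_injective A (by rw [h1, map_zero])
    rw [h2] at hkb
    simp at hkb
  obtain ⟨Da, hDa, -⟩ := (PHyp.hyp0_bar M).principal _ ha0
  obtain ⟨Db, hDb, -⟩ := (PHyp.hyp0_bar M).principal _ hb0
  have hrel : f * (⟨coeffMap A.subtype b, hb⟩ : ↥(FN M))
      = algebraMap Qb ↥(FN M) c * (⟨coeffMap A.subtype a, ha⟩ : ↥(FN M)) := by
    apply Subtype.ext
    rw [IntermediateField.coe_mul, IntermediateField.coe_mul, RG.coe_algebraMap_FF]
    exact h
  have hDeq : D = Da - Db := by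
    ext P
    have h1 := congrArg P.ord hrel
    rw [P.ord_mul hf hb0, Tube.ord_const_mul P hc] at h1
    rw [Finsupp.sub_apply, hDf P, hDa P, hDb P]
    omega
  rw [hDeq]
  exact sub_mem
    (AddSubgroup.subset_closure (mem_integralPrincipalDivisors M hℓM A hA ha hka Da hDa))
    (AddSubgroup.subset_closure (mem_integralPrincipalDivisors M hℓM A hA hb hkb Db hDb))

/-! ### From the extended reduction property to `ReductionInputsModL` -/

include hA in
/-- A map on places satisfying the reduction property for all units of the Gauss valuation ring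
is a place reduction in the frozen sense. -/
theorem isPlaceReduction_of_star
    (r : Place Qb (FN M) → Place (Kb A) (FbN A M))
    (hr : ∀ x : ↥(RGB.V M A), RGB.rho M hℓM A hA x ≠ 0 → ∀ D : Divisor Qb (FN M),
      (∀ P, D P = P.ord (x : ↥(FN M))) →
        ∀ Q, Finsupp.mapDomain r D Q = Q.ord (RGB.rho M hℓM A hA x)) :
    IsPlaceReductionModL A M r := by
  refine ⟨fun P => ?_, ?_⟩
  · rw [(PHyp.hyp0_bar M).deg_one P, (GST.hyp0_Kb A hA M).deg_one (r P)]
  · intro y hy hyk hne D hD Q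
    have h1 := hr ⟨⟨coeffMap A.subtype y, hy⟩, RG.incl_mem_V A M hy⟩ ?_ D hD Q
    · rw [h1, RGB.rho_incl M hℓM A hA hy]
    · rw [RGB.rho_incl M hℓM A hA hy]
      intro h0
      exact hne (congrArg Subtype.val h0)

include hA in
/-- **A6**: the extended reduction property gives the frozen `ReductionInputsModL A M`. -/
theorem reductionInputs_of_star
    (h : ∃ r : Place Qb (FN M) → Place (Kb A) (FbN A M),
      ∀ x : ↥(RGB.V M A), RGB.rho M hℓM A hA x ≠ 0 → ∀ D : Divisor Qb (FN M),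
        (∀ P, D P = P.ord (x : ↥(FN M))) →
          ∀ Q, Finsupp.mapDomain r D Q = Q.ord (RGB.rho M hℓM A hA x)) :
    ReductionInputsModL A M := by
  obtain ⟨r, hr⟩ := h
  exact ⟨r, isPlaceReduction_of_star M hℓM A hA r hr, principalGeneratedByIntegral M hℓM A hA⟩

/-! ### Standing facts in the shapes of the abstract cores -/

theorem hyp0 : RR.Hyp0 Qb ↥(FN M) := PHyp.hyp0_bar M

include hA in
theorem hyp0b : RR.Hyp0 (Kb A) ↥(FbN A M) := GST.hyp0_Kb A hA M

theorem infinite_Kb : Infinite (Kb A) :=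
  haveI := GST.isAlgClosed_Kb A
  inferInstance

theorem hres : Function.Surjective (IsLocalRing.residue ↥A) := IsLocalRing.residue_surjective

theorem hVA : ∀ a : ↥A, algebraMap Qb ↥(FN M) (a : Qb) ∈ RGB.V M A := RG.algebraMap_mem_V A M

theorem hrho : ∀ a : ↥A,
    RGB.rho M hℓM A hA ⟨algebraMap Qb ↥(FN M) (a : Qb), hVA M A a⟩
      = algebraMap (Kb A) ↥(FbN A M) (IsLocalRing.residue ↥A a) :=
  RGB.rho_algebraMap M hℓM A hA

theorem hunit : ∀ x : ↥(RGB.V M A), RGB.rho M hℓM A hA x ≠ 0 → IsUnit x :=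
  fun x hx => (RGB.isUnit_iff M hℓM A hA x).mpr hx

/-- `F_M` has a place. -/
theorem exists_place : Nonempty (Place Qb ↥(FN M)) := by
  obtain ⟨D, hD⟩ := PHyp.exists_degree_ge (PHyp.hyp_bar M) 1
  by_contra hne
  rw [not_nonempty_iff] at hne
  have hD0 : D = 0 := by
    ext v
    exact (hne.false v).elim
  rw [hD0, map_zero] at hD
  omega

/-! ### The reduction of `L(D) ∩ V` -/

/-- `hdim` in the shape of `DeuCore` (#996): a Gauss-orthonormal basis of `L(D)`, of length
`≥ deg D + 1 - g`. -/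
theorem hdim {g : ℤ} (hle : GenusLE Qb ↥(FN M) g) (D : Divisor Qb ↥(FN M)) :
    ∃ (n : ℕ) (w : Fin n → ↥(RGB.V M A)),
      (∀ i, ((w i : ↥(RGB.V M A)) : ↥(FN M)) ∈ riemannRochSpace D) ∧
      LinearIndependent (Kb A) (fun i => RGB.rho M hℓM A hA (w i)) ∧
      Divisor.degree D + 1 - g ≤ (n : ℤ) ∧
      ∀ x : ↥(RGB.V M A), (x : ↥(FN M)) ∈ riemannRochSpace D →
        ∃ a : Fin n → ↥A, (x : ↥(FN M)) =
          ∑ i, algebraMap Qb ↥(FN M) (a i : Qb) * ((w i : ↥(RGB.V M A)) : ↥(FN M)) := by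
  haveI : Module.Finite Qb ↥(riemannRochSpace D) := RR.finite (PHyp.hyp0_bar M) D
  obtain ⟨w, hwW, hind, -, -, hint⟩ := ROV.exists_basis M A hℓM hA (riemannRochSpace D)
  refine ⟨_, w, hwW, hind, hle D, fun x hx => ?_⟩
  obtain ⟨a, ha⟩ := hint x hx
  refine ⟨a, ?_⟩
  rw [ha]
  exact Finset.sum_congr rfl fun i _ => Algebra.smul_def _ _

/-- `hdim` in the shape of `DeuAbs` (#1003): the reduction of `L(D) ∩ V` is a `k`-subspace of
`F̄_M` of dimension `ℓ(D)`. -/
theorem hdim' (D : Divisor Qb ↥(FN M)) :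
    ∃ W : Submodule (Kb A) ↥(FbN A M),
      (∀ z : ↥(FbN A M), z ∈ W ↔ ∃ x : ↥(RGB.V M A),
        (x : ↥(FN M)) ∈ riemannRochSpace D ∧ RGB.rho M hℓM A hA x = z) ∧
      Module.finrank (Kb A) ↥W = RR.ell D := by
  haveI : Module.Finite Qb ↥(riemannRochSpace D) := RR.finite (PHyp.hyp0_bar M) D
  obtain ⟨w, hwW, hind, -, -, hint⟩ := ROV.exists_basis M A hℓM hA (riemannRochSpace D)
  refine ⟨Submodule.span (Kb A) (Set.range fun i => RGB.rho M hℓM A hA (w i)), fun z => ?_, ?_⟩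
  · constructor
    · intro hz
      obtain ⟨c, rfl⟩ := (Submodule.mem_span_range_iff_exists_fun (Kb A)).mp hz
      choose a ha using fun i => IsLocalRing.residue_surjective (c i)
      refine ⟨⟨_, ROV.sum_smul_mem M A w a⟩,
        (riemannRochSpace D).sum_mem fun i _ => (riemannRochSpace D).smul_mem _ (hwW i), ?_⟩
      rw [ROV.rho_sum_smul M A hℓM hA w a ⟨_, ROV.sum_smul_mem M A w a⟩ rfl]
      exact Finset.sum_congr rfl fun i _ => by rw [ha i]
    · rintro ⟨x, hx, rfl⟩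
      obtain ⟨a, ha⟩ := hint x hx
      rw [ROV.rho_sum_smul M A hℓM hA w a x ha]
      exact Submodule.sum_mem _ fun i _ =>
        Submodule.smul_mem _ _ (Submodule.subset_span ⟨i, rfl⟩)
  · rw [finrank_span_eq_card hind, Fintype.card_fin]
    rfl

include hA in
/-- `hub` of the cores: the `GenusGE` half of the squeeze, for all divisors of large degree. -/
theorem exists_hub {g : ℤ} (hge : GenusGE (Kb A) ↥(FbN A M) g) :
    ∃ c : ℤ, ∀ E : Divisor (Kb A) ↥(FbN A M), c ≤ Divisor.degree E →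
      (RR.ell E : ℤ) ≤ Divisor.degree E + 1 - g :=
  GST.exists_bound_Kb A hA M hge

/-! ### The subspace of `ℓ`-th powers and the degree inequality -/

/-- The `ℓ`-th powers of `F̄_M`, a `k`-subspace (`k` is perfect). -/
def Pbad : Submodule (Kb A) ↥(FbN A M) where
  carrier := {y | ∃ z : ↥(FbN A M), z ^ ℓ = y}
  zero_mem' := ⟨0, zero_pow (Fact.out : ℓ.Prime).ne_zero⟩
  add_mem' := by
    rintro _ _ ⟨z, rfl⟩ ⟨z', rfl⟩
    haveI := RN.charP_residueField A hA
    haveI : CharP ↥(FbN A M) ℓ := PModCB.charP_fullC (Kb A) M ℓ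
    exact ⟨z + z', add_pow_char _ _ _⟩
  smul_mem' := by
    rintro c _ ⟨z, rfl⟩
    haveI := GST.isAlgClosed_Kb A
    obtain ⟨c', hc'⟩ := IsAlgClosed.exists_pow_nat_eq c (Fact.out : ℓ.Prime).pos
    exact ⟨c' • z, by rw [smul_pow, hc']⟩

theorem mem_Pbad {y : ↥(FbN A M)} : y ∈ Pbad M A hA ↔ ∃ z : ↥(FbN A M), z ^ ℓ = y := Iff.rfl

theorem not_mem_Pbad {y : ↥(FbN A M)} : y ∉ Pbad M A hA ↔ ∀ z : ↥(FbN A M), z ^ ℓ ≠ y := by
  rw [mem_Pbad, not_exists]

/-- **A1** (the degree inequality proved in `DeuDeg`), finsum shape: for `y` in the Gauss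
valuation ring whose reduction is not an `ℓ`-th power, the pole orders of the reduction add up
to at most those of `y`. -/
def A1Stmt : Prop :=
  ∀ y : ↥(RGB.V M A), (∀ z : ↥(FbN A M), z ^ ℓ ≠ RGB.rho M hℓM A hA y) →
    -(∑ᶠ Q ∈ {Q : Place (Kb A) ↥(FbN A M) | Q.ord (RGB.rho M hℓM A hA y) < 0},
        Q.ord (RGB.rho M hℓM A hA y))
      ≤ -(∑ᶠ P ∈ {P : Place Qb ↥(FN M) | P.ord (y : ↥(FN M)) < 0}, P.ord (y : ↥(FN M)))

/-- Every nonzero function has a pole divisor. -/
theorem exists_poleDivisor {K F : Type*} [Field K] [Field F] [Algebra K F] (h0 : RR.Hyp0 K F)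
    (f : F) (hf : f ≠ 0) :
    ∃ J : Divisor K F, (∀ v, J v = max (-(v.ord f)) 0) ∧ 0 ≤ J ∧ f ∈ riemannRochSpace J := by
  obtain ⟨D, hD, -⟩ := h0.principal f hf
  have hJ : ∀ v, ((-D) ⊔ 0 : Divisor K F) v = max (-(v.ord f)) 0 := by
    intro v
    rw [Finsupp.sup_apply, Finsupp.neg_apply, hD v]
    rfl
  refine ⟨(-D) ⊔ 0, hJ, le_sup_right, ?_⟩
  rw [mem_riemannRochSpace_iff]
  intro v
  right
  rw [hJ v]
  have := le_max_left (-(v.ord f)) 0
  omega

/-- `hdeg` in the shape of `DeuAbs` (#1003): pole divisors. -/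
theorem hdeg' (hA1 : A1Stmt M hℓM A hA) :
    ∀ y : ↥(RGB.V M A), RGB.rho M hℓM A hA y ∉ Pbad M A hA →
      ∀ (J : Divisor Qb ↥(FN M)) (Jb : Divisor (Kb A) ↥(FbN A M)),
        (∀ P, J P = max (-(P.ord (y : ↥(FN M)))) 0) →
        (∀ Q, Jb Q = max (-(Q.ord (RGB.rho M hℓM A hA y))) 0) →
          Divisor.degree Jb ≤ Divisor.degree J := by
  intro y hy J Jb hJ hJb
  have h1 := (DeuPd.degree_eq_neg_finsum_poles (PHyp.hyp0_bar M).deg_one hJ).2
  have h2 := (DeuPd.degree_eq_neg_finsum_poles (GST.hyp0_Kb A hA M).deg_one hJb).2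
  rw [h1, h2]
  exact hA1 y ((not_mem_Pbad M A hA).mp hy)

/-- `hdeg` in the shape of `DeuCore` (#996): anything below the pole divisor of `rho x` has
degree at most that of any effective `G` with `x ∈ L(G)`. -/
theorem hdeg (hA1 : A1Stmt M hℓM A hA) :
    ∀ x : ↥(RGB.V M A), RGB.rho M hℓM A hA x ∉ Pbad M A hA →
      ∀ (G : Divisor Qb ↥(FN M)) (Gb : Divisor (Kb A) ↥(FbN A M)), 0 ≤ G →
        (x : ↥(FN M)) ∈ riemannRochSpace G →
        (∀ Q, Gb Q ≤ max (-(Q.ord (RGB.rho M hℓM A hA x))) 0) →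
          Divisor.degree Gb ≤ Divisor.degree G := by
  intro x hx G Gb hG hxG hGb
  have hρ0 : RGB.rho M hℓM A hA x ≠ 0 := fun h0 => hx (h0 ▸ (Pbad M A hA).zero_mem)
  have hx0 : (x : ↥(FN M)) ≠ 0 := by
    intro h0
    apply hρ0
    have : x = 0 := Subtype.ext h0
    rw [this, map_zero]
  obtain ⟨Jb, hJb, -, -⟩ := exists_poleDivisor (GST.hyp0_Kb A hA M) _ hρ0
  have h1 : Divisor.degree Gb ≤ Divisor.degree Jb := by
    have h3 : (0 : Divisor (Kb A) ↥(FbN A M)) ≤ Jb - Gb := by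
      intro Q
      have := hGb Q
      show (0 : ℤ) ≤ (Jb - Gb) Q
      rw [Finsupp.sub_apply, hJb Q]
      omega
    have h4 := DeuPd.degree_nonneg_of_nonneg (GST.hyp0_Kb A hA M).deg_one h3
    rw [map_sub] at h4
    omega
  have h2 := (DeuPd.degree_eq_neg_finsum_poles (GST.hyp0_Kb A hA M).deg_one hJb).2
  have h3 := (DeuPd.neg_finsum_poles_le_degree (PHyp.hyp0_bar M).deg_one hG hx0 hxG).2
  have h4 := hA1 x ((not_mem_Pbad M A hA).mp hx)
  exact h1.trans (h2.le.trans (h4.trans h3))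

/-! ### The base divisor `B = (j)_∞` -/

/-- `j` as an element of the Gauss valuation ring, with reduction `J̄`, not an `ℓ`-th power. -/
theorem exists_xB :
    ∃ xB : ↥(RGB.V M A), (xB : ↥(FN M)) = GenMod.jBar M ∧
      RGB.rho M hℓM A hA xB = GenMod.jBarC M A ∧ RGB.rho M hℓM A hA xB ∉ Pbad M A hA := by
  have hincl : coeffMap A.subtype (jqModC ↥A) = jqModC Qb := coeffMap_jqModC _
  have hyF : coeffMap A.subtype (jqModC ↥A) ∈ modularFunctionFieldBar M := by
    rw [hincl]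
    exact GenMod.jq_mem_bar M
  have hρ : RGB.rho M hℓM A hA ⟨⟨coeffMap A.subtype (jqModC ↥A), hyF⟩, RG.incl_mem_V A M hyF⟩
      = GenMod.jBarC M A := by
    rw [RGB.rho_incl M hℓM A hA hyF]
    exact Subtype.ext (coeffMap_jqModC _)
  refine ⟨⟨⟨coeffMap A.subtype (jqModC ↥A), hyF⟩, RG.incl_mem_V A M hyF⟩, Subtype.ext hincl,
    hρ, ?_⟩
  rw [hρ, not_mem_Pbad]
  intro z hz
  haveI := RN.charP_residueField A hA
  apply PModCB.pow_ne_jqModC (Kb A) ℓ (z : LaurentSeries (Kb A))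
  have h1 := congrArg (fun w : ↥(FbN A M) => (w : LaurentSeries (Kb A))) hz
  exact h1

/-- The base divisor of the cores: `B = (j)_∞ ≥ 0`, `x_B = j ∈ L(B) ∩ V`, `rho x_B ∉ Pbad`. -/
theorem exists_B :
    ∃ (B : Divisor Qb ↥(FN M)) (xB : ↥(RGB.V M A)), 0 ≤ B ∧
      (xB : ↥(FN M)) ∈ riemannRochSpace B ∧ RGB.rho M hℓM A hA xB ∉ Pbad M A hA := by
  obtain ⟨xB, -, hρ, hbad⟩ := exists_xB M hℓM A hA
  have hρ0 : RGB.rho M hℓM A hA xB ≠ 0 := fun h0 => hbad (h0 ▸ (Pbad M A hA).zero_mem)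
  have hx0 : (xB : ↥(FN M)) ≠ 0 := by
    intro h0
    apply hρ0
    have : xB = 0 := Subtype.ext h0
    rw [this, map_zero]
  obtain ⟨B, -, hB, hxB⟩ := exists_poleDivisor (PHyp.hyp0_bar M) _ hx0
  exact ⟨B, xB, hB, hxB, hbad⟩

end Fermat.Agent.S37.DeuInst

end
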