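/-
S37 (wave 8), chain A (Deuring's construction of the place reduction): the interface
proposition `DeuringStmt` of `Iface.lean`.

For every prime `ℓ`, every valuation ring `A` of `ℚ̄` above `ℓ` and every level `M` prime to `ℓ`
with a genus squeeze, the frozen reduction inputs `ReductionInputsModL A M` hold: there is a
place reduction `r` (`DeuAbsIn.exists_star`: the abstract core `DeuAbs.exists_reduction` at the
Gauss valuation ring of `F_M`, with the degree inequality `DeuDeg.sum_poles_le`), and principal
divisors are generated by divisors of functions with `A`-integral `q`-expansion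
(`DeuInst.principalGeneratedByIntegral`).
-/
import Fermat.Agent.S37.Iface
import Fermat.Agent.S37.DeuAbsIn
import Fermat.Agent.S37.DeuInst

set_option autoImplicit false
set_option synthInstance.maxHeartbeats 400000

namespace Fermat.Agent.S37.Deuring

open AlgebraicCurve ModularCurve Fermat.Agent.S18

/-- **Deuring**: a genus squeeze at a level `M` prime to `ℓ` gives the frozen reduction inputs
at level `M`. -/
theorem deuringStmt : DeuringStmt := by
  intro ℓ _ A hA M _ hℓM hsq
  exact DeuInst.reductionInputs_of_star M hℓM A hA (DeuAbsIn.exists_star A hA M hℓM hsq)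

/-- The same, unfolded. -/
theorem reductionInputsModL {ℓ : ℕ} [Fact ℓ.Prime] (A : ValuationSubring Qb)
    (hA : A.LiesOverPrime ℓ) (M : ℕ) [NeZero M] (hℓM : ¬ ℓ ∣ M) (hsq : GenusSqueeze A M) :
    ReductionInputsModL A M :=
  deuringStmt ℓ A hA M hℓM hsq

end Fermat.Agent.S37.Deuring
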