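/-
S37 (wave 8), piece COEFF: coefficientwise automorphisms of the function field
`F̄_M = modularFunctionFieldFullC k M ⊂ k((q))` and the Frobenius.

* `coeffMap_mem_fullC` : `F̄_M` is stable under `coeffMap s` for every ring endomorphism `s` of `k`
  (its generators `j(q^d)` have coefficients in the prime ring).
* `coeffAut M : (k ≃+* k) →* SemilinearAut k F̄_M` : the frozen semilinear automorphism acting
  coefficientwise; `coe_coeffAut_smul`, `baseAut_coeffAut`.
* `pow_eq_qExpand_frobenius` : in characteristic `p`, `z ^ p = qExpand p (coeffMap frobenius z)`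
  for every Laurent series `z` (`(Σ aₙ qⁿ)^p = Σ aₙ^p q^{pn}`).
* `frobAutOf k p M` (`k` perfect of characteristic `p`) and, for a valuation ring `A ⊂ ℚ̄` above a
  prime `ℓ`, `frobK A hA : Kb A ≃+* Kb A` (`x ↦ x ^ ℓ`) and
  `frobAut A hA M : SemilinearAut (Kb A) F̄_M`, with
  `pow_eq_qExpand_frobAut : (z : k((q))) ^ ℓ = qExpand ℓ ↑(frobAut A hA M • z)`.
-/
import Mathlib
import Fermat.Prelude.Def_ModularCurve_X0ModL
import Fermat.Prelude.Def_AlgebraicCurve_BaseChangeGalois
import Fermat.Agent.S18.Defs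
import Fermat.Agent.S18.RNormal
import Fermat.Agent.S18.ResAlgClosed

set_option autoImplicit false
set_option synthInstance.maxHeartbeats 400000

noncomputable section

open HahnSeries IntermediateField AlgebraicCurve ModularCurve

namespace Fermat.Agent.S37.CoeffAut

open Fermat.Agent.S18

/-! ### Coefficientwise automorphisms of `F̄_M` -/

section CoeffAut

variable {k : Type*} [Field k] (M : ℕ)

theorem coeffMap_mem_fullC (s : k →+* k) {x : LaurentSeries k}
    (hx : x ∈ modularFunctionFieldFullC k M) :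
    coeffMap s x ∈ modularFunctionFieldFullC k M := by
  have key : ∀ z ∈ Subfield.closure
      (Set.range (algebraMap k (LaurentSeries k)) ∪ divisorExpansionsC k M),
      coeffMap s z ∈ modularFunctionFieldFullC k M := by
    intro z hz
    induction hz using Subfield.closure_induction with
    | mem y hy =>
        rcases hy with ⟨a, rfl⟩ | ⟨d, hd, hdM, rfl⟩
        · rw [coeffMap_algebraMap]
          exact (modularFunctionFieldFullC k M).algebraMap_mem _
        · have := hd
          rw [coeffMap_qExpand, coeffMap_jqModC]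
          exact jqModCd_mem_full k M hdM
    | one => rw [map_one]; exact one_mem _
    | add x y _ _ hx hy => rw [map_add]; exact add_mem hx hy
    | neg x _ hx => rw [map_neg]; exact neg_mem hx
    | inv x _ hx => rw [map_inv₀]; exact inv_mem hx
    | mul x y _ _ hx hy => rw [map_mul]; exact mul_mem hx hy
  exact key x hx

/-- The ring automorphism of `F̄_M` acting coefficientwise by `s`. -/
def coeffRingAut (s : k ≃+* k) :
    ↥(modularFunctionFieldFullC k M) ≃+* ↥(modularFunctionFieldFullC k M) where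
  toFun x := ⟨coeffMap (s : k →+* k) (x : LaurentSeries k), coeffMap_mem_fullC M _ x.2⟩
  invFun x := ⟨coeffMap (s.symm : k →+* k) (x : LaurentSeries k), coeffMap_mem_fullC M _ x.2⟩
  left_inv x := Subtype.ext <| by
    show coeffMap (s.symm : k →+* k) (coeffMap (s : k →+* k) (x : LaurentSeries k))
      = (x : LaurentSeries k)
    rw [coeffMap_coeffMap,
      coeffMap_congr (g := RingHom.id k) (RingHom.ext fun a => s.symm_apply_apply a)
        (x : LaurentSeries k),
      coeffMap_id]
  right_inv x := Subtype.ext <| by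
    show coeffMap (s : k →+* k) (coeffMap (s.symm : k →+* k) (x : LaurentSeries k))
      = (x : LaurentSeries k)
    rw [coeffMap_coeffMap,
      coeffMap_congr (g := RingHom.id k) (RingHom.ext fun a => s.apply_symm_apply a)
        (x : LaurentSeries k),
      coeffMap_id]
  map_mul' x y :=
    Subtype.ext (map_mul (coeffMap (s : k →+* k)) (x : LaurentSeries k) (y : LaurentSeries k))
  map_add' x y :=
    Subtype.ext (map_add (coeffMap (s : k →+* k)) (x : LaurentSeries k) (y : LaurentSeries k))

/-- The semilinear automorphism of `F̄_M / k` acting coefficientwise by `s`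
(a group homomorphism in `s`). -/
def coeffAut : (k ≃+* k) →* SemilinearAut k ↥(modularFunctionFieldFullC k M) where
  toFun s := ⟨(coeffRingAut M s, s), fun a => Subtype.ext (coeffMap_algebraMap (s : k →+* k) a)⟩
  map_one' := by
    refine Subtype.ext (Prod.ext (RingEquiv.ext fun x => Subtype.ext ?_) rfl)
    show coeffMap ((1 : k ≃+* k) : k →+* k) (x : LaurentSeries k) = (x : LaurentSeries k)
    rw [show ((1 : k ≃+* k) : k →+* k) = RingHom.id k from RingHom.ext fun _ => rfl,
      coeffMap_id]
  map_mul' s t := by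
    refine Subtype.ext (Prod.ext (RingEquiv.ext fun x => Subtype.ext ?_) rfl)
    show coeffMap ((s * t : k ≃+* k) : k →+* k) (x : LaurentSeries k)
      = coeffMap (s : k →+* k) (coeffMap (t : k →+* k) (x : LaurentSeries k))
    rw [coeffMap_coeffMap]
    exact coeffMap_congr (RingHom.ext fun _ => rfl) _

theorem coe_coeffAut_smul (s : k ≃+* k) (x : ↥(modularFunctionFieldFullC k M)) :
    ((coeffAut M s • x : ↥(modularFunctionFieldFullC k M)) : LaurentSeries k)
      = coeffMap (s : k →+* k) (x : LaurentSeries k) :=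
  rfl

theorem coe_coeffAut_inv_smul (s : k ≃+* k) (x : ↥(modularFunctionFieldFullC k M)) :
    (((coeffAut M s)⁻¹ • x : ↥(modularFunctionFieldFullC k M)) : LaurentSeries k)
      = coeffMap (s.symm : k →+* k) (x : LaurentSeries k) :=
  rfl

@[simp]
theorem baseAut_coeffAut (s : k ≃+* k) : SemilinearAut.baseAut (coeffAut M s) = s :=
  rfl

end CoeffAut

/-! ### The Frobenius on Laurent series -/

section Frobenius

theorem qExpand_ofPowerSeries {R : Type*} [CommRing R] (p : ℕ) [NeZero p] (g : PowerSeries R) :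
    qExpand R p (HahnSeries.ofPowerSeries ℤ R g)
      = HahnSeries.ofPowerSeries ℤ R (PowerSeries.expand p (NeZero.ne p) g) := by
  ext m
  by_cases hm : (p : ℤ) ∣ m
  · obtain ⟨j, rfl⟩ := hm
    rw [qExpand_coeff_mul]
    rcases le_or_gt 0 j with hj | hj
    · lift j to ℕ using hj
      rw [HahnSeries.ofPowerSeries_apply_coeff, ← Nat.cast_mul,
        HahnSeries.ofPowerSeries_apply_coeff, PowerSeries.coeff_expand_mul]
    · have hp : (0 : ℤ) < p := by exact_mod_cast Nat.pos_of_ne_zero (NeZero.ne p)
      rw [ofPowerSeries_coeff_of_neg _ hj,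
        ofPowerSeries_coeff_of_neg _ (mul_neg_of_pos_of_neg hp hj)]
  · rw [qExpand_coeff_of_not_dvd p _ hm]
    rcases le_or_gt 0 m with hm0 | hm0
    · lift m to ℕ using hm0
      rw [HahnSeries.ofPowerSeries_apply_coeff, PowerSeries.coeff_expand_of_not_dvd]
      exact fun h => hm (Int.natCast_dvd_natCast.mpr h)
    · rw [ofPowerSeries_coeff_of_neg _ hm0]

/-- In characteristic `p`: `(Σ aₙ qⁿ) ^ p = Σ aₙ ^ p q ^ (p n)`. -/
theorem pow_eq_qExpand_frobenius {k : Type*} [Field k] (p : ℕ) [NeZero p] [ExpChar k p]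
    (z : LaurentSeries k) : z ^ p = qExpand k p (coeffMap (frobenius k p) z) := by
  have hz := LaurentSeries.single_order_mul_powerSeriesPart z
  have h1 : z ^ p = HahnSeries.single ((p : ℤ) * z.order) (1 : k)
      * HahnSeries.ofPowerSeries ℤ k (z.powerSeriesPart ^ p) := by
    conv_lhs => rw [← hz]
    rw [mul_pow, HahnSeries.single_pow, one_pow, nsmul_eq_mul, map_pow]
  have h2 : qExpand k p (coeffMap (frobenius k p) z)
      = HahnSeries.single ((p : ℤ) * z.order) (1 : k)
        * HahnSeries.ofPowerSeries ℤ k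
            (PowerSeries.expand p (NeZero.ne p) (z.powerSeriesPart.map (frobenius k p))) := by
    conv_lhs => rw [← hz]
    rw [map_mul, map_mul, coeffMap_single, map_one, qExpand_single]
    congr 1
    have h3 : coeffMap (frobenius k p)
        ((HahnSeries.ofPowerSeries ℤ k) z.powerSeriesPart)
        = HahnSeries.ofPowerSeries ℤ k (z.powerSeriesPart.map (frobenius k p)) :=
      coeffMap_ofPowerSeries (frobenius k p) z.powerSeriesPart
    rw [h3, qExpand_ofPowerSeries]
  rw [h1, h2]
  congr 2
  have h4 : (PowerSeries.expand p (NeZero.ne p) z.powerSeriesPart).map (frobenius k p)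
      = z.powerSeriesPart ^ p :=
    MvPowerSeries.map_frobenius_expand p (NeZero.ne p)
  rw [← h4, PowerSeries.map_expand]

end Frobenius

/-! ### The Frobenius automorphism of `F̄_M` -/

section FrobAutOf

variable (k : Type*) [Field k] (p : ℕ) [ExpChar k p] [PerfectRing k p] (M : ℕ)

/-- The coefficientwise Frobenius of `F̄_M` over a perfect field of characteristic `p`. -/
def frobAutOf : SemilinearAut k ↥(modularFunctionFieldFullC k M) :=
  coeffAut M (frobeniusEquiv k p)

theorem coe_frobAutOf_smul (z : ↥(modularFunctionFieldFullC k M)) :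
    ((frobAutOf k p M • z : ↥(modularFunctionFieldFullC k M)) : LaurentSeries k)
      = coeffMap (frobenius k p) (z : LaurentSeries k) :=
  rfl

/-- `z ^ p = (φ z)(q ^ p)` for `z ∈ F̄_M`, `φ` the coefficientwise Frobenius. -/
theorem pow_eq_qExpand_frobAutOf [NeZero p] (z : ↥(modularFunctionFieldFullC k M)) :
    (z : LaurentSeries k) ^ p
      = qExpand k p ((frobAutOf k p M • z : ↥(modularFunctionFieldFullC k M)) : LaurentSeries k) := by
  rw [coe_frobAutOf_smul]
  exact pow_eq_qExpand_frobenius p _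

/-- `z (q ^ p) = (φ⁻¹ z) ^ p` for `z ∈ F̄_M`. -/
theorem qExpand_eq_pow_frobAutOf_inv [NeZero p] (z : ↥(modularFunctionFieldFullC k M)) :
    qExpand k p (z : LaurentSeries k)
      = (((frobAutOf k p M)⁻¹ • z : ↥(modularFunctionFieldFullC k M)) : LaurentSeries k) ^ p := by
  rw [pow_eq_qExpand_frobAutOf k p M ((frobAutOf k p M)⁻¹ • z), smul_inv_smul]

end FrobAutOf

section FrobAut

variable (A : ValuationSubring Qb) {ℓ : ℕ} [Fact ℓ.Prime] (hA : A.LiesOverPrime ℓ) (M : ℕ)

/-- The Frobenius automorphism `x ↦ x ^ ℓ` of the residue field of `A`. -/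
def frobK : Kb A ≃+* Kb A :=
  haveI : CharP (Kb A) ℓ := RN.charP_residueField A hA
  haveI : ExpChar (Kb A) ℓ := ExpChar.prime Fact.out
  haveI : IsAlgClosed (Kb A) := ResAC.isAlgClosed_residueField A
  frobeniusEquiv (Kb A) ℓ

theorem frobK_apply (x : Kb A) : frobK A hA x = x ^ ℓ :=
  rfl

/-- A ring automorphism of the residue field acting as `x ↦ x ^ ℓ` is `frobK`. -/
theorem eq_frobK {s : Kb A ≃+* Kb A} (hs : ∀ x : Kb A, s x = x ^ ℓ) : s = frobK A hA :=
  RingEquiv.ext fun x => (hs x).trans (frobK_apply A hA x).symm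

/-- The coefficientwise Frobenius of `F̄_M = FbN A M`. -/
def frobAut : SemilinearAut (Kb A) ↥(FbN A M) :=
  coeffAut M (frobK A hA)

theorem frobAut_eq_coeffAut : frobAut A hA M = coeffAut M (frobK A hA) :=
  rfl

theorem coe_frobAut_smul (z : ↥(FbN A M)) :
    ((frobAut A hA M • z : ↥(FbN A M)) : LaurentSeries (Kb A))
      = coeffMap ((frobK A hA : Kb A ≃+* Kb A) : Kb A →+* Kb A) (z : LaurentSeries (Kb A)) :=
  rfl

theorem coeff_frobAut_smul (z : ↥(FbN A M)) (n : ℤ) :
    ((frobAut A hA M • z : ↥(FbN A M)) : LaurentSeries (Kb A)).coeff n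
      = ((z : LaurentSeries (Kb A)).coeff n) ^ ℓ :=
  rfl

/-- `z ^ ℓ = (φ z)(q ^ ℓ)` for `z ∈ F̄_M`, `φ = frobAut`. -/
theorem pow_eq_qExpand_frobAut [NeZero ℓ] (z : ↥(FbN A M)) :
    (z : LaurentSeries (Kb A)) ^ ℓ
      = qExpand (Kb A) ℓ ((frobAut A hA M • z : ↥(FbN A M)) : LaurentSeries (Kb A)) := by
  have : CharP (Kb A) ℓ := RN.charP_residueField A hA
  have : ExpChar (Kb A) ℓ := ExpChar.prime Fact.out
  rw [pow_eq_qExpand_frobenius ℓ (z : LaurentSeries (Kb A))]
  rfl

/-- `z (q ^ ℓ) = (φ⁻¹ z) ^ ℓ` for `z ∈ F̄_M`, `φ = frobAut`. -/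
theorem qExpand_eq_pow_frobAut_inv [NeZero ℓ] (z : ↥(FbN A M)) :
    qExpand (Kb A) ℓ (z : LaurentSeries (Kb A))
      = (((frobAut A hA M)⁻¹ • z : ↥(FbN A M)) : LaurentSeries (Kb A)) ^ ℓ := by
  rw [pow_eq_qExpand_frobAut A hA M ((frobAut A hA M)⁻¹ • z), smul_inv_smul]

end FrobAut

end Fermat.Agent.S37.CoeffAut

end

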