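/-
S37, generic piece G1 (helper21): the RIGIDITY LEMMA for place-induced maps on divisors.

Let `F / K` be a function field all of whose places have degree one, in which every nonzero
function has a divisor (of degree zero), and such that every divisor of some fixed degree `g`
has a nonzero section (Riemann's inequality, used only in degree `g`).

* `Rigid.eq_zero_of_degree_eq_zero` : an additive map `δ : Divisor K F →+ ℤ` which kills the
  principal divisors and is bounded on the places vanishes on every divisor of degree zero.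
* `Rigid.finsupp_eq_zero_of_degree_eq_zero` : the same for `δ : Divisor K F →+ (ι →₀ ℤ)`
  (e.g. divisors of another function field) bounded coordinatewise on the places.
* `Rigid.eq_of_degree_eq_zero` : two additive maps into `ι →₀ ℤ` which agree on the principal
  divisors and are bounded on the places agree on the divisors of degree zero.

So an identity between two place-induced homomorphisms of divisor groups (a reduction map
composed with a Galois automorphism, with a Hecke correspondence, with a pull-back, ...) only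
has to be checked on principal divisors, where it is a statement about one function.  No
divisibility of the class group and no moving lemma is used.
-/
import Mathlib
import Fermat.Prelude.Def_AlgebraicCurve_Repartitions

set_option autoImplicit false

noncomputable section

namespace Fermat.Agent.S37.Rigid

open AlgebraicCurve

variable {K F : Type*} [Field K] [Field F] [Algebra K F]

/-- an additive map on divisors is determined by its values on the places -/
theorem apply_eq_sum (δ : Divisor K F →+ ℤ) (D : Divisor K F) :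
    δ D = ∑ v ∈ D.support, D v * δ (Finsupp.single v 1) := by
  conv_lhs => rw [← Finsupp.sum_single D]
  rw [Finsupp.sum, map_sum]
  refine Finset.sum_congr rfl fun v _ => ?_
  have h : (Finsupp.single v (D v) : Divisor K F) = D v • Finsupp.single v 1 := by
    rw [Finsupp.smul_single, smul_eq_mul, mul_one]
  rw [h, map_zsmul, smul_eq_mul]

/-- the degree, when all places have degree one -/
theorem degree_eq_sum (hdeg : ∀ v : Place K F, v.deg = 1) (D : Divisor K F) :
    Divisor.degree D = ∑ v ∈ D.support, D v := by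
  conv_lhs => rw [← Finsupp.sum_single D]
  rw [Finsupp.sum, map_sum]
  refine Finset.sum_congr rfl fun v _ => ?_
  rw [Divisor.degree_single, hdeg v, Nat.cast_one, mul_one]

/-- a bounded additive map is bounded by `C · deg` on the effective divisors -/
theorem abs_apply_le (hdeg : ∀ v : Place K F, v.deg = 1) (δ : Divisor K F →+ ℤ) (C : ℤ)
    (hC : ∀ v : Place K F, |δ (Finsupp.single v 1)| ≤ C) (E : Divisor K F)
    (hE : ∀ v, 0 ≤ E v) : |δ E| ≤ C * Divisor.degree E := by
  rw [apply_eq_sum δ E, degree_eq_sum hdeg E, Finset.mul_sum]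
  refine (Finset.abs_sum_le_sum_abs _ _).trans (Finset.sum_le_sum fun v _ => ?_)
  rw [abs_mul, abs_of_nonneg (hE v), mul_comm]
  exact mul_le_mul_of_nonneg_right (hC v) (hE v)

/-- **Rigidity, values on places.**  A bounded additive map killing the principal divisors takes
the same value on all places. -/
theorem apply_single_eq (hdeg : ∀ v : Place K F, v.deg = 1) (g : ℤ)
    (hRR : ∀ D : Divisor K F, Divisor.degree D = g → ∃ f : F, f ≠ 0 ∧ f ∈ riemannRochSpace D)
    (hprin : ∀ f : F, f ≠ 0 → ∃ D : Divisor K F, (∀ v, D v = v.ord f) ∧ Divisor.degree D = 0)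
    (δ : Divisor K F →+ ℤ) (hδ : ∀ D : Divisor K F, D.IsPrincipal → δ D = 0) (C : ℤ)
    (hC : ∀ v : Place K F, |δ (Finsupp.single v 1)| ≤ C) (P P₀ : Place K F) :
    δ (Finsupp.single P 1) = δ (Finsupp.single P₀ 1) := by
  set a := δ (Finsupp.single P 1) with ha
  set a₀ := δ (Finsupp.single P₀ 1) with ha₀
  have hC0 : 0 ≤ C := (abs_nonneg _).trans (hC P)
  -- the key estimate, for every `n`
  have key : ∀ n : ℕ, |(n : ℤ) * (a₀ - a) + g * a₀| ≤ C * g := by
    intro n
    set Dn : Divisor K F := ((n : ℤ) + g) • Finsupp.single P₀ 1 - (n : ℤ) • Finsupp.single P 1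
      with hDn
    have hdegDn : Divisor.degree Dn = g := by
      rw [hDn, map_sub, map_zsmul, map_zsmul, Divisor.degree_single, Divisor.degree_single,
        hdeg, hdeg]
      simp
    obtain ⟨f, hf0, hf⟩ := hRR Dn hdegDn
    obtain ⟨Df, hDf, hDfdeg⟩ := hprin f hf0
    have hE : ∀ v, 0 ≤ (Df + Dn) v := by
      intro v
      rcases (mem_riemannRochSpace_iff.mp hf v) with h | h
      · exact absurd h hf0
      · rw [Finsupp.add_apply, hDf v]
        omega
    have h1 := abs_apply_le hdeg δ C hC (Df + Dn) hE
    rw [map_add, map_add, hδ Df ⟨f, hf0, hDf⟩, zero_add, hDfdeg, zero_add, hdegDn] at h1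
    have h2 : δ Dn = (n : ℤ) * (a₀ - a) + g * a₀ := by
      rw [hDn, map_sub, map_zsmul, map_zsmul, smul_eq_mul, smul_eq_mul]
      ring
    rw [h2] at h1
    exact h1
  -- `g ≥ 0` or the statement is trivially consistent; in any case conclude from `n` large
  by_contra hne
  have hne' : a₀ - a ≠ 0 := fun h => hne (by omega)
  have hpos : 1 ≤ |a₀ - a| := Int.one_le_abs hne'
  set n : ℕ := (|C * g| + |g * a₀| + 1).toNat with hn
  have hn' : (n : ℤ) = |C * g| + |g * a₀| + 1 := by
    rw [hn]
    exact Int.toNat_of_nonneg (by positivity)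
  have h3 := key n
  have h4 : |(n : ℤ) * (a₀ - a)| ≤ |(n : ℤ) * (a₀ - a) + g * a₀| + |g * a₀| := by
    have := abs_sub_abs_le_abs_sub ((n : ℤ) * (a₀ - a) + g * a₀) (-(g * a₀))
    have h5 := abs_add_le ((n : ℤ) * (a₀ - a) + g * a₀) (-(g * a₀))
    rw [abs_neg] at h5
    have h6 : (n : ℤ) * (a₀ - a) + g * a₀ + -(g * a₀) = (n : ℤ) * (a₀ - a) := by ring
    rw [h6] at h5
    exact h5
  have h7 : |(n : ℤ) * (a₀ - a)| = (n : ℤ) * |a₀ - a| := by
    rw [abs_mul, abs_of_nonneg (Int.natCast_nonneg n)]
  have h8 : (n : ℤ) ≤ (n : ℤ) * |a₀ - a| := by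
    have := mul_le_mul_of_nonneg_left hpos (Int.natCast_nonneg n)
    simpa using this
  have h9 : C * g ≤ |C * g| := le_abs_self _
  omega

/-- **Rigidity lemma.**  An additive map `δ : Divisor K F →+ ℤ` which kills the principal
divisors and is bounded on the places vanishes on the divisors of degree zero. -/
theorem eq_zero_of_degree_eq_zero (hdeg : ∀ v : Place K F, v.deg = 1) (g : ℤ)
    (hRR : ∀ D : Divisor K F, Divisor.degree D = g → ∃ f : F, f ≠ 0 ∧ f ∈ riemannRochSpace D)
    (hprin : ∀ f : F, f ≠ 0 → ∃ D : Divisor K F, (∀ v, D v = v.ord f) ∧ Divisor.degree D = 0)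
    (δ : Divisor K F →+ ℤ) (hδ : ∀ D : Divisor K F, D.IsPrincipal → δ D = 0) (C : ℤ)
    (hC : ∀ v : Place K F, |δ (Finsupp.single v 1)| ≤ C) (D : Divisor K F)
    (hD : Divisor.degree D = 0) : δ D = 0 := by
  rcases D.support.eq_empty_or_nonempty with h | ⟨P₀, -⟩
  · rw [Finsupp.support_eq_empty.mp h, map_zero]
  · rw [apply_eq_sum δ D]
    have h1 : ∀ v ∈ D.support, D v * δ (Finsupp.single v 1) = D v * δ (Finsupp.single P₀ 1) :=
      fun v _ => by rw [apply_single_eq hdeg g hRR hprin δ hδ C hC v P₀]
    rw [Finset.sum_congr rfl h1, ← Finset.sum_mul, ← degree_eq_sum hdeg D, hD, zero_mul]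

variable {ι : Type*}

/-- **Rigidity lemma, divisor-valued form.**  An additive map from the divisors of `F` to a free
abelian group `ι →₀ ℤ` (for instance the divisors of another function field) which kills the
principal divisors and is coordinatewise bounded on the places vanishes on the divisors of
degree zero. -/
theorem finsupp_eq_zero_of_degree_eq_zero (hdeg : ∀ v : Place K F, v.deg = 1) (g : ℤ)
    (hRR : ∀ D : Divisor K F, Divisor.degree D = g → ∃ f : F, f ≠ 0 ∧ f ∈ riemannRochSpace D)
    (hprin : ∀ f : F, f ≠ 0 → ∃ D : Divisor K F, (∀ v, D v = v.ord f) ∧ Divisor.degree D = 0)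
    (δ : Divisor K F →+ (ι →₀ ℤ)) (hδ : ∀ D : Divisor K F, D.IsPrincipal → δ D = 0) (C : ℤ)
    (hC : ∀ (v : Place K F) (i : ι), |δ (Finsupp.single v 1) i| ≤ C) (D : Divisor K F)
    (hD : Divisor.degree D = 0) : δ D = 0 := by
  ext i
  rw [Finsupp.zero_apply]
  exact eq_zero_of_degree_eq_zero hdeg g hRR hprin ((Finsupp.applyAddHom i).comp δ)
    (fun E hE => by
      show δ E i = 0
      rw [hδ E hE, Finsupp.zero_apply])
    C (fun v => hC v i) D hD

/-- **Rigidity lemma, comparison form.**  Two additive maps from the divisors of `F` to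
`ι →₀ ℤ` which agree on the principal divisors and are coordinatewise bounded on the places
agree on the divisors of degree zero. -/
theorem eq_of_degree_eq_zero (hdeg : ∀ v : Place K F, v.deg = 1) (g : ℤ)
    (hRR : ∀ D : Divisor K F, Divisor.degree D = g → ∃ f : F, f ≠ 0 ∧ f ∈ riemannRochSpace D)
    (hprin : ∀ f : F, f ≠ 0 → ∃ D : Divisor K F, (∀ v, D v = v.ord f) ∧ Divisor.degree D = 0)
    (δ₁ δ₂ : Divisor K F →+ (ι →₀ ℤ))
    (hδ : ∀ D : Divisor K F, D.IsPrincipal → δ₁ D = δ₂ D) (C₁ C₂ : ℤ)
    (hC₁ : ∀ (v : Place K F) (i : ι), |δ₁ (Finsupp.single v 1) i| ≤ C₁)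
    (hC₂ : ∀ (v : Place K F) (i : ι), |δ₂ (Finsupp.single v 1) i| ≤ C₂) (D : Divisor K F)
    (hD : Divisor.degree D = 0) : δ₁ D = δ₂ D := by
  have h := finsupp_eq_zero_of_degree_eq_zero hdeg g hRR hprin (δ₁ - δ₂)
    (fun E hE => by rw [AddMonoidHom.sub_apply, hδ E hE, sub_self]) (C₁ + C₂)
    (fun v i => by
      rw [AddMonoidHom.sub_apply, Finsupp.sub_apply]
      exact (abs_sub _ _).trans (add_le_add (hC₁ v i) (hC₂ v i))) D hD
  rwa [AddMonoidHom.sub_apply, sub_eq_zero] at h

end Fermat.Agent.S37.Rigid
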