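/-
S37, piece ES, generic core (helper21): the Eichler–Shimura divisor identity on divisors of
degree zero follows, by the rigidity lemma `Rigid.eq_of_degree_eq_zero`, from the same identity
on PRINCIPAL divisors.

Setting: `F / K` a function field (all places of degree one, Riemann's inequality), a
correspondence `α_* ∘ β^*` on `F` through `F₁`, an extension `F₂ / F`, a map `r` from the places of
`F₂ / K` to the places of a function field `G / k` preserving degrees, and a semilinear
automorphism `φ` of `G / k`.  If

  `r_* (π^* (α_* β^* D)) = φ • r_* (π^* D) + ℓ • φ⁻¹ • r_* (π^* D)`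

for all principal divisors `D` of `F`, then the same holds for all divisors of degree zero.
-/
import Mathlib
import Fermat.Prelude.Def_AlgebraicCurve_Correspondence
import Fermat.Agent.S37.Rigid

set_option autoImplicit false
set_option linter.style.haveILetI false

noncomputable section

namespace Fermat.Agent.S37.ESCore

open AlgebraicCurve

section Effective

variable {K F : Type*} [Field K] [Field F] [Algebra K F]

/-- the coefficients of an effective divisor are bounded by its degree -/
theorem apply_le_degree (hdeg : ∀ v : Place K F, v.deg = 1) (E : Divisor K F)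
    (hE : ∀ v, 0 ≤ E v) (v : Place K F) : E v ≤ Divisor.degree E := by
  rw [Rigid.degree_eq_sum hdeg E]
  by_cases hv : v ∈ E.support
  · exact Finset.single_le_sum (fun w _ => hE w) hv
  · rw [Finsupp.notMem_support_iff.mp hv]
    exact Finset.sum_nonneg fun w _ => hE w

/-- `mapDomain` preserves effectivity -/
theorem mapDomain_nonneg {ι κ : Type*} (r : ι → κ) (E : ι →₀ ℤ) (hE : ∀ v, 0 ≤ E v) (Q : κ) :
    0 ≤ Finsupp.mapDomain r E Q := by
  classical
  rw [Finsupp.mapDomain, Finsupp.sum_apply]
  refine Finset.sum_nonneg fun a _ => ?_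
  show 0 ≤ (Finsupp.single (r a) (E a)) Q
  rw [Finsupp.single_apply]
  split_ifs
  · exact hE a
  · exact le_rfl

variable {k G : Type*} [Field k] [Field G] [Algebra k G]

/-- a degree preserving map of places preserves the degree of divisors -/
theorem degree_mapDomain (r : Place K F → Place k G) (hr : ∀ P, (r P).deg = P.deg)
    (D : Divisor K F) : Divisor.degree (Finsupp.mapDomain r D) = Divisor.degree D := by
  induction D using Finsupp.induction with
  | zero => simp
  | single_add P n D _ _ ih =>
    rw [Finsupp.mapDomain_add, map_add, map_add, ih, Finsupp.mapDomain_single,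
      Divisor.degree_single, Divisor.degree_single, hr]

variable {F' : Type*} [Field F'] [Algebra K F']

/-- push-forward along a homomorphism preserves effectivity -/
theorem pushforwardAlong_nonneg (φ : F →ₐ[K] F') (hφ : φ.toRingHom.IsIntegral)
    (E : Divisor K F') (hE : ∀ w, 0 ≤ E w) (v : Place K F) :
    0 ≤ Divisor.pushforwardAlong φ hφ E v := by
  classical
  letI := algebraAlong φ
  haveI := isScalarTower_along φ
  haveI := isIntegral_along φ hφ
  show 0 ≤ Divisor.pushforward F E v
  rw [Divisor.pushforward_apply]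
  refine Finset.sum_nonneg fun w _ => ?_
  split_ifs
  · exact mul_nonneg (hE w) (Int.natCast_nonneg _)
  · exact le_rfl

/-- pull-back along a homomorphism preserves effectivity -/
theorem pullbackAlong_nonneg [HasPrincipalDivisors K F'] (φ : F →ₐ[K] F')
    (hφ : φ.toRingHom.IsIntegral) (E : Divisor K F) (hE : ∀ v, 0 ≤ E v) (w : Place K F') :
    0 ≤ Divisor.pullbackAlong φ hφ E w := by
  rw [Divisor.pullbackAlong_apply]
  exact mul_nonneg (Int.natCast_nonneg _) (hE _)

/-- pull-back preserves effectivity -/
theorem pullback_nonneg [Algebra F F'] [IsScalarTower K F F'] [Algebra.IsIntegral F F']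
    [HasPrincipalDivisors K F'] (E : Divisor K F) (hE : ∀ v, 0 ≤ E v) (w : Place K F') :
    0 ≤ Divisor.pullback F' E w := by
  rw [Divisor.pullback_apply]
  exact mul_nonneg (Int.natCast_nonneg _) (hE _)

end Effective

section Main

variable {K F F₁ F₂ k G : Type*} [Field K] [Field F] [Field F₁] [Field F₂] [Field k] [Field G]
  [Algebra K F] [Algebra K F₁] [Algebra K F₂] [Algebra k G]
  [Algebra F F₂] [IsScalarTower K F F₂] [Algebra.IsIntegral F F₂]
  [HasPrincipalDivisors K F₁] [HasPrincipalDivisors K F₂] [FundamentalIdentity K F F₂]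

/-- **Eichler–Shimura on divisors of degree zero from principal divisors.** -/
theorem eq_of_principal
    (hdeg : ∀ v : Place K F, v.deg = 1) (g : ℤ)
    (hRR : ∀ D : Divisor K F, Divisor.degree D = g → ∃ f : F, f ≠ 0 ∧ f ∈ riemannRochSpace D)
    (hprin : ∀ f : F, f ≠ 0 → ∃ D : Divisor K F, (∀ v, D v = v.ord f) ∧ Divisor.degree D = 0)
    (hdegG : ∀ Q : Place k G, Q.deg = 1)
    (α β : F →ₐ[K] F₁) (hα : α.toRingHom.IsIntegral) (hβ : β.toRingHom.IsIntegral)
    (hFI : FundamentalIdentityAlong K β hβ)
    (r : Place K F₂ → Place k G) (hr : ∀ P, (r P).deg = P.deg)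
    (φ : SemilinearAut k G) (ℓ : ℕ)
    (H : ∀ D : Divisor K F, D.IsPrincipal →
      Finsupp.mapDomain r (Divisor.pullback F₂ (Divisor.correspondence β α hβ hα D))
        = φ • Finsupp.mapDomain r (Divisor.pullback F₂ D)
          + ℓ • (φ⁻¹ • Finsupp.mapDomain r (Divisor.pullback F₂ D)))
    (D : Divisor K F) (hD : Divisor.degree D = 0) :
    Finsupp.mapDomain r (Divisor.pullback F₂ (Divisor.correspondence β α hβ hα D))
        = φ • Finsupp.mapDomain r (Divisor.pullback F₂ D)
          + ℓ • (φ⁻¹ • Finsupp.mapDomain r (Divisor.pullback F₂ D)) := by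
  -- the two additive maps
  set R : Divisor K F →+ Divisor k G :=
    (Finsupp.mapDomain.addMonoidHom r).comp (Divisor.pullback F₂) with hR
  have hRapp : ∀ E, R E = Finsupp.mapDomain r (Divisor.pullback F₂ E) := fun E => rfl
  set δ₁ : Divisor K F →+ Divisor k G := R.comp (Divisor.correspondence β α hβ hα) with hδ₁
  set δ₂ : Divisor K F →+ Divisor k G :=
    AddMonoidHom.mk' (fun E => φ • R E + ℓ • (φ⁻¹ • R E)) (fun a b => by
      rw [map_add, smul_add, smul_add, smul_add]
      abel) with hδ₂
  have h1 : ∀ E, δ₁ E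
      = Finsupp.mapDomain r (Divisor.pullback F₂ (Divisor.correspondence β α hβ hα E)) :=
    fun E => rfl
  have h2 : ∀ E, δ₂ E = φ • Finsupp.mapDomain r (Divisor.pullback F₂ E)
      + ℓ • (φ⁻¹ • Finsupp.mapDomain r (Divisor.pullback F₂ E)) := fun E => rfl
  -- effectivity and degree of `R`
  have hReff : ∀ E : Divisor K F, (∀ v, 0 ≤ E v) → ∀ Q, 0 ≤ R E Q := fun E hE Q =>
    mapDomain_nonneg r _ (fun w => pullback_nonneg E hE w) Q
  have hRdeg : ∀ E : Divisor K F,
      Divisor.degree (R E) = (Module.finrank F F₂ : ℤ) * Divisor.degree E := fun E => by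
    rw [hRapp, degree_mapDomain r hr, Divisor.degree_pullback]
  have hsingle : ∀ v : Place K F, ∀ w, 0 ≤ (Finsupp.single v (1 : ℤ) : Divisor K F) w := by
    intro v w
    classical
    rw [Finsupp.single_apply]
    split_ifs <;> norm_num
  have hdsingle : ∀ v : Place K F,
      Divisor.degree (Finsupp.single v (1 : ℤ) : Divisor K F) = 1 := fun v => by
    rw [Divisor.degree_single, hdeg v]; norm_num
  have key := Rigid.eq_of_degree_eq_zero hdeg g hRR hprin δ₁ δ₂
    (fun E hE => by rw [h1, h2]; exact H E hE)
    ((Module.finrank F F₂ : ℤ) * (finrankAlong K β : ℤ))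
    ((Module.finrank F F₂ : ℤ) + ℓ * (Module.finrank F F₂ : ℤ))
    (fun v Q => by
      -- `δ₁ (single v 1)` is effective of degree `[F₂ : F] * deg β`
      set T := Divisor.correspondence β α hβ hα (Finsupp.single v (1 : ℤ)) with hT
      have hTeff : ∀ w, 0 ≤ T w := fun w =>
        pushforwardAlong_nonneg α hα _
          (fun w' => pullbackAlong_nonneg β hβ _ (hsingle v) w') w
      have hTdeg : Divisor.degree T = (finrankAlong K β : ℤ) := by
        rw [hT, Divisor.degree_correspondence β α hβ hα hFI, hdsingle, mul_one]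
      have h3 : δ₁ (Finsupp.single v 1) = R T := rfl
      rw [h3, abs_of_nonneg (hReff T hTeff Q)]
      refine (apply_le_degree hdegG (R T) (hReff T hTeff) Q).trans ?_
      rw [hRdeg, hTdeg])
    (fun v Q => by
      set X := R (Finsupp.single v (1 : ℤ)) with hX
      have hXeff : ∀ Q, 0 ≤ X Q := hReff _ (hsingle v)
      have hXdeg : Divisor.degree X = (Module.finrank F F₂ : ℤ) := by
        rw [hX, hRdeg, hdsingle, mul_one]
      have h3 : δ₂ (Finsupp.single v 1) Q = X (φ⁻¹ • Q) + ℓ * X (φ • Q) := by
        show (φ • X + ℓ • (φ⁻¹ • X)) Q = _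
        rw [Finsupp.add_apply, Finsupp.smul_apply, SemilinearAut.divisor_smul_apply,
          SemilinearAut.divisor_smul_apply, inv_inv, nsmul_eq_mul]
      have h4 := apply_le_degree hdegG X hXeff (φ⁻¹ • Q)
      have h5 := apply_le_degree hdegG X hXeff (φ • Q)
      have h6 := hXeff (φ⁻¹ • Q)
      have h7 := hXeff (φ • Q)
      have h8 : (0 : ℤ) ≤ (ℓ : ℤ) := Int.natCast_nonneg ℓ
      rw [h3, abs_of_nonneg (by positivity), ← hXdeg]
      exact add_le_add h4 (mul_le_mul_of_nonneg_left h5 h8))
    D hD
  rw [h1, h2] at key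
  exact key

end Main

end Fermat.Agent.S37.ESCore
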