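import Fermat.Agent.S37.Iface

/-!
# S37: pull-back of divisor classes commutes with semilinear automorphisms

`F ⊂ F'` function fields over `K`, `g` a semilinear automorphism of `F / K`, `g'` one of
`F' / K`, compatible with the inclusion (`g' (x) = g (x)` for `x ∈ F`).  Then restriction of
places, ramification indices, pull-back of divisors and of divisor classes are compatible with
the actions of `g` and `g'`.  Applied to the arithmetic Galois action on the modular tower this
gives `pb h (σ • x) = σ • pb h x`.
-/

set_option autoImplicit false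
set_option linter.unusedSectionVars false
set_option linter.style.haveILetI false

open AlgebraicCurve

namespace Fermat.Agent.S37.PbGal

open Fermat.Agent.S18

noncomputable section

section Generic

open scoped Pointwise

variable {K F F' : Type*} [Field K] [Field F] [Field F'] [Algebra K F] [Algebra K F']
  [Algebra F F'] [IsScalarTower K F F'] [Algebra.IsIntegral F F']
  (g : SemilinearAut K F) (g' : SemilinearAut K F')

/-- Compatibility of the inverses. -/
theorem inv_compat (hc : ∀ x : F, g' • algebraMap F F' x = algebraMap F F' (g • x)) (x : F) :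
    g'⁻¹ • algebraMap F F' x = algebraMap F F' (g⁻¹ • x) := by
  rw [inv_smul_eq_iff, hc, smul_inv_smul]

/-- Restriction of places is equivariant. -/
theorem restrict_smul (hc : ∀ x : F, g' • algebraMap F F' x = algebraMap F F' (g • x))
    (w : Place K F') : (g' • w).restrict F = g • (w.restrict F) := by
  apply Place.ext
  ext x
  rw [Place.restrict_toValuationSubring, ValuationSubring.mem_comap,
    SemilinearAut.smul_toValuationSubring, SemilinearAut.smul_toValuationSubring,
    ValuationSubring.mem_pointwise_smul_iff_inv_smul_mem,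
    ValuationSubring.mem_pointwise_smul_iff_inv_smul_mem, inv_compat g g' hc,
    Place.restrict_toValuationSubring, ValuationSubring.mem_comap]

/-- Orders of elements of `F` at a translated place. -/
theorem ord_smul_algebraMap (hc : ∀ x : F, g' • algebraMap F F' x = algebraMap F F' (g • x))
    (w : Place K F') (f : F) :
    (g' • w).ord (algebraMap F F' (g • f)) = w.ord (algebraMap F F' f) := by
  rw [← hc, SemilinearAut.ord_smul]

/-- The ramification index is invariant. -/
theorem ramificationIndex_smul
    (hc : ∀ x : F, g' • algebraMap F F' x = algebraMap F F' (g • x)) (w : Place K F') :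
    (g' • w).ramificationIndex F = w.ramificationIndex F := by
  unfold Place.ramificationIndex
  congr 1
  ext n
  simp only [Set.mem_ofPred_eq]
  constructor
  · rintro ⟨hn, f, hf, hord⟩
    refine ⟨hn, g⁻¹ • f, ?_, ?_⟩
    · simpa using hf
    · rw [← ord_smul_algebraMap g g' hc w (g⁻¹ • f), smul_inv_smul]
      exact hord
  · rintro ⟨hn, f, hf, hord⟩
    refine ⟨hn, g • f, ?_, ?_⟩
    · simpa using hf
    · rw [ord_smul_algebraMap g g' hc w f]
      exact hord

/-- Pull-back of divisors is equivariant. -/
theorem pullback_smul [HasPrincipalDivisors K F']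
    (hc : ∀ x : F, g' • algebraMap F F' x = algebraMap F F' (g • x)) (D : Divisor K F) :
    Divisor.pullback F' (g • D) = g' • Divisor.pullback F' D := by
  ext w
  have hc' : ∀ x : F, g'⁻¹ • algebraMap F F' x = algebraMap F F' (g⁻¹ • x) :=
    inv_compat g g' hc
  rw [Divisor.pullback_apply, SemilinearAut.divisor_smul_apply, SemilinearAut.divisor_smul_apply,
    Divisor.pullback_apply, restrict_smul g⁻¹ g'⁻¹ hc' w, ramificationIndex_smul g⁻¹ g'⁻¹ hc' w]

/-- Pull-back of divisor classes is equivariant. -/
theorem pullbackHom_smul [HasPrincipalDivisors K F'] [FundamentalIdentity K F F']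
    (hc : ∀ x : F, g' • algebraMap F F' x = algebraMap F F' (g • x)) (x : Pic0 K F) :
    Pic0.pullbackHom F' (g • x) = g' • Pic0.pullbackHom F' x := by
  obtain ⟨D, rfl⟩ := Pic0.mk_surjective x
  rw [SemilinearAut.pic0_smul_mk, Pic0.pullbackHom_mk, Pic0.pullbackHom_mk,
    SemilinearAut.pic0_smul_mk]
  refine congrArg Pic0.mk (Subtype.ext ?_)
  rw [Pic0.coe_pullbackDegZeroHom, SemilinearAut.coe_degZeroSMulHom,
    SemilinearAut.coe_degZeroSMulHom, Pic0.coe_pullbackDegZeroHom]
  exact pullback_smul g g' hc _

end Generic

/-! ### The modular tower -/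

section Levels

open ModularCurve

variable {N M : ℕ} [NeZero N] [NeZero M] (h : N ∣ M)

/-- The arithmetic Galois actions at the levels `N ∣ M` are compatible with `F_N ⊂ F_M`. -/
theorem arithmeticGalois_compat (σ : Qb ≃ₐ[ℚ] Qb) :
    letI := algOfLE (bar_mono h)
    ∀ x : ↥(FN N),
      arithmeticGalois (modularFunctionFieldFull M) σ • algebraMap ↥(FN N) ↥(FN M) x
        = algebraMap ↥(FN N) ↥(FN M) (arithmeticGalois (modularFunctionFieldFull N) σ • x) := by
  letI := algOfLE (bar_mono h)
  intro x
  apply Subtype.ext
  rw [coe_arithmeticGalois_smul, algOfLE_algebraMap (bar_mono h),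
    algOfLE_algebraMap (bar_mono h), coe_arithmeticGalois_smul]

/-- **`π^*` is Galois-equivariant**, semilinear form. -/
theorem pb_arithmeticGalois_smul (σ : Qb ≃ₐ[ℚ] Qb) (x : JZero N) :
    pb h (arithmeticGalois (modularFunctionFieldFull N) σ • x)
      = arithmeticGalois (modularFunctionFieldFull M) σ • pb h x := by
  letI := algOfLE (bar_mono h)
  haveI := isScalarTower_algOfLE (bar_mono h)
  haveI : Module.Finite ↥(FN N) ↥(FN M) := ROR.finite_bar h
  haveI := ROR.hasPrincipalDivisors_bar (M := M)
  haveI := fundamentalIdentity_bar h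
  exact pullbackHom_smul (arithmeticGalois (modularFunctionFieldFull N) σ)
    (arithmeticGalois (modularFunctionFieldFull M) σ) (arithmeticGalois_compat h σ) x

/-- **`π^*` is Galois-equivariant**: `pb h (σ • x) = σ • pb h x`. -/
theorem pb_smul (σ : Qb ≃ₐ[ℚ] Qb) (x : JZero N) : pb h (σ • x) = σ • pb h x :=
  pb_arithmeticGalois_smul h σ x

/-- The cross-level `InertiaStmt` of `Iface.lean` from its level-`M` form (no pull-back). -/
theorem inertiaStmt_of_level
    (hR1 : ∀ (ℓ : ℕ) [Fact ℓ.Prime] (A : ValuationSubring Qb), A.LiesOverPrime ℓ →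
      ∀ (M : ℕ) [NeZero M], ¬ ℓ ∣ M → ReductionInputsModL A M →
      ∀ τ ∈ A.inertiaSubgroupIn ℚ, ∀ z : JZero M,
        reductionModL A M (τ • z) = reductionModL A M z) :
    InertiaStmt := by
  intro ℓ _ A hA N M _ _ h hℓM hRI τ hτ x
  rw [pb_smul h τ x]
  exact hR1 ℓ A hA M hℓM hRI τ hτ (pb h x)

/-- The cross-level Frobenius clause of `FrobHeckeStmt` from its level-`M` form. -/
theorem red_pb_smul_of_level {A : ValuationSubring Qb} (σ : Qb ≃ₐ[ℚ] Qb)
    (Φ : JZeroC (Kb A) M → JZeroC (Kb A) M)
    (hR2 : ∀ z : JZero M, reductionModL A M (σ • z) = Φ (reductionModL A M z)) (x : JZero N) :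
    reductionModL A M (pb h (σ • x)) = Φ (reductionModL A M (pb h x)) := by
  rw [pb_smul h σ x]
  exact hR2 (pb h x)

end Levels

end

end Fermat.Agent.S37.PbGal
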