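/-
S37 (wave 8), chain GAL: Galois equivariance of the Gauss reduction.

`A` is a valuation subring of `ℚ̄` over a prime `ℓ ∤ M`, `k` its residue field, `σ` an element of
the decomposition group of `A`.

* (G1) `resAut`: the automorphism of the residue field induced by `σ`; it is `1` on the inertia
  group and `x ↦ x ^ ℓ` (`= CoeffAut.frobK`) for a Frobenius element.
* (G2) the Gauss valuation ring `RGB.V M A` is stable under `σ`, and
  `rho (σ • x) = coeffAut (resAut σ) • rho x`  (`smul_mem_V`, `rho_smul`).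
* (G3) for a place reduction `r` (frozen sense) and a PRINCIPAL divisor `D`:
  `r_* (σ • D) = coeffAut (resAut σ) • r_* D`  (`mapDomain_smul_of_isPrincipal`).
* (G4) the same for all divisors of degree `0` by the rigidity lemma
  (`mapDomain_smul_of_degree_eq_zero`), the forms on `Pic⁰` for the frozen `reductionModL`
  (`reductionModL_smul`, `reductionModL_smul_of_mem_inertia`,
  `reductionModL_smul_of_isFrobeniusAt`) and the cross-level exports
  `inertiaStmt : InertiaStmt`, `red_pb_frob` (the Frobenius clause of `FrobHeckeStmt` with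
  `Φ = frobAut A hA M • ·`).
-/
import Fermat.Agent.S18.RGaussBar
import Fermat.Agent.S18.PHyp
import Fermat.Agent.S24.PlacesMore
import Fermat.Prelude.Def_EllipticCurve_FrobeniusTrace
import Fermat.Agent.S37.CoeffAut
import Fermat.Agent.S37.Rigid
import Fermat.Agent.S37.PbGal

set_option autoImplicit false
set_option synthInstance.maxHeartbeats 400000

noncomputable section

open HahnSeries IntermediateField AlgebraicCurve ModularCurve

namespace Fermat.Agent.S37.GalEq

open Fermat.Agent.S18 Fermat.Agent.S20 Fermat.Agent.S37.CoeffAut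

/-! ### (G1) the residue automorphism of an element of the decomposition group -/

section ResAut

variable {L : Type*} [Field L] (K : Type*) [Field K] [Algebra K L] (A : ValuationSubring L)

/-- The ring endomorphism of `A` induced by an element of the decomposition group. -/
def intHom (σ : L ≃ₐ[K] L) (hσ : σ ∈ A.decompositionSubgroup K) : ↥A →+* ↥A :=
  MulSemiringAction.toRingHom (A.decompositionSubgroup K) ↥A ⟨σ, hσ⟩

theorem coe_intHom (σ : L ≃ₐ[K] L) (hσ : σ ∈ A.decompositionSubgroup K) (a : ↥A) :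
    ((intHom K A σ hσ a : ↥A) : L) = σ (a : L) :=
  rfl

/-- The automorphism of the residue field of `A` induced by an element of the decomposition
group. -/
def resAut (σ : L ≃ₐ[K] L) (hσ : σ ∈ A.decompositionSubgroup K) :
    IsLocalRing.ResidueField ↥A ≃+* IsLocalRing.ResidueField ↥A :=
  MulSemiringAction.toRingAut (A.decompositionSubgroup K) (IsLocalRing.ResidueField ↥A) ⟨σ, hσ⟩

theorem resAut_apply (σ : L ≃ₐ[K] L) (hσ : σ ∈ A.decompositionSubgroup K)
    (x : IsLocalRing.ResidueField ↥A) :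
    resAut K A σ hσ x = (⟨σ, hσ⟩ : A.decompositionSubgroup K) • x :=
  rfl

theorem resAut_residue (σ : L ≃ₐ[K] L) (hσ : σ ∈ A.decompositionSubgroup K) (a : ↥A) :
    resAut K A σ hσ (IsLocalRing.residue ↥A a) = IsLocalRing.residue ↥A (intHom K A σ hσ a) :=
  rfl

/-- On the inertia group the residue automorphism is trivial. -/
theorem resAut_eq_one_of_mem_inertia (σ : L ≃ₐ[K] L) (hσ : σ ∈ A.decompositionSubgroup K)
    (h : (⟨σ, hσ⟩ : A.decompositionSubgroup K) ∈ A.inertiaSubgroup K) :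
    resAut K A σ hσ = 1 :=
  h

theorem mem_decomposition_of_mem_inertiaIn {τ : L ≃ₐ[K] L} (h : τ ∈ A.inertiaSubgroupIn K) :
    τ ∈ A.decompositionSubgroup K := by
  obtain ⟨g, -, rfl⟩ := h
  exact g.2

theorem resAut_eq_one_of_mem_inertiaIn {τ : L ≃ₐ[K] L} (h : τ ∈ A.inertiaSubgroupIn K) :
    resAut K A τ (mem_decomposition_of_mem_inertiaIn K A h) = 1 := by
  obtain ⟨g, hg, rfl⟩ := h
  exact hg

/-- For a Frobenius element the residue automorphism is `x ↦ x ^ q`. -/
theorem resAut_apply_of_isFrobeniusAt {σ : L ≃ₐ[K] L} {q : ℕ} (h : A.IsFrobeniusAt σ q)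
    (x : IsLocalRing.ResidueField ↥A) :
    resAut K A σ h.mem_decompositionSubgroup x = x ^ q :=
  h.smul_residue_eq x

end ResAut

/-! ### (G2) the Gauss valuation ring is stable under the decomposition group -/

section Gauss

variable {L : Type*} [Field L] (K : Type*) [Field K] [Algebra K L] (A : ValuationSubring L)

local notation "incl" => coeffMap (ValuationSubring.subtype A)
local notation "red" => coeffMap (IsLocalRing.residue A)

theorem coeffMap_incl (σ : L ≃ₐ[K] L) (hσ : σ ∈ A.decompositionSubgroup K)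
    (a : LaurentSeries ↥A) :
    coeffMap (σ : L →+* L) (incl a) = incl (coeffMap (intHom K A σ hσ) a) := by
  ext n
  rfl

theorem red_intHom (σ : L ≃ₐ[K] L) (hσ : σ ∈ A.decompositionSubgroup K)
    (a : LaurentSeries ↥A) :
    red (coeffMap (intHom K A σ hσ) a)
      = coeffMap ((resAut K A σ hσ : IsLocalRing.ResidueField ↥A ≃+* IsLocalRing.ResidueField ↥A) :
          IsLocalRing.ResidueField ↥A →+* IsLocalRing.ResidueField ↥A) (red a) := by
  ext n
  rfl

theorem coeffMap_equiv_injective {k : Type*} [Field k] (s : k ≃+* k) :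
    Function.Injective (coeffMap (s : k →+* k)) := by
  intro x y h
  ext n
  have h1 := congrArg (fun z => HahnSeries.coeff z n) h
  simp only [coeffMap_coeff] at h1
  exact s.injective h1

theorem coeffMap_mem_Lam (σ : L ≃ₐ[K] L) (hσ : σ ∈ A.decompositionSubgroup K)
    {x : LaurentSeries L} (hx : x ∈ RG.Lam A) : coeffMap (σ : L →+* L) x ∈ RG.Lam A := by
  obtain ⟨a, b, hb, h⟩ := hx
  refine ⟨coeffMap (intHom K A σ hσ) a, coeffMap (intHom K A σ hσ) b, ?_, ?_⟩
  · rw [red_intHom]
    exact fun h0 => hb (coeffMap_equiv_injective _ (h0.trans (map_zero _).symm))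
  · rw [← coeffMap_incl, ← coeffMap_incl, ← map_mul, h]

/-- The residue map of the abstract Gauss ring is equivariant. -/
theorem resL_coeffMap (σ : L ≃ₐ[K] L) (hσ : σ ∈ A.decompositionSubgroup K) (x : ↥(RG.Lam A)) :
    RG.resL A ⟨coeffMap (σ : L →+* L) (x : LaurentSeries L), coeffMap_mem_Lam K A σ hσ x.2⟩
      = coeffMap ((resAut K A σ hσ : IsLocalRing.ResidueField ↥A ≃+* IsLocalRing.ResidueField ↥A) :
          IsLocalRing.ResidueField ↥A →+* IsLocalRing.ResidueField ↥A) (RG.resL A x) := by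
  obtain ⟨a, b, hb, h⟩ := x.2
  have hb' : red (coeffMap (intHom K A σ hσ) b) ≠ 0 := by
    rw [red_intHom]
    exact fun h0 => hb (coeffMap_equiv_injective _ (h0.trans (map_zero _).symm))
  have h' : coeffMap (σ : L →+* L) (x : LaurentSeries L) * incl (coeffMap (intHom K A σ hσ) b)
      = incl (coeffMap (intHom K A σ hσ) a) := by
    rw [← coeffMap_incl, ← coeffMap_incl, ← map_mul, h]
  rw [RG.resL_eq A x hb h,
    RG.resL_eq A ⟨coeffMap (σ : L →+* L) (x : LaurentSeries L), coeffMap_mem_Lam K A σ hσ x.2⟩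
      hb' h', red_intHom, red_intHom, map_div₀]

end Gauss

section Modular

variable (M : ℕ) [NeZero M] {ℓ : ℕ} [Fact ℓ.Prime] (hℓM : ¬ ℓ ∣ M)
  (A : ValuationSubring Qb) (hA : A.LiesOverPrime ℓ)

/-- The Gauss valuation ring of `F_M` is stable under the decomposition group of `A`. -/
theorem smul_mem_V (σ : Qb ≃ₐ[ℚ] Qb) (hσ : σ ∈ A.decompositionSubgroup ℚ) {x : ↥(FN M)}
    (hx : x ∈ RGB.V M A) :
    arithmeticGalois (modularFunctionFieldFull M) σ • x ∈ RGB.V M A :=
  (RG.mem_V A M).mpr (coeffMap_mem_Lam ℚ A σ hσ ((RG.mem_V A M).mp hx))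

/-- **Equivariance of the residue map**: `rho (σ • x) = σ̄ • rho x`, where `σ̄` is the
coefficientwise action of the residue automorphism of `σ`. -/
theorem rho_smul (σ : Qb ≃ₐ[ℚ] Qb) (hσ : σ ∈ A.decompositionSubgroup ℚ) (x : ↥(RGB.V M A)) :
    RGB.rho M hℓM A hA ⟨arithmeticGalois (modularFunctionFieldFull M) σ • (x : ↥(FN M)),
        smul_mem_V M A σ hσ x.2⟩
      = coeffAut M (resAut ℚ A σ hσ) • RGB.rho M hℓM A hA x := by
  apply Subtype.ext
  rw [RGB.coe_rho, coe_coeffAut_smul, RGB.coe_rho]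
  exact resL_coeffMap ℚ A σ hσ (RG.toLam A M x)

end Modular

/-! ### (G3) principal divisors -/

/-- If `D` is the divisor of `f`, then `g • D` is the divisor of `g • f`. -/
theorem divisor_smul_apply_of_ord {K F : Type*} [Field K] [Field F] [Algebra K F]
    (g : SemilinearAut K F) {D : Divisor K F} {f : F} (hD : ∀ P : Place K F, D P = P.ord f)
    (P : Place K F) : (g • D) P = P.ord (g • f) := by
  rw [SemilinearAut.divisor_smul_apply, hD]
  have h := SemilinearAut.ord_smul g (g⁻¹ • P) f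
  rw [smul_inv_smul] at h
  exact h.symm

/-- Rigidity for a pair of semilinear automorphisms: if `r_* (S • D) = Sb • r_* D` for principal
divisors, then it holds for all divisors of degree zero. -/
theorem rigid_smul {K F k G : Type*} [Field K] [Field F] [Algebra K F] [Field k] [Field G]
    [Algebra k G] (hdeg : ∀ v : Place K F, v.deg = 1) (g : ℤ)
    (hRR : ∀ D : Divisor K F, Divisor.degree D = g → ∃ f : F, f ≠ 0 ∧ f ∈ riemannRochSpace D)
    (hprin : ∀ f : F, f ≠ 0 → ∃ D : Divisor K F, (∀ v, D v = v.ord f) ∧ Divisor.degree D = 0)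
    (r : Place K F → Place k G) (S : SemilinearAut K F) (Sb : SemilinearAut k G)
    (H : ∀ D : Divisor K F, D.IsPrincipal →
      Finsupp.mapDomain r (S • D) = Sb • Finsupp.mapDomain r D)
    (D : Divisor K F) (hD : Divisor.degree D = 0) :
    Finsupp.mapDomain r (S • D) = Sb • Finsupp.mapDomain r D := by
  classical
  set δ₁ : Divisor K F →+ Divisor k G :=
    (Finsupp.mapDomain.addMonoidHom r).comp (DistribSMul.toAddMonoidHom (Divisor K F) S)
  set δ₂ : Divisor K F →+ Divisor k G :=
    (DistribSMul.toAddMonoidHom (Divisor k G) Sb).comp (Finsupp.mapDomain.addMonoidHom r)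
  have h1 : ∀ E, δ₁ E = Finsupp.mapDomain r (S • E) := fun E => rfl
  have h2 : ∀ E, δ₂ E = Sb • Finsupp.mapDomain r E := fun E => rfl
  have key := Rigid.eq_of_degree_eq_zero hdeg g hRR hprin δ₁ δ₂
    (fun E hE => by rw [h1, h2]; exact H E hE) 1 1
    (fun v Q => by
      rw [h1, SemilinearAut.smul_single, Finsupp.mapDomain_single, Finsupp.single_apply]
      split_ifs <;> norm_num)
    (fun v Q => by
      rw [h2, Finsupp.mapDomain_single, SemilinearAut.smul_single, Finsupp.single_apply]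
      split_ifs <;> norm_num)
    D hD
  rw [h1, h2] at key
  exact key

/-- Riemann's inequality at degree `g` for `F_M / ℚ̄`: a divisor of degree `genusR` has a nonzero
section. -/
theorem exists_mem_riemannRochSpace (M : ℕ) [NeZero M] (D : Divisor Qb ↥(FN M))
    (hD : Divisor.degree D = PHyp.genusR Qb ↥(FN M)) :
    ∃ f : ↥(FN M), f ≠ 0 ∧ f ∈ riemannRochSpace D := by
  have h := PHyp.le_ell (PHyp.hyp_bar M) D
  rw [hD] at h
  have hpos : 0 < Module.finrank Qb ↥(riemannRochSpace D) := by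
    have h1 : (1 : ℤ) ≤ (RR.ell D : ℤ) := by linarith
    have h2 : 1 ≤ RR.ell D := by exact_mod_cast h1
    exact h2
  have : Nontrivial ↥(riemannRochSpace D) := Module.nontrivial_of_finrank_pos (R := Qb) hpos
  obtain ⟨x, hx⟩ := exists_ne (0 : ↥(riemannRochSpace D))
  exact ⟨x, fun h0 => hx (Subtype.ext h0), x.2⟩

section Divisors

variable (M : ℕ) [NeZero M] {ℓ : ℕ} [Fact ℓ.Prime] (hℓM : ¬ ℓ ∣ M)
  (A : ValuationSubring Qb) (hA : A.LiesOverPrime ℓ)

include hℓM hA

set_option maxHeartbeats 1600000 in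
/-- **(G3)** For a place reduction `r` in the frozen sense, `σ` in the decomposition group and a
PRINCIPAL divisor `D`: `r_* (σ • D) = σ̄ • r_* D`. -/
theorem mapDomain_smul_of_isPrincipal
    {r : Place Qb ↥(FN M) → Place (Kb A) ↥(FbN A M)} (hr : IsPlaceReductionModL A M r)
    (σ : Qb ≃ₐ[ℚ] Qb) (hσ : σ ∈ A.decompositionSubgroup ℚ)
    {D : Divisor Qb ↥(FN M)} (hD : D.IsPrincipal) :
    Finsupp.mapDomain r (arithmeticGalois (modularFunctionFieldFull M) σ • D)
      = coeffAut M (resAut ℚ A σ hσ) • Finsupp.mapDomain r D := by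
  obtain ⟨f, hf, hDf⟩ := hD
  obtain ⟨c, hcV, hc, hne⟩ := RGB.exists_smul_mem M hℓM A hA f hf
  have hDx : ∀ P : Place Qb ↥(FN M), D P = P.ord (algebraMap Qb ↥(FN M) c * f) := by
    intro P
    have hc' : algebraMap Qb ↥(FN M) c ≠ 0 := by
      rw [Ne, map_eq_zero]
      exact hc
    rw [hDf P, P.ord_mul hc' hf, S24.Places.ord_algebraMap, zero_add]
  have hSD := divisor_smul_apply_of_ord (arithmeticGalois (modularFunctionFieldFull M) σ) hDx
  have hrho := rho_smul M hℓM A hA σ hσ ⟨_, hcV⟩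
  have hne' : RGB.rho M hℓM A hA
      ⟨arithmeticGalois (modularFunctionFieldFull M) σ • (algebraMap Qb ↥(FN M) c * f),
        smul_mem_V M A σ hσ hcV⟩ ≠ 0 := by
    rw [hrho]
    intro h0
    exact hne ((smul_eq_zero_iff_eq _).mp h0)
  have h2 := RGB.mapDomain_eq_ord_rho M hℓM A hA hr ⟨_, hcV⟩ hne D hDx
  have h3 := divisor_smul_apply_of_ord (coeffAut M (resAut ℚ A σ hσ)) h2
  ext Q
  have h1 := RGB.mapDomain_eq_ord_rho M hℓM A hA hr _ hne' _ hSD Q
  rw [h1, hrho]
  exact (h3 Q).symm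

set_option maxHeartbeats 1600000 in
/-- **(G4)** For a place reduction `r` in the frozen sense, `σ` in the decomposition group and a
divisor `D` of degree `0`: `r_* (σ • D) = σ̄ • r_* D` (as divisors). -/
theorem mapDomain_smul_of_degree_eq_zero
    {r : Place Qb ↥(FN M) → Place (Kb A) ↥(FbN A M)} (hr : IsPlaceReductionModL A M r)
    (σ : Qb ≃ₐ[ℚ] Qb) (hσ : σ ∈ A.decompositionSubgroup ℚ)
    (D : Divisor Qb ↥(FN M)) (hD : Divisor.degree D = 0) :
    Finsupp.mapDomain r (arithmeticGalois (modularFunctionFieldFull M) σ • D)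
      = coeffAut M (resAut ℚ A σ hσ) • Finsupp.mapDomain r D := by
  have h0 := PHyp.hyp0_bar M
  exact rigid_smul h0.deg_one (PHyp.genusR Qb ↥(FN M)) (exists_mem_riemannRochSpace M)
    h0.principal r (arithmeticGalois (modularFunctionFieldFull M) σ)
    (coeffAut M (resAut ℚ A σ hσ))
    (fun E hE => mapDomain_smul_of_isPrincipal M hℓM A hA hr σ hσ hE) D hD

end Divisors

/-! ### (G4) the forms on `Pic⁰` -/

section Pic

variable (M : ℕ) [NeZero M] {ℓ : ℕ} [Fact ℓ.Prime] (hℓM : ¬ ℓ ∣ M)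
  (A : ValuationSubring Qb) (hA : A.LiesOverPrime ℓ)

include hℓM hA

set_option maxHeartbeats 1600000 in
/-- The frozen reduction map is equivariant for the decomposition group. -/
theorem reductionModL_smul (h : ReductionInputsModL A M)
    (σ : Qb ≃ₐ[ℚ] Qb) (hσ : σ ∈ A.decompositionSubgroup ℚ) (x : JZero M) :
    reductionModL A M (σ • x) = coeffAut M (resAut ℚ A σ hσ) • reductionModL A M x := by
  obtain ⟨D, rfl⟩ := Pic0.mk_surjective x
  rw [galois_smul_pic0_def, SemilinearAut.pic0_smul_mk, reductionModL_mk h, reductionModL_mk h,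
    SemilinearAut.pic0_smul_mk]
  refine congrArg Pic0.mk (Subtype.ext ?_)
  exact mapDomain_smul_of_degree_eq_zero M hℓM A hA (isPlaceReductionModL_placeReductionModL h)
    σ hσ D (Divisor.mem_degZero.mp D.2)

/-- **(R1 at level `M`)** the frozen reduction map is invariant under inertia. -/
theorem reductionModL_smul_of_mem_inertia (h : ReductionInputsModL A M)
    {τ : Qb ≃ₐ[ℚ] Qb} (hτ : τ ∈ A.inertiaSubgroupIn ℚ) (x : JZero M) :
    reductionModL A M (τ • x) = reductionModL A M x := by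
  rw [reductionModL_smul M hℓM A hA h τ (mem_decomposition_of_mem_inertiaIn ℚ A hτ),
    resAut_eq_one_of_mem_inertiaIn ℚ A hτ, map_one, one_smul]

/-- **(R2 at level `M`)** a Frobenius element acts after reduction as the coefficientwise
Frobenius `frobAut`. -/
theorem reductionModL_smul_of_isFrobeniusAt (h : ReductionInputsModL A M)
    {σ : Qb ≃ₐ[ℚ] Qb} (hσ : A.IsFrobeniusAt σ ℓ) (x : JZero M) :
    reductionModL A M (σ • x) = frobAut A hA M • reductionModL A M x := by
  rw [reductionModL_smul M hℓM A hA h σ hσ.mem_decompositionSubgroup,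
    eq_frobK A hA (resAut_apply_of_isFrobeniusAt ℚ A hσ)]
  rfl

end Pic

/-! ### Cross-level exports (the interface of `Iface.lean`) -/

section Exports

/-- **[chain GAL, inertia]** the interface statement `InertiaStmt`. -/
theorem inertiaStmt : InertiaStmt :=
  PbGal.inertiaStmt_of_level fun _ _ A hA M _ hℓM hRI _ hτ z =>
    reductionModL_smul_of_mem_inertia M hℓM A hA hRI hτ z

/-- **[chain GAL, Frobenius]** the Frobenius clause of `FrobHeckeStmt`, with
`Φ = frobAut A hA M • ·`. -/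
theorem red_pb_frob {ℓ : ℕ} [Fact ℓ.Prime] (A : ValuationSubring Qb) (hA : A.LiesOverPrime ℓ)
    {N M : ℕ} [NeZero N] [NeZero M] (h : N ∣ M) (hℓM : ¬ ℓ ∣ M) (hRI : ReductionInputsModL A M)
    {σ : Qb ≃ₐ[ℚ] Qb} (hσ : A.IsFrobeniusAt σ ℓ) (x : JZero N) :
    reductionModL A M (pb h (σ • x)) = frobAut A hA M • reductionModL A M (pb h x) :=
  PbGal.red_pb_smul_of_level h σ (fun y => frobAut A hA M • y)
    (fun z => reductionModL_smul_of_isFrobeniusAt M hℓM A hA hRI hσ z) x

/-- `Φ` of `FrobHeckeStmt`: the action of the coefficientwise Frobenius on `Pic⁰(F̄_M)`. -/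
def frobPhi {ℓ : ℕ} [Fact ℓ.Prime] (A : ValuationSubring Qb) (hA : A.LiesOverPrime ℓ) (M : ℕ)
    [NeZero M] : JZeroC (Kb A) M →+ JZeroC (Kb A) M :=
  DistribSMul.toAddMonoidHom (JZeroC (Kb A) M) (frobAut A hA M)

/-- `Ψ` of `FrobHeckeStmt`: the inverse of `frobPhi`. -/
def frobPsi {ℓ : ℕ} [Fact ℓ.Prime] (A : ValuationSubring Qb) (hA : A.LiesOverPrime ℓ) (M : ℕ)
    [NeZero M] : JZeroC (Kb A) M →+ JZeroC (Kb A) M :=
  DistribSMul.toAddMonoidHom (JZeroC (Kb A) M) (frobAut A hA M)⁻¹

theorem frobPhi_apply {ℓ : ℕ} [Fact ℓ.Prime] (A : ValuationSubring Qb) (hA : A.LiesOverPrime ℓ)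
    (M : ℕ) [NeZero M] (y : JZeroC (Kb A) M) : frobPhi A hA M y = frobAut A hA M • y :=
  rfl

theorem frobPsi_apply {ℓ : ℕ} [Fact ℓ.Prime] (A : ValuationSubring Qb) (hA : A.LiesOverPrime ℓ)
    (M : ℕ) [NeZero M] (y : JZeroC (Kb A) M) : frobPsi A hA M y = (frobAut A hA M)⁻¹ • y :=
  rfl

theorem frobPsi_frobPhi {ℓ : ℕ} [Fact ℓ.Prime] (A : ValuationSubring Qb) (hA : A.LiesOverPrime ℓ)
    (M : ℕ) [NeZero M] (y : JZeroC (Kb A) M) : frobPsi A hA M (frobPhi A hA M y) = y :=
  inv_smul_smul _ _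

/-- The Frobenius clause of `FrobHeckeStmt` with `Φ = frobPhi`. -/
theorem red_pb_frobPhi {ℓ : ℕ} [Fact ℓ.Prime] (A : ValuationSubring Qb) (hA : A.LiesOverPrime ℓ)
    {N M : ℕ} [NeZero N] [NeZero M] (h : N ∣ M) (hℓM : ¬ ℓ ∣ M) (hRI : ReductionInputsModL A M)
    (σ : Qb ≃ₐ[ℚ] Qb) (hσ : A.IsFrobeniusAt σ ℓ) (x : JZero N) :
    reductionModL A M (pb h (σ • x)) = frobPhi A hA M (reductionModL A M (pb h x)) :=
  red_pb_frob A hA h hℓM hRI hσ x

end Exports

end Fermat.Agent.S37.GalEq

end
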