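import Mathlib
import Fermat.Agent.S18.FundId

/-!
# The norm formula for the frozen push-forward of divisors

For a finite extension `F ⊂ F'` of function fields over an algebraically closed field `K` of
characteristic zero (all places of degree one) the push-forward of the divisor of `f : F'` is the
divisor of `Algebra.norm F f`: the frozen `Divisor.PushforwardNormFormula K F F'`.
-/

set_option autoImplicit false
set_option linter.unusedSectionVars false

open AlgebraicCurve IsDedekindDomain Fermat.Agent.S18.FundId

namespace Fermat.Agent.S37.NormF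

noncomputable section

variable {K F F' : Type*} [Field K] [Field F] [Field F'] [Algebra K F] [Algebra K F']
  [Algebra F F'] [IsScalarTower K F F']

section Local

variable (F') (v : Place K F)

attribute [local instance 5] algV
attribute [local instance] towerV

variable [FiniteDimensional F F'] [Algebra.IsSeparable F F']

attribute [local instance] isDedekindDomain_intB isFractionRing_intB finite_intB faithful_intB
  flat_intB fintypePrimesOver

/-- The integral norm computes the field norm. -/
theorem algebraMap_intNorm (b : intB F' v) :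
    ((Algebra.intNorm v.toValuationSubring (intB F' v) b : v.toValuationSubring) : F)
      = Algebra.norm F (b : F') :=
  Algebra.algebraMap_intNorm (A := v.toValuationSubring) (K := F) (L := F') (B := intB F' v) b

/-- Every nonzero prime of the integral closure lies over the maximal ideal of `O_v`. -/
theorem liesOver_pv (Q : Ideal (intB F' v)) [hQp : Q.IsPrime] (hQ : Q ≠ ⊥) :
    Q.LiesOver (pv v) := by
  have hmax : Q.IsMaximal := Ring.DimensionLEOne.maximalOfPrime hQ hQp
  constructor
  have h2 : (Q.under v.toValuationSubring).IsMaximal :=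
    Ideal.isMaximal_comap_of_isIntegral_of_isMaximal Q
  exact (IsLocalRing.eq_maximalIdeal h2).symm

/-- The relative norm of a nonzero prime is the maximal ideal of `O_v` (inertia degree one). -/
theorem relNorm_prime [IsAlgClosed K] [CharZero F] (hv : v.deg = 1) (Q : Ideal (intB F' v))
    [hQp : Q.IsPrime] (hQ : Q ≠ ⊥) : Ideal.relNorm v.toValuationSubring Q = pv v := by
  have hmax : Q.IsMaximal := Ring.DimensionLEOne.maximalOfPrime hQ hQp
  have hl : Q.LiesOver (pv v) := liesOver_pv F' v Q hQ
  rw [Ideal.relNorm_eq_pow_of_isMaximal Q (pv v)]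
  obtain ⟨π, hπ⟩ := IsDiscreteValuationRing.exists_irreducible v.toValuationSubring
  have hp : pv v = Ideal.span {π} := hπ.maximalIdeal_eq
  have hmax' : (Ideal.span {π}).IsMaximal := hp ▸ (inferInstance : (pv v).IsMaximal)
  have hl' : Q.LiesOver (Ideal.span {π}) := hp ▸ hl
  have hf := Fermat.Agent.S24.Places.inertiaDeg_eq_one (K := K) π
    (fun a => hp ▸ exists_const_sub_mem v hv a) Q
  rw [hf, pow_one]

/-- The relative norm of a nonzero ideal is `𝔪_v` to the number of its prime factors. -/
theorem relNorm_eq_pow_card [IsAlgClosed K] [CharZero F] (hv : v.deg = 1)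
    (I : Ideal (intB F' v)) (hI : I ≠ ⊥) :
    Ideal.relNorm v.toValuationSubring I
      = pv v ^ Multiset.card (UniqueFactorizationMonoid.normalizedFactors I) := by
  conv_lhs => rw [← Ideal.prod_normalizedFactors_eq_self hI]
  have hrep : Multiset.map (Ideal.relNorm v.toValuationSubring)
      (UniqueFactorizationMonoid.normalizedFactors I)
      = Multiset.replicate (Multiset.card (UniqueFactorizationMonoid.normalizedFactors I))
          (pv v) := by
    rw [Multiset.eq_replicate]
    refine ⟨Multiset.card_map _ _, ?_⟩
    intro x hx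
    obtain ⟨Q, hQ, rfl⟩ := Multiset.mem_map.mp hx
    have hQ0 : Q ≠ ⊥ := UniqueFactorizationMonoid.ne_zero_of_mem_normalizedFactors hQ
    have hQp : Q.IsPrime := ((Ideal.mem_normalizedFactors_iff hI).mp hQ).1
    exact relNorm_prime F' v hv Q hQ0
  rw [map_multiset_prod, hrep, Multiset.prod_replicate]

/-- The order at `v` of a generator of `𝔪_v ^ n`. -/
theorem ord_of_span_eq (a : v.toValuationSubring) (n : ℕ) (h : Ideal.span {a} = pv v ^ n) :
    v.ord (a : F) = n := by
  obtain ⟨π, hπ⟩ := IsDiscreteValuationRing.exists_irreducible v.toValuationSubring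
  have hp : pv v = Ideal.span {π} := hπ.maximalIdeal_eq
  rw [hp, Ideal.span_singleton_pow, Ideal.span_singleton_eq_span_singleton] at h
  obtain ⟨u, hu⟩ := h
  have h1 : (a : F) = ((u⁻¹ : (v.toValuationSubring)ˣ) : v.toValuationSubring) * (π : F) ^ (n : ℤ) := by
    have h2 : a = ((u⁻¹ : (v.toValuationSubring)ˣ) : v.toValuationSubring) * π ^ n := by
      rw [← hu, mul_comm a, ← mul_assoc, Units.inv_mul, one_mul]
    rw [h2, zpow_natCast]
    push_cast
    rfl
  rw [h1]
  exact v.ord_unit_smul_zpow u⁻¹ hπ n

/-- The sum of the multiplicities at the primes over `𝔪_v` is the number of prime factors. -/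
theorem sum_multiplicity (I : Ideal (intB F' v)) (hI : I ≠ ⊥) :
    ∑ q : (pv v).primesOver (intB F' v), multiplicity q.1 I
      = Multiset.card (UniqueFactorizationMonoid.normalizedFactors I) := by
  classical
  have hcount : ∀ q : (pv v).primesOver (intB F' v),
      multiplicity q.1 I = (UniqueFactorizationMonoid.normalizedFactors I).count q.1 := by
    intro q
    have hq : q.1.IsPrime := q.2.1
    have hq0 : q.1 ≠ ⊥ := Ideal.ne_bot_of_mem_primesOver (pv_ne_bot v) q.2
    have hirr : Irreducible q.1 := (Ideal.prime_of_isPrime hq0 hq).irreducible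
    have h := UniqueFactorizationMonoid.emultiplicity_eq_count_normalizedFactors hirr hI
    rw [normalize_eq] at h
    exact multiplicity_eq_of_emultiplicity_eq_some h
  simp_rw [hcount]
  rw [← Multiset.toFinset_sum_count_eq]
  have hinj : Function.Injective (Subtype.val : (pv v).primesOver (intB F' v) → Ideal (intB F' v)) :=
    Subtype.val_injective
  rw [← Finset.sum_image (s := Finset.univ) (g := Subtype.val)
    (f := fun Q => (UniqueFactorizationMonoid.normalizedFactors I).count Q)
    (fun a _ b _ h => hinj h)]
  symm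
  refine Finset.sum_subset ?_ ?_
  · intro Q hQ
    rw [Multiset.mem_toFinset] at hQ
    have hQ0 : Q ≠ ⊥ := UniqueFactorizationMonoid.ne_zero_of_mem_normalizedFactors hQ
    have hQp : Q.IsPrime := ((Ideal.mem_normalizedFactors_iff hI).mp hQ).1
    rw [Finset.mem_image]
    exact ⟨⟨Q, hQp, liesOver_pv F' v Q hQ0⟩, Finset.mem_univ _, rfl⟩
  · intro Q _ hQ
    rw [Multiset.mem_toFinset] at hQ
    exact Multiset.count_eq_zero_of_notMem hQ

/-- **Local norm formula** for an element of the integral closure. -/
theorem sum_ord_eq_ord_norm_of_mem [IsAlgClosed K] [CharZero F] (hv : v.deg = 1)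
    (b : intB F' v) (hb : b ≠ 0) :
    ∑ q : (pv v).primesOver (intB F' v), (gP F' v q).ord (b : F')
      = v.ord (Algebra.norm F (b : F')) := by
  have hI : Ideal.span {b} ≠ (⊥ : Ideal (intB F' v)) := by
    rw [Ne, Ideal.span_singleton_eq_bot]; exact hb
  have h1 : ∀ q : (pv v).primesOver (intB F' v),
      (gP F' v q).ord (b : F') = (multiplicity q.1 (Ideal.span {b}) : ℤ) := fun q =>
    Fermat.Agent.S24.Places.ord_algebraMap_eq_multiplicity (hK F' v) (toP F' v q) hb
  simp_rw [h1]
  rw [← Nat.cast_sum, sum_multiplicity F' v _ hI, ← algebraMap_intNorm]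
  symm
  apply ord_of_span_eq
  rw [← Ideal.relNorm_singleton, relNorm_eq_pow_card F' v hv _ hI]

/-- **Local norm formula**: the orders of `f` at the places above `v` add up to the order at `v`
of the norm of `f`. -/
theorem sum_fiber_ord_eq_ord_norm [IsAlgClosed K] [CharZero F] [HasPrincipalDivisors K F']
    (hv : v.deg = 1) (f : F') (hf : f ≠ 0) :
    ∑ w ∈ v.fiber F', w.ord f = v.ord (Algebra.norm F f) := by
  classical
  have himg : v.fiber F' = Finset.univ.image (gP F' v) := by
    ext w
    simp only [Place.mem_fiber, Finset.mem_image, Finset.mem_univ, true_and]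
    constructor
    · intro hw
      exact exists_gP_eq F' v hw
    · rintro ⟨q, rfl⟩
      exact restrict_gP F' v q
  rw [himg, Finset.sum_image (fun q _ q' _ h => gP_injective F' v h)]
  obtain ⟨b₁, b₂, hb₂, hfb⟩ := IsFractionRing.div_surjective (A := intB F' v) f
  have hb₂0 : b₂ ≠ 0 := nonZeroDivisors.ne_zero hb₂
  have hb₂F : (b₂ : F') ≠ 0 := fun h => hb₂0 (Subtype.ext h)
  have hb₁F : (b₁ : F') ≠ 0 := by
    intro h
    apply hf
    rw [← hfb]
    show (b₁ : F') / (b₂ : F') = 0
    rw [h, zero_div]
  have hb₁0 : b₁ ≠ 0 := fun h => hb₁F (by rw [h]; rfl)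
  have hf' : f = (b₁ : F') * (b₂ : F')⁻¹ := by
    rw [← hfb, div_eq_mul_inv]; rfl
  have h1 : ∀ q : (pv v).primesOver (intB F' v),
      (gP F' v q).ord f = (gP F' v q).ord (b₁ : F') - (gP F' v q).ord (b₂ : F') := by
    intro q
    rw [hf', (gP F' v q).ord_mul hb₁F (inv_ne_zero hb₂F), (gP F' v q).ord_inv]
    ring
  have hinv : Algebra.norm F ((b₂ : F')⁻¹) = (Algebra.norm F (b₂ : F'))⁻¹ := by
    apply eq_inv_of_mul_eq_one_left
    rw [← map_mul, inv_mul_cancel₀ hb₂F, map_one]
  simp_rw [h1]
  rw [Finset.sum_sub_distrib, sum_ord_eq_ord_norm_of_mem F' v hv b₁ hb₁0,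
    sum_ord_eq_ord_norm_of_mem F' v hv b₂ hb₂0, hf', map_mul, hinv,
    v.ord_mul (Algebra.norm_ne_zero_iff.mpr hb₁F)
      (inv_ne_zero (Algebra.norm_ne_zero_iff.mpr hb₂F)), v.ord_inv]
  ring

end Local

section Global

variable [IsAlgClosed K] [CharZero K] [FiniteDimensional F F'] [HasPrincipalDivisors K F']

/-- **The norm formula**: the frozen `Divisor.PushforwardNormFormula` for a finite extension of
function fields over an algebraically closed field of characteristic zero. -/
theorem pushforwardNormFormula (hF : ∀ v : Place K F, v.deg = 1)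
    (hF' : ∀ w : Place K F', w.deg = 1) : Divisor.PushforwardNormFormula K F F' := by
  classical
  have : CharZero F := charZero_of_injective_algebraMap (algebraMap K F).injective
  have : Algebra.IsSeparable F F' := inferInstance
  intro f hf D hD v
  rw [Divisor.pushforward_apply]
  have h1 : ∀ w ∈ D.support, (if w.restrict F = v then D w * (w.inertiaDeg F : ℤ) else 0)
      = if w.restrict F = v then w.ord f else 0 := by
    intro w _
    split_ifs with h
    · rw [inertiaDeg_eq_one w (hF' w) (hF _), Nat.cast_one, mul_one, hD]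
    · rfl
  rw [Finset.sum_congr rfl h1, ← Finset.sum_filter,
    ← sum_fiber_ord_eq_ord_norm F' v (hF v) f hf]
  refine Finset.sum_subset ?_ ?_
  · intro w hw
    rw [Finset.mem_filter] at hw
    exact Place.mem_fiber.mpr hw.2
  · intro w hw hnot
    rw [Finset.mem_filter, not_and] at hnot
    have h2 : w ∉ D.support := fun h => hnot h (Place.mem_fiber.mp hw)
    rw [Finsupp.notMem_support_iff] at h2
    rw [← hD, h2]

end Global

end

end Fermat.Agent.S37.NormF
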