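import Mathlib
import Fermat.Prelude.Def_ModularCurve_HeckeOperatorTotal
import Fermat.Agent.S18.PHyp0
import Fermat.Agent.S37.NormF

/-!
# The Hecke inputs at level `(N, ℓ)` over `ℚ̄`

The frozen `ModularCurve.heckeOperatorAlong L N ℓ` is the push–pull correspondence through level
`N ℓ` only if `HeckeInputsAlong L N ℓ` holds (and is `0` otherwise).  We prove
`HeckeInputsAlong (AlgebraicClosure ℚ) N ℓ` for all `N` and `ℓ`.
-/

set_option autoImplicit false
set_option linter.unusedSectionVars false
set_option linter.style.haveILetI false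
set_option synthInstance.maxHeartbeats 400000

open AlgebraicCurve IntermediateField ModularCurve

namespace Fermat.Agent.S37.HeckeIn

noncomputable section

/-! ### Generic: homomorphisms of function fields over an algebraically closed field -/

section Generic

variable {K F F' : Type*} [Field K] [Field F] [Field F'] [Algebra K F] [Algebra K F']

/-- A module-finiteness transfer: if `F'` is finite over an intermediate field all of whose
elements come from `F`, it is finite over `F`. -/
theorem finite_of_range_le [Algebra F F'] [IsScalarTower K F F'] (E : IntermediateField K F')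
    [FiniteDimensional E F'] (hE : ∀ e : E, ∃ a : F, algebraMap F F' a = (e : F')) :
    Module.Finite F F' := by
  obtain ⟨s, hs⟩ := (Module.finite_def (R := E) (M := F')).mp inferInstance
  refine ⟨⟨s, ?_⟩⟩
  rw [eq_top_iff]
  intro y hy0
  clear hy0
  have hy : y ∈ Submodule.span E (s : Set F') := hs ▸ Submodule.mem_top
  induction hy using Submodule.span_induction with
  | mem x hx => exact Submodule.subset_span hx
  | zero => exact zero_mem _
  | add x y _ _ hx hy => exact add_mem hx hy
  | smul e x _ hx =>
    obtain ⟨a, ha⟩ := hE e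
    have h1 : e • x = a • x := by
      rw [Algebra.smul_def, Algebra.smul_def, ha]
      rfl
    rw [h1]
    exact Submodule.smul_mem _ _ hx

variable (φ : F →ₐ[K] F')

/-- A homomorphism of function fields of one variable is finite. -/
theorem finiteAlong (x : F') [FiniteDimensional K⟮x⟯ F'] (u : F) (hu : Transcendental K u) :
    FiniteAlong K φ := by
  letI := algebraAlong φ
  haveI := isScalarTower_along φ
  have hu' : Transcendental K (φ u) := by
    intro h
    exact hu ((isAlgebraic_algHom_iff φ φ.injective).mp h)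
  haveI : FiniteDimensional K⟮φ u⟯ F' :=
    Fermat.Agent.S24.Places.finiteDimensional_of_transcendental x hu'
  refine finite_of_range_le (K := K) K⟮φ u⟯ ?_
  have hle : K⟮φ u⟯ ≤ φ.fieldRange := by
    rw [IntermediateField.adjoin_simple_le_iff]
    exact ⟨u, rfl⟩
  intro e
  obtain ⟨a, ha⟩ := hle e.2
  exact ⟨a, ha⟩

/-- A finite homomorphism is integral. -/
theorem isIntegral_of_finiteAlong (h : FiniteAlong K φ) : φ.toRingHom.IsIntegral := by
  letI := algebraAlong φ
  haveI : Module.Finite F F' := h
  intro y
  exact (Algebra.IsIntegral.isIntegral (R := F) y : IsIntegral F y)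

variable [IsAlgClosed K] [CharZero K] [HasPrincipalDivisors K F']

/-- The fundamental identity along a finite homomorphism (characteristic zero). -/
theorem fundamentalIdentityAlong (hfin : FiniteAlong K φ) (hφ : φ.toRingHom.IsIntegral)
    (hF : ∀ v : Place K F, v.deg = 1) (hF' : ∀ w : Place K F', w.deg = 1) :
    FundamentalIdentityAlong K φ hφ := by
  letI := algebraAlong φ
  haveI := isScalarTower_along φ
  haveI : Module.Finite F F' := hfin
  haveI : CharZero F := charZero_of_injective_algebraMap (algebraMap K F).injective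
  haveI : Algebra.IsSeparable F F' := inferInstance
  exact Fermat.Agent.S18.FundId.fundamentalIdentity (K := K) (F := F) (F' := F') hF hF'

/-- The norm formula along a finite homomorphism (characteristic zero). -/
theorem normFormulaAlong (hfin : FiniteAlong K φ)
    (hF : ∀ v : Place K F, v.deg = 1) (hF' : ∀ w : Place K F', w.deg = 1) :
    NormFormulaAlong K φ hfin := by
  letI := algebraAlong φ
  haveI := isScalarTower_along φ
  haveI : Module.Finite F F' := hfin
  exact Fermat.Agent.S37.NormF.pushforwardNormFormula (K := K) (F := F) (F' := F') hF hF'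

omit [IsAlgClosed K] [CharZero K] in
/-- The pull-back along `φ` of the divisor of `y` is the divisor of `φ y`. -/
theorem pullbackAlong_apply_of_principal (hφ : φ.toRingHom.IsIntegral) {y : F}
    {D : Divisor K F} (hD : ∀ v : Place K F, D v = v.ord y) (w : Place K F') :
    Divisor.pullbackAlong φ hφ D w = w.ord (φ y) := by
  letI := algebraAlong φ
  haveI := isScalarTower_along φ
  haveI := isIntegral_along φ hφ
  exact Divisor.pullback_apply_eq_ord hD w

omit [IsAlgClosed K] [CharZero K] in
/-- **A correspondence on a principal divisor**: `ψ_* φ^* (div y) = div (N_ψ (φ y))`, for any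
two homomorphisms `φ, ψ : F → F'` with the norm formula along `ψ`. -/
theorem correspondence_apply_of_principal (ψ : F →ₐ[K] F') (hφ : φ.toRingHom.IsIntegral)
    (hψ : ψ.toRingHom.IsIntegral) (hfin : FiniteAlong K ψ) (hN : NormFormulaAlong K ψ hfin)
    {y : F} (hy : y ≠ 0) {D : Divisor K F} (hD : ∀ v : Place K F, D v = v.ord y)
    (v : Place K F) :
    Divisor.correspondence φ ψ hφ hψ D v
      = v.ord (@Algebra.norm F F' _ _ (algebraAlong ψ) (φ y)) := by
  have hpull := pullbackAlong_apply_of_principal φ hφ hD
  have hy' : φ y ≠ 0 := (map_ne_zero φ).mpr hy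
  rw [Divisor.correspondence_apply]
  letI := algebraAlong ψ
  haveI := isScalarTower_along ψ
  haveI : Module.Finite F F' := hfin
  exact hN (φ y) hy' _ hpull v

end Generic

/-! ### The levels `N` and `N ℓ` -/

section Levels

variable (N ℓ : ℕ) [NeZero N] [NeZero ℓ]

local notation "Qb" => AlgebraicClosure ℚ

theorem hasPrincipalDivisors (M : ℕ) [NeZero M] :
    HasPrincipalDivisors Qb (laurentBaseChange Qb (modularFunctionFieldFull M)) :=
  ⟨(Fermat.Agent.S18.PHyp.hyp0_bar M).principal⟩

theorem deg_one (M : ℕ) [NeZero M]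
    (v : Place Qb (laurentBaseChange Qb (modularFunctionFieldFull M))) : v.deg = 1 :=
  (Fermat.Agent.S18.PHyp.hyp0_bar M).deg_one v

/-- Every `ℚ̄`-homomorphism `F_N → F_{Nℓ}` is finite. -/
theorem finiteAlong_level (φ : laurentBaseChange Qb (modularFunctionFieldFull N) →ₐ[Qb]
      laurentBaseChange Qb (modularFunctionFieldFull (N * ℓ))) : FiniteAlong Qb φ := by
  haveI := Fermat.Agent.S18.PHyp.finiteDimensional_bar (N * ℓ)
  exact finiteAlong φ (Fermat.Agent.S24.jElt Qb (N * ℓ)) (Fermat.Agent.S24.jElt Qb N)
    (Fermat.Agent.S24.DegreeCore.transcendental_jElt N)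

theorem finiteAlong_alpha : FiniteAlong Qb (heckeAlphaBar Qb N ℓ) := finiteAlong_level N ℓ _

theorem finiteAlong_beta : FiniteAlong Qb (heckeBetaBar Qb N ℓ) := finiteAlong_level N ℓ _

theorem heckeAlphaBarIntegral : HeckeAlphaBarIntegral Qb N ℓ :=
  isIntegral_of_finiteAlong _ (finiteAlong_alpha N ℓ)

theorem heckeBetaBarIntegral : HeckeBetaBarIntegral Qb N ℓ :=
  isIntegral_of_finiteAlong _ (finiteAlong_beta N ℓ)

/-- **The Hecke inputs hold over `ℚ̄`** at every level `N` and every `ℓ`. -/
theorem heckeInputsAlong : HeckeInputsAlong Qb N ℓ := by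
  haveI := hasPrincipalDivisors (N * ℓ)
  exact ⟨heckeAlphaBarIntegral N ℓ, heckeBetaBarIntegral N ℓ, hasPrincipalDivisors (N * ℓ),
    finiteAlong_alpha N ℓ,
    fundamentalIdentityAlong _ (finiteAlong_beta N ℓ) (heckeBetaBarIntegral N ℓ) (deg_one N)
      (deg_one (N * ℓ)),
    normFormulaAlong _ (finiteAlong_alpha N ℓ) (deg_one N) (deg_one (N * ℓ))⟩

/-- The frozen Hecke operator along `(N, ℓ)` over `ℚ̄` is the push–pull correspondence. -/
theorem heckeOperatorAlong_eq :
    heckeOperatorAlong Qb N ℓ =
      (haveI := hasPrincipalDivisors (N * ℓ)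
       heckePic0Bar (heckeAlphaBarIntegral N ℓ) (heckeBetaBarIntegral N ℓ)
        (fundamentalIdentityAlong _ (finiteAlong_beta N ℓ) (heckeBetaBarIntegral N ℓ) (deg_one N)
          (deg_one (N * ℓ)))
        (finiteAlong_alpha N ℓ)
        (normFormulaAlong _ (finiteAlong_alpha N ℓ) (deg_one N) (deg_one (N * ℓ)))) := by
  haveI := hasPrincipalDivisors (N * ℓ)
  exact ModularCurve.heckeOperatorAlong_eq _ _ _ _ _

/-- The frozen Hecke operator on the class of a degree-zero divisor: pull back along `β`
(`q ↦ q ^ ℓ`), push forward along `α` (the inclusion). -/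
theorem heckeOperatorAlong_mk
    (D : Divisor.degZero (K := Qb) (F := laurentBaseChange Qb (modularFunctionFieldFull N))) :
    heckeOperatorAlong Qb N ℓ (Pic0.mk D) =
      (haveI := hasPrincipalDivisors (N * ℓ)
       Pic0.mk (Pic0.degZeroCorrespondence (heckeBetaBar Qb N ℓ) (heckeAlphaBar Qb N ℓ)
        (heckeBetaBarIntegral N ℓ) (heckeAlphaBarIntegral N ℓ)
        (fundamentalIdentityAlong _ (finiteAlong_beta N ℓ) (heckeBetaBarIntegral N ℓ) (deg_one N)
          (deg_one (N * ℓ))) D)) := by
  rw [heckeOperatorAlong_eq]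
  rfl

/-- **`T_ℓ` on a principal divisor**: `α_* β^* (div y) = div (N_α (y(q^ℓ)))`. -/
theorem heckeDivBar_apply_of_principal
    {y : laurentBaseChange Qb (modularFunctionFieldFull N)} (hy : y ≠ 0)
    {D : Divisor Qb (laurentBaseChange Qb (modularFunctionFieldFull N))}
    (hD : ∀ v, D v = v.ord y) (v : Place Qb (laurentBaseChange Qb (modularFunctionFieldFull N))) :
    (haveI := hasPrincipalDivisors (N * ℓ)
     heckeDivBar (heckeAlphaBarIntegral N ℓ) (heckeBetaBarIntegral N ℓ) D v)
      = v.ord (@Algebra.norm _ _ _ _ (algebraAlong (heckeAlphaBar Qb N ℓ))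
          (heckeBetaBar Qb N ℓ y)) := by
  haveI := hasPrincipalDivisors (N * ℓ)
  exact correspondence_apply_of_principal (heckeBetaBar Qb N ℓ) (heckeAlphaBar Qb N ℓ)
    (heckeBetaBarIntegral N ℓ) (heckeAlphaBarIntegral N ℓ) (finiteAlong_alpha N ℓ)
    (normFormulaAlong _ (finiteAlong_alpha N ℓ) (deg_one N) (deg_one (N * ℓ))) hy hD v

end Levels

end

end Fermat.Agent.S37.HeckeIn
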