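/-
S37, chain K1: the embeddings of the function field of `X₀(N ℓ)` over that of `X₀(N)`
(`ℓ ∤ N` prime), in characteristic zero, with values in Laurent series in `u = q^{1/ℓ}`.

For `b : ℤ` pick `γ_b ∈ Γ₀(N)` with lower row `(N, N b + ℓ)`.  Then `j(d γ_b w) = j(d w)` for
`d ∣ N`, and `j(d ℓ γ_b (ℓ z)) = j(d (z + b / ℓ))`.  Hence `f ↦ (f ∘ γ_b)(ℓ z)`, expanded in
`u = exp(2 π i z)`, is a ring embedding `E_b` of `F_{Nℓ}` with
`E_b (α f) = f(u^ℓ)` and `E_b (β f) = f(ζ^b u)` for `f ∈ F_N`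
(`α` the inclusion, `β f = f(q^ℓ)`, `ζ = exp(2 π i / ℓ)`).
-/
import Fermat.Agent.S18.CLTau
import Fermat.Prelude.Def_ModularCurve_HeckeOperator

set_option autoImplicit false

noncomputable section

open scoped MatrixGroups Real
open ModularCurve UpperHalfPlane

namespace Fermat.Agent.S37.KEmb

open Fermat.Agent.S24 Fermat.Agent.S23

/-! ### The matrices -/

/-- A matrix of `Γ₀(N)` with lower row `(N, N b + ℓ)`. -/
theorem exists_gamma (N ℓ : ℕ) (b : ℤ) (h : Nat.Coprime N ℓ) :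
    ∃ g : SL(2, ℤ), g 1 0 = (N : ℤ) ∧ g 1 1 = (N : ℤ) * b + ℓ := by
  have hc : IsCoprime (N : ℤ) ((N : ℤ) * b + ℓ) := by
    have h0 : IsCoprime (N : ℤ) (ℓ : ℤ) := Nat.isCoprime_iff_coprime.mpr h
    have := h0.add_mul_left_right b
    rwa [add_comm] at this
  exact hc.exists_SL2_row 1

theorem exists_delta (N ℓ : ℕ) (b : ℤ) (g : SL(2, ℤ)) (hg0 : g 1 0 = (N : ℤ))
    (hg1 : g 1 1 = (N : ℤ) * b + ℓ) (d d' : ℕ) (hd : d * d' = N) :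
    ∃ δ : SL(2, ℤ), δ 0 0 = g 0 0 * ℓ ∧ δ 0 1 = d * (g 0 1 - g 0 0 * b) ∧ δ 1 0 = d' ∧
      δ 1 1 = 1 := by
  have hdet : g 0 0 * g 1 1 - g 0 1 * g 1 0 = 1 := by
    have := g.det_coe
    rw [Matrix.det_fin_two] at this
    exact this
  have hdd : (d : ℤ) * d' = N := by exact_mod_cast hd
  refine ⟨⟨!![g 0 0 * ℓ, d * (g 0 1 - g 0 0 * b); d', 1], ?_⟩, rfl, rfl, rfl, rfl⟩
  rw [Matrix.det_fin_two_of]
  rw [hg0, hg1] at hdet
  linear_combination hdet - (g 0 1 - g 0 0 * b) * hdd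

/-- `d ℓ · γ_b (ℓ z) = δ (d (z + b / ℓ))` with `δ ∈ SL(2, ℤ)`. -/
theorem dil_smul_dil (N ℓ : ℕ) [NeZero ℓ] (b : ℤ) (g : SL(2, ℤ)) (hg0 : g 1 0 = (N : ℤ))
    (hg1 : g 1 1 = (N : ℤ) * b + ℓ) (d d' : ℕ) [NeZero d] (hd : d * d' = N) (z : ℍ) :
    ∃ δ : SL(2, ℤ),
      JN.dil (d * ℓ) (g • JN.dil ℓ z) = δ • JN.dil d ((((b : ℝ) / ℓ : ℝ)) +ᵥ z) := by
  obtain ⟨δ, h00, h01, h10, h11⟩ := exists_delta N ℓ b g hg0 hg1 d d' hd
  refine ⟨δ, ?_⟩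
  apply UpperHalfPlane.ext
  rw [JN.coe_dil, coe_specialLinearGroup_apply, coe_specialLinearGroup_apply, JN.coe_dil,
    JN.coe_dil, coe_vadd]
  have hden1 : ((algebraMap ℤ ℝ (g 1 0) : ℝ) : ℂ) * (JN.dil ℓ z : ℂ)
      + ((algebraMap ℤ ℝ (g 1 1) : ℝ) : ℂ) ≠ 0 :=
    denom_ne_zero (Matrix.SpecialLinearGroup.mapGL ℝ g) (JN.dil ℓ z)
  have hden2 : ((algebraMap ℤ ℝ (δ 1 0) : ℝ) : ℂ) * (JN.dil d ((((b : ℝ) / ℓ : ℝ)) +ᵥ z) : ℂ)
      + ((algebraMap ℤ ℝ (δ 1 1) : ℝ) : ℂ) ≠ 0 :=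
    denom_ne_zero (Matrix.SpecialLinearGroup.mapGL ℝ δ) (JN.dil d ((((b : ℝ) / ℓ : ℝ)) +ᵥ z))
  rw [JN.coe_dil, hg0, hg1] at hden1
  rw [JN.coe_dil, coe_vadd, h10, h11] at hden2
  rw [h00, h01, h10, h11, hg0, hg1]
  have hℓC : (ℓ : ℂ) ≠ 0 := by exact_mod_cast NeZero.ne ℓ
  have hddC : (d : ℂ) * d' = N := by exact_mod_cast hd
  simp only [algebraMap_int_eq, eq_intCast] at hden1 hden2 ⊢
  push_cast at hden1 hden2 ⊢
  rw [mul_div_assoc', div_eq_div_iff hden1 hden2]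
  field_simp
  rw [← hddC]
  ring


/-! ### Expansions of the functions `z ↦ j(e γ_b (ℓ z))`, `e ∣ N ℓ` -/

section Expansions

variable (N ℓ : ℕ) [NeZero N] [NeZero ℓ] (b : ℤ) (g : SL(2, ℤ))

theorem mem_Gamma0_of_dvd (hg0 : g 1 0 = (N : ℤ)) {d : ℕ} (hd : d ∣ N) :
    g ∈ CongruenceSubgroup.Gamma0 d := by
  rw [CongruenceSubgroup.Gamma0_mem, hg0]
  obtain ⟨c, rfl⟩ := hd
  push_cast
  simp

theorem hasU_low (hg0 : g 1 0 = (N : ℤ)) (d : ℕ) [NeZero d] (hd : d ∣ N) :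
    Cusp.HasU (fun z => JN.jN d (g • JN.dil ℓ z))
      (qExpand ℂ ℓ (qExpand ℂ d (coeffEmb ℂ jq))) := by
  refine ((Cusp.hasU_jFun.comp_dil d).comp_dil ℓ).congr fun z => ?_
  rw [JN.jN_smul_of_mem_Gamma0 d (mem_Gamma0_of_dvd N g hg0 hd)]
  rfl

omit [NeZero N] in
theorem hasU_high (hg0 : g 1 0 = (N : ℤ)) (hg1 : g 1 1 = (N : ℤ) * b + ℓ) (e d : ℕ) [NeZero d]
    (hd : d ∣ N) (he : e = d * ℓ) :
    Cusp.HasU (fun z => JN.jN e (g • JN.dil ℓ z))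
      (Cusp.twist (Complex.exp (2 * π * Complex.I * (((b : ℝ) / ℓ : ℝ) : ℂ)))
        (Complex.exp_ne_zero _) (qExpand ℂ d (coeffEmb ℂ jq))) := by
  subst he
  obtain ⟨d', hd'⟩ := hd
  refine ((Cusp.hasU_jFun.comp_dil d).comp_vadd ((b : ℝ) / ℓ)).congr fun z => ?_
  obtain ⟨δ, hδ⟩ := dil_smul_dil N ℓ b g hg0 hg1 d d' hd'.symm z
  show JN.jFun (JN.dil d ((((b : ℝ) / ℓ : ℝ)) +ᵥ z)) = JN.jFun (JN.dil (d * ℓ) (g • JN.dil ℓ z))
  rw [hδ, JN.jFun_smul]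

end Expansions

/-! ### The index type `Dv (N ℓ)` -/

section Index

variable (N ℓ : ℕ)

theorem dvd_of_not_dvd (hℓ : ℓ.Prime) (e : Dv (N * ℓ)) (h : ¬ ℓ ∣ e.1) : e.1 ∣ N :=
  (((Nat.Prime.coprime_iff_not_dvd hℓ).mpr h).symm).dvd_of_dvd_mul_right e.2

theorem div_dvd [NeZero ℓ] (e : Dv (N * ℓ)) (h : ℓ ∣ e.1) : e.1 / ℓ ∣ N := by
  obtain ⟨c, hc⟩ := h
  have h2 := e.2
  rw [hc, mul_comm N ℓ] at h2
  have h0 : 0 < ℓ := Nat.pos_of_ne_zero (NeZero.ne ℓ)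
  rw [hc, Nat.mul_div_cancel_left c h0]
  exact Nat.dvd_of_mul_dvd_mul_left h0 h2

/-- `e ↦ e` for `ℓ ∤ e`. -/
def lowD (hℓ : ℓ.Prime) (e : Dv (N * ℓ)) (h : ¬ ℓ ∣ e.1) : Dv N := ⟨e.1, dvd_of_not_dvd N ℓ hℓ e h⟩

/-- `e ↦ e / ℓ`. -/
def highD [NeZero ℓ] (e : Dv (N * ℓ)) (h : ℓ ∣ e.1) : Dv N := ⟨e.1 / ℓ, div_dvd N ℓ e h⟩

end Index

theorem coeffEmb_jqd {L : Type*} [Field L] [Algebra ℚ L] {N : ℕ} [NeZero N] (d : Dv N)
    [NeZero d.1] : coeffEmb L (jqd d) = qExpand L d.1 (coeffEmb L jq) := by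
  rw [jqd, coeffEmb, QL.coeffMap_qExpand]

section Family

variable (N ℓ : ℕ) [NeZero N] [NeZero ℓ] (hℓ : ℓ.Prime) (b : ℤ) (g : SL(2, ℤ))

/-- The complex expansion of `z ↦ j(e γ_b (ℓ z))`. -/
def fexpB (e : Dv (N * ℓ)) : LaurentSeries ℂ :=
  if h : ℓ ∣ e.1 then
    Cusp.twist (Complex.exp (2 * π * Complex.I * (((b : ℝ) / ℓ : ℝ) : ℂ))) (Complex.exp_ne_zero _)
      (coeffEmb ℂ (jqd (highD N ℓ e h)))
  else qExpand ℂ ℓ (coeffEmb ℂ (jqd (lowD N ℓ hℓ e h)))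

theorem hasU_fexpB (hg0 : g 1 0 = (N : ℤ)) (hg1 : g 1 1 = (N : ℤ) * b + ℓ) (e : Dv (N * ℓ)) :
    Cusp.HasU (fun z => JN.jN e.1 (g • JN.dil ℓ z)) (fexpB N ℓ hℓ b e) := by
  unfold fexpB
  split_ifs with h
  · have : NeZero (highD N ℓ e h).1 := ⟨(highD N ℓ e h).ne_zero⟩
    rw [coeffEmb_jqd]
    exact hasU_high N ℓ b g hg0 hg1 e.1 (highD N ℓ e h).1 (highD N ℓ e h).2
      (Nat.div_mul_cancel h).symm
  · have : NeZero (lowD N ℓ hℓ e h).1 := ⟨(lowD N ℓ hℓ e h).ne_zero⟩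
    have : NeZero e.1 := ⟨e.ne_zero⟩
    rw [coeffEmb_jqd]
    exact hasU_low N ℓ g hg0 e.1 (dvd_of_not_dvd N ℓ hℓ e h)

variable {L : Type*} [Field L] [Algebra ℚ L] (ι : L →+* ℂ) (ζ : Lˣ)

/-- The same expansions with coefficients in `L` (`ζ ↦ exp(2 π i b / ℓ)`). -/
def fexpBL (e : Dv (N * ℓ)) : LaurentSeries L :=
  if h : ℓ ∣ e.1 then S28.Kummer.twist ζ (coeffEmb L (jqd (highD N ℓ e h)))
  else qExpand L ℓ (coeffEmb L (jqd (lowD N ℓ hℓ e h)))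

theorem coeffMap_fexpBL
    (hζ : ι (ζ : L) = Complex.exp (2 * π * Complex.I * (((b : ℝ) / ℓ : ℝ) : ℂ)))
    (e : Dv (N * ℓ)) : coeffMap ι (fexpBL N ℓ hℓ ζ e) = fexpB N ℓ hℓ b e := by
  unfold fexpBL fexpB
  split_ifs with h
  · rw [S18.CLTau.coeffMap_twist ι ζ (by rw [hζ]; exact Complex.exp_ne_zero _),
      Bridge.coeffMap_coeffEmb']
    exact S18.CLTau.twist_congr hζ _ _ _
  · rw [QL.coeffMap_qExpand, Bridge.coeffMap_coeffEmb']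

/-- Evaluation of polynomials at the `L`-expansions. -/
def phiBL : MvPolynomial (Dv (N * ℓ)) L →+* LaurentSeries L :=
  MvPolynomial.eval₂Hom HahnSeries.C (fexpBL N ℓ hℓ ζ)

theorem hasU_phiBL (hg0 : g 1 0 = (N : ℤ)) (hg1 : g 1 1 = (N : ℤ) * b + ℓ)
    (hζ : ι (ζ : L) = Complex.exp (2 * π * Complex.I * (((b : ℝ) / ℓ : ℝ) : ℂ)))
    (P : MvPolynomial (Dv (N * ℓ)) L) :
    Cusp.HasU (fun z => evalFun (N * ℓ) (MvPolynomial.map ι P) (g • JN.dil ℓ z))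
      (coeffMap ι (phiBL N ℓ hℓ ζ P)) := by
  have h := Cusp.HasU.eval (fun e => hasU_fexpB N ℓ hℓ b g hg0 hg1 e) (MvPolynomial.map ι P)
  rw [MvPolynomial.eval₂_map] at h
  have h2 : (coeffMap ι).comp (phiBL N ℓ hℓ ζ)
      = MvPolynomial.eval₂Hom (HahnSeries.C.comp ι) (fexpB N ℓ hℓ b) := by
    apply MvPolynomial.ringHom_ext
    · intro c
      simp [phiBL]
    · intro e
      simp [phiBL, coeffMap_fexpBL N ℓ hℓ b ι ζ hζ]
  have h3 : coeffMap ι (phiBL N ℓ hℓ ζ P)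
      = MvPolynomial.eval₂ (HahnSeries.C.comp ι) (fexpB N ℓ hℓ b) P :=
    RingHom.congr_fun h2 P
  rw [h3]
  exact h.congr fun z => (Cusp.evalFun_apply (N * ℓ) _ _).symm

theorem phiBL_eq_zero_iff (hg0 : g 1 0 = (N : ℤ)) (hg1 : g 1 1 = (N : ℤ) * b + ℓ)
    (hζ : ι (ζ : L) = Complex.exp (2 * π * Complex.I * (((b : ℝ) / ℓ : ℝ) : ℂ)))
    (P : MvPolynomial (Dv (N * ℓ)) L) :
    evalL L (N * ℓ) P = 0 ↔ phiBL N ℓ hℓ ζ P = 0 := by
  rw [Bridge.bridgeL ι (N * ℓ) P]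
  constructor
  · intro h
    apply Bridge.coeffMap_injective ι ι.injective
    rw [map_zero]
    exact (hasU_phiBL N ℓ hℓ b g ι ζ hg0 hg1 hζ P).eq_zero fun z => by rw [h]; rfl
  · intro h
    funext w
    obtain ⟨z, hz⟩ := Cusp.exists_dil_eq ℓ (g⁻¹ • w)
    have := (hasU_phiBL N ℓ hℓ b g ι ζ hg0 hg1 hζ P).fun_eq_zero (by rw [h, map_zero]) z
    rw [hz, smul_inv_smul] at this
    exact this

end Family


/-! ### The embeddings -/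

theorem qExpand_congr {R : Type*} [CommRing R] {n m : ℕ} [NeZero n] [NeZero m] (h : n = m)
    (x : LaurentSeries R) : qExpand R n x = qExpand R m x := by
  subst h
  rfl

theorem twist_C {κ : Type*} [Field κ] (ζ : κˣ) (c : κ) :
    S28.Kummer.twist ζ (HahnSeries.C c) = HahnSeries.C c := by
  ext k
  rw [S28.Kummer.twist_coeff, HahnSeries.C_apply, HahnSeries.coeff_single]
  split_ifs with h
  · subst h
    simp
  · simp

section Emb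

variable (N ℓ : ℕ) [NeZero N] [NeZero ℓ] (hℓ : ℓ.Prime)
variable {L : Type*} [Field L] [Algebra ℚ L] (ζ : Lˣ)
variable (E : ↥(FF L (N * ℓ)) →+* LaurentSeries L)

theorem emb_algebraMap (hE : ∀ P, E (evalL L (N * ℓ) P) = phiBL N ℓ hℓ ζ P) (c : L) :
    E (algebraMap L ↥(FF L (N * ℓ)) c) = HahnSeries.C c := by
  rw [← Ext.evalL_C, hE]
  simp [phiBL]

theorem emb_gen (hE : ∀ P, E (evalL L (N * ℓ) P) = phiBL N ℓ hℓ ζ P) (e : Dv (N * ℓ)) :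
    E (gen L (N * ℓ) e) = fexpBL N ℓ hℓ ζ e := by
  rw [← Ext.evalL_X, hE]
  simp [phiBL]

theorem alpha_gen (d : Dv N) :
    heckeAlphaBar L N ℓ (gen L N d) = gen L (N * ℓ) ⟨d.1, Dvd.dvd.mul_right d.2 ℓ⟩ := by
  apply Subtype.ext
  rw [coe_heckeAlphaBar]
  rfl

theorem beta_gen (d : Dv N) :
    heckeBetaBar L N ℓ (gen L N d) = gen L (N * ℓ) ⟨d.1 * ℓ, mul_dvd_mul_right d.2 ℓ⟩ := by
  apply Subtype.ext
  rw [coe_heckeBetaBar]
  have h1 : NeZero d.1 := ⟨d.ne_zero⟩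
  show qExpand L ℓ (coeffEmb L (jqd d)) = coeffEmb L (jqd (⟨d.1 * ℓ, _⟩ : Dv (N * ℓ)))
  rw [coeffEmb_jqd, coeffEmb_jqd, qExpand_qExpand]
  exact qExpand_congr (mul_comm ℓ d.1) _

theorem emb_alpha (hℓN : ¬ ℓ ∣ N) (hE : ∀ P, E (evalL L (N * ℓ) P) = phiBL N ℓ hℓ ζ P)
    (f : ↥(FF L N)) : E (heckeAlphaBar L N ℓ f) = qExpand L ℓ (f : LaurentSeries L) := by
  have h : E.comp (heckeAlphaBar L N ℓ).toRingHom
      = (qExpand L ℓ).comp (algebraMap ↥(FF L N) (LaurentSeries L)) := by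
    apply Ext.hom_ext L N
    intro P
    have h2 : (E.comp (heckeAlphaBar L N ℓ).toRingHom).comp (evalL L N).toRingHom
        = ((qExpand L ℓ).comp (algebraMap ↥(FF L N) (LaurentSeries L))).comp
            (evalL L N).toRingHom := by
      apply MvPolynomial.ringHom_ext
      · intro c
        show E (heckeAlphaBar L N ℓ (evalL L N (MvPolynomial.C c)))
          = qExpand L ℓ ((evalL L N (MvPolynomial.C c) : ↥(FF L N)) : LaurentSeries L)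
        rw [Ext.evalL_C, AlgHom.commutes, emb_algebraMap N ℓ hℓ ζ E hE]
        show HahnSeries.C c = qExpand L ℓ (algebraMap L (LaurentSeries L) c)
        rw [algebraMap_laurentSeries_eq_single, qExpand_single, mul_zero]
        rfl
      · intro d
        show E (heckeAlphaBar L N ℓ (evalL L N (MvPolynomial.X d)))
          = qExpand L ℓ ((evalL L N (MvPolynomial.X d) : ↥(FF L N)) : LaurentSeries L)
        rw [Ext.evalL_X, alpha_gen, emb_gen N ℓ hℓ ζ E hE]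
        have hd : ¬ ℓ ∣ d.1 := fun h => hℓN (h.trans d.2)
        unfold fexpBL
        rw [dif_neg hd]
        rfl
    exact RingHom.congr_fun h2 P
  exact RingHom.congr_fun h f

theorem emb_beta (hE : ∀ P, E (evalL L (N * ℓ) P) = phiBL N ℓ hℓ ζ P)
    (f : ↥(FF L N)) :
    E (heckeBetaBar L N ℓ f) = S28.Kummer.twist ζ (f : LaurentSeries L) := by
  have h : E.comp (heckeBetaBar L N ℓ).toRingHom
      = (S28.Kummer.twist ζ).comp (algebraMap ↥(FF L N) (LaurentSeries L)) := by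
    apply Ext.hom_ext L N
    intro P
    have h2 : (E.comp (heckeBetaBar L N ℓ).toRingHom).comp (evalL L N).toRingHom
        = ((S28.Kummer.twist ζ).comp (algebraMap ↥(FF L N) (LaurentSeries L))).comp
            (evalL L N).toRingHom := by
      apply MvPolynomial.ringHom_ext
      · intro c
        show E (heckeBetaBar L N ℓ (evalL L N (MvPolynomial.C c)))
          = S28.Kummer.twist ζ ((evalL L N (MvPolynomial.C c) : ↥(FF L N)) : LaurentSeries L)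
        rw [Ext.evalL_C, AlgHom.commutes, emb_algebraMap N ℓ hℓ ζ E hE]
        show HahnSeries.C c = S28.Kummer.twist ζ (algebraMap L (LaurentSeries L) c)
        rw [algebraMap_laurentSeries_eq_single]
        exact (twist_C ζ c).symm
      · intro d
        show E (heckeBetaBar L N ℓ (evalL L N (MvPolynomial.X d)))
          = S28.Kummer.twist ζ ((evalL L N (MvPolynomial.X d) : ↥(FF L N)) : LaurentSeries L)
        rw [Ext.evalL_X, beta_gen, emb_gen N ℓ hℓ ζ E hE]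
        have hd : ℓ ∣ d.1 * ℓ := Dvd.intro_left d.1 rfl
        unfold fexpBL
        rw [dif_pos hd]
        have h3 : highD N ℓ (⟨d.1 * ℓ, mul_dvd_mul_right d.2 ℓ⟩ : Dv (N * ℓ)) hd = d :=
          Subtype.ext (Nat.mul_div_cancel d.1 (Nat.pos_of_ne_zero (NeZero.ne ℓ)))
        rw [h3]
        rfl
    exact RingHom.congr_fun h2 P
  exact RingHom.congr_fun h f

end Emb

/-- **K1**: the embeddings `E_b` of `F_{Nℓ}` into `L((u))`, `u = q^{1/ℓ}`: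
`E_b (α f) = f(u^ℓ)`, `E_b (β f) = f(ζ^b u)`. -/
theorem exists_emb {L : Type*} [Field L] [Algebra ℚ L] [IsAlgClosed L] (ι : L →+* ℂ)
    (N ℓ : ℕ) [NeZero N] [NeZero ℓ] (hℓ : ℓ.Prime) (hℓN : ¬ ℓ ∣ N) :
    ∃ ζ : Lˣ, IsPrimitiveRoot (ζ : L) ℓ ∧ ∀ b : ℕ,
      ∃ E : ↥(FF L (N * ℓ)) →+* LaurentSeries L,
        (∀ c : L, E (algebraMap L ↥(FF L (N * ℓ)) c) = HahnSeries.C c) ∧
        (∀ f : ↥(FF L N), E (heckeAlphaBar L N ℓ f) = qExpand L ℓ (f : LaurentSeries L)) ∧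
        (∀ f : ↥(FF L N),
          E (heckeBetaBar L N ℓ f) = S28.Kummer.twist (ζ ^ b) (f : LaurentSeries L)) := by
  have hprim : IsPrimitiveRoot (Complex.exp (2 * π * Complex.I / ℓ)) ℓ :=
    Complex.isPrimitiveRoot_exp ℓ (NeZero.ne ℓ)
  obtain ⟨ζ, hζ, -⟩ := S18.CLTau.exists_unit_map_eq ι ℓ _ hprim.pow_eq_one
  refine ⟨ζ, ?_, fun b => ?_⟩
  · apply IsPrimitiveRoot.of_map_of_injective (f := ι) _ ι.injective
    rw [hζ]
    exact hprim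
  · have hcop : Nat.Coprime N ℓ := ((Nat.Prime.coprime_iff_not_dvd hℓ).mpr hℓN).symm
    obtain ⟨g, hg0, hg1⟩ := exists_gamma N ℓ (b : ℤ) hcop
    have hζb : ι (((ζ ^ b : Lˣ)) : L)
        = Complex.exp (2 * π * Complex.I * ((((b : ℤ) : ℝ) / ℓ : ℝ) : ℂ)) := by
      rw [Units.val_pow_eq_pow_val, map_pow, hζ, ← Complex.exp_nat_mul]
      congr 1
      push_cast
      ring
    obtain ⟨E, hE⟩ := Ext.exists_hom L (N * ℓ) (phiBL N ℓ hℓ (ζ ^ b))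
      (phiBL_eq_zero_iff N ℓ hℓ (b : ℤ) g ι (ζ ^ b) hg0 hg1 hζb)
    exact ⟨E, emb_algebraMap N ℓ hℓ (ζ ^ b) E hE, emb_alpha N ℓ hℓ (ζ ^ b) E hℓN hE,
      emb_beta N ℓ hℓ (ζ ^ b) E hE⟩

/-- **K1** over `ℚ̄` (the frozen `modularFunctionFieldBar`). -/
theorem exists_emb_bar (N ℓ : ℕ) [NeZero N] [NeZero ℓ] (hℓ : ℓ.Prime) (hℓN : ¬ ℓ ∣ N) :
    ∃ ζ : (AlgebraicClosure ℚ)ˣ, IsPrimitiveRoot (ζ : AlgebraicClosure ℚ) ℓ ∧ ∀ b : ℕ,
      ∃ E : ↥(modularFunctionFieldBar (N * ℓ)) →+* LaurentSeries (AlgebraicClosure ℚ),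
        (∀ c : AlgebraicClosure ℚ,
          E (algebraMap (AlgebraicClosure ℚ) ↥(modularFunctionFieldBar (N * ℓ)) c)
            = HahnSeries.C c) ∧
        (∀ f : ↥(modularFunctionFieldBar N),
          E (heckeAlphaBar (AlgebraicClosure ℚ) N ℓ f)
            = qExpand (AlgebraicClosure ℚ) ℓ (f : LaurentSeries (AlgebraicClosure ℚ))) ∧
        (∀ f : ↥(modularFunctionFieldBar N),
          E (heckeBetaBar (AlgebraicClosure ℚ) N ℓ f)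
            = S28.Kummer.twist (ζ ^ b) (f : LaurentSeries (AlgebraicClosure ℚ))) := by
  let _ : Algebra ℚ (AlgebraicClosure ℚ) := AlgebraicClosure.instAlgebra ℚ
  have := AlgebraicClosure.isAlgebraic ℚ
  exact exists_emb
    ((IsAlgClosed.lift (R := ℚ) (S := AlgebraicClosure ℚ) (M := ℂ)).toRingHom) N ℓ hℓ hℓN

end Fermat.Agent.S37.KEmb

end
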