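/-
S37 (wave 8, chain K, piece K2): the norm of `F_{Nℓ} / F_N` (along the inclusion `α`) as a
product over `ℓ + 1` embeddings into Laurent series; combined with the embeddings of `KEmb`
(piece K1) this gives the product formula for the norm of `f (q ^ ℓ)`.
-/
import Mathlib
import Fermat.Agent.S18.TopLevel
import Fermat.Agent.S24.Mod.Defs
import Fermat.Agent.S37.KEmb
import Fermat.Prelude.Def_ModularCurve_HeckeOperator

set_option autoImplicit false
set_option synthInstance.maxHeartbeats 400000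

noncomputable section

open IntermediateField AlgebraicCurve ModularCurve HahnSeries

namespace Fermat.Agent.S37.KNormC

open Fermat.Agent.S18

/-- **Norm = product over a full set of embeddings.** If `F' / F` is finite separable of degree
`n` and `θ` is a family of `n` pairwise distinct `F`-algebra maps from `F'` to a field `E`, then the
norm of `w` is the product of the `θ i w`. -/
theorem algebraMap_norm_eq_prod {F F' E : Type*} [Field F] [Field F'] [Field E] [Algebra F F']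
    [Algebra F E] [FiniteDimensional F F'] [Algebra.IsSeparable F F'] {ι : Type*} [Fintype ι]
    (θ : ι → F' →ₐ[F] E) (hθ : Function.Injective θ)
    (hcard : Fintype.card ι = Module.finrank F F') (w : F') :
    algebraMap F E (Algebra.norm F w) = ∏ i, θ i w := by
  classical
  let Ebar := AlgebraicClosure E
  let c : E →ₐ[F] Ebar := IsScalarTower.toAlgHom F E Ebar
  have hc : Function.Injective c := (algebraMap E Ebar).injective
  let Θ : ι → (F' →ₐ[F] Ebar) := fun i => c.comp (θ i)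
  have hΘ : Function.Injective Θ := by
    intro i j hij
    apply hθ
    ext x
    exact hc (DFunLike.congr_fun hij x)
  have hcard' : Fintype.card ι = Fintype.card (F' →ₐ[F] Ebar) := by
    rw [hcard, AlgHom.card]
  have hbij : Function.Bijective Θ :=
    (Fintype.bijective_iff_injective_and_card Θ).mpr ⟨hΘ, hcard'⟩
  have h1 := Algebra.norm_eq_prod_embeddings F Ebar w
  apply hc
  show algebraMap E Ebar (algebraMap F E (Algebra.norm F w)) = algebraMap E Ebar (∏ i, θ i w)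
  rw [← IsScalarTower.algebraMap_apply, h1, map_prod]
  exact (Fintype.prod_bijective Θ hbij _ _ fun i => rfl).symm

/-- The same with ring homomorphisms: `κ : F →+* E` and a family of `n = [F' : F]` pairwise
distinct ring maps `θ i : F' →+* E` extending `κ`. -/
theorem map_norm_eq_prod {F F' E : Type*} [Field F] [Field F'] [Field E] [Algebra F F']
    [FiniteDimensional F F'] [Algebra.IsSeparable F F'] (κ : F →+* E) {ι : Type*} [Fintype ι]
    (θ : ι → F' →+* E) (hκ : ∀ i f, θ i (algebraMap F F' f) = κ f) (hθ : Function.Injective θ)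
    (hcard : Fintype.card ι = Module.finrank F F') (w : F') :
    κ (Algebra.norm F w) = ∏ i, θ i w := by
  letI : Algebra F E := κ.toAlgebra
  let Θ : ι → F' →ₐ[F] E := fun i => { θ i with commutes' := fun f => hκ i f }
  have hΘ : Function.Injective Θ := by
    intro i j hij
    apply hθ
    ext x
    exact DFunLike.congr_fun hij x
  exact algebraMap_norm_eq_prod Θ hΘ hcard w

section Concrete

variable (N ℓ : ℕ) [NeZero N] [NeZero ℓ]

/-- The algebra structure of `F_{Nℓ}` over `F_N` along the inclusion `α`. -/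
@[reducible] def algα : Algebra ↥(FN N) ↥(FN (N * ℓ)) := algOfLE (bar_mono (dvd_mul_right N ℓ))

/-- It is the structure used by the frozen `NormFormulaAlong` for `heckeAlphaBar`. -/
theorem algα_eq : algα N ℓ = algebraAlong (heckeAlphaBar Qb N ℓ) := rfl

omit [NeZero N] [NeZero ℓ] in
theorem algα_coe (a : ↥(FN N)) :
    ((@algebraMap ↥(FN N) ↥(FN (N * ℓ)) _ _ (algα N ℓ) a : ↥(FN (N * ℓ))) : LaurentSeries Qb)
      = (a : LaurentSeries Qb) := algOfLE_algebraMap (bar_mono (dvd_mul_right N ℓ)) a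

theorem algα_apply (a : ↥(FN N)) :
    @algebraMap ↥(FN N) ↥(FN (N * ℓ)) _ _ (algα N ℓ) a = heckeAlphaBar Qb N ℓ a := rfl

theorem finite_α : @Module.Finite ↥(FN N) ↥(FN (N * ℓ)) _ _ (algα N ℓ).toModule :=
  @LiftD.finite_bar N (N * ℓ) _ _ (dvd_mul_right N ℓ) (algα N ℓ) (algα_coe N ℓ)

theorem sep_α : @Algebra.IsSeparable ↥(FN N) ↥(FN (N * ℓ)) _ _ (algα N ℓ) := by
  letI := algα N ℓ
  haveI := finite_α N ℓ
  haveI : CharZero ↥(FN N) := charZero_of_injective_algebraMap (algebraMap ℚ ↥(FN N)).injective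
  exact Algebra.IsAlgebraic.isSeparable_of_perfectField

/-- `[F_{Nℓ} : F_N] = ℓ + 1` along `α`, for a prime `ℓ ∤ N`. -/
theorem finrank_α (hℓ : ℓ.Prime) (hℓN : ¬ ℓ ∣ N) :
    @Module.finrank ↥(FN N) ↥(FN (N * ℓ)) _ _ (algα N ℓ).toModule = ℓ + 1 :=
  levelDeg_eq_of_dedekindPsi (dvd_mul_right N ℓ) (c := ℓ + 1) (by
    rw [Fermat.Agent.S24.Comb.dedekindPsi_mul_of_not_dvd (NeZero.ne N) hℓ hℓN, mul_comm])

/-- The base embedding `f ↦ f (q ^ ℓ)` of `F_N`. -/
def kap : ↥(FN N) →+* LaurentSeries Qb := (qExpand Qb ℓ).comp (FN N).val.toRingHom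

/-- The `ℓ + 1` extensions: the standard one and the twisted ones. -/
def thet (E : ℕ → ↥(FN (N * ℓ)) →+* LaurentSeries Qb) :
    Option (Fin ℓ) → ↥(FN (N * ℓ)) →+* LaurentSeries Qb
  | none => (qExpand Qb ℓ).comp (FN (N * ℓ)).val.toRingHom
  | some b => E b

/-- `j` as an element of `F_N`. -/
def jN : ↥(FN N) := S24.jElt Qb N

theorem jN_coeff : ((jN N : ↥(FN N)) : LaurentSeries Qb).coeff (-1) = 1 := by
  have h : ((jN N : ↥(FN N)) : LaurentSeries Qb) = coeffEmb Qb (qExpand ℚ 1 jq) := rfl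
  rw [h, qExpand_one_apply, coeffEmb_coeff, coeff_jq_neg_one, map_one]

theorem thet_injective (hℓ : ℓ.Prime) (ζ : Qbˣ) (hζ : IsPrimitiveRoot (ζ : Qb) ℓ)
    (E : ℕ → ↥(FN (N * ℓ)) →+* LaurentSeries Qb)
    (hEβ : ∀ b (f : ↥(FN N)),
      E b (heckeBetaBar Qb N ℓ f) = S28.Kummer.twist (ζ ^ b) (f : LaurentSeries Qb)) :
    Function.Injective (thet N ℓ E) := by
  -- test on `β j`: coefficient of `q⁻¹`
  have hsome : ∀ b : Fin ℓ, (thet N ℓ E (some b) (heckeBetaBar Qb N ℓ (jN N))).coeff (-1)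
      = ((ζ ^ (b : ℕ) : Qbˣ)⁻¹ : Qbˣ) := by
    intro b
    show (E b (heckeBetaBar Qb N ℓ (jN N))).coeff (-1) = _
    rw [hEβ, S28.Kummer.twist_coeff, jN_coeff, mul_one, zpow_neg_one, Units.val_inv_eq_inv_val]
  have hnone : (thet N ℓ E none (heckeBetaBar Qb N ℓ (jN N))).coeff (-1) = 0 := by
    show (qExpand Qb ℓ (qExpand Qb ℓ ((jN N : ↥(FN N)) : LaurentSeries Qb))).coeff (-1) = 0
    refine qExpand_coeff_of_not_dvd ℓ _ ?_
    intro hd
    have h1 : (ℓ : ℤ) ∣ 1 := (dvd_neg).mp hd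
    have h2 : ℓ ∣ 1 := by exact_mod_cast h1
    exact hℓ.one_lt.ne' (Nat.dvd_one.mp h2)
  intro x y hxy
  have hc : (thet N ℓ E x (heckeBetaBar Qb N ℓ (jN N))).coeff (-1)
      = (thet N ℓ E y (heckeBetaBar Qb N ℓ (jN N))).coeff (-1) := by rw [hxy]
  cases x with
  | none =>
    cases y with
    | none => rfl
    | some b =>
      rw [hnone, hsome] at hc
      exact absurd hc.symm (Units.ne_zero _)
  | some a =>
    cases y with
    | none =>
      rw [hnone, hsome] at hc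
      exact absurd hc (Units.ne_zero _)
    | some b =>
      rw [hsome, hsome] at hc
      have h1 : (ζ ^ (a : ℕ) : Qbˣ) = ζ ^ (b : ℕ) := inv_injective (Units.ext hc)
      have h2 : (a : ℕ) = b := (IsPrimitiveRoot.coe_units_iff.mp hζ).pow_inj a.2 b.2 h1
      exact congrArg some (Fin.ext h2)

/-- **K2.** The norm of `F_{Nℓ} / F_N` along `α`, after `q ↦ q ^ ℓ`, is the product of the
standard embedding `w ↦ w (q ^ ℓ)` and the `ℓ` twisted embeddings `E b`. -/
theorem qExpand_norm (hℓ : ℓ.Prime) (hℓN : ¬ ℓ ∣ N) (ζ : Qbˣ) (hζ : IsPrimitiveRoot (ζ : Qb) ℓ)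
    (E : ℕ → ↥(FN (N * ℓ)) →+* LaurentSeries Qb)
    (hEα : ∀ b (f : ↥(FN N)),
      E b (heckeAlphaBar Qb N ℓ f) = qExpand Qb ℓ (f : LaurentSeries Qb))
    (hEβ : ∀ b (f : ↥(FN N)),
      E b (heckeBetaBar Qb N ℓ f) = S28.Kummer.twist (ζ ^ b) (f : LaurentSeries Qb))
    (w : ↥(FN (N * ℓ))) :
    qExpand Qb ℓ ((@Algebra.norm ↥(FN N) ↥(FN (N * ℓ)) _ _ (algα N ℓ) w : ↥(FN N)) :
        LaurentSeries Qb)
      = qExpand Qb ℓ (w : LaurentSeries Qb) * ∏ b ∈ Finset.range ℓ, E b w := by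
  have hκ : ∀ i f, thet N ℓ E i (@algebraMap ↥(FN N) ↥(FN (N * ℓ)) _ _ (algα N ℓ) f)
      = kap N ℓ f := by
    intro i f
    rw [algα_apply]
    cases i with
    | none =>
      show qExpand Qb ℓ ((heckeAlphaBar Qb N ℓ f : ↥(FN (N * ℓ))) : LaurentSeries Qb)
        = qExpand Qb ℓ (f : LaurentSeries Qb)
      rw [coe_heckeAlphaBar]
    | some b => exact hEα b f
  have hcard : Fintype.card (Option (Fin ℓ))
      = @Module.finrank ↥(FN N) ↥(FN (N * ℓ)) _ _ (algα N ℓ).toModule := by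
    rw [finrank_α N ℓ hℓ hℓN, Fintype.card_option, Fintype.card_fin]
  have h := @map_norm_eq_prod ↥(FN N) ↥(FN (N * ℓ)) (LaurentSeries Qb) _ _ _ (algα N ℓ)
    (finite_α N ℓ) (sep_α N ℓ) (kap N ℓ) (Option (Fin ℓ)) _ (thet N ℓ E) hκ
    (thet_injective N ℓ hℓ ζ hζ E hEβ) hcard w
  rw [Fintype.prod_option] at h
  rw [← Fin.prod_univ_eq_prod_range (fun b => E b w) ℓ]
  exact h

/-- **K1 + K2.** The product formula for the norm of `β f = f (q ^ ℓ)`: after `q ↦ q ^ ℓ` it is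
`f (q ^ (ℓ ^ 2)) * ∏_{b < ℓ} f (ζ ^ b q)`. -/
theorem exists_qExpand_norm_beta (hℓ : ℓ.Prime) (hℓN : ¬ ℓ ∣ N) :
    ∃ ζ : Qbˣ, IsPrimitiveRoot (ζ : Qb) ℓ ∧ ∀ f : ↥(FN N),
      qExpand Qb ℓ ((@Algebra.norm ↥(FN N) ↥(FN (N * ℓ)) _ _ (algα N ℓ)
          (heckeBetaBar Qb N ℓ f) : ↥(FN N)) : LaurentSeries Qb)
        = qExpand Qb ℓ (qExpand Qb ℓ (f : LaurentSeries Qb))
          * ∏ b ∈ Finset.range ℓ, S28.Kummer.twist (ζ ^ b) (f : LaurentSeries Qb) := by
  obtain ⟨ζ, hζ, hE⟩ := KEmb.exists_emb_bar N ℓ hℓ hℓN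
  choose E hEc hEα hEβ using hE
  refine ⟨ζ, hζ, fun f => ?_⟩
  rw [qExpand_norm N ℓ hℓ hℓN ζ hζ E hEα hEβ, coe_heckeBetaBar]
  refine congrArg _ (Finset.prod_congr rfl fun b _ => ?_)
  exact hEβ b f

end Concrete

end Fermat.Agent.S37.KNormC
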