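/-
S37 (wave 8, chain K, pieces K3 + K4): the Kronecker congruence for the norm of `y (q ^ ℓ)`.

For a prime `ℓ ∤ N`, a valuation ring `A` of `ℚ̄` with residue characteristic `ℓ` and a Laurent
series `y` with coefficients in `A` lying in `F_N`, the norm of `β y = y (q ^ ℓ)` from `F_{Nℓ}` to
`F_N` (along the inclusion `α`) has coefficients in `A`, and its reduction is
`ȳ (q ^ ℓ) * (φ ȳ) (q)`, where `φ` raises the coefficients to the `ℓ`-th power.

Proof: by `KNormC.exists_qExpand_norm_beta` the norm `h` satisfies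
`h (q ^ ℓ) = y (q ^ (ℓ ^ 2)) * ∏_{b < ℓ} y (ζ ^ b q)` with `ζ` a primitive `ℓ`-th root of unity;
`ζ` is a unit of `A` reducing to `1`, so the right-hand side has coefficients in `A` and reduces to
`ȳ (q ^ (ℓ ^ 2)) * ȳ ^ ℓ = (ȳ (q ^ ℓ) * (φ ȳ) (q)) (q ^ ℓ)`.
-/
import Mathlib
import Fermat.Agent.S37.KNormC
import Fermat.Agent.S18.RContent
import Fermat.Agent.S18.CLEmbBase
import Fermat.Agent.S28.Phi.Basic
import Fermat.Agent.S28.A0Theta
import Fermat.Agent.S24.QL

set_option autoImplicit false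
set_option synthInstance.maxHeartbeats 400000

noncomputable section

open IntermediateField AlgebraicCurve ModularCurve HahnSeries

namespace Fermat.Agent.S37.KRed

open Fermat.Agent.S18

/-! ### K4: `ℓ`-th powers of Laurent series in characteristic `ℓ` -/

section K4

variable {k : Type*} [Field k] (ℓ : ℕ) [Fact ℓ.Prime] [CharP k ℓ]

/-- In characteristic `ℓ`: `x ^ ℓ = (φ x) (q ^ ℓ)`, where `φ` is the coefficientwise Frobenius. -/
theorem pow_char_eq_qExpand (x : LaurentSeries k) :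
    x ^ ℓ = qExpand k ℓ (coeffMap (frobenius k ℓ) x) := by
  have hℓ : ℓ ≠ 0 := (Fact.out : ℓ.Prime).ne_zero
  have h1 : ∀ g : PowerSeries k, (HahnSeries.ofPowerSeries ℤ k g) ^ ℓ
      = qExpand k ℓ (coeffMap (frobenius k ℓ) (HahnSeries.ofPowerSeries ℤ k g)) := by
    intro g
    rw [coeffMap_ofPowerSeries, S28.A0Theta.qExpand_ofPowerSeries ℓ hℓ, ← map_pow]
    congr 1
    rw [← PowerSeries.map_expand]
    exact (MvPowerSeries.map_frobenius_expand ℓ hℓ).symm
  have h2 : ∀ n : ℤ, (HahnSeries.single n (1 : k)) ^ ℓ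
      = qExpand k ℓ (coeffMap (frobenius k ℓ) (HahnSeries.single n (1 : k))) := by
    intro n
    rw [coeffMap_single, qExpand_single, HahnSeries.single_pow, map_one, one_pow, nsmul_eq_mul]
  have hx := LaurentSeries.single_order_mul_powerSeriesPart x
  calc x ^ ℓ = (HahnSeries.single x.order (1 : k)
        * HahnSeries.ofPowerSeries ℤ k x.powerSeriesPart) ^ ℓ := by rw [hx]
    _ = qExpand k ℓ (coeffMap (frobenius k ℓ) x) := by
      rw [mul_pow, h1, h2, ← map_mul, ← map_mul, hx]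

/-- A unit of order dividing `ℓ` in characteristic `ℓ` is `1`. -/
theorem unit_eq_one_of_pow_char (v : kˣ) (hv : v ^ ℓ = 1) : v = 1 := by
  apply Units.ext
  apply frobenius_inj k ℓ
  rw [frobenius_def, frobenius_def, Units.val_one, one_pow, ← Units.val_pow_eq_pow_val, hv,
    Units.val_one]

end K4

/-! ### Twists -/

theorem twistU_one {R : Type*} [CommRing R] (x : LaurentSeries R) :
    S28.Phi.twistU (1 : Rˣ) x = x := by
  ext n
  rw [S28.Phi.twistU_coeff, one_zpow, Units.val_one, one_mul]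

theorem kummer_twist_eq_twistU {κ : Type*} [Field κ] (ξ : κˣ) (x : LaurentSeries κ) :
    S28.Kummer.twist ξ x = S28.Phi.twistU ξ x := by
  ext n
  rw [S28.Kummer.twist_coeff, S28.Phi.twistU_coeff, Units.val_zpow_eq_zpow_val]

/-! ### K3: integrality and reduction of the norm -/

/-- **(K0), explicit instance form.** -/
theorem exists_norm_red' (N ℓ : ℕ) [NeZero N] [Fact ℓ.Prime] (hℓN : ¬ ℓ ∣ N)
    (A : ValuationSubring Qb) [CharP (Kb A) ℓ]
    (y : LaurentSeries A) (hy : coeffMap A.subtype y ∈ FN N) :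
    ∃ w : LaurentSeries A,
      ((@Algebra.norm ↥(FN N) ↥(FN (N * ℓ)) _ _ (KNormC.algα N ℓ)
          (heckeBetaBar Qb N ℓ ⟨coeffMap A.subtype y, hy⟩) : ↥(FN N)) : LaurentSeries Qb)
        = coeffMap A.subtype w ∧
      coeffMap (IsLocalRing.residue A) w
        = qExpand (Kb A) ℓ (coeffMap (IsLocalRing.residue A) y)
          * coeffMap (frobenius (Kb A) ℓ) (coeffMap (IsLocalRing.residue A) y) := by
  have hℓ : ℓ.Prime := Fact.out
  obtain ⟨ζ, hζ, hnorm⟩ := KNormC.exists_qExpand_norm_beta N ℓ hℓ hℓN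
  obtain ⟨u, hu, hu1⟩ := CLE.exists_unit_eq A hℓ.pos hζ.pow_eq_one
  have hu' : Units.map (A.subtype : ↥A →* Qb) u = ζ := Units.ext hu
  have hubar : Units.map (IsLocalRing.residue A : ↥A →* Kb A) u = 1 := by
    apply unit_eq_one_of_pow_char ℓ
    rw [← map_pow, hu1, map_one]
  generalize hh : ((@Algebra.norm ↥(FN N) ↥(FN (N * ℓ)) _ _ (KNormC.algα N ℓ)
    (heckeBetaBar Qb N ℓ ⟨coeffMap A.subtype y, hy⟩) : ↥(FN N)) : LaurentSeries Qb) = h
  have hnorm' := hnorm ⟨coeffMap A.subtype y, hy⟩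
  rw [hh] at hnorm'
  -- the product over `A`
  set P : LaurentSeries A := qExpand A ℓ (qExpand A ℓ y)
    * ∏ b ∈ Finset.range ℓ, S28.Phi.twistU (u ^ b) y with hPdef
  have hP : qExpand Qb ℓ h = coeffMap A.subtype P := by
    rw [hnorm', hPdef, map_mul, map_prod, S24.QL.coeffMap_qExpand, S24.QL.coeffMap_qExpand]
    congr 1
    refine Finset.prod_congr rfl fun b _ => ?_
    rw [S28.Phi.coeffMap_twistU, kummer_twist_eq_twistU]
    show S28.Phi.twistU (ζ ^ b) (coeffMap A.subtype y)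
      = S28.Phi.twistU (Units.map (A.subtype : ↥A →* Qb) (u ^ b)) (coeffMap A.subtype y)
    rw [map_pow, hu']
  have hcoef : ∀ n, h.coeff n ∈ A := by
    intro n
    rw [← qExpand_coeff_mul ℓ h n, hP, coeffMap_coeff]
    exact (P.coeff _).2
  refine ⟨RC.liftA A h, (RC.coeffMap_subtype_liftA A hcoef).symm, ?_⟩
  have hw : qExpand A ℓ (RC.liftA A h) = P := by
    apply RC.coeffMap_subtype_injective A
    rw [S24.QL.coeffMap_qExpand, RC.coeffMap_subtype_liftA A hcoef, hP]
  apply qExpand_injective (R := Kb A) ℓ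
  rw [← S24.QL.coeffMap_qExpand (IsLocalRing.residue A) ℓ (RC.liftA A h), hw,
    map_mul (qExpand (Kb A) ℓ), ← pow_char_eq_qExpand, hPdef,
    map_mul, map_prod, S24.QL.coeffMap_qExpand, S24.QL.coeffMap_qExpand]
  congr 1
  have hb : ∀ b ∈ Finset.range ℓ, coeffMap (IsLocalRing.residue A) (S28.Phi.twistU (u ^ b) y)
      = coeffMap (IsLocalRing.residue A) y := by
    intro b _
    rw [S28.Phi.coeffMap_twistU]
    show S28.Phi.twistU (Units.map (IsLocalRing.residue A : ↥A →* Kb A) (u ^ b)) _ = _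
    rw [map_pow, hubar, one_pow, twistU_one]
  rw [Finset.prod_congr rfl hb, Finset.prod_const, Finset.card_range]

/-- **(K0): the Kronecker congruence for the norm of `y (q ^ ℓ)`**, in the frozen
integral-series shape: `N_α (β y)` has coefficients in `A`, and its reduction is
`ȳ (q ^ ℓ) * (φ ȳ) (q)`. -/
theorem exists_norm_red (N ℓ : ℕ) [NeZero N] [Fact ℓ.Prime] (hℓN : ¬ ℓ ∣ N)
    (A : ValuationSubring Qb) (_hA : A.LiesOverPrime ℓ) [CharP (Kb A) ℓ]
    (y : LaurentSeries A) (hy : coeffMap A.subtype y ∈ FN N) :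
    ∃ w : LaurentSeries A,
      (letI := algebraAlong (heckeAlphaBar Qb N ℓ)
       ((Algebra.norm (FN N) (heckeBetaBar Qb N ℓ ⟨coeffMap A.subtype y, hy⟩) : FN N) :
          LaurentSeries Qb)) = coeffMap A.subtype w ∧
      coeffMap (IsLocalRing.residue A) w
        = qExpand (Kb A) ℓ (coeffMap (IsLocalRing.residue A) y)
          * coeffMap (frobenius (Kb A) ℓ) (coeffMap (IsLocalRing.residue A) y) :=
  exists_norm_red' N ℓ hℓN A y hy

end Fermat.Agent.S37.KRed

end
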