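import Fermat.Agent.S37.Iface
import Fermat.Agent.S37.ESCore
import Fermat.Agent.S37.HeckeInputs
import Fermat.Agent.S18.RGaussBar
import Fermat.Agent.S18.PHyp
import Fermat.Agent.S18.UPhiB
import Fermat.Agent.S37.KRed
import Fermat.Agent.S37.CoeffAut
import Fermat.Agent.S37.GalEq

/-!
# S37, piece ES (second seat, helper15): `ESB.frobHeckeStmt : FrobHeckeStmt`

The Hecke clause `Red (T_ℓ x) = φ • Red x + ℓ • φ⁻¹ • Red x` for
`Red = reductionModL A M ∘ pb h` and `φ = CoeffAut.frobAut A hA M`, from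
* the Kronecker norm congruence `KRed.exists_norm_red` for `A`-integral `q`-expansions,
* the frozen reduction property `(*)` at level `M`,
* `T_ℓ (div y) = div (N_α (y(q^ℓ)))` (`HeckeIn`), and
* the rigidity lemma in the form `ESCore.eq_of_principal`;
the Frobenius clause is `GalEq.red_pb_frobPhi`.
-/

set_option autoImplicit false
set_option synthInstance.maxHeartbeats 400000
set_option linter.style.haveILetI false
set_option linter.unusedSectionVars false

noncomputable section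

open HahnSeries IntermediateField AlgebraicCurve ModularCurve

namespace Fermat.Agent.S37.ESB

open Fermat.Agent.S18

section Generic

variable {k G : Type*} [Field k] [Field G] [Algebra k G]

/-- The translate of the divisor of `g` by a semilinear automorphism is the divisor of `φ • g`. -/
theorem smul_apply_of_ord (φ : SemilinearAut k G) {X : Divisor k G} {g : G}
    (hX : ∀ Q, X Q = Q.ord g) (Q : Place k G) : (φ • X) Q = Q.ord (φ • g) := by
  rw [SemilinearAut.divisor_smul_apply, hX]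
  have h := SemilinearAut.ord_smul φ (φ⁻¹ • Q) g
  rw [smul_inv_smul] at h
  exact h.symm

/-- The divisor identity behind Eichler–Shimura, generic form: if `w = (φ⁻¹ y) ^ ℓ * φ y` then
`div w = φ • div y + ℓ • φ⁻¹ • div y`. -/
theorem divisor_identity_gen (φ : SemilinearAut k G) (ℓ : ℕ) {y w : G} (hy : y ≠ 0)
    (hfun : w = (φ⁻¹ • y) ^ ℓ * (φ • y)) {X Y : Divisor k G} (hX : ∀ Q, X Q = Q.ord y)
    (hY : ∀ Q, Y Q = Q.ord w) : Y = φ • X + ℓ • (φ⁻¹ • X) := by
  have hne1 : φ • y ≠ 0 := (smul_ne_zero_iff_ne φ).mpr hy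
  have hne2 : φ⁻¹ • y ≠ 0 := (smul_ne_zero_iff_ne φ⁻¹).mpr hy
  ext Q
  rw [hY Q, hfun, Finsupp.add_apply, Finsupp.smul_apply, smul_apply_of_ord φ hX Q,
    smul_apply_of_ord φ⁻¹ hX Q, nsmul_eq_mul, Q.ord_mul (pow_ne_zero ℓ hne2) hne1,
    ← zpow_natCast, Q.ord_zpow]
  ring

end Generic

section GenericSub

variable {K F F₁ F₂ k G : Type*} [Field K] [Field F] [Field F₁] [Field F₂] [Field k] [Field G]
  [Algebra K F] [Algebra K F₁] [Algebra K F₂] [Algebra k G]
  [Algebra F F₂] [IsScalarTower K F F₂] [Algebra.IsIntegral F F₂]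
  [HasPrincipalDivisors K F₁] [HasPrincipalDivisors K F₂]

/-- The Eichler–Shimura divisor identity is stable under differences. -/
theorem identity_sub (α β : F →ₐ[K] F₁) (hα : α.toRingHom.IsIntegral)
    (hβ : β.toRingHom.IsIntegral) (r : Place K F₂ → Place k G) (φ : SemilinearAut k G) (ℓ : ℕ)
    {Da Db : Divisor K F}
    (ha : Finsupp.mapDomain r (Divisor.pullback F₂ (Divisor.correspondence β α hβ hα Da))
        = φ • Finsupp.mapDomain r (Divisor.pullback F₂ Da)
          + ℓ • (φ⁻¹ • Finsupp.mapDomain r (Divisor.pullback F₂ Da)))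
    (hb : Finsupp.mapDomain r (Divisor.pullback F₂ (Divisor.correspondence β α hβ hα Db))
        = φ • Finsupp.mapDomain r (Divisor.pullback F₂ Db)
          + ℓ • (φ⁻¹ • Finsupp.mapDomain r (Divisor.pullback F₂ Db))) :
    Finsupp.mapDomain r (Divisor.pullback F₂ (Divisor.correspondence β α hβ hα (Da - Db)))
        = φ • Finsupp.mapDomain r (Divisor.pullback F₂ (Da - Db))
          + ℓ • (φ⁻¹ • Finsupp.mapDomain r (Divisor.pullback F₂ (Da - Db))) := by
  rw [map_sub, map_sub, Finsupp.mapDomain_sub, ha, hb, map_sub, Finsupp.mapDomain_sub, smul_sub,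
    smul_sub, smul_sub]
  abel

end GenericSub

section OrdSub

variable {K F : Type*} [Field K] [Field F] [Algebra K F]

/-- If `f * b = c * a` with `c` a nonzero constant, then `div f = div a - div b`. -/
theorem divisor_eq_sub {f a b : F} {c : K} (hf : f ≠ 0) (hb : b ≠ 0) (ha : a ≠ 0) (hc : c ≠ 0)
    (hrel : f * b = algebraMap K F c * a) {D Da Db : Divisor K F} (hD : ∀ v, D v = v.ord f)
    (hDa : ∀ v, Da v = v.ord a) (hDb : ∀ v, Db v = v.ord b) : D = Da - Db := by
  ext v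
  have hc' : algebraMap K F c ≠ 0 := (map_ne_zero (algebraMap K F)).mpr hc
  have h1 := congrArg v.ord hrel
  rw [v.ord_mul hf hb, v.ord_mul hc' ha, Fermat.Agent.S24.Places.ord_algebraMap, zero_add] at h1
  rw [Finsupp.sub_apply, hD, hDa, hDb]
  omega

end OrdSub

section Levels

/-- The Kronecker norm congruence (K0) for `A`-integral `q`-expansions at level `N`:
`N_α (y(q^ℓ))` is `A`-integral with reduction `ȳ(q^ℓ) · (φ ȳ)(q)`. -/
def K0 (N ℓ : ℕ) [NeZero N] [Fact ℓ.Prime] (A : ValuationSubring Qb) [CharP (Kb A) ℓ] : Prop :=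
  ∀ (y : LaurentSeries A) (hy : coeffMap A.subtype y ∈ FN N),
    ∃ w : LaurentSeries A,
      (letI := algebraAlong (heckeAlphaBar Qb N ℓ)
       ((Algebra.norm (FN N) (heckeBetaBar Qb N ℓ ⟨coeffMap A.subtype y, hy⟩) : FN N) :
          LaurentSeries Qb)) = coeffMap A.subtype w ∧
      coeffMap (IsLocalRing.residue A) w
        = qExpand (Kb A) ℓ (coeffMap (IsLocalRing.residue A) y)
          * coeffMap (frobenius (Kb A) ℓ) (coeffMap (IsLocalRing.residue A) y)

variable {N M : ℕ} [NeZero N] [NeZero M] (h : N ∣ M) {ℓ : ℕ} [Fact ℓ.Prime] (hℓM : ¬ ℓ ∣ M)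
  (A : ValuationSubring Qb) (hA : A.LiesOverPrime ℓ) [CharP (Kb A) ℓ]

/-- `T_ℓ (div a)` for an `A`-integral function `a` of level `N`: it is the divisor of an
`A`-integral function `w` with reduction `ā(q^ℓ) · (φ ā)(q)` (from (K0) and the norm formula). -/
theorem correspondence_incl (hK0 : K0 N ℓ A) {a : LaurentSeries A}
    (ha : coeffMap A.subtype a ∈ FN N) (ha0 : coeffMap (IsLocalRing.residue A) a ≠ 0)
    {D : Divisor Qb (FN N)} (hD : ∀ v, D v = v.ord (⟨coeffMap A.subtype a, ha⟩ : FN N)) :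
    haveI := HeckeIn.hasPrincipalDivisors (N * ℓ)
    ∃ (w : LaurentSeries A) (hwN : coeffMap A.subtype w ∈ FN N),
      coeffMap (IsLocalRing.residue A) w
        = qExpand (Kb A) ℓ (coeffMap (IsLocalRing.residue A) a)
          * coeffMap (frobenius (Kb A) ℓ) (coeffMap (IsLocalRing.residue A) a) ∧
      ∀ v, Divisor.correspondence (heckeBetaBar Qb N ℓ) (heckeAlphaBar Qb N ℓ)
        (HeckeIn.heckeBetaBarIntegral N ℓ) (HeckeIn.heckeAlphaBarIntegral N ℓ) D v
          = v.ord (⟨coeffMap A.subtype w, hwN⟩ : FN N) := by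
  haveI := HeckeIn.hasPrincipalDivisors (N * ℓ)
  have hy0 : (⟨coeffMap A.subtype a, ha⟩ : FN N) ≠ 0 := by
    intro h0
    apply ha0
    have h1 : coeffMap A.subtype a = 0 := congrArg Subtype.val h0
    rw [RG.incl_injective A (h1.trans (map_zero _).symm), map_zero]
  obtain ⟨w, hw, hwred⟩ := hK0 a ha
  have hwN : coeffMap A.subtype w ∈ FN N := by
    rw [← hw]
    exact Subtype.property _
  refine ⟨w, hwN, hwred, fun v => ?_⟩
  have hEq : @Algebra.norm (FN N) _ _ _ (algebraAlong (heckeAlphaBar Qb N ℓ))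
      (heckeBetaBar Qb N ℓ ⟨coeffMap A.subtype a, ha⟩)
      = (⟨coeffMap A.subtype w, hwN⟩ : FN N) := Subtype.ext hw
  rw [HeckeIn.correspondence_apply_of_principal (heckeBetaBar Qb N ℓ) (heckeAlphaBar Qb N ℓ)
    (HeckeIn.heckeBetaBarIntegral N ℓ) (HeckeIn.heckeAlphaBarIntegral N ℓ)
    (HeckeIn.finiteAlong_alpha N ℓ)
    (HeckeIn.normFormulaAlong _ (HeckeIn.finiteAlong_alpha N ℓ) (HeckeIn.deg_one N)
      (HeckeIn.deg_one (N * ℓ))) hy0 hD v, hEq]

/-- The image in `F_M` of an element of `F_N` with `A`-integral `q`-expansion. -/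
theorem algebraMap_incl {a : LaurentSeries A} (ha : coeffMap A.subtype a ∈ FN N) :
    letI := algOfLE (bar_mono h)
    algebraMap (FN N) (FN M) (⟨coeffMap A.subtype a, ha⟩ : FN N)
      = (⟨coeffMap A.subtype a, bar_mono h ha⟩ : FN M) := by
  letI := algOfLE (bar_mono h)
  exact Subtype.ext (algOfLE_algebraMap (bar_mono h) _)

/-- The frozen reduction property at level `M` for an `A`-integral element of `F_N`: the
reduction of the pulled back divisor of `a` is the divisor of `ā`. -/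
theorem mapDomain_pullback_incl
    {r : Place Qb (FN M) → Place (Kb A) (FbN A M)} (hr : IsPlaceReductionModL A M r)
    {a : LaurentSeries A} (ha : coeffMap A.subtype a ∈ FN N)
    (ha0 : coeffMap (IsLocalRing.residue A) a ≠ 0)
    {D : Divisor Qb (FN N)} (hD : ∀ v, D v = v.ord (⟨coeffMap A.subtype a, ha⟩ : FN N))
    (Q : Place (Kb A) (FbN A M)) :
    letI := algOfLE (bar_mono h)
    haveI := isScalarTower_algOfLE (bar_mono h)
    haveI : Module.Finite (FN N) (FN M) := ROR.finite_bar h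
    haveI := ROR.hasPrincipalDivisors_bar (M := M)
    Finsupp.mapDomain r (Divisor.pullback (FN M) D) Q
      = Q.ord (⟨coeffMap (IsLocalRing.residue A) a,
          RN.coeffMap_residue_mem M A hℓM hA a (bar_mono h ha)⟩ : FbN A M) := by
  letI := algOfLE (bar_mono h)
  haveI := isScalarTower_algOfLE (bar_mono h)
  haveI : Module.Finite (FN N) (FN M) := ROR.finite_bar h
  haveI := ROR.hasPrincipalDivisors_bar (M := M)
  refine hr.2 a (bar_mono h ha) _ ha0 _ (fun P => ?_) Q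
  rw [Divisor.pullback_apply_eq_ord hD P, algebraMap_incl h A ha]

/-- The divisor identity in characteristic `ℓ`: if `w̄ = ȳ(q^ℓ) · (φ ȳ)(q)` then
`div w̄ = φ • div ȳ + ℓ • φ⁻¹ • div ȳ`. -/
theorem divisor_identity (φ : SemilinearAut (Kb A) (FbN A M))
    (hφ : ∀ z : FbN A M, ((φ • z : FbN A M) : LaurentSeries (Kb A))
      = coeffMap (frobenius (Kb A) ℓ) (z : LaurentSeries (Kb A)))
    (hpow : ∀ z : LaurentSeries (Kb A),
      z ^ ℓ = qExpand (Kb A) ℓ (coeffMap (frobenius (Kb A) ℓ) z))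
    {yb wb : FbN A M} (hyb0 : yb ≠ 0)
    (hwb : (wb : LaurentSeries (Kb A)) = qExpand (Kb A) ℓ (yb : LaurentSeries (Kb A))
      * coeffMap (frobenius (Kb A) ℓ) (yb : LaurentSeries (Kb A)))
    {X Y : Divisor (Kb A) (FbN A M)} (hX : ∀ Q, X Q = Q.ord yb) (hY : ∀ Q, Y Q = Q.ord wb) :
    Y = φ • X + ℓ • (φ⁻¹ • X) := by
  have e2 : ((φ⁻¹ • yb : FbN A M) : LaurentSeries (Kb A)) ^ ℓ
      = qExpand (Kb A) ℓ (yb : LaurentSeries (Kb A)) := by
    rw [hpow, ← hφ (φ⁻¹ • yb), smul_inv_smul]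
  have hfun : wb = (φ⁻¹ • yb) ^ ℓ * (φ • yb) := by
    apply Subtype.ext
    rw [hwb, ← e2, ← hφ yb]
    rfl
  exact divisor_identity_gen φ ℓ hyb0 hfun hX hY

/-- **The Eichler–Shimura identity on the divisor of an `A`-integral function**: with the
Kronecker congruence (K0), `r_* π^* (T_ℓ div a) = φ • r_* π^* div a + ℓ • φ⁻¹ • r_* π^* div a`. -/
theorem key_integral (hℓM : ¬ ℓ ∣ M) (hA : A.LiesOverPrime ℓ) (hK0 : K0 N ℓ A)
    {r : Place Qb (FN M) → Place (Kb A) (FbN A M)} (hr : IsPlaceReductionModL A M r)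
    (φ : SemilinearAut (Kb A) (FbN A M))
    (hφ : ∀ z : FbN A M, ((φ • z : FbN A M) : LaurentSeries (Kb A))
      = coeffMap (frobenius (Kb A) ℓ) (z : LaurentSeries (Kb A)))
    (hpow : ∀ z : LaurentSeries (Kb A),
      z ^ ℓ = qExpand (Kb A) ℓ (coeffMap (frobenius (Kb A) ℓ) z))
    {a : LaurentSeries A} (ha : coeffMap A.subtype a ∈ FN N)
    (ha0 : coeffMap (IsLocalRing.residue A) a ≠ 0)
    {D : Divisor Qb (FN N)} (hD : ∀ v, D v = v.ord (⟨coeffMap A.subtype a, ha⟩ : FN N)) :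
    letI := algOfLE (bar_mono h)
    haveI := isScalarTower_algOfLE (bar_mono h)
    haveI : Module.Finite (FN N) (FN M) := ROR.finite_bar h
    haveI := ROR.hasPrincipalDivisors_bar (M := M)
    haveI := HeckeIn.hasPrincipalDivisors (N * ℓ)
    Finsupp.mapDomain r (Divisor.pullback (FN M)
        (Divisor.correspondence (heckeBetaBar Qb N ℓ) (heckeAlphaBar Qb N ℓ)
          (HeckeIn.heckeBetaBarIntegral N ℓ) (HeckeIn.heckeAlphaBarIntegral N ℓ) D))
      = φ • Finsupp.mapDomain r (Divisor.pullback (FN M) D)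
        + ℓ • (φ⁻¹ • Finsupp.mapDomain r (Divisor.pullback (FN M) D)) := by
  obtain ⟨w, hwN, hwred, hTord⟩ := correspondence_incl A hK0 ha ha0 hD
  have hyb0 : (⟨coeffMap (IsLocalRing.residue A) a,
      RN.coeffMap_residue_mem M A hℓM hA a (bar_mono h ha)⟩ : FbN A M) ≠ 0 :=
    fun h0 => ha0 (congrArg Subtype.val h0)
  have hwred0 : coeffMap (IsLocalRing.residue A) w ≠ 0 := by
    rw [hwred]
    exact mul_ne_zero ((map_ne_zero (qExpand (Kb A) ℓ)).mpr ha0)
      ((map_ne_zero (coeffMap (frobenius (Kb A) ℓ))).mpr ha0)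
  exact divisor_identity A φ hφ hpow hyb0
    (wb := ⟨coeffMap (IsLocalRing.residue A) w,
      RN.coeffMap_residue_mem M A hℓM hA w (bar_mono h hwN)⟩) hwred
    (fun Q => mapDomain_pullback_incl h hℓM A hA hr ha ha0 hD Q)
    (fun Q => mapDomain_pullback_incl h hℓM A hA hr hwN hwred0 hTord Q)

/-- Every nonzero function of level `N` is, up to a nonzero constant, a quotient of two
functions with `A`-integral `q`-expansions and nonzero reductions. -/
theorem exists_integral_quot (f : FN N) (hf : f ≠ 0) :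
    ∃ (c : Qb) (a b : LaurentSeries A) (ha : coeffMap A.subtype a ∈ FN N)
      (hb : coeffMap A.subtype b ∈ FN N), c ≠ 0 ∧
      coeffMap (IsLocalRing.residue A) a ≠ 0 ∧ coeffMap (IsLocalRing.residue A) b ≠ 0 ∧
      (⟨coeffMap A.subtype a, ha⟩ : FN N) ≠ 0 ∧ (⟨coeffMap A.subtype b, hb⟩ : FN N) ≠ 0 ∧
      f * (⟨coeffMap A.subtype b, hb⟩ : FN N)
        = algebraMap Qb (FN N) c * (⟨coeffMap A.subtype a, ha⟩ : FN N) := by
  obtain ⟨c, a, b, hc, ha, hb, ⟨ka, hka⟩, ⟨kb, hkb⟩, hrel⟩ := RG.exists_unit_form A N f hf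
  have ha0 := RG.red_ne_zero_of_coeff_eq_one A hka
  have hb0 := RG.red_ne_zero_of_coeff_eq_one A hkb
  have hne : ∀ (y : LaurentSeries A) (hy : coeffMap A.subtype y ∈ FN N),
      coeffMap (IsLocalRing.residue A) y ≠ 0 → (⟨coeffMap A.subtype y, hy⟩ : FN N) ≠ 0 := by
    intro y hy hy0 h0
    apply hy0
    have h1 : coeffMap A.subtype y = 0 := congrArg Subtype.val h0
    rw [RG.incl_injective A (h1.trans (map_zero _).symm), map_zero]
  refine ⟨c, a, b, ha, hb, hc, ha0, hb0, hne a ha ha0, hne b hb hb0, Subtype.ext ?_⟩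
  rw [IntermediateField.coe_mul, IntermediateField.coe_mul, RG.coe_algebraMap_FF]
  exact hrel

end Levels

section GenericPic

variable {K F F₁ F₂ k G : Type*} [Field K] [Field F] [Field F₁] [Field F₂] [Field k] [Field G]
  [Algebra K F] [Algebra K F₁] [Algebra K F₂] [Algebra k G]
  [Algebra F F₂] [IsScalarTower K F F₂] [Algebra.IsIntegral F F₂]
  [HasPrincipalDivisors K F₁] [HasPrincipalDivisors K F₂] [FundamentalIdentity K F F₂]

/-- From the divisor identity to the identity of divisor classes. -/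
theorem pic0_identity (α β : F →ₐ[K] F₁) (hα : α.toRingHom.IsIntegral)
    (hβ : β.toRingHom.IsIntegral) (hFI : FundamentalIdentityAlong K β hβ)
    (r : Place K F₂ → Place k G)
    (Rdz : Divisor.degZero (K := K) (F := F₂) →+ Divisor.degZero (K := k) (F := G))
    (hRdz : ∀ E, (Rdz E : Divisor k G) = Finsupp.mapDomain r (E : Divisor K F₂))
    (φ : SemilinearAut k G) (ℓ : ℕ) (D : Divisor.degZero (K := K) (F := F))
    (key : Finsupp.mapDomain r
        (Divisor.pullback F₂ (Divisor.correspondence β α hβ hα (D : Divisor K F)))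
        = φ • Finsupp.mapDomain r (Divisor.pullback F₂ (D : Divisor K F))
          + ℓ • (φ⁻¹ • Finsupp.mapDomain r (Divisor.pullback F₂ (D : Divisor K F)))) :
    Pic0.mk (Rdz (Pic0.pullbackDegZeroHom F₂ (Pic0.degZeroCorrespondence β α hβ hα hFI D)))
      = φ • Pic0.mk (Rdz (Pic0.pullbackDegZeroHom F₂ D))
        + ℓ • (φ⁻¹ • Pic0.mk (Rdz (Pic0.pullbackDegZeroHom F₂ D))) := by
  rw [SemilinearAut.pic0_smul_mk, SemilinearAut.pic0_smul_mk]
  have e : Rdz (Pic0.pullbackDegZeroHom F₂ (Pic0.degZeroCorrespondence β α hβ hα hFI D))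
      = SemilinearAut.degZeroSMulHom φ (Rdz (Pic0.pullbackDegZeroHom F₂ D))
        + ℓ • SemilinearAut.degZeroSMulHom φ⁻¹ (Rdz (Pic0.pullbackDegZeroHom F₂ D)) := by
    apply Subtype.ext
    rw [hRdz, AddSubgroup.coe_add, AddSubgroup.coe_nsmul, SemilinearAut.coe_degZeroSMulHom,
      SemilinearAut.coe_degZeroSMulHom, hRdz, Pic0.coe_pullbackDegZeroHom,
      Pic0.coe_pullbackDegZeroHom, Pic0.coe_degZeroCorrespondence]
    exact key
  rw [e]
  rfl

end GenericPic

section Levels2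

variable {N M : ℕ} [NeZero N] [NeZero M] (h : N ∣ M) {ℓ : ℕ} [Fact ℓ.Prime] (hℓM : ¬ ℓ ∣ M)
  (A : ValuationSubring Qb) (hA : A.LiesOverPrime ℓ) [CharP (Kb A) ℓ]

set_option maxHeartbeats 1600000 in
/-- **The Eichler–Shimura identity on principal divisors.** -/
theorem key_principal (hℓM : ¬ ℓ ∣ M) (hA : A.LiesOverPrime ℓ) (hK0 : K0 N ℓ A)
    {r : Place Qb (FN M) → Place (Kb A) (FbN A M)} (hr : IsPlaceReductionModL A M r)
    (φ : SemilinearAut (Kb A) (FbN A M))
    (hφ : ∀ z : FbN A M, ((φ • z : FbN A M) : LaurentSeries (Kb A))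
      = coeffMap (frobenius (Kb A) ℓ) (z : LaurentSeries (Kb A)))
    (hpow : ∀ z : LaurentSeries (Kb A),
      z ^ ℓ = qExpand (Kb A) ℓ (coeffMap (frobenius (Kb A) ℓ) z))
    (D : Divisor Qb (FN N)) (hD : D.IsPrincipal) :
    letI := algOfLE (bar_mono h)
    haveI := isScalarTower_algOfLE (bar_mono h)
    haveI : Module.Finite (FN N) (FN M) := ROR.finite_bar h
    haveI := ROR.hasPrincipalDivisors_bar (M := M)
    haveI := HeckeIn.hasPrincipalDivisors (N * ℓ)
    Finsupp.mapDomain r (Divisor.pullback (FN M)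
        (Divisor.correspondence (heckeBetaBar Qb N ℓ) (heckeAlphaBar Qb N ℓ)
          (HeckeIn.heckeBetaBarIntegral N ℓ) (HeckeIn.heckeAlphaBarIntegral N ℓ) D))
      = φ • Finsupp.mapDomain r (Divisor.pullback (FN M) D)
        + ℓ • (φ⁻¹ • Finsupp.mapDomain r (Divisor.pullback (FN M) D)) := by
  obtain ⟨f, hf, hDf⟩ := hD
  obtain ⟨c, a, b, ha, hb, hc, ha0, hb0, hane, hbne, hrel⟩ := exists_integral_quot A f hf
  obtain ⟨Da, hDa, -⟩ := (PHyp.hyp0_bar N).principal _ hane
  obtain ⟨Db, hDb, -⟩ := (PHyp.hyp0_bar N).principal _ hbne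
  have hsub : D = Da - Db := divisor_eq_sub hf hbne hane hc hrel hDf hDa hDb
  have Ha := key_integral h A hℓM hA hK0 hr φ hφ hpow ha ha0 hDa
  have Hb := key_integral h A hℓM hA hK0 hr φ hφ hpow hb hb0 hDb
  rw [hsub]
  letI := algOfLE (bar_mono h)
  haveI := isScalarTower_algOfLE (bar_mono h)
  haveI : Module.Finite (FN N) (FN M) := ROR.finite_bar h
  haveI := ROR.hasPrincipalDivisors_bar (M := M)
  haveI := HeckeIn.hasPrincipalDivisors (N * ℓ)
  exact identity_sub (heckeAlphaBar Qb N ℓ) (heckeBetaBar Qb N ℓ)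
    (HeckeIn.heckeAlphaBarIntegral N ℓ) (HeckeIn.heckeBetaBarIntegral N ℓ) r φ ℓ Ha Hb

set_option maxHeartbeats 1600000 in
/-- **The Eichler–Shimura identity on divisors of degree zero** (rigidity). -/
theorem key_degZero (hℓM : ¬ ℓ ∣ M) (hA : A.LiesOverPrime ℓ) (hK0 : K0 N ℓ A)
    {r : Place Qb (FN M) → Place (Kb A) (FbN A M)} (hr : IsPlaceReductionModL A M r)
    (φ : SemilinearAut (Kb A) (FbN A M))
    (hφ : ∀ z : FbN A M, ((φ • z : FbN A M) : LaurentSeries (Kb A))
      = coeffMap (frobenius (Kb A) ℓ) (z : LaurentSeries (Kb A)))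
    (hpow : ∀ z : LaurentSeries (Kb A),
      z ^ ℓ = qExpand (Kb A) ℓ (coeffMap (frobenius (Kb A) ℓ) z))
    (D : Divisor Qb (FN N)) (hD : Divisor.degree D = 0) :
    letI := algOfLE (bar_mono h)
    haveI := isScalarTower_algOfLE (bar_mono h)
    haveI : Module.Finite (FN N) (FN M) := ROR.finite_bar h
    haveI := ROR.hasPrincipalDivisors_bar (M := M)
    haveI := HeckeIn.hasPrincipalDivisors (N * ℓ)
    Finsupp.mapDomain r (Divisor.pullback (FN M)
        (Divisor.correspondence (heckeBetaBar Qb N ℓ) (heckeAlphaBar Qb N ℓ)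
          (HeckeIn.heckeBetaBarIntegral N ℓ) (HeckeIn.heckeAlphaBarIntegral N ℓ) D))
      = φ • Finsupp.mapDomain r (Divisor.pullback (FN M) D)
        + ℓ • (φ⁻¹ • Finsupp.mapDomain r (Divisor.pullback (FN M) D)) := by
  have H := fun (E : Divisor Qb (FN N)) (hE : E.IsPrincipal) =>
    key_principal h A hℓM hA hK0 hr φ hφ hpow E hE
  have hdegG := (UPhiB.hyp0_FbN A hA M).deg_one
  haveI := HeckeIn.hasPrincipalDivisors (N * ℓ)
  have hFI := HeckeIn.fundamentalIdentityAlong (heckeBetaBar Qb N ℓ) (HeckeIn.finiteAlong_beta N ℓ)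
    (HeckeIn.heckeBetaBarIntegral N ℓ) (HeckeIn.deg_one N) (HeckeIn.deg_one (N * ℓ))
  letI := algOfLE (bar_mono h)
  haveI := isScalarTower_algOfLE (bar_mono h)
  haveI : Module.Finite (FN N) (FN M) := ROR.finite_bar h
  haveI := ROR.hasPrincipalDivisors_bar (M := M)
  haveI := fundamentalIdentity_bar h
  exact ESCore.eq_of_principal (HeckeIn.deg_one N) (PHyp.genusR Qb ↥(FN N))
    (GalEq.exists_mem_riemannRochSpace N) (PHyp.hyp0_bar N).principal hdegG
    (heckeAlphaBar Qb N ℓ) (heckeBetaBar Qb N ℓ) (HeckeIn.heckeAlphaBarIntegral N ℓ)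
    (HeckeIn.heckeBetaBarIntegral N ℓ) hFI r hr.1 φ ℓ H D hD

set_option maxHeartbeats 1600000 in
/-- **The Hecke clause of `FrobHeckeStmt`** for a semilinear automorphism `φ` acting on
`q`-expansions as the coefficientwise Frobenius. -/
theorem hecke_clause (hℓ : ℓ.Prime) (hℓM : ¬ ℓ ∣ M) (hA : A.LiesOverPrime ℓ) (hK0 : K0 N ℓ A)
    (hRI : ReductionInputsModL A M) (φ : SemilinearAut (Kb A) (FbN A M))
    (hφ : ∀ z : FbN A M, ((φ • z : FbN A M) : LaurentSeries (Kb A))
      = coeffMap (frobenius (Kb A) ℓ) (z : LaurentSeries (Kb A)))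
    (hpow : ∀ z : LaurentSeries (Kb A),
      z ^ ℓ = qExpand (Kb A) ℓ (coeffMap (frobenius (Kb A) ℓ) z))
    (x : JZero N) :
    reductionModL A M (pb h (heckeOperatorBar N ⟨ℓ, hℓ⟩ x))
      = φ • reductionModL A M (pb h x) + ℓ • (φ⁻¹ • reductionModL A M (pb h x)) := by
  obtain ⟨D, rfl⟩ := Pic0.mk_surjective x
  have hr := isPlaceReductionModL_placeReductionModL hRI
  have key := key_degZero h A hℓM hA hK0 hr φ hφ hpow D.1 (Divisor.mem_degZero.mp D.2)
  haveI := HeckeIn.hasPrincipalDivisors (N * ℓ)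
  have hFI := HeckeIn.fundamentalIdentityAlong (heckeBetaBar Qb N ℓ) (HeckeIn.finiteAlong_beta N ℓ)
    (HeckeIn.heckeBetaBarIntegral N ℓ) (HeckeIn.deg_one N) (HeckeIn.deg_one (N * ℓ))
  have hT : heckeOperatorBar N ⟨ℓ, hℓ⟩ (Pic0.mk D)
      = Pic0.mk (Pic0.degZeroCorrespondence (heckeBetaBar Qb N ℓ) (heckeAlphaBar Qb N ℓ)
        (HeckeIn.heckeBetaBarIntegral N ℓ) (HeckeIn.heckeAlphaBarIntegral N ℓ) hFI D) :=
    HeckeIn.heckeOperatorAlong_mk N ℓ D
  rw [hT]
  letI := algOfLE (bar_mono h)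
  haveI := isScalarTower_algOfLE (bar_mono h)
  haveI : Module.Finite (FN N) (FN M) := ROR.finite_bar h
  haveI := ROR.hasPrincipalDivisors_bar (M := M)
  haveI := fundamentalIdentity_bar h
  have hp1 : pb h (Pic0.mk D) = Pic0.mk (Pic0.pullbackDegZeroHom ↥(FN M) D) := rfl
  have hp2 : pb h (Pic0.mk (Pic0.degZeroCorrespondence (heckeBetaBar Qb N ℓ)
        (heckeAlphaBar Qb N ℓ) (HeckeIn.heckeBetaBarIntegral N ℓ)
        (HeckeIn.heckeAlphaBarIntegral N ℓ) hFI D))
      = Pic0.mk (Pic0.pullbackDegZeroHom ↥(FN M) (Pic0.degZeroCorrespondence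
        (heckeBetaBar Qb N ℓ) (heckeAlphaBar Qb N ℓ) (HeckeIn.heckeBetaBarIntegral N ℓ)
        (HeckeIn.heckeAlphaBarIntegral N ℓ) hFI D)) := rfl
  rw [hp1, hp2, reductionModL_mk hRI, reductionModL_mk hRI]
  exact pic0_identity (heckeAlphaBar Qb N ℓ) (heckeBetaBar Qb N ℓ)
    (HeckeIn.heckeAlphaBarIntegral N ℓ) (HeckeIn.heckeBetaBarIntegral N ℓ) hFI
    (placeReductionModL hRI) (reductionDegZeroAlong (placeReductionModL hRI) hr.1)
    (fun E => rfl) φ ℓ D key

end Levels2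


/-- **[chain ES]** the interface statement `FrobHeckeStmt`: `Φ` = the coefficientwise Frobenius
`frobAut`, the Frobenius clause from chain GAL, the Hecke clause from the Kronecker congruence
(chain K), the norm formula (chain HECKE) and rigidity. -/
theorem frobHeckeStmt : FrobHeckeStmt := by
  intro ℓ hℓ A hA N M _ _ h hℓM hRI
  haveI : Fact ℓ.Prime := ⟨hℓ⟩
  haveI := RN.charP_residueField A hA
  have hℓN : ¬ ℓ ∣ N := fun hd => hℓM (dvd_trans hd h)
  refine ⟨GalEq.frobPhi A hA M, GalEq.frobPsi A hA M, GalEq.frobPsi_frobPhi A hA M,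
    GalEq.red_pb_frobPhi A hA h hℓM hRI, fun x => ?_⟩
  have hφ : ∀ z : FbN A M, ((CoeffAut.frobAut A hA M • z : FbN A M) : LaurentSeries (Kb A))
      = coeffMap (frobenius (Kb A) ℓ) (z : LaurentSeries (Kb A)) := fun z => rfl
  exact hecke_clause h A hℓ hℓM hA (fun y hy => KRed.exists_norm_red N ℓ hℓN A hA y hy) hRI
    (CoeffAut.frobAut A hA M) hφ (fun z => KRed.pow_char_eq_qExpand ℓ z) x

end Fermat.Agent.S37.ESB
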