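/-
S37 (wave 8), chain GD: tame genus descent as a corollary of the lifting chains of wave 7.

For levels `N ∣ M`, `ℓ ∤ M`, and a place reduction `r` at level `N`, the lifting property
`LiftPropV A hA h hℓM r` forces

  `genusR ℚ̄ F_M ≤ genusR k F̄_M`,

i.e. the genus squeeze at level `M` (dimension count: for `G` of large degree on `F_N`, every
element of `L̄_M(π̄^* r_* G)` lifts to the Gauss-integral part of `L_M(π^* G)`, whose reduction has
dimension `ℓ_M(π^* G) = d · deg G + 1 - g_M`).

With `N = 1` (where the genus squeeze is trivial, so that `DeuringStmt` provides a place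
reduction `r₁`), `LiftOfSqueezeStmtV` at `(1, M')` and `TraceDescentStmtV` at `(1, M, M')` give
`LiftPropV` at `(1, M)`, hence `GenusSqueeze A M' → GenusSqueeze A M` whenever `ℓ ∤ [F_M' : F_M]`.
-/
import Fermat.Agent.S37.Iface
import Fermat.Agent.S18.Iface2
import Fermat.Agent.S18.TopLiftB

set_option autoImplicit false
set_option synthInstance.maxHeartbeats 400000
set_option linter.style.haveILetI false

noncomputable section

open ModularCurve AlgebraicCurve IntermediateField

namespace Fermat.Agent.S37.GDLift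

open Fermat.Agent.S18 Fermat.Agent.S20

/-! ### Level one -/

theorem nuTwo_one : nuTwo 1 = 1 := by
  unfold nuTwo
  rw [Nat.card_eq_one_iff_unique]
  exact ⟨⟨fun a b => Subtype.ext (Subsingleton.elim _ _)⟩, ⟨⟨0, Subsingleton.elim _ _⟩⟩⟩

theorem nuThree_one : nuThree 1 = 1 := by
  unfold nuThree
  rw [Nat.card_eq_one_iff_unique]
  exact ⟨⟨fun a b => Subtype.ext (Subsingleton.elim _ _)⟩, ⟨⟨0, Subsingleton.elim _ _⟩⟩⟩

theorem genusFormula_one : genusFormula 1 = 0 := by
  unfold genusFormula
  rw [dedekindPsi_one, nuTwo_one, nuThree_one, cuspCount_one]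
  norm_num

/-- The genus squeeze at level `1` (both genera are `0`). -/
theorem genusSqueeze_one {ℓ : ℕ} [Fact ℓ.Prime] (A : ValuationSubring Qb)
    (hA : A.LiesOverPrime ℓ) : GenusSqueeze A 1 := by
  refine ⟨0, ?_, ?_⟩
  · refine GSA.genusLE_of_rat (q := genusFormula 1) (fun D => C0F.riemann_char0 1 D) ?_
    rw [genusFormula_one]
    norm_num
  · exact GSA.genusGE_of_le (GST.hyp_Kb A hA 1) (PHyp.genusR_nonneg (GST.hyp_Kb A hA 1))

/-! ### The dimension count -/

section Count

variable {ℓ : ℕ} [Fact ℓ.Prime] (A : ValuationSubring Qb) (hA : A.LiesOverPrime ℓ)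
  {N M : ℕ} [NeZero N] [NeZero M] (h : N ∣ M) (hℓM : ¬ ℓ ∣ M)

set_option maxHeartbeats 2000000 in
include hA hℓM in
/-- If every element of the relative Riemann–Roch space of `Gb` (special fibre) lifts to a
Gauss-integral element of the relative Riemann–Roch space of `G`, then
`dim_k L̄_M(π̄^* Ḡ) ≤ dim_ℚ̄ L_M(π^* G)`. -/
theorem finrank_le_of_lift (G : Divisor Qb ↥(FN N)) (Gb : Divisor (Kb A) ↥(FbN A N))
    (hlift :
      letI := algOfLE (bar_mono h)
      letI := algOfLE (fullC_mono (Kb A) h)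
      ∀ y : FbN A M, UpN.RelIntegral Gb y →
        ∃ x : RGB.V M A, UpN.RelIntegral G (x : FN M) ∧ RGB.rho M hℓM A hA x = y) :
    letI := algOfLE (bar_mono h)
    letI := algOfLE (fullC_mono (Kb A) h)
    haveI := isScalarTower_algOfLE (bar_mono h)
    haveI := isScalarTower_algOfLE (fullC_mono (Kb A) h)
    Module.finrank (Kb A) (ROR.relSpace (F' := ↥(FbN A M)) Gb) ≤
      Module.finrank Qb (ROR.relSpace (F' := ↥(FN M)) G) := by
  letI := algOfLE (bar_mono h)
  letI := algOfLE (fullC_mono (Kb A) h)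
  haveI := isScalarTower_algOfLE (bar_mono h)
  haveI := isScalarTower_algOfLE (fullC_mono (Kb A) h)
  obtain ⟨n, w, hn, -, -, hint⟩ := ROR.exists_basis h hℓM A hA G
  have hle : ROR.relSpace (F' := ↥(FbN A M)) Gb ≤
      Submodule.span (Kb A) (Set.range fun i => RGB.rho M hℓM A hA (w i)) := by
    intro y hy
    obtain ⟨x, hx, rfl⟩ := hlift y hy
    obtain ⟨a, ha⟩ := hint x hx
    have hxV : x = ∑ i, (⟨algebraMap Qb ↥(FN M) (a i : Qb), RG.algebraMap_mem_V A M (a i)⟩ :
        RGB.V M A) * w i := by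
      apply Subtype.ext
      rw [ha]
      push_cast
      exact Finset.sum_congr rfl fun i _ => Algebra.smul_def _ _
    rw [hxV, map_sum]
    refine Submodule.sum_mem _ fun i _ => ?_
    rw [map_mul, RGB.rho_algebraMap, ← Algebra.smul_def]
    exact Submodule.smul_mem _ _ (Submodule.subset_span ⟨i, rfl⟩)
  haveI : Module.Finite (Kb A)
      (Submodule.span (Kb A) (Set.range fun i => RGB.rho M hℓM A hA (w i))) :=
    FiniteDimensional.span_of_finite _ (Set.finite_range _)
  calc Module.finrank (Kb A) (ROR.relSpace (F' := ↥(FbN A M)) Gb)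
      ≤ Module.finrank (Kb A)
          (Submodule.span (Kb A) (Set.range fun i => RGB.rho M hℓM A hA (w i))) :=
        Submodule.finrank_mono hle
    _ ≤ Fintype.card (Fin n) := finrank_range_le_card _
    _ = Module.finrank Qb (ROR.relSpace (F' := ↥(FN M)) G) := by rw [Fintype.card_fin, hn]

set_option maxHeartbeats 4000000 in
include hA hℓM in
/-- **Genus comparison from the lifting property**: if sections over the special fibre lift for
divisors of large degree pulled back from a level `N ∣ M` (with a degree-preserving place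
reduction `r` at level `N`), then the Riemann genus of `F_M` is at most that of `F̄_M`. -/
theorem genusR_le_of_liftPropV (r : Place Qb (FN N) → Place (Kb A) (FbN A N))
    (hr : IsPlaceReductionModL A N r) (hlift : LiftPropV A hA h hℓM r) :
    PHyp.genusR Qb ↥(FN M) ≤ PHyp.genusR (Kb A) ↥(FbN A M) := by
  letI := algOfLE (bar_mono h)
  letI := algOfLE (fullC_mono (Kb A) h)
  haveI := isScalarTower_algOfLE (bar_mono h)
  haveI := isScalarTower_algOfLE (fullC_mono (Kb A) h)
  haveI := ROR.finite_bar h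
  haveI := ROR.hasPrincipalDivisors_bar (M := M)
  haveI := PModCB.finite_FbN A hA h hℓM
  haveI := SepLevel.isSeparable_FbN A hA h hℓM
  haveI := TopLiftB.hasPrincipalDivisors_Kb A hA (M := M)
  obtain ⟨cL, hL⟩ := hlift
  obtain ⟨-, c0, h0⟩ := PHyp.genusR_spec (PHyp.hyp_bar M)
  refine PHyp.le_genusR_of (GST.hyp_Kb A hA M) fun c => ?_
  obtain ⟨G, hG⟩ := PHyp.exists_degree_ge (PHyp.hyp_bar N) (max (max cL c0) (max c 0))
  have hG1 : cL ≤ Divisor.degree G := le_trans (le_trans (le_max_left _ _) (le_max_left _ _)) hG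
  have hG2 : c0 ≤ Divisor.degree G := le_trans (le_trans (le_max_right _ _) (le_max_left _ _)) hG
  have hG3 : c ≤ Divisor.degree G := le_trans (le_trans (le_max_left _ _) (le_max_right _ _)) hG
  have hG4 : 0 ≤ Divisor.degree G := le_trans (le_trans (le_max_right _ _) (le_max_right _ _)) hG
  have hdegGb : Divisor.degree (Finsupp.mapDomain r G) = Divisor.degree G :=
    degree_mapDomain_of_deg_eq hr.1 G
  have hd := TopLiftB.finrank_eq A hA h hℓM
  have hd1 : (1 : ℤ) ≤ (Module.finrank ↥(FN N) ↥(FN M) : ℤ) := by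
    exact_mod_cast Module.finrank_pos
  have hdegb := TopLiftB.degree_pullback_Kb A hA h hℓM (Finsupp.mapDomain r G)
  have hdeg := FundId.degree_pullback (F' := ↥(FN M)) (PHyp.hyp0_bar N).deg_one
    (PHyp.hyp0_bar M).deg_one G
  have hfin := finrank_le_of_lift A hA h hℓM G (Finsupp.mapDomain r G)
    (fun y hy => hL G hG1 y hy)
  rw [ROR.relSpace_eq, ROR.relSpace_eq] at hfin
  have e1 := h0 (Divisor.pullback ↥(FN M) G) (by rw [hdeg]; nlinarith)
  rw [hdeg] at e1
  have hfin' : (RR.ell (Divisor.pullback ↥(FbN A M) (Finsupp.mapDomain r G)) : ℤ) ≤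
      (RR.ell (Divisor.pullback ↥(FN M) G) : ℤ) := by
    exact_mod_cast hfin
  have hdZ : (Module.finrank ↥(FbN A N) ↥(FbN A M) : ℤ) = (Module.finrank ↥(FN N) ↥(FN M) : ℤ) := by
    exact_mod_cast hd.symm
  refine ⟨Divisor.pullback ↥(FbN A M) (Finsupp.mapDomain r G), ?_, ?_⟩
  · rw [hdegb, hdegGb, hdZ]
    nlinarith
  · rw [hdegb, hdegGb, hdZ]
    linarith

include hA hℓM in
/-- The genus squeeze at level `M` from the lifting property relative to a level `N ∣ M`. -/
theorem genusSqueeze_of_liftPropV (r : Place Qb (FN N) → Place (Kb A) (FbN A N))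
    (hr : IsPlaceReductionModL A N r) (hlift : LiftPropV A hA h hℓM r) : GenusSqueeze A M :=
  ⟨PHyp.genusR Qb ↥(FN M), GSA.genusLE_genusR (PHyp.hyp_bar M),
    GSA.genusGE_of_le (GST.hyp_Kb A hA M) (genusR_le_of_liftPropV A hA h hℓM r hr hlift)⟩

end Count

/-! ### Tame genus descent -/

/-- **[chain GD]** tame genus descent from Deuring's construction at level `1` and the lifting
chains of wave 7 (`LiftOfSqueezeStmtV`, `TraceDescentStmtV`) run with `N = 1`. -/
theorem genusDescentStmt_of (hDeu : DeuringStmt) (hL : LiftOfSqueezeStmtV)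
    (hT : TraceDescentStmtV) : GenusDescentStmt := by
  intro ℓ _ A hA M M' _ _ h' hℓM' hdeg hsq
  have hℓM : ¬ ℓ ∣ M := fun hd => hℓM' (hd.trans h')
  have hℓ1 : ¬ ℓ ∣ 1 := fun hd =>
    (Fact.out : ℓ.Prime).one_lt.ne' (Nat.dvd_one.mp hd)
  obtain ⟨r, hr, hgen⟩ := hDeu ℓ A hA 1 hℓ1 (genusSqueeze_one A hA)
  have hlift' : LiftPropV A hA (one_dvd M') hℓM' r :=
    hL ℓ A hA 1 M' (one_dvd M') hℓM' r hr hgen hsq
  have hlift : LiftPropV A hA (one_dvd M) hℓM r :=
    hT ℓ A hA 1 M M' (one_dvd M) h' hℓM hℓM' hdeg r hr hgen hlift'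
  exact genusSqueeze_of_liftPropV A hA (one_dvd M) hℓM r hr hlift

end Fermat.Agent.S37.GDLift

end
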