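import Fermat.Agent.S37.Iface
import Fermat.Agent.S18.UpNorm

/-!
# S37, piece INJ: pull-back of divisor classes is injective on torsion prime to the degree

`F ⊂ F'` a finite separable extension of function fields over `K` (places of `F` of positive
degree, principal divisors of degree zero).  If `D` is a divisor of degree `0` of `F` whose
pull-back to `F'` is principal, `π^* D = div g`, then `g⁻¹` lies in the relative Riemann–Roch
space of `D`, hence (norm step, `UpN.isPrincipal_nsmul_of_relIntegral`) `[F' : F] • D` is
principal.  So the kernel of `π^* : Pic⁰(F) → Pic⁰(F')` is killed by `[F' : F]`.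
-/

set_option autoImplicit false
set_option linter.unusedSectionVars false
set_option linter.style.haveILetI false

open AlgebraicCurve IsDedekindDomain

namespace Fermat.Agent.S37.PbInj

open Fermat.Agent.S18

noncomputable section

section Generic

variable {K F F' : Type*} [Field K] [Field F] [Field F'] [Algebra K F] [Algebra K F']
  [Algebra F F'] [IsScalarTower K F F'] [FiniteDimensional F F'] [Algebra.IsSeparable F F']

attribute [local instance 5] FundId.algV
attribute [local instance] FundId.towerV FundId.isDedekindDomain_intB FundId.isFractionRing_intB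
  FundId.finite_intB FundId.faithful_intB FundId.flat_intB

/-- Every nonzero prime of the integral closure of `O_v` lies over the maximal ideal of `O_v`. -/
theorem liesOver_pv (v : Place K F) (P : HeightOneSpectrum (FundId.intB F' v)) :
    P.asIdeal.LiesOver (FundId.pv v) := by
  constructor
  have hprime : (P.asIdeal.under v.toValuationSubring).IsPrime := Ideal.IsPrime.under _ _
  have hne : P.asIdeal.under v.toValuationSubring ≠ ⊥ := by
    haveI : Algebra.IsIntegral v.toValuationSubring (FundId.intB F' v) :=
      Algebra.IsIntegral.of_finite _ _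
    exact Ideal.under_ne_bot _ P.ne_bot
  have hmax : (P.asIdeal.under v.toValuationSubring).IsMaximal := hprime.isMaximal hne
  exact (IsLocalRing.eq_maximalIdeal hmax).symm

/-- An element of `F'` lying in the valuation ring of every place above `v` is integral over the
valuation ring of `v`. -/
theorem isIntegral_of_forall_mem (v : Place K F) (y : F')
    (h : ∀ w : Place K F', w.toValuationSubring.comap (algebraMap F F') = v.toValuationSubring →
      y ∈ w.toValuationSubring) :
    IsIntegral v.toValuationSubring y := by
  have hy : y ∈ (algebraMap (FundId.intB F' v) F').range := by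
    apply HeightOneSpectrum.mem_integers_of_valuation_le_one F' y
    intro P
    have hlies := liesOver_pv v P
    let q : (FundId.pv v).primesOver (FundId.intB F' v) := ⟨P.asIdeal, P.isPrime, hlies⟩
    have hq : FundId.toP F' v q = P := rfl
    have h1 := h (FundId.gP F' v q) (congrArg Place.toValuationSubring (FundId.restrict_gP F' v q))
    exact (Fermat.Agent.S24.Places.mem_ofPrime_iff (FundId.hK F' v) P y).mp h1
  obtain ⟨b, rfl⟩ := hy
  exact b.2

/-- If `π^* D = div g`, then `g⁻¹` lies in the relative Riemann–Roch space of `D`. -/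
theorem relIntegral_inv [HasPrincipalDivisors K F'] (D : Divisor K F) {g : F'} (hg0 : g ≠ 0)
    (hg : ∀ w : Place K F', Divisor.pullback F' D w = w.ord g) :
    UpN.RelIntegral D g⁻¹ := by
  intro P t ht
  rcases eq_or_ne t 0 with rfl | ht0
  · rw [map_zero, mul_zero]
    exact isIntegral_zero
  have ht0' : algebraMap F F' t ≠ 0 := by simpa using ht0
  have key : IsIntegral P.toValuationSubring (g⁻¹ * algebraMap F F' t) := by
    apply isIntegral_of_forall_mem P
    intro w hw
    have hwP : w.restrict F = P := Place.ext hw
    rw [Fermat.Agent.S24.Places.mem_iff_ord_nonneg w (mul_ne_zero (inv_ne_zero hg0) ht0'),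
      w.ord_mul (inv_ne_zero hg0) ht0', w.ord_inv, w.ord_restrict, hwP, ht, ← hg w,
      Divisor.pullback_apply, hwP]
    omega
  exact key

/-- **Kernel of pull-back.** If the pull-back of a degree-zero divisor `D` of `F` to a finite
separable extension `F'` is principal, then `[F' : F] • D` is principal. -/
theorem isPrincipal_nsmul_of_isPrincipal_pullback [HasPrincipalDivisors K F']
    (hdeg : ∀ P : Place K F, 0 < P.deg)
    (hprin : ∀ f : F, f ≠ 0 → ∃ E : Divisor K F, (∀ v, E v = v.ord f) ∧ Divisor.degree E = 0)
    (D : Divisor K F) (hD : Divisor.degree D = 0)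
    (h : Divisor.IsPrincipal (Divisor.pullback F' D)) :
    Divisor.IsPrincipal (Module.finrank F F' • D) := by
  obtain ⟨g, hg0, hg⟩ := h
  exact UpN.isPrincipal_nsmul_of_relIntegral hdeg hprin D hD (inv_ne_zero hg0)
    (relIntegral_inv D hg0 hg)

/-- A class of `Pic⁰` is zero iff its divisor is principal. -/
theorem mk_eq_zero_iff {K F : Type*} [Field K] [Field F] [Algebra K F]
    (D : Divisor.degZero (K := K) (F := F)) :
    Pic0.mk D = 0 ↔ Divisor.IsPrincipal (D : Divisor K F) := by
  unfold Pic0.mk
  rw [QuotientAddGroup.eq_zero_iff, AddSubgroup.mem_addSubgroupOf]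
  rfl

/-- **Injectivity of pull-back on torsion prime to the degree.** -/
theorem eq_zero_of_pullbackHom_eq_zero [HasPrincipalDivisors K F'] [FundamentalIdentity K F F']
    (hdeg : ∀ P : Place K F, 0 < P.deg)
    (hprin : ∀ f : F, f ≠ 0 → ∃ E : Divisor K F, (∀ v, E v = v.ord f) ∧ Divisor.degree E = 0)
    (m : ℕ) (hm : Nat.Coprime m (Module.finrank F F')) (x : Pic0 K F) (hmx : m • x = 0)
    (hx : Pic0.pullbackHom F' x = 0) : x = 0 := by
  obtain ⟨D, rfl⟩ := Pic0.mk_surjective x
  rw [Pic0.pullbackHom_mk, mk_eq_zero_iff, Pic0.coe_pullbackDegZeroHom] at hx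
  have hmx' : Pic0.mk (m • D) = 0 := hmx
  rw [mk_eq_zero_iff] at hmx' ⊢
  have hd := isPrincipal_nsmul_of_isPrincipal_pullback hdeg hprin (D : Divisor K F) D.2 hx
  exact UpN.isPrincipal_of_coprime (D : Divisor K F) hm.symm hmx' hd

end Generic

/-! ### The modular tower -/

section Levels

open ModularCurve

variable {N M : ℕ} [NeZero N] [NeZero M] (h : N ∣ M)

/-- `F_M / F_N` is separable (characteristic zero). -/
theorem isSeparable_bar : letI := algOfLE (bar_mono h); Algebra.IsSeparable ↥(FN N) ↥(FN M) := by
  letI := algOfLE (bar_mono h)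
  haveI := ROR.finite_bar h
  infer_instance

/-- **INJ**, instance-generic form: for ANY choice of the (propositional) instances needed to
form `Pic0.pullbackHom` along `algOfLE (bar_mono h)`, the pull-back `J_0(N) → J_0(M)` is
injective on torsion prime to `levelDeg h = [F_M : F_N]`. -/
theorem pullbackHom_eq_zero (m : ℕ) (hm : Nat.Coprime m (levelDeg h)) (x : JZero N)
    (hmx : m • x = 0) :
    letI := algOfLE (bar_mono h)
    ∀ [IsScalarTower Qb ↥(FN N) ↥(FN M)] [Algebra.IsIntegral ↥(FN N) ↥(FN M)]
      [HasPrincipalDivisors Qb ↥(FN M)] [FundamentalIdentity Qb ↥(FN N) ↥(FN M)],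
      Pic0.pullbackHom ↥(FN M) x = 0 → x = 0 := by
  letI := algOfLE (bar_mono h)
  intro _ _ _ _ hx
  haveI := ROR.finite_bar h
  haveI := isSeparable_bar h
  have h0 := PHyp.hyp0_bar N
  exact eq_zero_of_pullbackHom_eq_zero (fun P => by rw [h0.deg_one P]; exact one_pos)
    h0.principal m hm x hmx hx

/-- **INJ** (`PbInjStmt` of `Iface.lean`): the pull-back `pb h : J_0(N) → J_0(M)` is injective
on torsion of order prime to `levelDeg h = [F_M : F_N]`. -/
theorem pbInjStmt : PbInjStmt := by
  intro N M _ _ h m hm x hmx hx
  letI := algOfLE (bar_mono h)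
  haveI := isScalarTower_algOfLE (bar_mono h)
  haveI : Module.Finite ↥(FN N) ↥(FN M) := ROR.finite_bar h
  haveI := ROR.hasPrincipalDivisors_bar (M := M)
  haveI := Fermat.Agent.S37.fundamentalIdentity_bar h
  exact pullbackHom_eq_zero h m hm x hmx hx

end Levels

end

end Fermat.Agent.S37.PbInj

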