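/-
S37, piece (K), generic algebra (Mathlib + the frozen `coeffMap` / `qExpand` only):

* `norm_eq_prod_of_ringHoms`: the norm of a finite separable extension is the product over a
  family of `finrank` many pairwise distinct embeddings into any field;
* `twistR`: the substitution `q ↦ u q` on Laurent series over a commutative ring (`u` a unit),
  compatible with `coeffMap`;
* `pow_expChar`: `f ^ p = (φ f)(q^p)` for Laurent series in characteristic `p`.
-/
import Mathlib
import Fermat.Prelude.Def_ModularCurve_X0ModL
import Fermat.Agent.S24.QL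

set_option autoImplicit false

noncomputable section

namespace Fermat.Agent.S37.KAlgB

open ModularCurve

/-! ### Norms as products over embeddings -/

/-- The norm of a finite separable field extension `L / K`, transported along `ρ : K →+* E`, is
the product over any family of `[L : K]` pairwise distinct ring homomorphisms `L →+* E`
extending `ρ`. -/
theorem norm_eq_prod_of_ringHoms {K L E : Type*} [Field K] [Field L] [Field E] [Algebra K L]
    [FiniteDimensional K L] [Algebra.IsSeparable K L] (ρ : K →+* E) {ι : Type*} [Fintype ι]
    (ψ : ι → L →+* E) (hρ : ∀ i (a : K), ψ i (algebraMap K L a) = ρ a)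
    (hinj : Function.Injective ψ) (hcard : Fintype.card ι = Module.finrank K L) (x : L) :
    ρ (Algebra.norm K x) = ∏ i, ψ i x := by
  classical
  let _ : Algebra K E := ρ.toAlgebra
  let Ω := AlgebraicClosure E
  let ψ' : ι → L →ₐ[K] Ω := fun i =>
    { ((algebraMap E Ω).comp (ψ i)) with
      commutes' := fun a => by
        show algebraMap E Ω (ψ i (algebraMap K L a)) = algebraMap K Ω a
        rw [hρ, IsScalarTower.algebraMap_apply K E Ω]
        rfl }
  have hψ' : ∀ i y, ψ' i y = algebraMap E Ω (ψ i y) := fun i y => rfl
  have hinj' : Function.Injective ψ' := by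
    intro i j hij
    apply hinj
    ext y
    apply (algebraMap E Ω).injective
    rw [← hψ', ← hψ', hij]
  have hbij : Function.Bijective ψ' := by
    rw [Fintype.bijective_iff_injective_and_card]
    exact ⟨hinj', by rw [hcard, AlgHom.card]⟩
  apply (algebraMap E Ω).injective
  have h1 := Algebra.norm_eq_prod_embeddings K Ω x
  rw [IsScalarTower.algebraMap_apply K E Ω] at h1
  rw [show ρ (Algebra.norm K x) = algebraMap K E (Algebra.norm K x) from rfl, h1, map_prod,
    ← hbij.prod_comp (fun σ : L →ₐ[K] Ω => σ x)]
  exact Finset.prod_congr rfl fun i _ => hψ' i x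

/-! ### The twist `q ↦ u q` over a commutative ring -/

section Twist

variable {R S : Type*} [CommRing R] [CommRing S]

/-- the underlying function of the twist `q ↦ u q` -/
def twistFun (u : Rˣ) (f : LaurentSeries R) : LaurentSeries R where
  coeff k := ((u ^ k : Rˣ) : R) * f.coeff k
  isPWO_support' := f.isPWO_support.mono fun k hk => by
    simp only [Function.mem_support, ne_eq] at hk
    exact fun h => hk (by rw [h, mul_zero])

theorem twistFun_coeff (u : Rˣ) (f : LaurentSeries R) (k : ℤ) :
    (twistFun u f).coeff k = ((u ^ k : Rˣ) : R) * f.coeff k := rfl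

theorem support_twistFun (u : Rˣ) (f : LaurentSeries R) :
    (twistFun u f).support = f.support := by
  ext k
  simp only [HahnSeries.mem_support, twistFun_coeff, ne_eq]
  constructor
  · intro h h0
    exact h (by rw [h0, mul_zero])
  · intro h h0
    exact h ((Units.mul_right_eq_zero (u ^ k)).mp h0)

/-- The twist `q ↦ u q` on Laurent series over a commutative ring: the coefficient of `q ^ k` is
multiplied by `u ^ k`. -/
def twistR (u : Rˣ) : LaurentSeries R →+* LaurentSeries R where
  toFun := twistFun u
  map_one' := by
    ext k
    rw [twistFun_coeff, HahnSeries.coeff_one]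
    split_ifs with h
    · subst h
      simp
    · simp
  map_mul' x y := by
    ext k
    rw [twistFun_coeff, HahnSeries.coeff_mul, HahnSeries.coeff_mul, Finset.mul_sum]
    refine Finset.sum_congr ?_ fun ij hij => ?_
    · ext ij
      simp only [Finset.mem_antidiagonal, support_twistFun]
    · have hk : ij.1 + ij.2 = k := (Finset.mem_antidiagonal.mp hij).2.2
      rw [twistFun_coeff, twistFun_coeff, ← hk, zpow_add, Units.val_mul]
      ring
  map_zero' := by
    ext k
    simp [twistFun_coeff]
  map_add' x y := by
    ext k
    simp [twistFun_coeff, mul_add]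

@[simp]
theorem twistR_coeff (u : Rˣ) (f : LaurentSeries R) (k : ℤ) :
    (twistR u f).coeff k = ((u ^ k : Rˣ) : R) * f.coeff k := rfl

theorem coeffMap_twistR (g : R →+* S) (u : Rˣ) (f : LaurentSeries R) :
    coeffMap g (twistR u f) = twistR (Units.map (g : R →* S) u) (coeffMap g f) := by
  ext k
  rw [coeffMap_coeff, twistR_coeff, twistR_coeff, coeffMap_coeff, map_mul, ← map_zpow]
  rfl

/-- Series in `q ^ n` are fixed by the twist by an `n`-th root of unity. -/
theorem twistR_qExpand (u : Rˣ) (n : ℕ) [NeZero n] (hu : u ^ n = 1) (f : LaurentSeries R) :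
    twistR u (qExpand R n f) = qExpand R n f := by
  ext k
  rw [twistR_coeff]
  by_cases hk : (n : ℤ) ∣ k
  · obtain ⟨m, rfl⟩ := hk
    rw [zpow_mul, zpow_natCast, hu, one_zpow, Units.val_one, one_mul]
  · rw [qExpand_coeff_of_not_dvd n f hk, mul_zero]

end Twist

/-! ### Frobenius on Laurent series -/

section Frob

variable {R : Type*} [CommRing R] (p : ℕ) [hp : Fact p.Prime] [CharP R p]

/-- `f ^ p = (φ f)(q ^ p)` for Laurent series over a ring of characteristic `p`. -/
theorem pow_expChar (f : LaurentSeries R) :
    haveI : NeZero p := ⟨hp.out.ne_zero⟩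
    f ^ p = qExpand R p (coeffMap (frobenius R p) f) := by
  have : NeZero p := ⟨hp.out.ne_zero⟩
  have hP : ∀ P : PowerSeries R, P ^ p = S24.QL.dilPS p (PowerSeries.map (frobenius R p) P) := by
    intro P
    have h := MvPowerSeries.map_frobenius_expand (σ := Unit) (R := R) p hp.out.ne_zero (f := P)
    rw [← h]
    ext n
    show PowerSeries.coeff n (PowerSeries.map (frobenius R p) (PowerSeries.expand p hp.out.ne_zero P))
      = _
    rw [PowerSeries.coeff_map, PowerSeries.coeff_expand, S24.QL.dilPS, PowerSeries.coeff_mk]
    split_ifs with hd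
    · rw [PowerSeries.coeff_map]
    · rw [map_zero]
  have hf : (HahnSeries.single f.order (1 : R) : LaurentSeries R)
      * HahnSeries.ofPowerSeries ℤ R f.powerSeriesPart = f :=
    LaurentSeries.single_order_mul_powerSeriesPart f
  have h1 : f ^ p = HahnSeries.single (p • f.order) (1 : R)
      * HahnSeries.ofPowerSeries ℤ R (f.powerSeriesPart ^ p) := by
    conv_lhs => rw [← hf]
    rw [mul_pow, HahnSeries.single_pow, one_pow, map_pow]
  have h2 : qExpand R p (coeffMap (frobenius R p) f)
      = HahnSeries.single (p • f.order) (1 : R)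
        * HahnSeries.ofPowerSeries ℤ R (f.powerSeriesPart ^ p) := by
    conv_lhs => rw [← hf]
    rw [map_mul, map_mul, coeffMap_single, qExpand_single, map_one,
      S24.QL.coeffMap_ofPowerSeries, S24.QL.qExpand_ofPowerSeries, hP, nsmul_eq_mul]
  rw [h1, h2]

end Frob

end Fermat.Agent.S37.KAlgB
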