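/-
S37, piece (K), part 1: the `ℓ + 1` conjugate embeddings of the function field of `X₀(N ℓ)` over
the function field of `X₀(N)` (`ℓ ∤ N` is not needed here), in the S24 form `tauG ι (N ℓ) γ`.

For `γ ∈ Γ₀(N)` the embedding `tauG ι (N ℓ) γ` restricts on `α(F_N)` to the formal expansion
`y ↦ y(v^{N ℓ})` (`v = q^{1/(N ℓ)}`); for the explicit matrix `γ₀ = [[1, q], [N, s ℓ]]`
(`ℓ s - q N = 1`) and its translates `γ₀ T^b` the restriction to `β(F_N)` (`β y = y(q^ℓ)`) is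
`y ↦ y(ξ^b v^N)`, `ξ = exp(2 π i / (N ℓ))`.
-/
import Fermat.Agent.S18.CLTau
import Fermat.Prelude.Def_ModularCurve_HeckeOperator

set_option autoImplicit false

noncomputable section

open scoped MatrixGroups Real
open ModularCurve UpperHalfPlane

namespace Fermat.Agent.S37.KEmbB

open Fermat.Agent.S24 Fermat.Agent.S23

/-! ### The matrices -/

/-- `γ₀ = [[1, q], [N, s ℓ]]`, an element of `Γ₀(N)` when `ℓ s - q N = 1`. -/
def gam0 (N ℓ : ℕ) (q s : ℤ) (h : (ℓ : ℤ) * s - q * N = 1) : SL(2, ℤ) :=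
  ⟨!![1, q; (N : ℤ), s * ℓ], by rw [Matrix.det_fin_two_of]; linarith⟩

theorem gam0_mem (N ℓ : ℕ) (q s : ℤ) (h : (ℓ : ℤ) * s - q * N = 1) :
    gam0 N ℓ q s h ∈ CongruenceSubgroup.Gamma0 N := by
  rw [CongruenceSubgroup.Gamma0_mem]
  show (((N : ℤ) : ℤ) : ZMod N) = 0
  simp

/-- `γ'' = [[ℓ, d' q], [e, s]]` for `d' e = N`. -/
def gam2 (N ℓ d' e : ℕ) (q s : ℤ) (hde : d' * e = N) (h : (ℓ : ℤ) * s - q * N = 1) : SL(2, ℤ) :=
  ⟨!![(ℓ : ℤ), d' * q; (e : ℤ), s], by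
    rw [Matrix.det_fin_two_of, ← h, ← hde]; push_cast; ring⟩

/-- The key identity `ℓ d' · γ₀(N ℓ z) = γ''(d' N z)`. -/
theorem dil_gam0 (N ℓ d' e : ℕ) [NeZero N] [NeZero ℓ] [NeZero d'] (q s : ℤ) (hde : d' * e = N)
    (h : (ℓ : ℤ) * s - q * N = 1) (z : ℍ) :
    haveI : NeZero (ℓ * d') := ⟨Nat.mul_ne_zero (NeZero.ne ℓ) (NeZero.ne d')⟩
    haveI : NeZero (N * ℓ) := ⟨Nat.mul_ne_zero (NeZero.ne N) (NeZero.ne ℓ)⟩
    JN.dil (ℓ * d') (gam0 N ℓ q s h • JN.dil (N * ℓ) z)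
      = gam2 N ℓ d' e q s hde h • JN.dil d' (JN.dil N z) := by
  have : NeZero (ℓ * d') := ⟨Nat.mul_ne_zero (NeZero.ne ℓ) (NeZero.ne d')⟩
  have : NeZero (N * ℓ) := ⟨Nat.mul_ne_zero (NeZero.ne N) (NeZero.ne ℓ)⟩
  apply UpperHalfPlane.ext
  rw [JN.coe_dil, coe_specialLinearGroup_apply, coe_specialLinearGroup_apply, JN.coe_dil,
    JN.coe_dil, JN.coe_dil]
  have e00 : (gam0 N ℓ q s h) 0 0 = 1 := rfl
  have e01 : (gam0 N ℓ q s h) 0 1 = q := rfl
  have e10 : (gam0 N ℓ q s h) 1 0 = (N : ℤ) := rfl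
  have e11 : (gam0 N ℓ q s h) 1 1 = s * ℓ := rfl
  have f00 : (gam2 N ℓ d' e q s hde h) 0 0 = (ℓ : ℤ) := rfl
  have f01 : (gam2 N ℓ d' e q s hde h) 0 1 = d' * q := rfl
  have f10 : (gam2 N ℓ d' e q s hde h) 1 0 = (e : ℤ) := rfl
  have f11 : (gam2 N ℓ d' e q s hde h) 1 1 = s := rfl
  have hden1 : ((algebraMap ℤ ℝ ((gam0 N ℓ q s h) 1 0) : ℝ) : ℂ) * (((N * ℓ : ℕ) : ℂ) * z)
      + ((algebraMap ℤ ℝ ((gam0 N ℓ q s h) 1 1) : ℝ) : ℂ) ≠ 0 := by
    have := denom_ne_zero (Matrix.SpecialLinearGroup.mapGL ℝ (gam0 N ℓ q s h))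
      (JN.dil (N * ℓ) z)
    rw [JN.coe_dil] at this
    exact this
  have hden2 : ((algebraMap ℤ ℝ ((gam2 N ℓ d' e q s hde h) 1 0) : ℝ) : ℂ)
      * ((d' : ℂ) * ((N : ℂ) * z))
      + ((algebraMap ℤ ℝ ((gam2 N ℓ d' e q s hde h) 1 1) : ℝ) : ℂ) ≠ 0 := by
    have := denom_ne_zero (Matrix.SpecialLinearGroup.mapGL ℝ (gam2 N ℓ d' e q s hde h))
      (JN.dil d' (JN.dil N z))
    rw [JN.coe_dil, JN.coe_dil] at this
    exact this
  rw [e10, e11] at hden1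
  rw [f10, f11] at hden2
  rw [e00, e01, e10, e11, f00, f01, f10, f11]
  simp only [algebraMap_int_eq, eq_intCast, Complex.ofReal_intCast, Int.cast_one, Int.cast_mul,
    Int.cast_natCast, Nat.cast_mul] at hden1 hden2 ⊢
  have hN : (N : ℂ) = (d' : ℂ) * e := by rw [← hde]; push_cast; ring
  have hℓ : (ℓ : ℂ) ≠ 0 := by exact_mod_cast NeZero.ne ℓ
  have hh : (ℓ : ℂ) * s - q * N = 1 := by exact_mod_cast congrArg (Int.cast (R := ℂ)) h
  rw [mul_div_assoc', div_eq_div_iff hden1 hden2]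
  push_cast
  rw [hN]
  ring

/-! ### Expansions of the generators -/

/-- `ξ_b = exp (2 π i b / M)`. -/
def xi (M : ℕ) (b : ℤ) : ℂ := Complex.exp (2 * π * Complex.I * (((b : ℝ) / (M : ℝ) : ℝ) : ℂ))

theorem xi_ne_zero (M : ℕ) (b : ℤ) : xi M b ≠ 0 := Complex.exp_ne_zero _

/-- For `γ ∈ Γ₀(d)` the expansion of `j (d (γ (M z)))` is the formal one, in `v = q^{1/M}`. -/
theorem fexp_of_mem_Gamma0' (M : ℕ) [NeZero M] {γ : SL(2, ℤ)} (d : Dv M)
    (hγ : γ ∈ CongruenceSubgroup.Gamma0 d.1) :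
    Cusp.fexp M γ d = qExpand ℂ M (coeffEmb ℂ (jqd d)) := by
  have : NeZero d.1 := ⟨d.ne_zero⟩
  have h1 : coeffEmb ℂ (jqd d) = qExpand ℂ d.1 (coeffEmb ℂ jq) := by
    rw [jqd, coeffEmb, QL.coeffMap_qExpand]
  rw [h1]
  refine (Cusp.hasU_fexp M γ d).unique_series
    (((Cusp.hasU_jFun.comp_dil d.1).comp_dil M).congr fun z => ?_)
  rw [JN.jN_smul_of_mem_Gamma0 d.1 hγ]
  rfl

/-- The expansion of `j (ℓ d' (γ₀ (N ℓ z)))` is `j (d' N z)`. -/
theorem fexp_gam0 (N ℓ : ℕ) [NeZero N] [NeZero ℓ] (q s : ℤ) (h : (ℓ : ℤ) * s - q * N = 1)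
    (d' : Dv N) :
    Cusp.fexp (N * ℓ) (gam0 N ℓ q s h)
        ⟨ℓ * d'.1, mul_comm N ℓ ▸ Nat.mul_dvd_mul (dvd_refl ℓ) d'.2⟩
      = qExpand ℂ N (coeffEmb ℂ (jqd d')) := by
  have : NeZero d'.1 := ⟨d'.ne_zero⟩
  have h1 : coeffEmb ℂ (jqd d') = qExpand ℂ d'.1 (coeffEmb ℂ jq) := by
    rw [jqd, coeffEmb, QL.coeffMap_qExpand]
  rw [h1]
  obtain ⟨e, he⟩ := d'.2
  refine (Cusp.hasU_fexp (N * ℓ) (gam0 N ℓ q s h) _).unique_series
    (((Cusp.hasU_jFun.comp_dil d'.1).comp_dil N).congr fun z => ?_)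
  show JN.jFun (JN.dil d'.1 (JN.dil N z))
    = JN.jFun (JN.dil (ℓ * d'.1) (gam0 N ℓ q s h • JN.dil (N * ℓ) z))
  rw [dil_gam0 N ℓ d'.1 e q s he.symm h z, JN.jFun_smul]

/-- Rotation: replacing `γ` by `γ T^b` twists the expansions by `exp (2 π i b / M)`. -/
theorem fexp_mul_T_zpow (M : ℕ) [NeZero M] (γ : SL(2, ℤ)) (b : ℤ) (d : Dv M) :
    Cusp.fexp M (γ * ModularGroup.T ^ b) d
      = Cusp.twist (xi M b) (xi_ne_zero M b) (Cusp.fexp M γ d) := by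
  refine (Cusp.hasU_fexp M (γ * ModularGroup.T ^ b) d).unique_series
    (((Cusp.hasU_fexp M γ d).comp_vadd ((b : ℝ) / (M : ℝ))).congr fun z => ?_)
  have hM : (M : ℂ) ≠ 0 := by exact_mod_cast NeZero.ne M
  have key : JN.dil M (((b : ℝ) / (M : ℝ)) +ᵥ z) = ModularGroup.T ^ b • JN.dil M z := by
    rw [modular_T_zpow_smul]
    apply UpperHalfPlane.ext
    rw [JN.coe_dil, coe_vadd, coe_vadd, JN.coe_dil]
    push_cast
    field_simp
  rw [key, mul_smul]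

/-! ### Ring homomorphisms out of the function field -/

section Hom

variable {L : Type*} [Field L] [Algebra ℚ L]

/-- Ring homomorphisms out of the function field are determined by their values on the constants
and on the generators. -/
theorem hom_ext_gen (N : ℕ) [NeZero N] {𝕃 : Type*} [Field 𝕃] (τ τ' : ↥(FF L N) →+* 𝕃)
    (hC : ∀ c : L, τ (algebraMap L ↥(FF L N) c) = τ' (algebraMap L ↥(FF L N) c))
    (hX : ∀ d : Dv N, τ (gen L N d) = τ' (gen L N d)) : τ = τ' := by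
  apply Ext.hom_ext L N
  have h : τ.comp (evalL L N).toRingHom = τ'.comp (evalL L N).toRingHom := by
    apply MvPolynomial.ringHom_ext
    · intro c
      show τ (evalL L N (MvPolynomial.C c)) = τ' (evalL L N (MvPolynomial.C c))
      rw [Ext.evalL_C, hC]
    · intro d
      show τ (evalL L N (MvPolynomial.X d)) = τ' (evalL L N (MvPolynomial.X d))
      rw [Ext.evalL_X, hX]
  exact fun P => RingHom.congr_fun h P

variable (ι : L →+* ℂ) (N ℓ : ℕ) [NeZero N] [NeZero ℓ]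

/-- `α` on generators. -/
theorem alpha_gen (d : Dv N) :
    heckeAlphaBar L N ℓ (gen L N d) = gen L (N * ℓ) ⟨d.1, d.2.trans (dvd_mul_right N ℓ)⟩ :=
  Subtype.ext rfl

/-- `β` on generators. -/
theorem beta_gen (d : Dv N) :
    heckeBetaBar L N ℓ (gen L N d)
      = gen L (N * ℓ) ⟨ℓ * d.1, mul_comm N ℓ ▸ Nat.mul_dvd_mul (dvd_refl ℓ) d.2⟩ := by
  have : NeZero d.1 := ⟨d.ne_zero⟩
  apply Subtype.ext
  rw [coe_heckeBetaBar]
  show qExpand L ℓ (coeffEmb L (jqd d)) = coeffEmb L (qExpand ℚ (ℓ * d.1) jq)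
  rw [jqd, coeffEmb, QL.coeffMap_qExpand, QL.coeffMap_qExpand, qExpand_qExpand]

/-- On `Γ₀(M)` the complex embedding is the substitution `q = v^M`. -/
theorem tauG_of_mem_Gamma0 (M : ℕ) [NeZero M] {γ : SL(2, ℤ)}
    (hγ : γ ∈ CongruenceSubgroup.Gamma0 M) (f : ↥(FF L M)) :
    Cusp.tauG ι M γ f = qExpand ℂ M (coeffMap ι (f : LaurentSeries L)) := by
  have h : Cusp.tauG ι M γ
      = ((qExpand ℂ M).comp (coeffMap ι)).comp (algebraMap ↥(FF L M) (LaurentSeries L)) := by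
    apply Ext.hom_ext L M
    intro P
    rw [Cusp.tauG_evalL, RingHom.comp_apply, RingHom.comp_apply,
      Fermat.Agent.S18.CLTau.phi_of_mem_Gamma0 ι M hγ]
    congr 1
    exact (Bridge.coeffMap_evalL ι M P).symm
  exact RingHom.congr_fun h f

/-- **(a)** For `γ ∈ Γ₀(N)`, the embedding `tauG ι (N ℓ) γ` restricts on `α(F_N)` to the formal
expansion in `v = q^{1/(N ℓ)}`. -/
theorem tauG_alpha {γ : SL(2, ℤ)} (hγ : γ ∈ CongruenceSubgroup.Gamma0 N) (y : ↥(FF L N)) :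
    Cusp.tauG ι (N * ℓ) γ (heckeAlphaBar L N ℓ y)
      = qExpand ℂ (N * ℓ) (coeffMap ι (y : LaurentSeries L)) := by
  have h : (Cusp.tauG ι (N * ℓ) γ).comp (heckeAlphaBar L N ℓ).toRingHom
      = ((qExpand ℂ (N * ℓ)).comp (coeffMap ι)).comp
          (algebraMap ↥(FF L N) (LaurentSeries L)) := by
    apply hom_ext_gen N
    · intro c
      show Cusp.tauG ι (N * ℓ) γ (heckeAlphaBar L N ℓ (algebraMap L ↥(FF L N) c))
        = qExpand ℂ (N * ℓ) (coeffMap ι (algebraMap L (LaurentSeries L) c))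
      rw [AlgHom.commutes, Cusp.tauG_algebraMap, Bridge.coeffMap_algebraMap',
        algebraMap_laurentSeries_eq_single, qExpand_single, mul_zero]
      rfl
    · intro d
      show Cusp.tauG ι (N * ℓ) γ (heckeAlphaBar L N ℓ (gen L N d))
        = qExpand ℂ (N * ℓ) (coeffMap ι (coeffEmb L (jqd d)))
      rw [alpha_gen, Cusp.tauG_gen, Bridge.coeffMap_coeffEmb',
        fexp_of_mem_Gamma0' (N * ℓ) _ (Cusp.gamma0_le_of_dvd d.2 hγ)]
      rfl
  exact RingHom.congr_fun h y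

/-- **(b)** The embedding attached to `γ₀ T^b` restricts on `β(F_N)` to `y ↦ y(ξ^b v^N)`,
`ξ = exp (2 π i / (N ℓ))`. -/
theorem tauG_beta (q s : ℤ) (h : (ℓ : ℤ) * s - q * N = 1) (b : ℤ) (y : ↥(FF L N)) :
    Cusp.tauG ι (N * ℓ) (gam0 N ℓ q s h * ModularGroup.T ^ b) (heckeBetaBar L N ℓ y)
      = Cusp.twist (xi (N * ℓ) b) (xi_ne_zero _ b)
          (qExpand ℂ N (coeffMap ι (y : LaurentSeries L))) := by
  have hh : (Cusp.tauG ι (N * ℓ) (gam0 N ℓ q s h * ModularGroup.T ^ b)).comp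
        (heckeBetaBar L N ℓ).toRingHom
      = (((Cusp.twist (xi (N * ℓ) b) (xi_ne_zero _ b)).comp (qExpand ℂ N)).comp
          (coeffMap ι)).comp
          (algebraMap ↥(FF L N) (LaurentSeries L)) := by
    apply hom_ext_gen N
    · intro c
      show Cusp.tauG ι (N * ℓ) _ (heckeBetaBar L N ℓ (algebraMap L ↥(FF L N) c))
        = Cusp.twist (xi (N * ℓ) b) (xi_ne_zero _ b)
            (qExpand ℂ N (coeffMap ι (algebraMap L (LaurentSeries L) c)))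
      rw [AlgHom.commutes, Cusp.tauG_algebraMap, Bridge.coeffMap_algebraMap',
        algebraMap_laurentSeries_eq_single, qExpand_single, mul_zero, Cusp.twist_single,
        zpow_zero, one_mul]
      rfl
    · intro d
      show Cusp.tauG ι (N * ℓ) _ (heckeBetaBar L N ℓ (gen L N d))
        = Cusp.twist (xi (N * ℓ) b) (xi_ne_zero _ b)
            (qExpand ℂ N (coeffMap ι (coeffEmb L (jqd d))))
      rw [beta_gen, Cusp.tauG_gen, Bridge.coeffMap_coeffEmb', fexp_mul_T_zpow, fexp_gam0]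
  exact RingHom.congr_fun hh y

end Hom

end Fermat.Agent.S37.KEmbB
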