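/-
S37, piece (K), part 2: the norm congruence.

For `ℓ ∤ N` prime, `M = N ℓ`, `α, β : F_N → F_M` the two degeneracy maps (`α y = y(q)`,
`β y = y(q^ℓ)`):

* `finrank_alpha`: `[F_M : α F_N] = ℓ + 1`;
* `exists_norm_eq_prod`: `(N_α(β y))(v^M) = y(v^{M ℓ}) · ∏_{b < ℓ} y(x^b v^N)` in `ℚ̄((v))`, for a
  fixed root of unity `x` with `x^M = 1`;
* `exists_norm_red`: for `y` with coefficients in a valuation ring `A ⊂ ℚ̄` above `ℓ`, the norm
  `N_α(β y)` has coefficients in `A` and reduces to `ȳ(q^ℓ) · (φ ȳ)(q)`, `φ` the coefficientwise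
  Frobenius.
-/
import Fermat.Agent.S37.KEmbB
import Fermat.Agent.S37.KAlgB
import Fermat.Agent.S18.LiftDeg
import Fermat.Agent.S18.RContent
import Fermat.Agent.S18.Defs
import Fermat.Agent.S54.Frobenius
import Fermat.Agent.S24.CombIndex

set_option autoImplicit false
set_option synthInstance.maxHeartbeats 400000
set_option linter.style.haveILetI false
set_option linter.unusedSectionVars false

noncomputable section

open scoped MatrixGroups Real
open ModularCurve AlgebraicCurve UpperHalfPlane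

namespace Fermat.Agent.S37.KFull

open Fermat.Agent.S24 Fermat.Agent.S23 Fermat.Agent.S18 Fermat.Agent.S37.KEmbB
  Fermat.Agent.S37.KAlgB

variable (N ℓ : ℕ) [NeZero N] [NeZero ℓ]

/-! ### The degree of `α` -/

/-- `[F_{Nℓ} : α(F_N)] = ℓ + 1` for a prime `ℓ ∤ N`. -/
theorem finrank_alpha (hℓ : ℓ.Prime) (hℓN : ¬ ℓ ∣ N) :
    letI := algebraAlong (heckeAlphaBar Qb N ℓ)
    Module.finrank (FN N) (FN (N * ℓ)) = ℓ + 1 := by
  letI := algebraAlong (heckeAlphaBar Qb N ℓ)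
  rw [LiftD.finrank_eq_relfinrank_of_algebra (FN N) (FN (N * ℓ))
    (fun a => coe_heckeAlphaBar N ℓ a)]
  have h1 := LiftD.relfinrank_bar_mul (dvd_mul_right N ℓ)
  rw [Comb.dedekindPsi_mul_of_not_dvd (NeZero.ne N) hℓ hℓN] at h1
  exact Nat.eq_of_mul_eq_mul_left (LiftD.dedekindPsi_pos N) h1

theorem finite_alpha :
    letI := algebraAlong (heckeAlphaBar Qb N ℓ)
    Module.Finite (FN N) (FN (N * ℓ)) := by
  letI := algebraAlong (heckeAlphaBar Qb N ℓ)
  exact LiftD.finite_bar (dvd_mul_right N ℓ) (fun a => coe_heckeAlphaBar N ℓ a)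

/-! ### The `ℓ + 1` embeddings -/

section Emb

variable (ι : Qb →+* ℂ) (q s : ℤ) (h : (ℓ : ℤ) * s - q * N = 1)

/-- The family of embeddings: `none ↦` the formal expansion, `some b ↦` the one attached to
`γ₀ T^b`. -/
def psi : Option (Fin ℓ) → ↥(FN (N * ℓ)) →+* LaurentSeries ℂ
  | none => Cusp.tauG ι (N * ℓ) 1
  | some b => Cusp.tauG ι (N * ℓ) (gam0 N ℓ q s h * ModularGroup.T ^ ((b : ℕ) : ℤ))

theorem T_mem : ModularGroup.T ∈ CongruenceSubgroup.Gamma0 N := by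
  rw [CongruenceSubgroup.Gamma0_mem]
  simp [ModularGroup.T]

theorem psi_alpha (i : Option (Fin ℓ)) (a : ↥(FN N)) :
    psi N ℓ ι q s h i (heckeAlphaBar Qb N ℓ a)
      = qExpand ℂ (N * ℓ) (coeffMap ι (a : LaurentSeries Qb)) := by
  cases i with
  | none => exact tauG_alpha ι N ℓ (one_mem _) a
  | some b =>
    exact tauG_alpha ι N ℓ (mul_mem (gam0_mem N ℓ q s h) (zpow_mem (T_mem N) _)) a

theorem psi_none (x : ↥(FN (N * ℓ))) :
    psi N ℓ ι q s h none x = qExpand ℂ (N * ℓ) (coeffMap ι (x : LaurentSeries Qb)) :=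
  tauG_of_mem_Gamma0 ι (N * ℓ) (one_mem _) x

theorem psi_some_beta (b : Fin ℓ) (y : ↥(FN N)) :
    psi N ℓ ι q s h (some b) (heckeBetaBar Qb N ℓ y)
      = Cusp.twist (xi (N * ℓ) ((b : ℕ) : ℤ)) (xi_ne_zero _ _)
          (qExpand ℂ N (coeffMap ι (y : LaurentSeries Qb))) :=
  tauG_beta ι N ℓ q s h _ y

theorem coeff_psi_some (b : Fin ℓ) :
    (psi N ℓ ι q s h (some b) (heckeBetaBar Qb N ℓ (jElt Qb N))).coeff (-(N : ℤ))
      = (xi (N * ℓ) ((b : ℕ) : ℤ)) ^ (-(N : ℤ)) := by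
  rw [psi_some_beta, Cusp.twist_coeff, LiftD.coe_jElt]
  have h1 : (qExpand ℂ N (coeffMap ι (jqModC Qb))).coeff (-(N : ℤ)) = 1 := by
    have h2 : (-(N : ℤ)) = (N : ℤ) * (-1) := by ring
    rw [h2, qExpand_coeff_mul, coeffMap_coeff, coeff_jqModC_neg_one, map_one]
  rw [h1, mul_one]

theorem coeff_psi_none (hℓ : ℓ.Prime) :
    (psi N ℓ ι q s h none (heckeBetaBar Qb N ℓ (jElt Qb N))).coeff (-(N : ℤ)) = 0 := by
  rw [psi_none]
  apply qExpand_coeff_of_not_dvd
  intro hd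
  have h1 : ((N * ℓ : ℕ) : ℤ) ∣ (N : ℤ) := (dvd_neg).mp hd
  have h2 : N * ℓ ∣ N * 1 := by
    rw [mul_one]
    exact_mod_cast h1
  have h4 : ℓ ∣ 1 := Nat.dvd_of_mul_dvd_mul_left (Nat.pos_of_ne_zero (NeZero.ne N)) h2
  exact hℓ.ne_one (Nat.dvd_one.mp h4)

theorem xi_pow (b : ℕ) :
    xi (N * ℓ) (b : ℤ) ^ N = Complex.exp (2 * π * Complex.I / ℓ) ^ b := by
  have hN : (N : ℂ) ≠ 0 := by exact_mod_cast NeZero.ne N
  have hl : (ℓ : ℂ) ≠ 0 := by exact_mod_cast NeZero.ne ℓ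
  unfold xi
  rw [← Complex.exp_nat_mul, ← Complex.exp_nat_mul]
  congr 1
  push_cast
  field_simp

theorem psi_injective (hℓ : ℓ.Prime) : Function.Injective (psi N ℓ ι q s h) := by
  intro i j hij
  have key : (psi N ℓ ι q s h i (heckeBetaBar Qb N ℓ (jElt Qb N))).coeff (-(N : ℤ))
      = (psi N ℓ ι q s h j (heckeBetaBar Qb N ℓ (jElt Qb N))).coeff (-(N : ℤ)) := by
    rw [hij]
  cases i with
  | none =>
    cases j with
    | none => rfl
    | some b =>
      rw [coeff_psi_none N ℓ ι q s h hℓ, coeff_psi_some] at key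
      exact absurd key.symm (zpow_ne_zero _ (xi_ne_zero _ _))
  | some a =>
    cases j with
    | none =>
      rw [coeff_psi_none N ℓ ι q s h hℓ, coeff_psi_some] at key
      exact absurd key (zpow_ne_zero _ (xi_ne_zero _ _))
    | some b =>
      rw [coeff_psi_some, coeff_psi_some, zpow_neg, zpow_neg, inv_inj, zpow_natCast,
        zpow_natCast, xi_pow, xi_pow] at key
      have := (Complex.isPrimitiveRoot_exp ℓ hℓ.ne_zero).pow_inj a.2 b.2 key
      exact congrArg some (Fin.ext this)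

/-- The norm along `α` as a product over the `ℓ + 1` embeddings (complex form). -/
theorem rho_norm (hℓ : ℓ.Prime) (hℓN : ¬ ℓ ∣ N) (x : ↥(FN (N * ℓ))) :
    letI := algebraAlong (heckeAlphaBar Qb N ℓ)
    qExpand ℂ (N * ℓ) (coeffMap ι ((Algebra.norm ↥(FN N) x : ↥(FN N)) : LaurentSeries Qb))
      = ∏ i, psi N ℓ ι q s h i x := by
  letI := algebraAlong (heckeAlphaBar Qb N ℓ)
  haveI := finite_alpha N ℓ
  haveI : Algebra.IsSeparable ↥(FN N) ↥(FN (N * ℓ)) := inferInstance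
  exact norm_eq_prod_of_ringHoms
    (((qExpand ℂ (N * ℓ)).comp (coeffMap ι)).comp (algebraMap ↥(FN N) (LaurentSeries Qb)))
    (psi N ℓ ι q s h) (fun i a => psi_alpha N ℓ ι q s h i a) (psi_injective N ℓ ι q s h hℓ)
    (by rw [Fintype.card_option, Fintype.card_fin, finrank_alpha N ℓ hℓ hℓN]) x

end Emb

/-! ### Descent of the product formula to `ℚ̄((v))` -/

/-- `coeffMap ι` intertwines `twistR` with the complex twist. -/
theorem coeffMap_twistR_complex (ι : Qb →+* ℂ) (u : Qbˣ) (hξ : ι (u : Qb) ≠ 0)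
    (X : LaurentSeries Qb) :
    coeffMap ι (twistR u X) = Cusp.twist (ι (u : Qb)) hξ (coeffMap ι X) := by
  ext k
  rw [coeffMap_coeff, twistR_coeff, Cusp.twist_coeff, coeffMap_coeff, map_mul,
    Units.val_zpow_eq_zpow_val, map_zpow₀]

theorem xi_one_pow (M : ℕ) [NeZero M] : xi M 1 ^ M = 1 := by
  have hM : (M : ℂ) ≠ 0 := by exact_mod_cast NeZero.ne M
  unfold xi
  rw [← Complex.exp_nat_mul]
  have : (M : ℂ) * (2 * π * Complex.I * (((1 : ℤ) : ℝ) / (M : ℝ) : ℝ)) = 2 * π * Complex.I := by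
    push_cast
    field_simp
  rw [this, Complex.exp_two_pi_mul_I]

theorem xi_eq_pow (M : ℕ) [NeZero M] (b : ℕ) : xi M (b : ℤ) = xi M 1 ^ b := by
  unfold xi
  rw [← Complex.exp_nat_mul]
  congr 1
  push_cast
  ring

/-- **The norm along `α` of `β y` as a product** in `ℚ̄((v))`, `v = q^{1/(N ℓ)}`:
`(N_α(β y))(v^{Nℓ}) = y(v^{Nℓ²}) · ∏_{b < ℓ} y(x^b v^N)` with `x` a root of unity, `x^{Nℓ} = 1`. -/
theorem exists_norm_eq_prod (hℓ : ℓ.Prime) (hℓN : ¬ ℓ ∣ N) :
    ∃ x : Qbˣ, x ^ (N * ℓ) = 1 ∧ ∀ y : ↥(FN N),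
      letI := algebraAlong (heckeAlphaBar Qb N ℓ)
      qExpand Qb (N * ℓ)
          ((Algebra.norm ↥(FN N) (heckeBetaBar Qb N ℓ y) : ↥(FN N)) : LaurentSeries Qb)
        = qExpand Qb (N * ℓ) (qExpand Qb ℓ (y : LaurentSeries Qb))
          * ∏ b : Fin ℓ, twistR (x ^ (b : ℕ)) (qExpand Qb N (y : LaurentSeries Qb)) := by
  obtain ⟨ι, -⟩ : ∃ ι : Qb →+* ℂ, True := by
    let _ : Algebra ℚ (AlgebraicClosure ℚ) := AlgebraicClosure.instAlgebra ℚ
    have := AlgebraicClosure.isAlgebraic ℚ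
    exact ⟨(IsAlgClosed.lift (R := ℚ) (S := AlgebraicClosure ℚ) (M := ℂ)).toRingHom, trivial⟩
  obtain ⟨q, s, h⟩ : ∃ q s : ℤ, (ℓ : ℤ) * s - q * N = 1 := by
    have hcop : IsCoprime (ℓ : ℤ) (N : ℤ) :=
      Nat.isCoprime_iff_coprime.mpr ((Nat.Prime.coprime_iff_not_dvd hℓ).mpr hℓN)
    obtain ⟨a, b, hab⟩ := hcop
    exact ⟨-b, a, by linarith⟩
  obtain ⟨x, hx, hxM⟩ := Fermat.Agent.S18.CLTau.exists_unit_map_eq ι (N * ℓ) (xi (N * ℓ) 1)
    (xi_one_pow (N * ℓ))
  refine ⟨x, Units.ext (by simpa using hxM), fun y => ?_⟩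
  letI := algebraAlong (heckeAlphaBar Qb N ℓ)
  apply Bridge.coeffMap_injective ι ι.injective
  rw [QL.coeffMap_qExpand, rho_norm N ℓ ι q s h hℓ hℓN, Fintype.prod_option, psi_none,
    coe_heckeBetaBar, map_mul, map_prod, QL.coeffMap_qExpand, QL.coeffMap_qExpand]
  congr 1
  · rw [QL.coeffMap_qExpand]
  · refine Finset.prod_congr rfl fun b _ => ?_
    have hne : ι ((x ^ (b : ℕ) : Qbˣ) : Qb) ≠ 0 := by
      rw [Units.val_pow_eq_pow_val, map_pow, hx]
      exact pow_ne_zero _ (xi_ne_zero _ _)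
    rw [psi_some_beta, coeffMap_twistR_complex ι _ hne, QL.coeffMap_qExpand]
    refine Fermat.Agent.S18.CLTau.twist_congr ?_ _ _ _
    rw [Units.val_pow_eq_pow_val, map_pow, hx, xi_eq_pow]

/-! ### Integrality and reduction -/

/-- **(K) The norm congruence.**  For a Laurent series `y` with coefficients in the valuation
ring `A ⊂ ℚ̄` (residue characteristic `ℓ`, `ℓ ∤ N`) lying in `F_N`, the norm `N_α(β y) ∈ F_N` of
`β y = y(q^ℓ)` along `α : F_N → F_{Nℓ}` has coefficients in `A`, and its reduction is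
`ȳ(q^ℓ) · (φ ȳ)(q)`, `φ` the coefficientwise Frobenius. -/
theorem exists_norm_red [Fact ℓ.Prime] (hℓN : ¬ ℓ ∣ N) (A : ValuationSubring Qb)
    [CharP (Kb A) ℓ] (y : LaurentSeries A) (hy : coeffMap A.subtype y ∈ FN N) :
    ∃ w : LaurentSeries A,
      (letI := algebraAlong (heckeAlphaBar Qb N ℓ)
       ((Algebra.norm ↥(FN N) (heckeBetaBar Qb N ℓ ⟨coeffMap A.subtype y, hy⟩) : ↥(FN N)) :
          LaurentSeries Qb)) = coeffMap A.subtype w ∧
      coeffMap (IsLocalRing.residue A) w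
        = qExpand (Kb A) ℓ (coeffMap (IsLocalRing.residue A) y)
          * coeffMap (frobenius (Kb A) ℓ) (coeffMap (IsLocalRing.residue A) y) := by
  have hℓ : ℓ.Prime := Fact.out
  obtain ⟨x, hxM, hPF⟩ := exists_norm_eq_prod N ℓ hℓ hℓN
  letI := algebraAlong (heckeAlphaBar Qb N ℓ)
  set Y : ↥(FN N) := ⟨coeffMap A.subtype y, hy⟩ with hY
  set n : LaurentSeries Qb :=
    ((Algebra.norm ↥(FN N) (heckeBetaBar Qb N ℓ Y) : ↥(FN N)) : LaurentSeries Qb) with hn
  -- the root of unity lies in `A`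
  have hxint : IsIntegral ℤ (x : Qb) := by
    refine IsIntegral.of_pow (Nat.pos_of_ne_zero (NeZero.ne (N * ℓ))) ?_
    rw [← Units.val_pow_eq_pow_val, hxM, Units.val_one]
    exact isIntegral_one
  have hxA : (x : Qb) ∈ A := Fermat.Agent.S54.mem_valuationSubring_of_isIntegral A hxint
  have haM : (⟨(x : Qb), hxA⟩ : A) ^ (N * ℓ) = 1 := by
    apply Subtype.ext
    rw [SubmonoidClass.coe_pow]
    show (x : Qb) ^ (N * ℓ) = 1
    rw [← Units.val_pow_eq_pow_val, hxM, Units.val_one]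
  set u : Aˣ := Units.ofPowEqOne (⟨(x : Qb), hxA⟩ : A) (N * ℓ) haM (NeZero.ne (N * ℓ)) with hu
  have huM : u ^ (N * ℓ) = 1 := Units.ext (by
    rw [Units.val_pow_eq_pow_val, Units.val_one, hu, Units.val_ofPowEqOne, haM])
  have hux : Units.map (A.subtype : A →* Qb) u = x := Units.ext rfl
  -- the integral series
  set W : LaurentSeries A := qExpand A (N * ℓ) (qExpand A ℓ y)
    * ∏ b : Fin ℓ, twistR (u ^ (b : ℕ)) (qExpand A N y) with hW
  have hWn : coeffMap A.subtype W = qExpand Qb (N * ℓ) n := by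
    rw [hn, hPF Y, hW, map_mul, map_prod, QL.coeffMap_qExpand, QL.coeffMap_qExpand]
    congr 1
    refine Finset.prod_congr rfl fun b _ => ?_
    rw [coeffMap_twistR, QL.coeffMap_qExpand, map_pow]
    rw [show Units.map ((A.subtype : A →+* Qb) : A →* Qb) u = x from hux]
  have hcoeff : ∀ k, n.coeff k ∈ A := by
    intro k
    rw [← qExpand_coeff_mul (N * ℓ) n k, ← hWn, coeffMap_coeff]
    exact (W.coeff _).2
  refine ⟨RC.liftA A n, (RC.coeffMap_subtype_liftA A hcoeff).symm, ?_⟩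
  have hwW : qExpand A (N * ℓ) (RC.liftA A n) = W := by
    apply RC.coeffMap_subtype_injective A
    rw [QL.coeffMap_qExpand, RC.coeffMap_subtype_liftA A hcoeff, hWn]
  -- reduction
  set res := IsLocalRing.residue A with hres
  set ub : (Kb A)ˣ := Units.map (res : A →* Kb A) u with hub
  have hubN : ub ^ N = 1 := by
    have h1 : (ub ^ N) ^ ℓ = 1 := by
      rw [← pow_mul, hub, ← map_pow, huM, map_one]
    have h2 : ((ub ^ N : (Kb A)ˣ) : Kb A) ^ ℓ = 1 := by
      rw [← Units.val_pow_eq_pow_val, h1, Units.val_one]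
    apply Units.ext
    apply frobenius_inj (Kb A) ℓ
    rw [frobenius_def, frobenius_def, h2, Units.val_one, one_pow]
  have hprod : ∀ b : Fin ℓ, twistR (ub ^ (b : ℕ)) (qExpand (Kb A) N (coeffMap res y))
      = qExpand (Kb A) N (coeffMap res y) := by
    intro b
    apply twistR_qExpand
    rw [← pow_mul, mul_comm, pow_mul, hubN, one_pow]
  apply qExpand_injective (R := Kb A) (N * ℓ)
  rw [← QL.coeffMap_qExpand, hwW, hW, map_mul, map_prod, QL.coeffMap_qExpand,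
    QL.coeffMap_qExpand]
  have h3 : ∀ b : Fin ℓ, coeffMap res (twistR (u ^ (b : ℕ)) (qExpand A N y))
      = qExpand (Kb A) N (coeffMap res y) := by
    intro b
    rw [coeffMap_twistR, QL.coeffMap_qExpand, map_pow]
    exact hprod b
  rw [Finset.prod_congr rfl fun b _ => h3 b, Finset.prod_const, Finset.card_univ,
    Fintype.card_fin, ← map_pow, pow_expChar ℓ (coeffMap res y), qExpand_qExpand ℓ N, map_mul]

end Fermat.Agent.S37.KFull
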