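/-
S37 (wave 8), chain K, piece K2 (second seat, helper2): the norm along the degeneracy map
`α : F_N → F_{Nℓ}` is the product over the `ℓ + 1` embeddings of K1.

* `KNormB.map_norm_eq_prod` (generic): if `F'/F` is finite separable of degree `n` and
  `σ : Fin n → (F' →+* Ω)` are pairwise distinct ring homomorphisms into a field `Ω` which all
  restrict to `ι : F →+* Ω`, then `ι (N_{F'/F} w) = ∏ i, σ i w`.
* `KNormB.finrank_along`: `[F_{Nℓ} : F_N] = ℓ + 1` for the algebra structure along `α`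
  (`ℓ ∤ N` prime).
* `KNormB.norm_eq_prod`: with the embeddings `E b` of `KEmb.exists_emb_bar`,
  `(N_α w)(u^ℓ) = w(u^ℓ) · ∏_{b < ℓ} E_b w` in `ℚ̄((u))`.
* `KNormB.norm_beta_eq_prod`: in particular
  `(N_α (β y))(u^ℓ) = y(u^{ℓ²}) · ∏_{b < ℓ} y(ζ^b u)`.
-/
import Fermat.Agent.S37.KEmb
import Fermat.Agent.S18.TopLevel
import Fermat.Agent.S18.GenMod

set_option autoImplicit false
set_option synthInstance.maxHeartbeats 400000
set_option linter.style.haveILetI false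
set_option linter.unusedSectionVars false

noncomputable section

open ModularCurve AlgebraicCurve IntermediateField

namespace Fermat.Agent.S37.KNormB

open Fermat.Agent.S18 Fermat.Agent.S28

/-! ### The generic product formula -/

/-- **norm = product over the embeddings** (generic form): `n = [F' : F]` pairwise distinct ring
homomorphisms `F' → Ω` extending `ι : F → Ω` compute `ι ∘ N_{F'/F}`. -/
theorem map_norm_eq_prod {F F' Ω : Type*} [Field F] [Field F'] [Field Ω] [Algebra F F']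
    [FiniteDimensional F F'] [Algebra.IsSeparable F F'] (ι : F →+* Ω) {n : ℕ}
    (σ : Fin n → (F' →+* Ω)) (hn : Module.finrank F F' = n)
    (hσ : ∀ i (x : F), σ i (algebraMap F F' x) = ι x) (hinj : Function.Injective σ) (w : F') :
    ι (Algebra.norm F w) = ∏ i, σ i w := by
  classical
  letI : Algebra F (AlgebraicClosure Ω) := ((algebraMap Ω (AlgebraicClosure Ω)).comp ι).toAlgebra
  let τ : Fin n → (F' →ₐ[F] AlgebraicClosure Ω) := fun i =>
    { toRingHom := (algebraMap Ω (AlgebraicClosure Ω)).comp (σ i)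
      commutes' := fun x => by
        show algebraMap Ω (AlgebraicClosure Ω) (σ i (algebraMap F F' x)) = _
        rw [hσ]
        rfl }
  have hτ : ∀ i (x : F'), τ i x = algebraMap Ω (AlgebraicClosure Ω) (σ i x) := fun _ _ => rfl
  have hτinj : Function.Injective τ := by
    intro i j hij
    apply hinj
    ext x
    have h1 := DFunLike.congr_fun hij x
    rw [hτ, hτ] at h1
    exact (algebraMap Ω (AlgebraicClosure Ω)).injective h1
  have hcard : Fintype.card (F' →ₐ[F] AlgebraicClosure Ω) = Fintype.card (Fin n) := by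
    rw [AlgHom.card, hn, Fintype.card_fin]
  have hbij : Function.Bijective τ :=
    (Fintype.bijective_iff_injective_and_card τ).mpr ⟨hτinj, hcard.symm⟩
  have h1 := Algebra.norm_eq_prod_embeddings F (AlgebraicClosure Ω) w
  rw [← (Equiv.ofBijective τ hbij).prod_comp] at h1
  apply (algebraMap Ω (AlgebraicClosure Ω)).injective
  rw [map_prod]
  exact h1

/-! ### The levels `N ∣ N * ℓ` -/

section Level

variable (N ℓ : ℕ) [NeZero N] [NeZero ℓ]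

/-- The algebra structure along `α` is compatible with the inclusions into `ℚ̄((q))`. -/
theorem coe_algebraMap_along (a : ↥(FN N)) :
    letI := algebraAlong (heckeAlphaBar Qb N ℓ)
    ((algebraMap ↥(FN N) ↥(FN (N * ℓ)) a : ↥(FN (N * ℓ))) : LaurentSeries Qb) = a :=
  coe_heckeAlphaBar N ℓ a

/-- `F_{Nℓ}` is finite over `F_N` along `α`. -/
theorem finite_along :
    letI := algebraAlong (heckeAlphaBar Qb N ℓ)
    Module.Finite ↥(FN N) ↥(FN (N * ℓ)) :=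
  letI := algebraAlong (heckeAlphaBar Qb N ℓ)
  LiftD.finite_bar (dvd_mul_right N ℓ) (coe_algebraMap_along N ℓ)

/-- `[F_{Nℓ} : F_N] = ℓ + 1` along `α`, for a prime `ℓ ∤ N`. -/
theorem finrank_along (hℓ : ℓ.Prime) (hℓN : ¬ ℓ ∣ N) :
    letI := algebraAlong (heckeAlphaBar Qb N ℓ)
    Module.finrank ↥(FN N) ↥(FN (N * ℓ)) = ℓ + 1 := by
  letI := algebraAlong (heckeAlphaBar Qb N ℓ)
  have h1 : Module.finrank ↥(FN N) ↥(FN (N * ℓ)) = relfinrank (FN N) (FN (N * ℓ)) :=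
    LiftD.finrank_eq_relfinrank_of_algebra _ _ (coe_algebraMap_along N ℓ)
  have h2 : levelDeg (dvd_mul_right N ℓ) = relfinrank (FN N) (FN (N * ℓ)) :=
    @LiftD.finrank_eq_relfinrank_of_algebra Qb (LaurentSeries Qb) _ _ _ (FN N) (FN (N * ℓ))
      (algOfLE (bar_mono (dvd_mul_right N ℓ)))
      (fun a => algOfLE_algebraMap (bar_mono (dvd_mul_right N ℓ)) a)
  have h3 : levelDeg (dvd_mul_right N ℓ) = ℓ + 1 :=
    levelDeg_eq_of_dedekindPsi _
      (by rw [S24.Comb.dedekindPsi_mul_of_not_dvd (NeZero.ne N) hℓ hℓN, mul_comm])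
  rw [h1, ← h2, h3]

/-- The embedding `w ↦ w(u^ℓ)` of `F_{Nℓ}` into `ℚ̄((u))`. -/
def embInf : ↥(FN (N * ℓ)) →+* LaurentSeries Qb :=
  (qExpand Qb ℓ).comp (FN (N * ℓ)).val.toRingHom

theorem embInf_apply (w : ↥(FN (N * ℓ))) :
    embInf N ℓ w = qExpand Qb ℓ (w : LaurentSeries Qb) := rfl

/-- The base embedding `f ↦ f(u^ℓ)` of `F_N` into `ℚ̄((u))`. -/
def embBase : ↥(FN N) →+* LaurentSeries Qb :=
  (qExpand Qb ℓ).comp (FN N).val.toRingHom

theorem embBase_apply (f : ↥(FN N)) :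
    embBase N ℓ f = qExpand Qb ℓ (f : LaurentSeries Qb) := rfl

/-- The family of `ℓ + 1` embeddings. -/
def sig (E : ℕ → (↥(FN (N * ℓ)) →+* LaurentSeries Qb)) (i : Fin (ℓ + 1)) :
    ↥(FN (N * ℓ)) →+* LaurentSeries Qb :=
  if (i : ℕ) < ℓ then E i else embInf N ℓ

theorem sig_lt (E : ℕ → (↥(FN (N * ℓ)) →+* LaurentSeries Qb)) (i : Fin (ℓ + 1))
    (hi : (i : ℕ) < ℓ) : sig N ℓ E i = E i := if_pos hi

theorem sig_ge (E : ℕ → (↥(FN (N * ℓ)) →+* LaurentSeries Qb)) (i : Fin (ℓ + 1))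
    (hi : ¬ (i : ℕ) < ℓ) : sig N ℓ E i = embInf N ℓ := if_neg hi

theorem sig_alpha (E : ℕ → (↥(FN (N * ℓ)) →+* LaurentSeries Qb))
    (hEα : ∀ b (f : ↥(FN N)), E b (heckeAlphaBar Qb N ℓ f) = qExpand Qb ℓ (f : LaurentSeries Qb))
    (i : Fin (ℓ + 1)) (x : ↥(FN N)) :
    sig N ℓ E i (heckeAlphaBar Qb N ℓ x) = embBase N ℓ x := by
  by_cases hi : (i : ℕ) < ℓ
  · rw [sig_lt N ℓ E i hi, embBase_apply]
    exact hEα i x
  · rw [sig_ge N ℓ E i hi, embInf_apply, embBase_apply, coe_heckeAlphaBar]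

theorem sig_beta_lt (ζ : Qbˣ) (E : ℕ → (↥(FN (N * ℓ)) →+* LaurentSeries Qb))
    (hEβ : ∀ b (f : ↥(FN N)),
      E b (heckeBetaBar Qb N ℓ f) = Kummer.twist (ζ ^ b) (f : LaurentSeries Qb))
    (i : Fin (ℓ + 1)) (hi : (i : ℕ) < ℓ) (y : ↥(FN N)) :
    sig N ℓ E i (heckeBetaBar Qb N ℓ y) = Kummer.twist (ζ ^ (i : ℕ)) (y : LaurentSeries Qb) := by
  rw [sig_lt N ℓ E i hi, hEβ]

theorem sig_beta_ge (E : ℕ → (↥(FN (N * ℓ)) →+* LaurentSeries Qb))
    (i : Fin (ℓ + 1)) (hi : ¬ (i : ℕ) < ℓ) (y : ↥(FN N)) :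
    sig N ℓ E i (heckeBetaBar Qb N ℓ y) = qExpand Qb ℓ (qExpand Qb ℓ (y : LaurentSeries Qb)) := by
  rw [sig_ge N ℓ E i hi, embInf_apply, coe_heckeBetaBar]

theorem coe_jBar : ((GenMod.jBar N : ↥(FN N)) : LaurentSeries Qb) = jqModC Qb := rfl

theorem sig_injective (hℓ : ℓ.Prime) (ζ : Qbˣ) (hζ : IsPrimitiveRoot (ζ : Qb) ℓ)
    (E : ℕ → (↥(FN (N * ℓ)) →+* LaurentSeries Qb))
    (hEβ : ∀ b (f : ↥(FN N)),
      E b (heckeBetaBar Qb N ℓ f) = Kummer.twist (ζ ^ b) (f : LaurentSeries Qb)) :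
    Function.Injective (sig N ℓ E) := by
  have hℓ1 : 1 < ℓ := hℓ.one_lt
  intro i j hij
  have h1 := DFunLike.congr_fun hij (heckeBetaBar Qb N ℓ (GenMod.jBar N))
  by_cases hi : (i : ℕ) < ℓ <;> by_cases hj : (j : ℕ) < ℓ
  · rw [sig_beta_lt N ℓ ζ E hEβ i hi, sig_beta_lt N ℓ ζ E hEβ j hj, coe_jBar] at h1
    exact Fin.ext (Kummer.twist_jqModC_inj ζ hζ hi hj h1)
  · rw [sig_beta_lt N ℓ ζ E hEβ i hi, sig_beta_ge N ℓ E j hj, coe_jBar] at h1
    exact absurd h1 (Kummer.twist_jqModC_ne_qExpand _ ℓ hℓ1 _)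
  · rw [sig_beta_ge N ℓ E i hi, sig_beta_lt N ℓ ζ E hEβ j hj, coe_jBar] at h1
    exact absurd h1.symm (Kummer.twist_jqModC_ne_qExpand _ ℓ hℓ1 _)
  · apply Fin.ext
    have := i.2
    have := j.2
    omega

theorem prod_sig (E : ℕ → (↥(FN (N * ℓ)) →+* LaurentSeries Qb)) (w : ↥(FN (N * ℓ))) :
    ∏ i, sig N ℓ E i w
      = qExpand Qb ℓ (w : LaurentSeries Qb) * ∏ b ∈ Finset.range ℓ, E b w := by
  rw [Fin.prod_univ_castSucc, sig_ge N ℓ E (Fin.last ℓ) (by simp), embInf_apply,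
    Finset.prod_range]
  have h3 : ∏ i : Fin ℓ, sig N ℓ E (Fin.castSucc i) w = ∏ i : Fin ℓ, E i w :=
    Finset.prod_congr rfl fun i _ => by
      rw [sig_lt N ℓ E (Fin.castSucc i) (by simp)]
      rfl
  rw [h3]
  exact mul_comm _ _

/-- **K2: norm = product over the `ℓ + 1` embeddings.**  For any family `E b` with the
properties of K1 (`KEmb.exists_emb_bar`), in `ℚ̄((u))`, `u = q^{1/ℓ}`:
`(N_α w)(u^ℓ) = w(u^ℓ) · ∏_{b < ℓ} E_b w`. -/
theorem norm_eq_prod (hℓ : ℓ.Prime) (hℓN : ¬ ℓ ∣ N) (ζ : Qbˣ) (hζ : IsPrimitiveRoot (ζ : Qb) ℓ)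
    (E : ℕ → (↥(FN (N * ℓ)) →+* LaurentSeries Qb))
    (hEα : ∀ b (f : ↥(FN N)), E b (heckeAlphaBar Qb N ℓ f) = qExpand Qb ℓ (f : LaurentSeries Qb))
    (hEβ : ∀ b (f : ↥(FN N)),
      E b (heckeBetaBar Qb N ℓ f) = Kummer.twist (ζ ^ b) (f : LaurentSeries Qb))
    (w : ↥(FN (N * ℓ))) :
    letI := algebraAlong (heckeAlphaBar Qb N ℓ)
    qExpand Qb ℓ ((Algebra.norm ↥(FN N) w : ↥(FN N)) : LaurentSeries Qb)
      = qExpand Qb ℓ (w : LaurentSeries Qb) * ∏ b ∈ Finset.range ℓ, E b w := by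
  letI := algebraAlong (heckeAlphaBar Qb N ℓ)
  haveI : Module.Finite ↥(FN N) ↥(FN (N * ℓ)) := finite_along N ℓ
  haveI : CharZero ↥(FN N) := charZero_of_injective_algebraMap (algebraMap Qb ↥(FN N)).injective
  haveI : Algebra.IsSeparable ↥(FN N) ↥(FN (N * ℓ)) := inferInstance
  have key := map_norm_eq_prod (embBase N ℓ) (sig N ℓ E) (finrank_along N ℓ hℓ hℓN)
    (fun i x => sig_alpha N ℓ E hEα i x) (sig_injective N ℓ hℓ ζ hζ E hEβ) w
  rw [prod_sig, embBase_apply] at key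
  exact key

/-- **K2 with K1 plugged in**: the embeddings `E b` exist and satisfy the product formula. -/
theorem exists_norm_eq_prod (hℓ : ℓ.Prime) (hℓN : ¬ ℓ ∣ N) :
    ∃ ζ : Qbˣ, IsPrimitiveRoot (ζ : Qb) ℓ ∧
      ∃ E : ℕ → (↥(FN (N * ℓ)) →+* LaurentSeries Qb),
        (∀ b (c : Qb), E b (algebraMap Qb ↥(FN (N * ℓ)) c) = HahnSeries.C c) ∧
        (∀ b (f : ↥(FN N)),
          E b (heckeAlphaBar Qb N ℓ f) = qExpand Qb ℓ (f : LaurentSeries Qb)) ∧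
        (∀ b (f : ↥(FN N)),
          E b (heckeBetaBar Qb N ℓ f) = Kummer.twist (ζ ^ b) (f : LaurentSeries Qb)) ∧
        ∀ w : ↥(FN (N * ℓ)),
          letI := algebraAlong (heckeAlphaBar Qb N ℓ)
          qExpand Qb ℓ ((Algebra.norm ↥(FN N) w : ↥(FN N)) : LaurentSeries Qb)
            = qExpand Qb ℓ (w : LaurentSeries Qb) * ∏ b ∈ Finset.range ℓ, E b w := by
  obtain ⟨ζ, hζ, hE⟩ := KEmb.exists_emb_bar N ℓ hℓ hℓN
  choose E hEc hEα hEβ using hE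
  exact ⟨ζ, hζ, E, hEc, hEα, hEβ, fun w => norm_eq_prod N ℓ hℓ hℓN ζ hζ E hEα hEβ w⟩

/-- **K2, consumer form for K3**: `(N_α (β y))(u^ℓ) = y(u^{ℓ²}) · ∏_{b < ℓ} y(ζ^b u)`. -/
theorem exists_norm_beta_eq_prod (hℓ : ℓ.Prime) (hℓN : ¬ ℓ ∣ N) :
    ∃ ζ : Qbˣ, IsPrimitiveRoot (ζ : Qb) ℓ ∧ ∀ y : ↥(FN N),
      letI := algebraAlong (heckeAlphaBar Qb N ℓ)
      qExpand Qb ℓ
          ((Algebra.norm ↥(FN N) (heckeBetaBar Qb N ℓ y) : ↥(FN N)) : LaurentSeries Qb)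
        = qExpand Qb ℓ (qExpand Qb ℓ (y : LaurentSeries Qb))
          * ∏ b ∈ Finset.range ℓ, Kummer.twist (ζ ^ b) (y : LaurentSeries Qb) := by
  obtain ⟨ζ, hζ, E, -, hEα, hEβ, hnorm⟩ := exists_norm_eq_prod N ℓ hℓ hℓN
  refine ⟨ζ, hζ, fun y => ?_⟩
  have h1 := hnorm (heckeBetaBar Qb N ℓ y)
  rw [h1, coe_heckeBetaBar]
  congr 1
  exact Finset.prod_congr rfl fun b _ => hEβ b y

end Level

end Fermat.Agent.S37.KNormB
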