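import Fermat.Agent.S54.Frobenius
import Fermat.Statements.S37

/-!
# S37, top level: `SpecializationExists` from a reduction map

`SpecializationExists N p J` asks, for every prime `ℓ ∤ N p` and every valuation ring `A`
of `L` over `ℓ`, for a Hecke module `J'`, a map `sp : J →+ J'` and `F : J' →+ J'` such that
`sp` is Hecke-linear, kills inertia, intertwines every Frobenius element with `F`, is
injective on `p`-power torsion, and `F² - T_ℓ F + ℓ = 0` on `J'`.

`specializationExists_of_red` takes `J' := J ⧸ W` for the *smallest* candidate `W` (the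
Hecke-span of `(τ - 1) x`, `τ` in inertia, and `(σ₀² - T_ℓ σ₀ + ℓ) x` for ONE Frobenius
element `σ₀`), for which every structural clause holds formally; the only content left is
`W ∩ J[p^∞] = 0`, which follows from ANY additive map `red : J →+ G` that kills inertia
differences, kills `(σ₀² - T_ℓ σ₀ + ℓ) J`, and is injective on `p`-power torsion.
-/

set_option autoImplicit false
set_option linter.style.haveILetI false

open ModularCurve

namespace Fermat.Agent.S37.Top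

universe u

section Inertia

variable {K L : Type*} [Field K] [Field L] [Algebra K L]

/-- Membership in `inertiaSubgroupIn`. -/
theorem mem_inertiaSubgroupIn_iff (A : ValuationSubring L) (τ : L ≃ₐ[K] L) :
    τ ∈ A.inertiaSubgroupIn K ↔
      ∃ h : τ ∈ A.decompositionSubgroup K,
        (⟨τ, h⟩ : A.decompositionSubgroup K) ∈ A.inertiaSubgroup K := by
  unfold ValuationSubring.inertiaSubgroupIn
  constructor
  · rintro ⟨x, hx, rfl⟩
    exact ⟨x.2, hx⟩
  · rintro ⟨h, hx⟩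
    exact ⟨⟨τ, h⟩, hx, rfl⟩

/-- Inertia is normalised by the decomposition group. -/
theorem conj_mem_inertiaSubgroupIn (A : ValuationSubring L) {σ τ : L ≃ₐ[K] L}
    (hσ : σ ∈ A.decompositionSubgroup K) (hτ : τ ∈ A.inertiaSubgroupIn K) :
    σ * τ * σ⁻¹ ∈ A.inertiaSubgroupIn K := by
  rw [mem_inertiaSubgroupIn_iff] at hτ ⊢
  obtain ⟨h, hx⟩ := hτ
  have hn : (A.inertiaSubgroup K).Normal := by
    unfold ValuationSubring.inertiaSubgroup
    infer_instance
  refine ⟨(A.decompositionSubgroup K).mul_mem ((A.decompositionSubgroup K).mul_mem hσ h)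
    ((A.decompositionSubgroup K).inv_mem hσ), ?_⟩
  exact hn.conj_mem ⟨τ, h⟩ hx ⟨σ, hσ⟩

/-- Two Frobenius elements differ by an element of inertia. -/
theorem inv_mul_mem_inertiaSubgroupIn (A : ValuationSubring L) {σ₀ σ : L ≃ₐ[K] L} {q : ℕ}
    (h₀ : A.IsFrobeniusAt σ₀ q) (h : A.IsFrobeniusAt σ q) :
    σ₀⁻¹ * σ ∈ A.inertiaSubgroupIn K := by
  rw [mem_inertiaSubgroupIn_iff]
  have hσ₀ := h₀.mem_decompositionSubgroup
  have hσ := h.mem_decompositionSubgroup
  refine ⟨(A.decompositionSubgroup K).mul_mem ((A.decompositionSubgroup K).inv_mem hσ₀) hσ, ?_⟩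
  unfold ValuationSubring.inertiaSubgroup
  rw [MonoidHom.mem_ker]
  ext x
  show ((⟨σ₀, hσ₀⟩ : A.decompositionSubgroup K)⁻¹ * ⟨σ, hσ⟩) • x = x
  rw [mul_smul, h.smul_residue_eq x, ← h₀.smul_residue_eq x, inv_smul_smul]

end Inertia

section Abstract

variable {K L : Type*} [Field K] [Field L] [Algebra K L]
variable (p : ℕ) (J : Type) [AddCommGroup J] [Module HeckeAlg J]
  [DistribMulAction (L ≃ₐ[K] L) J] [SMulCommClass (L ≃ₐ[K] L) HeckeAlg J]

/-- The generators of the minimal specialization kernel. -/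
def gens (A : ValuationSubring L) (T : HeckeAlg) (ℓ : ℕ) (σ₀ : L ≃ₐ[K] L) : Set J :=
  {y | ∃ τ ∈ A.inertiaSubgroupIn K, ∃ x : J, y = τ • x - x} ∪
    {y | ∃ x : J, y = σ₀ • σ₀ • x - T • (σ₀ • x) + ℓ • x}

/-- The minimal specialization kernel `W`. -/
noncomputable def kerW (A : ValuationSubring L) (T : HeckeAlg) (ℓ : ℕ) (σ₀ : L ≃ₐ[K] L) :
    Submodule HeckeAlg J :=
  Submodule.span HeckeAlg (gens J A T ℓ σ₀)

variable {J}

/-- The Hecke translates of a generator are generators. -/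
theorem smul_mem_gens (A : ValuationSubring L) (T : HeckeAlg) (ℓ : ℕ) (σ₀ : L ≃ₐ[K] L)
    (t : HeckeAlg) {y : J} (hy : y ∈ gens J A T ℓ σ₀) : t • y ∈ gens J A T ℓ σ₀ := by
  rcases hy with ⟨τ, hτ, x, rfl⟩ | ⟨x, rfl⟩
  · left
    exact ⟨τ, hτ, t • x, by rw [smul_sub, smul_comm τ t x]⟩
  · right
    refine ⟨t • x, ?_⟩
    rw [smul_add, smul_sub, smul_comm σ₀ t x, smul_comm σ₀ t (σ₀ • x), smul_comm T t,
      smul_comm t (ℓ : ℕ) x]

/-- An additive map that kills the generators kills `W`. -/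
theorem red_eq_zero_of_mem_kerW (A : ValuationSubring L) (T : HeckeAlg) (ℓ : ℕ)
    (σ₀ : L ≃ₐ[K] L) {G : Type u} [AddCommGroup G] (red : J →+ G)
    (hred : ∀ y ∈ gens J A T ℓ σ₀, red y = 0) {y : J} (hy : y ∈ kerW J A T ℓ σ₀) :
    red y = 0 := by
  have key : ∀ t : HeckeAlg, red (t • y) = 0 := by
    induction hy using Submodule.span_induction with
    | mem y hy => exact fun t => hred _ (smul_mem_gens A T ℓ σ₀ t hy)
    | zero => intro t; rw [smul_zero, map_zero]
    | add y z _ _ hy hz => intro t; rw [smul_add, map_add, hy t, hz t, add_zero]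
    | smul a y _ hy => intro t; rw [smul_smul]; exact hy (t * a)
  simpa using key 1

/-- `W` is stable under a Frobenius element `σ₀`. -/
theorem smul_mem_kerW (A : ValuationSubring L) (T : HeckeAlg) (ℓ : ℕ) (σ₀ : L ≃ₐ[K] L)
    (hσ₀ : σ₀ ∈ A.decompositionSubgroup K) {y : J} (hy : y ∈ kerW J A T ℓ σ₀) :
    σ₀ • y ∈ kerW J A T ℓ σ₀ := by
  induction hy using Submodule.span_induction with
  | mem y hy =>
    apply Submodule.subset_span
    rcases hy with ⟨τ, hτ, x, rfl⟩ | ⟨x, rfl⟩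
    · left
      refine ⟨σ₀ * τ * σ₀⁻¹, conj_mem_inertiaSubgroupIn A hσ₀ hτ, σ₀ • x, ?_⟩
      rw [smul_sub, mul_smul, mul_smul, inv_smul_smul]
    · right
      refine ⟨σ₀ • x, ?_⟩
      rw [smul_add, smul_sub, smul_comm σ₀ T (σ₀ • x), smul_comm σ₀ (ℓ : ℕ) x]
  | zero => rw [smul_zero]; exact Submodule.zero_mem _
  | add y z _ _ hy hz => rw [smul_add]; exact Submodule.add_mem _ hy hz
  | smul a y _ hy => rw [smul_comm σ₀ a y]; exact Submodule.smul_mem _ a hy

/-- **Top-level reduction of S37.**  `SpecializationExists` from, for every `ℓ ∤ N p` and `A`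
over `ℓ`, ONE Frobenius element `σ₀` and an additive map `red : J →+ G` killing inertia
differences and `(σ₀² - T_ℓ σ₀ + ℓ) J`, injective on `p`-power torsion. -/
theorem specializationExists_of_red (N : ℕ)
    (h : ∀ ℓ : ℕ, (hℓ : ℓ.Prime) → ¬ ℓ ∣ N * p →
      ∀ A : ValuationSubring L, A.LiesOverPrime ℓ →
        ∃ σ₀ : L ≃ₐ[K] L, A.IsFrobeniusAt σ₀ ℓ ∧
          ∃ (G : Type u) (_ : AddCommGroup G) (red : J →+ G),
            (∀ τ ∈ A.inertiaSubgroupIn K, ∀ x : J, red (τ • x) = red x) ∧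
            (∀ x : J, red (σ₀ • σ₀ • x - heckeGen ⟨ℓ, hℓ⟩ • (σ₀ • x) + ℓ • x) = 0) ∧
            (∀ x : J, (∃ n : ℕ, p ^ n • x = 0) → red x = 0 → x = 0)) :
    SpecializationExists (K := K) (L := L) N p J := by
  intro ℓ hℓ hℓNp A hA
  obtain ⟨σ₀, hσ₀, G, _, red, hI, hES, hinj⟩ := h ℓ hℓ hℓNp A hA
  have hσ₀D := hσ₀.mem_decompositionSubgroup
  set W : Submodule HeckeAlg J := kerW J A (heckeGen ⟨ℓ, hℓ⟩) ℓ σ₀ with hW
  have hredW : ∀ y ∈ W, red y = 0 := fun y hy =>
    red_eq_zero_of_mem_kerW A _ ℓ σ₀ red (by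
      rintro y (⟨τ, hτ, x, rfl⟩ | ⟨x, rfl⟩)
      · rw [map_sub, hI τ hτ x, sub_self]
      · exact hES x) hy
  -- the Frobenius endomorphism of `J ⧸ W`
  let φ : J →ₗ[HeckeAlg] J := DistribSMul.toLinearMap HeckeAlg J σ₀
  have hφW : W ≤ W.comap φ := fun y hy => smul_mem_kerW A _ ℓ σ₀ hσ₀D hy
  refine ⟨J ⧸ W, inferInstance, inferInstance, W.mkQ.toAddMonoidHom,
    (W.mapQ W φ hφW).toAddMonoidHom, ⟨?_, ?_, ?_, ?_⟩, ?_⟩
  · -- hecke_comm
    intro T x
    exact map_smul W.mkQ T x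
  · -- inertia_comm
    intro τ hτ x
    show W.mkQ (τ • x) = W.mkQ x
    rw [← sub_eq_zero, ← map_sub, Submodule.mkQ_apply, Submodule.Quotient.mk_eq_zero]
    exact Submodule.subset_span (Or.inl ⟨τ, hτ, x, rfl⟩)
  · -- frobenius_comm
    intro σ hσ x
    show W.mkQ (σ • x) = W.mapQ W φ hφW (W.mkQ x)
    rw [Submodule.mkQ_apply, Submodule.mkQ_apply, Submodule.mapQ_apply]
    show Submodule.Quotient.mk (σ • x) = Submodule.Quotient.mk (σ₀ • x)
    rw [← sub_eq_zero, ← Submodule.Quotient.mk_sub, Submodule.Quotient.mk_eq_zero]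
    have h1 : σ • x - σ₀ • x = σ₀ • ((σ₀⁻¹ * σ) • x - x) := by
      rw [smul_sub, mul_smul, smul_inv_smul]
    rw [h1]
    exact smul_mem_kerW A _ ℓ σ₀ hσ₀D
      (Submodule.subset_span (Or.inl ⟨σ₀⁻¹ * σ, inv_mul_mem_inertiaSubgroupIn A hσ₀ hσ, x, rfl⟩))
  · -- injective_torsion
    intro x hx hsp
    have hxW : x ∈ W := by
      have : W.mkQ x = 0 := hsp
      rwa [Submodule.mkQ_apply, Submodule.Quotient.mk_eq_zero] at this
    exact hinj x hx (hredW x hxW)
  · -- SpecialFibreRelation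
    intro y
    obtain ⟨x, rfl⟩ := W.mkQ_surjective y
    show W.mapQ W φ hφW (W.mapQ W φ hφW (W.mkQ x)) - heckeGen ⟨ℓ, hℓ⟩ • W.mapQ W φ hφW (W.mkQ x)
      + ℓ • W.mkQ x = 0
    rw [Submodule.mkQ_apply, Submodule.mapQ_apply, Submodule.mapQ_apply,
      ← Submodule.Quotient.mk_smul, ← Submodule.Quotient.mk_sub, ← Submodule.Quotient.mk_smul,
      ← Submodule.Quotient.mk_add, Submodule.Quotient.mk_eq_zero]
    exact Submodule.subset_span (Or.inr ⟨x, rfl⟩)

end Abstract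

end Fermat.Agent.S37.Top

namespace Fermat.Agent.S37.Top

open ModularCurve

/-- The concrete core of S37: for every `ℓ ∤ N p`, `A` over `ℓ` and Frobenius element `σ₀` at
`A`, an additive map `red` on `J₀(N)` that kills inertia differences, satisfies the
Eichler–Shimura congruence for `σ₀`, and is injective on `p`-power torsion. -/
def RedCore (N p : ℕ) [NeZero N] : Prop :=
  ∀ ℓ : ℕ, (hℓ : ℓ.Prime) → ¬ ℓ ∣ N * p →
    ∀ A : ValuationSubring (AlgebraicClosure ℚ), A.LiesOverPrime ℓ →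
      ∀ σ₀ : AlgebraicClosure ℚ ≃ₐ[ℚ] AlgebraicClosure ℚ, A.IsFrobeniusAt σ₀ ℓ →
        ∃ (G : Type) (_ : AddCommGroup G) (red : JZero N →+ G),
          (∀ τ ∈ A.inertiaSubgroupIn ℚ, ∀ x : JZero N, red (τ • x) = red x) ∧
          (∀ x : JZero N,
            red (σ₀ • σ₀ • x - heckeOperatorBar N ⟨ℓ, hℓ⟩ (σ₀ • x) + ℓ • x) = 0) ∧
          (∀ x : JZero N, (∃ n : ℕ, p ^ n • x = 0) → red x = 0 → x = 0)

/-- **S37 from its core.** -/
theorem result_of_redCore (N p : ℕ) [NeZero N] (hcomm : ModularCurve.HeckeOperatorsCommuteBar N)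
    (hcore : RedCore N p) :
    letI := ModularCurve.heckeModuleBar N
    ∀ (_ : SMulCommClass (AlgebraicClosure ℚ ≃ₐ[ℚ] AlgebraicClosure ℚ) ModularCurve.HeckeAlg
      (ModularCurve.JZero N)),
      ModularCurve.SpecializationExists (K := ℚ) (L := AlgebraicClosure ℚ) N p
        (ModularCurve.JZero N) := by
  letI := ModularCurve.heckeModuleBar N
  intro _
  apply specializationExists_of_red.{0}
  intro ℓ hℓ hℓNp A hA
  have hcl : IsAlgClosure ℚ (AlgebraicClosure ℚ) := AlgebraicClosure.instIsAlgClosure ℚ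
  obtain ⟨σ₀, hσ₀⟩ := Fermat.Agent.S54.exists_isFrobeniusAt A hℓ hA
  obtain ⟨G, _, red, h1, h2, h3⟩ := hcore ℓ hℓ hℓNp A hA σ₀ hσ₀
  refine ⟨σ₀, hσ₀, G, inferInstance, red, h1, fun x => ?_, h3⟩
  rw [heckeModuleBar_heckeGen_smul hcomm]
  exact h2 x

end Fermat.Agent.S37.Top
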