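import Fermat.Agent.S20.RRBasic

/-!
# S37, chain A (Deuring): the abstract core

`DeuCore.exists_reduction`: a function field `F / L` with a valuation ring `V` whose residue field
is a function field `Fb / k` of the same genus (in the sense of the two Riemann–Roch inequalities
`hdim`, `hub`) carries a reduction map on places `r : Place L F → Place k Fb` with
`r_* (div x) = div (rho x)` for every `x ∈ V` with `rho x ≠ 0` (Deuring's `L`-space argument).
-/

set_option autoImplicit false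

noncomputable section

namespace Fermat.Agent.S37.DeuCore

open AlgebraicCurve Fermat.Agent.S20

/-! ### Elementary facts on `Place.ord` -/

section Ord

variable {K F : Type*} [Field K] [Field F] [Algebra K F]

theorem ord_add_ge (v : Place K F) {f g : F} (hf : f ≠ 0) (hg : g ≠ 0) (hfg : f + g ≠ 0) :
    min (v.ord f) (v.ord g) ≤ v.ord (f + g) := by
  have h := v.adicValuation.map_add f g
  have hf' := v.adicValuation_ne_zero hf
  have hg' := v.adicValuation_ne_zero hg
  have hfg' := v.adicValuation_ne_zero hfg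
  simp only [Place.ord]
  rcases le_max_iff.mp h with h1 | h1
  · have := (WithZero.log_le_log hfg' hf').mpr h1
    rw [min_le_iff]
    left
    omega
  · have := (WithZero.log_le_log hfg' hg').mpr h1
    rw [min_le_iff]
    right
    omega

theorem ord_neg (v : Place K F) (f : F) : v.ord (-f) = v.ord f := by
  simp only [Place.ord, Valuation.map_neg]

theorem ord_const (v : Place K F) (c : K) : v.ord (algebraMap K F c) = 0 := by
  rcases eq_or_ne c 0 with rfl | hc
  · simp
  have hc' : algebraMap K F c ≠ 0 := by simpa using hc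
  have h1 : 0 ≤ v.ord (algebraMap K F c) :=
    ((RR.mem_valuationSubring_iff v).mp (v.algebraMap_mem' c)).resolve_left hc'
  have h2 : 0 ≤ v.ord (algebraMap K F c⁻¹) := by
    have hc2 : algebraMap K F c⁻¹ ≠ 0 := by simpa using hc
    exact ((RR.mem_valuationSubring_iff v).mp (v.algebraMap_mem' c⁻¹)).resolve_left hc2
  rw [map_inv₀, v.ord_inv] at h2
  omega

theorem ord_smul (v : Place K F) {c : K} (hc : c ≠ 0) (f : F) : v.ord (c • f) = v.ord f := by
  rw [Algebra.smul_def]
  rcases eq_or_ne f 0 with rfl | hf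
  · simp
  rw [v.ord_mul (by simpa using hc) hf, ord_const, zero_add]

theorem smul_ne_zero' {c : K} (hc : c ≠ 0) {f : F} (hf : f ≠ 0) : c • f ≠ 0 :=
  smul_ne_zero hc hf

/-- For nonzero `y`, `a` and a place `Q`, at most one `c ≠ 0` with `y + c a ≠ 0` fails
`ord (y + c a) = min (ord y) (ord a)`. -/
theorem bad_subsingleton (Q : Place K F) {y a : F} (hy : y ≠ 0) (ha : a ≠ 0) :
    {c : K | c ≠ 0 ∧ y + c • a ≠ 0 ∧ Q.ord (y + c • a) ≠ min (Q.ord y) (Q.ord a)}.Subsingleton := by
  intro c₁ h₁ c₂ h₂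
  by_contra hne
  obtain ⟨hc₁, hn₁, ho₁⟩ := h₁
  obtain ⟨hc₂, hn₂, ho₂⟩ := h₂
  have hlt : ∀ c : K, c ≠ 0 → y + c • a ≠ 0 → Q.ord (y + c • a) ≠ min (Q.ord y) (Q.ord a) →
      min (Q.ord y) (Q.ord a) < Q.ord (y + c • a) := by
    intro c hc hn ho
    have h := ord_add_ge Q hy (smul_ne_zero hc ha) hn
    rw [ord_smul Q hc] at h
    exact lt_of_le_of_ne h (Ne.symm ho)
  have hl₁ := hlt c₁ hc₁ hn₁ ho₁
  have hl₂ := hlt c₂ hc₂ hn₂ ho₂
  -- the difference is a multiple of `a`
  have hd : (y + c₁ • a) + -(y + c₂ • a) = (c₁ - c₂) • a := by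
    rw [sub_smul]; abel
  have hd0 : (c₁ - c₂) • a ≠ 0 := smul_ne_zero (sub_ne_zero.mpr hne) ha
  have h1 := ord_add_ge Q hn₁ (neg_ne_zero.mpr hn₂) (by rw [hd]; exact hd0)
  rw [hd, ord_neg, ord_smul Q (sub_ne_zero.mpr hne)] at h1
  -- a combination is a multiple of `y`
  have he : c₂ • (y + c₁ • a) + -(c₁ • (y + c₂ • a)) = (c₂ - c₁) • y := by
    rw [smul_add, smul_add, smul_smul, smul_smul, mul_comm c₂ c₁, sub_smul]; abel
  have he0 : (c₂ - c₁) • y ≠ 0 := smul_ne_zero (sub_ne_zero.mpr (Ne.symm hne)) hy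
  have h2 := ord_add_ge Q (smul_ne_zero hc₂ hn₁) (neg_ne_zero.mpr (smul_ne_zero hc₁ hn₂))
    (by rw [he]; exact he0)
  rw [he, ord_neg, ord_smul Q hc₂, ord_smul Q hc₁, ord_smul Q (sub_ne_zero.mpr (Ne.symm hne))] at h2
  have h3 : min (Q.ord y) (Q.ord a) < Q.ord a := lt_of_lt_of_le (lt_min hl₁ hl₂) h1
  have h4 : min (Q.ord y) (Q.ord a) < Q.ord y := lt_of_lt_of_le (lt_min hl₁ hl₂) h2
  exact absurd (lt_min h4 h3) (lt_irrefl _)

end Ord

/-! ### The pole hull of a finite family and its generic elements -/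

section Generic

variable {K F : Type*} [Field K] [Field F] [Algebra K F]

/-- **Pole hull and generic elements.** For a nonempty finite set `s` of nonzero functions there is
a divisor `H` with `s ⊆ L(H)` such that for every finite set `S` of places some element `y` of
the span of `s` has `ord_Q y = - H Q` for all `Q ∈ S`; moreover `y` avoids a given subspace `Pbad`
as soon as `s ⊄ Pbad`. -/
theorem exists_generic [Infinite K]
    (hp : ∀ f : F, f ≠ 0 → ∃ D : Divisor K F, ∀ v, D v = v.ord f)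
    (Pbad : Submodule K F) (s : Finset F) (hs : s.Nonempty) :
    (∀ w ∈ s, w ≠ 0) →
    ∃ H : Divisor K F, (∀ w ∈ s, w ∈ riemannRochSpace H) ∧
      ∀ S : Finset (Place K F), ∃ y ∈ Submodule.span K (s : Set F), y ≠ 0 ∧
        ((∃ w ∈ s, w ∉ Pbad) → y ∉ Pbad) ∧ ∀ Q ∈ S, Q.ord y = -H Q := by
  classical
  refine Finset.Nonempty.cons_induction ?_ ?_ hs
  · intro a hs0
    have ha0 : a ≠ 0 := hs0 a (Finset.mem_singleton_self a)
    obtain ⟨Da, hDa⟩ := hp a ha0
    refine ⟨-Da, ?_, ?_⟩
    · intro w hw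
      rw [Finset.mem_singleton] at hw
      subst hw
      rw [mem_riemannRochSpace_iff]
      intro v
      right
      rw [Finsupp.neg_apply, neg_neg, hDa v]
    · intro S
      refine ⟨a, Submodule.subset_span (by simp), ha0, ?_, ?_⟩
      · rintro ⟨w, hw, hwP⟩
        rw [Finset.mem_singleton] at hw
        subst hw
        exact hwP
      · intro Q _
        rw [Finsupp.neg_apply, neg_neg, hDa Q]
  · intro a s ha _ ih hs0
    have ha0 : a ≠ 0 := hs0 a (Finset.mem_cons_self a s)
    obtain ⟨Da, hDa⟩ := hp a ha0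
    obtain ⟨Hs, hHs, hgen⟩ := ih (fun w hw => hs0 w (Finset.mem_cons.mpr (Or.inr hw)))
    refine ⟨Hs ⊔ -Da, ?_, ?_⟩
    · intro w hw
      rcases Finset.mem_cons.mp hw with rfl | hw
      · refine RR.riemannRochSpace_mono (le_sup_right : -Da ≤ Hs ⊔ -Da) ?_
        rw [mem_riemannRochSpace_iff]
        intro v
        right
        rw [Finsupp.neg_apply, neg_neg, hDa v]
      · exact RR.riemannRochSpace_mono (le_sup_left : Hs ≤ Hs ⊔ -Da) (hHs w hw)
    · intro S
      obtain ⟨y, hy, hy0, hyP, hyS⟩ := hgen S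
      -- the finitely many bad parameters
      have hb0 : ({c : K | y + c • a = 0}).Subsingleton := by
        intro c₁ h₁ c₂ h₂
        by_contra hne
        have h1 : y + c₁ • a = 0 := h₁
        have h2 : y + c₂ • a = 0 := h₂
        have h3 : (c₁ - c₂) • a = 0 := by
          rw [sub_smul]
          linear_combination h1 - h2
        exact (smul_ne_zero (sub_ne_zero.mpr hne) ha0) h3
      have hb2 : ({c : K | a ∉ Pbad ∧ y + c • a ∈ Pbad}).Subsingleton := by
        intro c₁ h₁ c₂ h₂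
        by_contra hne
        obtain ⟨haP, h1⟩ := h₁
        obtain ⟨-, h2⟩ := h₂
        have h3 : (c₁ - c₂) • a ∈ Pbad := by
          have h4 : (c₁ - c₂) • a = (y + c₁ • a) - (y + c₂ • a) := by
            rw [sub_smul]; abel
          rw [h4]
          exact Pbad.sub_mem h1 h2
        apply haP
        have h5 := Pbad.smul_mem (c₁ - c₂)⁻¹ h3
        rwa [smul_smul, inv_mul_cancel₀ (sub_ne_zero.mpr hne), one_smul] at h5
      have hb1 : (⋃ Q ∈ (S : Set (Place K F)),
          {c : K | c ≠ 0 ∧ y + c • a ≠ 0 ∧ Q.ord (y + c • a) ≠ min (Q.ord y) (Q.ord a)}).Finite :=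
        Set.Finite.biUnion S.finite_toSet (fun Q _ => (bad_subsingleton Q hy0 ha0).finite)
      have hfin : (({0} : Set K) ∪ {c : K | y + c • a = 0} ∪
          (⋃ Q ∈ (S : Set (Place K F)),
            {c : K | c ≠ 0 ∧ y + c • a ≠ 0 ∧ Q.ord (y + c • a) ≠ min (Q.ord y) (Q.ord a)}) ∪
          {c : K | a ∉ Pbad ∧ y + c • a ∈ Pbad}).Finite :=
        (((Set.finite_singleton 0).union hb0.finite).union hb1).union hb2.finite
      obtain ⟨c, hc⟩ := hfin.infinite_compl.nonempty
      simp only [Set.mem_compl_iff, Set.mem_union, Set.mem_singleton_iff, Set.mem_ofPred_eq,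
        Set.mem_iUnion, Finset.mem_coe, not_or, not_exists] at hc
      obtain ⟨⟨⟨hc0, hcy⟩, hcS⟩, hcP⟩ := hc
      refine ⟨y + c • a, ?_, hcy, ?_, ?_⟩
      · rw [Finset.coe_cons]
        exact Submodule.add_mem _ (Submodule.span_mono (Set.subset_insert _ _) hy)
          (Submodule.smul_mem _ _ (Submodule.subset_span (Set.mem_insert _ _)))
      · rintro ⟨w, hw, hwP⟩
        by_cases haP : a ∈ Pbad
        · rcases Finset.mem_cons.mp hw with rfl | hw
          · exact absurd haP hwP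
          · intro hmem
            apply hyP ⟨w, hw, hwP⟩
            have h4 : y = (y + c • a) - c • a := by abel
            rw [h4]
            exact Pbad.sub_mem hmem (Pbad.smul_mem c haP)
        · intro hmem
          exact hcP ⟨haP, hmem⟩
      · intro Q hQ
        have h1 : Q.ord (y + c • a) = min (Q.ord y) (Q.ord a) := by
          by_contra hne
          exact hcS Q hQ ⟨hc0, hcy, hne⟩
        rw [h1, hyS Q hQ, Finsupp.sup_apply, Finsupp.neg_apply, ← hDa Q]
        omega

end Generic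

/-! ### Divisors and Riemann–Roch spaces: elementary facts -/

section Div

variable {K F : Type*} [Field K] [Field F] [Algebra K F]

theorem neg_le_ord_of_mem {D : Divisor K F} {x : F} (hx : x ∈ riemannRochSpace D) (hx0 : x ≠ 0)
    (v : Place K F) : -D v ≤ v.ord x :=
  ((mem_riemannRochSpace_iff.mp hx) v).resolve_left hx0

theorem one_mem_rr {D : Divisor K F} (hD : 0 ≤ D) : (1 : F) ∈ riemannRochSpace D := by
  rw [mem_riemannRochSpace_iff]
  intro v
  right
  rw [v.ord_one]
  have := Finsupp.le_def.mp hD v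
  simp only [Finsupp.coe_zero, Pi.zero_apply] at this
  omega

theorem mul_mem_rr {D D' : Divisor K F} {x x' : F} (hx : x ∈ riemannRochSpace D)
    (hx' : x' ∈ riemannRochSpace D') : x * x' ∈ riemannRochSpace (D + D') := by
  rw [mem_riemannRochSpace_iff]
  intro v
  by_cases h0 : x = 0
  · left; rw [h0, zero_mul]
  by_cases h0' : x' = 0
  · left; rw [h0', mul_zero]
  right
  rw [v.ord_mul h0 h0', Finsupp.add_apply]
  have h1 := neg_le_ord_of_mem hx h0 v
  have h2 := neg_le_ord_of_mem hx' h0' v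
  omega

theorem one_le_degree (hdeg1 : ∀ v : Place K F, v.deg = 1) {E : Divisor K F} (hE : 0 ≤ E)
    {Q : Place K F} (hQ : 0 < E Q) : 1 ≤ Divisor.degree E := by
  classical
  have h1 : 0 ≤ E - Finsupp.single Q 1 := by
    rw [Finsupp.le_def]
    intro v
    have hv := Finsupp.le_def.mp hE v
    simp only [Finsupp.coe_zero, Pi.zero_apply] at hv
    rw [Finsupp.coe_zero, Pi.zero_apply, Finsupp.sub_apply, Finsupp.single_apply]
    split_ifs with h
    · subst h; omega
    · omega
  have h2 := RR.degree_nonneg h1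
  rw [map_sub, Divisor.degree_single, hdeg1 Q] at h2
  simpa using h2

theorem eq_of_le_of_degree_eq (hdeg1 : ∀ v : Place K F, v.deg = 1) {H H' : Divisor K F}
    (hle : H ≤ H') (hdeg : Divisor.degree H = Divisor.degree H') : H = H' := by
  by_contra hne
  obtain ⟨Q, hQ⟩ := Finsupp.ne_iff.mp hne
  have hQ' : H Q < H' Q := lt_of_le_of_ne (Finsupp.le_def.mp hle Q) hQ
  have h1 : (0 : Divisor K F) ≤ H' - H := sub_nonneg.mpr hle
  have h2 : 0 < (H' - H) Q := by rw [Finsupp.sub_apply]; omega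
  have h3 := one_le_degree hdeg1 h1 h2
  rw [map_sub] at h3
  omega

theorem exists_single_of_degree_one (hdeg1 : ∀ v : Place K F, v.deg = 1) {E : Divisor K F}
    (hE : 0 ≤ E) (hdeg : Divisor.degree E = 1) : ∃ Q : Place K F, E = Finsupp.single Q 1 := by
  classical
  have hne : E ≠ 0 := by
    rintro rfl
    rw [map_zero] at hdeg
    omega
  obtain ⟨Q, hQ⟩ := Finsupp.ne_iff.mp hne
  have hQ0 := Finsupp.le_def.mp hE Q
  simp only [Finsupp.coe_zero, Pi.zero_apply] at hQ0 hQ
  have hQ' : 0 < E Q := lt_of_le_of_ne hQ0 (Ne.symm hQ)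
  have h1 : 0 ≤ E - Finsupp.single Q 1 := by
    rw [Finsupp.le_def]
    intro v
    have hv := Finsupp.le_def.mp hE v
    simp only [Finsupp.coe_zero, Pi.zero_apply] at hv
    rw [Finsupp.coe_zero, Pi.zero_apply, Finsupp.sub_apply, Finsupp.single_apply]
    split_ifs with h
    · subst h; omega
    · omega
  have h2 : (0 : Divisor K F) = E - Finsupp.single Q 1 := by
    refine eq_of_le_of_degree_eq hdeg1 h1 ?_
    rw [map_zero, map_sub, Divisor.degree_single, hdeg1 Q, hdeg]
    simp
  exact ⟨Q, (sub_eq_zero.mp h2.symm)⟩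

end Div

/-! ### Reduced Riemann–Roch spaces -/

section Core

variable {L F k Fb : Type*} [Field L] [Field F] [Algebra L F] [Field k] [Field Fb] [Algebra k Fb]

/-- `y ∈ rho (L(D) ∩ V)`. -/
def MemRed (V : ValuationSubring F) (rho : V →+* Fb) (D : Divisor L F) (y : Fb) : Prop :=
  ∃ x : V, (x : F) ∈ riemannRochSpace D ∧ rho x = y

/-- `H` is the reduction of the divisor `D`: `rho (L(D) ∩ V) = L̄(H)`, and at every place `Q` some
element of this space has pole order exactly `H Q`. -/
def IsRedDiv (V : ValuationSubring F) (rho : V →+* Fb) (D : Divisor L F) (H : Divisor k Fb) :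
    Prop :=
  (∀ y : Fb, y ∈ riemannRochSpace H ↔ MemRed V rho D y) ∧
    ∀ Q : Place k Fb, ∃ y, MemRed V rho D y ∧ y ≠ 0 ∧ Q.ord y = -H Q

variable {V : ValuationSubring F} {rho : V →+* Fb}

theorem IsRedDiv.mono {D D' : Divisor L F} {H H' : Divisor k Fb} (h : IsRedDiv V rho D H)
    (h' : IsRedDiv V rho D' H') (hle : D ≤ D') : H ≤ H' := by
  rw [Finsupp.le_def]
  intro Q
  obtain ⟨y, ⟨x, hx, rfl⟩, hy0, hord⟩ := h.2 Q
  have h1 : rho x ∈ riemannRochSpace H' :=
    (h'.1 _).mpr ⟨x, RR.riemannRochSpace_mono hle hx, rfl⟩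
  have h2 := neg_le_ord_of_mem h1 hy0 Q
  omega

theorem IsRedDiv.unique {D : Divisor L F} {H H' : Divisor k Fb} (h : IsRedDiv V rho D H)
    (h' : IsRedDiv V rho D H') : H = H' :=
  le_antisymm (h.mono h' le_rfl) (h'.mono h le_rfl)

theorem IsRedDiv.add_le {D D' : Divisor L F} {H H' H'' : Divisor k Fb} (h : IsRedDiv V rho D H)
    (h' : IsRedDiv V rho D' H') (h'' : IsRedDiv V rho (D + D') H'') : H + H' ≤ H'' := by
  rw [Finsupp.le_def]
  intro Q
  obtain ⟨y, ⟨x, hx, rfl⟩, hy0, hord⟩ := h.2 Q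
  obtain ⟨y', ⟨x', hx', rfl⟩, hy0', hord'⟩ := h'.2 Q
  have h1 : rho x * rho x' ∈ riemannRochSpace H'' :=
    (h''.1 _).mpr ⟨x * x', mul_mem_rr hx hx', map_mul rho x x'⟩
  have h2 := neg_le_ord_of_mem h1 (mul_ne_zero hy0 hy0') Q
  rw [Q.ord_mul hy0 hy0'] at h2
  rw [Finsupp.add_apply]
  omega

/-- The hypotheses of Deuring's argument. -/
structure Hyps (A : ValuationSubring L) (res : A →+* k) (V : ValuationSubring F) (rho : V →+* Fb)
    (g c : ℤ) (Pbad : Submodule k Fb) (B : Divisor L F) (xB : V) : Prop where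
  h0 : RR.Hyp0 L F
  h0b : RR.Hyp0 k Fb
  hres : Function.Surjective res
  hVA : ∀ a : A, algebraMap L F (a : L) ∈ V
  hrho : ∀ (a : A) (h : algebraMap L F (a : L) ∈ V),
    rho ⟨algebraMap L F (a : L), h⟩ = algebraMap k Fb (res a)
  hdim : ∀ D : Divisor L F, ∃ (n : ℕ) (w : Fin n → V),
    (∀ i, (w i : F) ∈ riemannRochSpace D) ∧ LinearIndependent k (fun i => rho (w i)) ∧
    Divisor.degree D + 1 - g ≤ n ∧
    ∀ x : V, (x : F) ∈ riemannRochSpace D →
      ∃ a : Fin n → A, (x : F) = ∑ i, algebraMap L F (a i : L) * (w i : F)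
  hub : ∀ E : Divisor k Fb, c ≤ Divisor.degree E → (RR.ell E : ℤ) ≤ Divisor.degree E + 1 - g
  hdeg : ∀ x : V, rho x ∉ Pbad → ∀ (G : Divisor L F) (Gb : Divisor k Fb), 0 ≤ G →
    (x : F) ∈ riemannRochSpace G → (∀ Q, Gb Q ≤ max (-(Q.ord (rho x))) 0) →
    Divisor.degree Gb ≤ Divisor.degree G
  hB : 0 ≤ B
  hxB : (xB : F) ∈ riemannRochSpace B
  hxB' : rho xB ∉ Pbad

variable {A : ValuationSubring L} {res : A →+* k} {g c : ℤ} {Pbad : Submodule k Fb}
  {B : Divisor L F} {xB : V}

theorem Hyps.memRed_of_span (S : Hyps A res V rho g c Pbad B xB) {D : Divisor L F} {n : ℕ}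
    {w : Fin n → V} (hw : ∀ i, (w i : F) ∈ riemannRochSpace D) (y : Fb)
    (hy : y ∈ Submodule.span k (Set.range fun i => rho (w i))) : MemRed V rho D y := by
  induction hy using Submodule.span_induction with
  | mem y hy =>
    obtain ⟨i, rfl⟩ := hy
    exact ⟨w i, hw i, rfl⟩
  | zero => exact ⟨0, Submodule.zero_mem _, map_zero rho⟩
  | add y y' _ _ ih ih' =>
    obtain ⟨x, hx, rfl⟩ := ih
    obtain ⟨x', hx', rfl⟩ := ih'
    exact ⟨x + x', Submodule.add_mem _ hx hx', map_add rho x x'⟩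
  | smul t y _ ih =>
    obtain ⟨x, hx, rfl⟩ := ih
    obtain ⟨a, rfl⟩ := S.hres t
    refine ⟨⟨algebraMap L F (a : L), S.hVA a⟩ * x, ?_, ?_⟩
    · show algebraMap L F (a : L) * (x : F) ∈ riemannRochSpace D
      rw [← Algebra.smul_def]
      exact Submodule.smul_mem _ _ hx
    · rw [map_mul, S.hrho, Algebra.smul_def]

theorem Hyps.mem_span_of_memRed (S : Hyps A res V rho g c Pbad B xB) {D : Divisor L F} {n : ℕ}
    {w : Fin n → V}
    (hspan : ∀ x : V, (x : F) ∈ riemannRochSpace D →
      ∃ a : Fin n → A, (x : F) = ∑ i, algebraMap L F (a i : L) * (w i : F)) (y : Fb)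
    (hy : MemRed V rho D y) : y ∈ Submodule.span k (Set.range fun i => rho (w i)) := by
  obtain ⟨x, hx, rfl⟩ := hy
  obtain ⟨a, ha⟩ := hspan x hx
  have hx' : x = ∑ i, (⟨algebraMap L F (a i : L), S.hVA (a i)⟩ : V) * w i := by
    apply Subtype.ext
    rw [ha, AddSubmonoidClass.coe_finsetSum]
    rfl
  rw [hx', map_sum]
  refine Submodule.sum_mem _ fun i _ => ?_
  rw [map_mul, S.hrho, ← Algebra.smul_def]
  exact Submodule.smul_mem _ _ (Submodule.subset_span ⟨i, rfl⟩)

/-- **The squeeze.** For `D ≥ B` of large degree the reduced space `rho (L(D) ∩ V)` is a full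
Riemann–Roch space `L̄(H)` with `deg H = deg D`. -/
theorem Hyps.exists_isRedDiv [Infinite k] (S : Hyps A res V rho g c Pbad B xB)
    (D : Divisor L F) (hBD : B ≤ D) (hD : |c| + |g| + 1 ≤ Divisor.degree D) :
    ∃ H : Divisor k Fb, IsRedDiv V rho D H ∧ Divisor.degree H = Divisor.degree D := by
  classical
  obtain ⟨n, w, hw, hli, hn, hspan⟩ := S.hdim D
  have hD0 : 0 ≤ D := S.hB.trans hBD
  have hg1 := le_abs_self g
  have hc1 := le_abs_self c
  have hg0 := abs_nonneg g
  have hc0 := abs_nonneg c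
  have hn1 : 1 ≤ n := by omega
  have : Nonempty (Fin n) := ⟨⟨0, hn1⟩⟩
  set s : Finset Fb := Finset.univ.image (fun i => rho (w i)) with hs
  have hsne : s.Nonempty := Finset.image_nonempty.mpr Finset.univ_nonempty
  have hs0 : ∀ y ∈ s, y ≠ 0 := by
    intro y hy
    obtain ⟨i, -, rfl⟩ := Finset.mem_image.mp hy
    exact hli.ne_zero i
  have hcoe : (s : Set Fb) = Set.range (fun i => rho (w i)) := by
    rw [hs, Finset.coe_image, Finset.coe_univ, Set.image_univ]
  obtain ⟨H, hH, hgen⟩ := exists_generic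
    (fun f hf => (S.h0b.principal f hf).imp fun _ hD => hD.1) Pbad s hsne hs0
  have hred_of_span : ∀ y ∈ Submodule.span k (s : Set Fb), MemRed V rho D y := by
    rw [hcoe]
    exact S.memRed_of_span hw
  have hspan_of_red : ∀ y, MemRed V rho D y → y ∈ Submodule.span k (s : Set Fb) := by
    rw [hcoe]
    exact S.mem_span_of_memRed hspan
  have hsubH : Submodule.span k (s : Set Fb) ≤ riemannRochSpace H :=
    Submodule.span_le.mpr (fun y hy => hH y hy)
  -- `H` is effective
  have hH0 : 0 ≤ H := by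
    rw [Finsupp.le_def]
    intro Q
    have h1 : (1 : Fb) ∈ riemannRochSpace H :=
      hsubH (hspan_of_red 1 ⟨1, one_mem_rr hD0, map_one rho⟩)
    have h2 := neg_le_ord_of_mem h1 one_ne_zero Q
    rw [Q.ord_one] at h2
    rw [Finsupp.coe_zero, Pi.zero_apply]
    omega
  -- the family is not contained in the bad subspace
  have hsP : ∃ y ∈ s, y ∉ Pbad := by
    by_contra hcon
    push Not at hcon
    have h1 : Submodule.span k (s : Set Fb) ≤ Pbad := Submodule.span_le.mpr hcon
    exact S.hxB' (h1 (hspan_of_red _ ⟨xB, RR.riemannRochSpace_mono hBD S.hxB, rfl⟩))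
  -- `deg H ≤ deg D` by the degree inequality for a generic element
  have hle : Divisor.degree H ≤ Divisor.degree D := by
    obtain ⟨y, hy, hy0, hyP, hyS⟩ := hgen H.support
    obtain ⟨x, hx, rfl⟩ := hred_of_span y hy
    refine S.hdeg x (hyP hsP) D H hD0 hx ?_
    intro Q
    by_cases hQ : Q ∈ H.support
    · rw [hyS Q hQ, neg_neg]
      exact le_max_left _ _
    · rw [Finsupp.notMem_support_iff.mp hQ]
      exact le_max_right _ _
  -- `n ≤ ℓ̄(H)`
  have := RR.finite S.h0b H
  have hmem : ∀ i, rho (w i) ∈ riemannRochSpace H := fun i =>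
    hsubH (Submodule.subset_span (by rw [hcoe]; exact ⟨i, rfl⟩))
  have hli' : LinearIndependent k
      (fun i => (⟨rho (w i), hmem i⟩ : riemannRochSpace H)) := by
    apply LinearIndependent.of_comp (riemannRochSpace H).subtype
    exact hli
  have hn_le : n ≤ RR.ell H := by
    have h1 := hli'.fintype_card_le_finrank
    rwa [Fintype.card_fin] at h1
  have hcH : c ≤ Divisor.degree H := by
    by_contra hlt
    have hcrude := (RR.finite_and_ell_le_of_nonneg S.h0b H hH0).2
    omega
  have hub' := S.hub H hcH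
  have hdegeq : Divisor.degree H = Divisor.degree D := by omega
  have hcard : n = RR.ell H := by omega
  have hspan_top : Submodule.span k
      (Set.range (fun i => (⟨rho (w i), hmem i⟩ : riemannRochSpace H))) = ⊤ :=
    hli'.span_eq_top_of_card_eq_finrank' (by rw [Fintype.card_fin, hcard]; rfl)
  have hH_sub : riemannRochSpace H ≤ Submodule.span k (s : Set Fb) := by
    intro y hy
    have h1 : (⟨y, hy⟩ : riemannRochSpace H) ∈ Submodule.span k
        (Set.range (fun i => (⟨rho (w i), hmem i⟩ : riemannRochSpace H))) := by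
      rw [hspan_top]
      trivial
    have h2 := Submodule.mem_map_of_mem (f := (riemannRochSpace H).subtype) h1
    rw [Submodule.map_span, ← Set.range_comp] at h2
    rw [hcoe]
    exact h2
  refine ⟨H, ⟨fun y => ⟨fun hy => hred_of_span y (hH_sub hy),
    fun hy => hsubH (hspan_of_red y hy)⟩, ?_⟩, hdegeq⟩
  intro Q
  obtain ⟨y, hy, hy0, -, hyS⟩ := hgen {Q}
  exact ⟨y, hred_of_span y hy, hy0, hyS Q (Finset.mem_singleton_self Q)⟩

theorem Hyps.degree_eq [Infinite k] (S : Hyps A res V rho g c Pbad B xB) {D : Divisor L F}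
    {H : Divisor k Fb} (hBD : B ≤ D) (hD : |c| + |g| + 1 ≤ Divisor.degree D)
    (h : IsRedDiv V rho D H) : Divisor.degree H = Divisor.degree D := by
  obtain ⟨H', h', hdeg'⟩ := S.exists_isRedDiv D hBD hD
  rw [h.unique h']
  exact hdeg'

/-- Additivity of the reduction of divisors. -/
theorem Hyps.isRedDiv_add [Infinite k] (S : Hyps A res V rho g c Pbad B xB)
    {D₁ D₂ : Divisor L F} {H₁ H₂ : Divisor k Fb}
    (hB₁ : B ≤ D₁) (hd₁ : |c| + |g| + 1 ≤ Divisor.degree D₁)
    (hB₂ : B ≤ D₂) (hd₂ : |c| + |g| + 1 ≤ Divisor.degree D₂)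
    (h₁ : IsRedDiv V rho D₁ H₁) (h₂ : IsRedDiv V rho D₂ H₂) :
    IsRedDiv V rho (D₁ + D₂) (H₁ + H₂) := by
  have hB12 : B ≤ D₁ + D₂ := le_add_of_le_of_nonneg hB₁ (S.hB.trans hB₂)
  have hg0 := abs_nonneg g
  have hc0 := abs_nonneg c
  have hd12 : |c| + |g| + 1 ≤ Divisor.degree (D₁ + D₂) := by
    rw [map_add]
    omega
  obtain ⟨H'', h'', hdeg''⟩ := S.exists_isRedDiv (D₁ + D₂) hB12 hd12
  have hle := h₁.add_le h₂ h''
  have heq : H₁ + H₂ = H'' := eq_of_le_of_degree_eq S.h0b.deg_one hle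
    (by rw [map_add, S.degree_eq hB₁ hd₁ h₁, S.degree_eq hB₂ hd₂ h₂, hdeg'', map_add])
  rw [heq]
  exact h''

end Core

/-! ### Deuring's theorem -/

/-- **Deuring's reduction of places (abstract form).** Let `F / L` and `Fb / k` be function fields
(`k` infinite), `V` a valuation ring of `F` with residue map `rho : V → Fb` extending
`res : A → k`, and assume: (`hdim`) the reduced Riemann–Roch spaces `rho (L(D) ∩ V)` have
dimension at least `deg D + 1 - g`; (`hub`) `ℓ̄(E) ≤ deg E + 1 - g` for divisors `E` of `Fb` of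
large degree; (`hdeg`) the degree inequality for the pole divisors of `x` and `rho x` whenever
`rho x` is outside a subspace `Pbad`, which does not contain `rho (L(B) ∩ V)` for some effective
`B`. Then there is a map `r` on places with `r_* (div x) = div (rho x)` for every `x ∈ V` with
`rho x ≠ 0`. -/
theorem exists_reduction
    {L F k Fb : Type*} [Field L] [Field F] [Algebra L F] [Field k] [Field Fb] [Algebra k Fb]
    [Infinite k]
    (h0 : RR.Hyp0 L F) (h0b : RR.Hyp0 k Fb) (P₀ : Place L F)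
    (A : ValuationSubring L) (res : A →+* k) (hres : Function.Surjective res)
    (V : ValuationSubring F) (rho : V →+* Fb)
    (hVA : ∀ a : A, algebraMap L F (a : L) ∈ V)
    (hrho : ∀ a : A, rho ⟨algebraMap L F (a : L), hVA a⟩ = algebraMap k Fb (res a))
    (g c : ℤ)
    (hdim : ∀ D : Divisor L F, ∃ (n : ℕ) (w : Fin n → V),
      (∀ i, (w i : F) ∈ riemannRochSpace D) ∧ LinearIndependent k (fun i => rho (w i)) ∧
      Divisor.degree D + 1 - g ≤ n ∧
      ∀ x : V, (x : F) ∈ riemannRochSpace D →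
        ∃ a : Fin n → A, (x : F) = ∑ i, algebraMap L F (a i : L) * (w i : F))
    (hub : ∀ E : Divisor k Fb, c ≤ Divisor.degree E → (RR.ell E : ℤ) ≤ Divisor.degree E + 1 - g)
    (Pbad : Submodule k Fb)
    (hdeg : ∀ x : V, rho x ∉ Pbad → ∀ (G : Divisor L F) (Gb : Divisor k Fb), 0 ≤ G →
      (x : F) ∈ riemannRochSpace G → (∀ Q, Gb Q ≤ max (-(Q.ord (rho x))) 0) →
      Divisor.degree Gb ≤ Divisor.degree G)
    (B : Divisor L F) (hB : 0 ≤ B) (xB : V) (hxB : (xB : F) ∈ riemannRochSpace B)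
    (hxB' : rho xB ∉ Pbad) :
    ∃ r : Place L F → Place k Fb, ∀ x : V, rho x ≠ 0 → ∀ D : Divisor L F,
      (∀ P, D P = P.ord (x : F)) → ∀ Q, Finsupp.mapDomain r D Q = Q.ord (rho x) := by
  classical
  have S : Hyps A res V rho g c Pbad B xB :=
    { h0 := h0, h0b := h0b, hres := hres, hVA := hVA, hrho := fun a _ => hrho a, hdim := hdim,
      hub := hub, hdeg := hdeg, hB := hB, hxB := hxB, hxB' := hxB' }
  have hg0 := abs_nonneg g
  have hc0 := abs_nonneg c
  -- a base divisor of large degree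
  obtain ⟨D₀, hD₀⟩ : ∃ D₀ : Divisor L F, D₀ = B + Finsupp.single P₀ (|c| + |g| + 1) := ⟨_, rfl⟩
  have hBD₀ : B ≤ D₀ := by
    rw [hD₀]
    refine le_add_of_nonneg_right ?_
    rw [Finsupp.le_def]
    intro v
    rw [Finsupp.coe_zero, Pi.zero_apply, Finsupp.single_apply]
    split_ifs
    · omega
    · exact le_rfl
  have hdD₀ : |c| + |g| + 1 ≤ Divisor.degree D₀ := by
    rw [hD₀, map_add, Divisor.degree_single, h0.deg_one P₀]
    have := RR.degree_nonneg hB
    simp only [Nat.cast_one, mul_one]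
    omega
  obtain ⟨H₀, hH₀, hdegH₀⟩ := S.exists_isRedDiv D₀ hBD₀ hdD₀
  have hdomB : ∀ E : Divisor L F, 0 ≤ E → B ≤ E + D₀ := fun E hE =>
    hBD₀.trans (le_add_of_nonneg_left hE)
  have hdomd : ∀ E : Divisor L F, 0 ≤ E → |c| + |g| + 1 ≤ Divisor.degree (E + D₀) := by
    intro E hE
    rw [map_add]
    have := RR.degree_nonneg hE
    omega
  -- the reduction of a place
  have hr : ∀ P : Place L F, ∃ Q : Place k Fb,
      IsRedDiv V rho (Finsupp.single P 1 + D₀) (Finsupp.single Q 1 + H₀) := by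
    intro P
    have hP0 := RR.single_one_nonneg P
    obtain ⟨H₁, hH₁, hdegH₁⟩ := S.exists_isRedDiv _ (hdomB _ hP0) (hdomd _ hP0)
    have hle : H₀ ≤ H₁ := hH₀.mono hH₁ (le_add_of_nonneg_left hP0)
    have hE : 0 ≤ H₁ - H₀ := sub_nonneg.mpr hle
    have hdegE : Divisor.degree (H₁ - H₀) = 1 := by
      rw [map_sub, hdegH₁, hdegH₀, map_add, Divisor.degree_single, h0.deg_one P]
      simp
    obtain ⟨Q, hQ⟩ := exists_single_of_degree_one h0b.deg_one hE hdegE
    refine ⟨Q, ?_⟩
    have h1 : Finsupp.single Q 1 + H₀ = H₁ := by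
      rw [← hQ]
      abel
    rw [h1]
    exact hH₁
  choose r hr using hr
  -- the reduction of `E + D₀` for effective `E`
  have hkey : ∀ E : Divisor L F, 0 ≤ E →
      IsRedDiv V rho (E + D₀) (Finsupp.mapDomain r E + H₀) := by
    intro E hE
    refine RR.induction_of_le
      (P := fun E => IsRedDiv V rho (E + D₀) (Finsupp.mapDomain r E + H₀)) ?_ ?_ E hE
    · rw [zero_add, Finsupp.mapDomain_zero, zero_add]
      exact hH₀
    · intro E v hE ih
      have hv0 := RR.single_one_nonneg v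
      have hEv : 0 ≤ E + Finsupp.single v 1 := add_nonneg hE hv0
      obtain ⟨H'', hH'', -⟩ := S.exists_isRedDiv _ (hdomB _ hEv) (hdomd _ hEv)
      have h1 := S.isRedDiv_add (hdomB _ hE) (hdomd _ hE) (hdomB _ hv0) (hdomd _ hv0) ih (hr v)
      have h2 := S.isRedDiv_add (hdomB _ hEv) (hdomd _ hEv) hBD₀ hdD₀ hH'' hH₀
      have hdiv : (E + D₀) + (Finsupp.single v 1 + D₀) = (E + Finsupp.single v 1 + D₀) + D₀ := by
        abel
      rw [hdiv] at h1
      have heq := h1.unique h2
      have h3 : Finsupp.mapDomain r (E + Finsupp.single v 1) + H₀ = H'' := by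
        rw [Finsupp.mapDomain_add, Finsupp.mapDomain_single]
        apply add_right_cancel (b := H₀)
        rw [← heq]
        abel
      rw [h3]
      exact hH''
  refine ⟨r, ?_⟩
  intro x hx D hD Q
  obtain ⟨Db, hDb, hdegDb⟩ := h0b.principal (rho x) hx
  have hx0 : (x : F) ≠ 0 := by
    intro h
    apply hx
    have h1 : x = 0 := Subtype.ext h
    rw [h1, map_zero]
  obtain ⟨D', hD', hdegD'⟩ := h0.principal (x : F) hx0
  have hDD' : D = D' := by
    ext P
    rw [hD, hD']
  have hdegD : Divisor.degree D = 0 := by rw [hDD']; exact hdegD'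
  -- zeros and poles of `x`
  obtain ⟨Z, hZ⟩ : ∃ Z : Divisor L F, Z = D ⊔ 0 := ⟨_, rfl⟩
  obtain ⟨Pl, hPl⟩ : ∃ Pl : Divisor L F, Pl = (-D) ⊔ 0 := ⟨_, rfl⟩
  have hZ0 : 0 ≤ Z := by rw [hZ]; exact le_sup_right
  have hPl0 : 0 ≤ Pl := by rw [hPl]; exact le_sup_right
  have hZPl : D + Pl = Z := by
    ext P
    rw [Finsupp.add_apply, hZ, hPl, Finsupp.sup_apply, Finsupp.sup_apply, Finsupp.neg_apply,
      Finsupp.coe_zero, Pi.zero_apply]
    omega
  have h1 := hkey Z hZ0
  have h2 := hkey Pl hPl0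
  have hle : Finsupp.mapDomain r Z + H₀ - Db ≤ Finsupp.mapDomain r Pl + H₀ := by
    rw [Finsupp.le_def]
    intro Q
    obtain ⟨y, ⟨x', hx', rfl⟩, hy0, hord⟩ := h1.2 Q
    have hxx' : ((x * x' : V) : F) ∈ riemannRochSpace (Pl + D₀) := by
      have hxmem : (x : F) ∈ riemannRochSpace (-D) := by
        rw [mem_riemannRochSpace_iff]
        intro v
        right
        rw [Finsupp.neg_apply, neg_neg, hD v]
      have h3 := mul_mem_rr hxmem hx'
      have hdiv : -D + (Z + D₀) = Pl + D₀ := by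
        rw [← hZPl]
        abel
      rw [hdiv] at h3
      exact h3
    have h3 : rho x * rho x' ∈ riemannRochSpace (Finsupp.mapDomain r Pl + H₀) :=
      (h2.1 _).mpr ⟨x * x', hxx', map_mul rho x x'⟩
    have h4 := neg_le_ord_of_mem h3 (mul_ne_zero hx hy0) Q
    rw [Q.ord_mul hx hy0, hord, ← hDb Q] at h4
    rw [Finsupp.sub_apply]
    omega
  have hdegZ : Divisor.degree Z = Divisor.degree Pl := by
    rw [← hZPl, map_add, hdegD, zero_add]
  have hdeq : Divisor.degree (Finsupp.mapDomain r Z + H₀ - Db) =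
      Divisor.degree (Finsupp.mapDomain r Pl + H₀) := by
    rw [map_sub, hdegDb, sub_zero, S.degree_eq (hdomB _ hZ0) (hdomd _ hZ0) h1,
      S.degree_eq (hdomB _ hPl0) (hdomd _ hPl0) h2, map_add, map_add, hdegZ]
  have heq := eq_of_le_of_degree_eq h0b.deg_one hle hdeq
  have hadd : Finsupp.mapDomain r D + Finsupp.mapDomain r Pl = Finsupp.mapDomain r Z := by
    rw [← Finsupp.mapDomain_add, hZPl]
  have hfin : Finsupp.mapDomain r D = Db := by
    rw [← hadd] at heq
    calc Finsupp.mapDomain r D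
        = (Finsupp.mapDomain r D + Finsupp.mapDomain r Pl + H₀ - Db)
            - (Finsupp.mapDomain r Pl + H₀) + Db := by abel
      _ = Db := by rw [heq]; abel
  rw [hfin, hDb Q]

end Fermat.Agent.S37.DeuCore
end
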