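/-
S37 (wave 8), chain A (Deuring), the generic core: a reduction map on places from the genus
squeeze.

Setting: function fields `F / K` and `Fb / k` (all places of degree one, principal divisors of
degree zero), a valuation ring `V ⊂ F` with a reduction `rho : V →+* Fb`, such that the
Riemann–Roch spaces `L(D)` have "orthonormal bases" (`hbasis`), Riemann's inequality holds for `F`
with constant `g` (`hLE`) and the reverse inequality holds for `Fb` in large degree (`hGE`),
and the degree of the pole divisor does not grow under reduction for functions whose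
reduction avoids a proper subspace `Pw` (`hA1`; in the application `Pw` is the set of `ℓ`-th
powers).  Then there is a map `r` on places with `r_* (div y) = div (rho y)` for all units `y`
of `V` (`exists_reduction`).

Route (Deuring's `L`-space argument): `Λ(D) := rho (L(D) ∩ V)`, `pd D` its pole hull.  For
`D ≥ B` (`B` effective of large degree with `L(B) ∩ V` not reducing into `Pw`):
`deg (pd D) = deg D`; `pd` is additive; `r P := pd (B + P) - pd B` is a single place;
`pd (B + D) = pd B + r_* D` for `D ≥ 0`; `L(D - div y) = y L(D)` gives the claim.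
-/
import Mathlib
import Fermat.Agent.S20.RRBasic

set_option autoImplicit false

noncomputable section

namespace Fermat.Agent.S37.DeuCoreB

open AlgebraicCurve Fermat.Agent.S20

/-! ### Divisors on a curve all of whose places have degree one -/

section Div

variable {K F : Type*} [Field K] [Field F] [Algebra K F]

theorem degree_eq_sum (h1 : ∀ v : Place K F, v.deg = 1) (E : Divisor K F) :
    Divisor.degree E = ∑ v ∈ E.support, E v := by
  unfold Divisor.degree
  rw [Finsupp.liftAddHom_apply, Finsupp.sum]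
  refine Finset.sum_congr rfl fun v _ => ?_
  simp [h1 v]

theorem degree_multiset (h1 : ∀ v : Place K F, v.deg = 1) (s : Multiset (Place K F)) :
    Divisor.degree ((s.map fun v => Finsupp.single v (1 : ℤ)).sum) = Multiset.card s := by
  induction s using Multiset.induction with
  | empty => simp
  | cons v s ih =>
    rw [Multiset.map_cons, Multiset.sum_cons, map_add, ih, Divisor.degree_single, h1 v,
      Multiset.card_cons]
    push_cast
    ring

/-- An effective divisor of degree zero is zero. -/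
theorem eq_zero_of_nonneg_of_degree (h1 : ∀ v : Place K F, v.deg = 1) {E : Divisor K F}
    (hE : 0 ≤ E) (hd : Divisor.degree E = 0) : E = 0 := by
  obtain ⟨s, hs⟩ := RR.exists_multiset_of_nonneg E hE
  rw [hs, degree_multiset h1] at hd
  have : s = 0 := Multiset.card_eq_zero.mp (by exact_mod_cast hd)
  rw [hs, this]
  simp

theorem eq_of_le_of_degree_eq (h1 : ∀ v : Place K F, v.deg = 1) {E E' : Divisor K F}
    (hle : E ≤ E') (hd : Divisor.degree E = Divisor.degree E') : E = E' := by
  have h0 : E' - E = 0 :=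
    eq_zero_of_nonneg_of_degree h1 (sub_nonneg.mpr hle) (by rw [map_sub, hd, sub_self])
  exact (sub_eq_zero.mp h0).symm

/-- An effective divisor of degree one is a single place. -/
theorem exists_single_of_nonneg_of_degree (h1 : ∀ v : Place K F, v.deg = 1) {E : Divisor K F}
    (hE : 0 ≤ E) (hd : Divisor.degree E = 1) : ∃ Q : Place K F, E = Finsupp.single Q 1 := by
  obtain ⟨s, hs⟩ := RR.exists_multiset_of_nonneg E hE
  rw [hs, degree_multiset h1] at hd
  obtain ⟨Q, hQ⟩ := Multiset.card_eq_one.mp (by exact_mod_cast hd)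
  exact ⟨Q, by rw [hs, hQ]; simp⟩

theorem degree_mono {E E' : Divisor K F} (h : E ≤ E') :
    Divisor.degree E ≤ Divisor.degree E' := by
  have := RR.degree_nonneg (sub_nonneg.mpr h)
  rw [map_sub] at this
  omega

theorem mul_mem_rr {D D' : Divisor K F} {f f' : F} (hf : f ∈ riemannRochSpace D)
    (hf' : f' ∈ riemannRochSpace D') : f * f' ∈ riemannRochSpace (D + D') := by
  rw [mem_riemannRochSpace_iff] at hf hf' ⊢
  intro v
  rcases eq_or_ne f 0 with rfl | h0
  · left; simp
  rcases eq_or_ne f' 0 with rfl | h0'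
  · left; simp
  right
  have h2 := (hf v).resolve_left h0
  have h3 := (hf' v).resolve_left h0'
  rw [v.ord_mul h0 h0', Finsupp.add_apply]
  omega

theorem one_mem_rr {D : Divisor K F} (hD : 0 ≤ D) : (1 : F) ∈ riemannRochSpace D := by
  rw [mem_riemannRochSpace_iff]
  intro v
  right
  have := Finsupp.le_def.mp hD v
  simp only [Finsupp.coe_zero, Pi.zero_apply] at this
  rw [v.ord_one]
  omega

end Div

/-! ### The reduced Riemann–Roch spaces and their pole hulls -/

section Core

variable {K F k Fb : Type*} [Field K] [Field F] [Algebra K F] [Field k] [Field Fb] [Algebra k Fb]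
  (V : ValuationSubring F) (rho : V →+* Fb)

/-- `Λ(D) = rho (L(D) ∩ V)`, as a set. -/
def LamSet (D : Divisor K F) : Set Fb :=
  {z | ∃ y : V, (y : F) ∈ riemannRochSpace D ∧ rho y = z}

variable {V rho}

theorem LamSet_mono {D D' : Divisor K F} (h : D ≤ D') : LamSet V rho D ⊆ LamSet V rho D' := by
  rintro _ ⟨y, hy, rfl⟩
  exact ⟨y, RR.riemannRochSpace_mono h hy, rfl⟩

theorem one_mem_LamSet {D : Divisor K F} (hD : 0 ≤ D) : (1 : Fb) ∈ LamSet V rho D :=
  ⟨1, one_mem_rr hD, map_one _⟩

theorem mul_mem_LamSet {D D' : Divisor K F} {z z' : Fb} (hz : z ∈ LamSet V rho D)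
    (hz' : z' ∈ LamSet V rho D') : z * z' ∈ LamSet V rho (D + D') := by
  obtain ⟨y, hy, rfl⟩ := hz
  obtain ⟨y', hy', rfl⟩ := hz'
  exact ⟨y * y', mul_mem_rr hy hy', map_mul _ _ _⟩

variable (V rho)

/-- `Λ(D)` as a `k`-subspace of `Fb`. -/
def Lam (hsmul : ∀ c : k, ∃ a : K, ∀ y : V, ∃ h : a • (y : F) ∈ V, rho ⟨_, h⟩ = c • rho y)
    (D : Divisor K F) : Submodule k Fb where
  carrier := LamSet V rho D
  zero_mem' := ⟨0, Submodule.zero_mem _, map_zero _⟩
  add_mem' := by
    rintro _ _ ⟨y, hy, rfl⟩ ⟨y', hy', rfl⟩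
    exact ⟨y + y', Submodule.add_mem _ hy hy', map_add _ _ _⟩
  smul_mem' := by
    rintro c _ ⟨y, hy, rfl⟩
    obtain ⟨a, ha⟩ := hsmul c
    obtain ⟨h, hh⟩ := ha y
    exact ⟨⟨_, h⟩, Submodule.smul_mem _ a hy, hh⟩

/-- The pole orders at `Q` of the nonzero elements of `Λ(D)`. -/
def pdSet (D : Divisor K F) (Q : Place k Fb) : Set ℤ :=
  {n | ∃ z ∈ LamSet V rho D, z ≠ 0 ∧ n = -Q.ord z}

/-- The value at `Q` of the pole hull of `Λ(D)`. -/
def pdv (D : Divisor K F) (Q : Place k Fb) : ℤ := sSup (pdSet V rho D Q)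

variable {V rho}

theorem pdSet_mono {D D' : Divisor K F} (h : D ≤ D') (Q : Place k Fb) :
    pdSet V rho D Q ⊆ pdSet V rho D' Q := by
  rintro n ⟨z, hz, hz0, rfl⟩
  exact ⟨z, LamSet_mono h hz, hz0, rfl⟩

theorem pdSet_nonempty {D : Divisor K F} (hD : 0 ≤ D) (Q : Place k Fb) :
    (pdSet V rho D Q).Nonempty :=
  ⟨_, 1, one_mem_LamSet hD, one_ne_zero, rfl⟩

/-- The hypothesis of orthonormal bases. -/
def HasBases (V : ValuationSubring F) (rho : V →+* Fb) : Prop :=
  ∀ D : Divisor K F, ∃ w : Fin (RR.ell D) → V,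
    (∀ i, (w i : F) ∈ riemannRochSpace D) ∧ LinearIndependent k (fun i => rho (w i)) ∧
    ∀ y : V, (y : F) ∈ riemannRochSpace D →
      ∃ c : Fin (RR.ell D) → k, rho y = ∑ i, c i • rho (w i)

theorem mem_poleLE_of_basis {n : ℕ} (w : Fin n → V) (Q : Place k Fb) (N : ℤ)
    (hN : ∀ i, rho (w i) ∈ RR.poleLE Q N) {z : Fb} (c : Fin n → k)
    (hz : z = ∑ i, c i • rho (w i)) : z ∈ RR.poleLE Q N := by
  rw [hz]
  exact Submodule.sum_mem _ fun i _ => Submodule.smul_mem _ _ (hN i)

theorem bddAbove_pdSet (hb : HasBases (K := K) (k := k) V rho) (D : Divisor K F)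
    (Q : Place k Fb) : BddAbove (pdSet V rho D Q) := by
  obtain ⟨w, -, -, hspan⟩ := hb D
  refine ⟨∑ i, |Q.ord (rho (w i))|, ?_⟩
  rintro n ⟨z, ⟨y, hy, rfl⟩, hz0, rfl⟩
  obtain ⟨c, hc⟩ := hspan y hy
  have hmem : rho y ∈ RR.poleLE Q (∑ i, |Q.ord (rho (w i))|) := by
    refine mem_poleLE_of_basis w Q _ (fun i => ?_) c hc
    rw [RR.mem_poleLE_iff]
    right
    have h1 : |Q.ord (rho (w i))| ≤ ∑ i, |Q.ord (rho (w i))| :=
      Finset.single_le_sum (f := fun i => |Q.ord (rho (w i))|) (fun _ _ => abs_nonneg _)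
        (Finset.mem_univ i)
    have h2 := neg_abs_le (Q.ord (rho (w i)))
    omega
  have := ((RR.mem_poleLE_iff Q).mp hmem).resolve_left hz0
  omega

theorem le_pdv (hb : HasBases (K := K) (k := k) V rho) {D : Divisor K F} (Q : Place k Fb)
    {z : Fb} (hz : z ∈ LamSet V rho D) (hz0 : z ≠ 0) : -Q.ord z ≤ pdv V rho D Q :=
  le_csSup (bddAbove_pdSet hb D Q) ⟨z, hz, hz0, rfl⟩

theorem exists_eq_pdv (hb : HasBases (K := K) (k := k) V rho) {D : Divisor K F} (hD : 0 ≤ D)
    (Q : Place k Fb) : ∃ z ∈ LamSet V rho D, z ≠ 0 ∧ -Q.ord z = pdv V rho D Q := by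
  obtain ⟨z, hz, hz0, h⟩ := Int.csSup_mem (pdSet_nonempty (V := V) (rho := rho) hD Q)
    (bddAbove_pdSet hb D Q)
  exact ⟨z, hz, hz0, h.symm⟩

theorem pdv_nonneg (hb : HasBases (K := K) (k := k) V rho) {D : Divisor K F} (hD : 0 ≤ D)
    (Q : Place k Fb) : 0 ≤ pdv V rho D Q := by
  have := le_pdv hb Q (one_mem_LamSet (V := V) (rho := rho) hD) one_ne_zero
  simpa using this

theorem pdv_mono (hb : HasBases (K := K) (k := k) V rho) {D D' : Divisor K F} (hD : 0 ≤ D)
    (h : D ≤ D') (Q : Place k Fb) : pdv V rho D Q ≤ pdv V rho D' Q :=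
  csSup_le_csSup (bddAbove_pdSet hb D' Q) (pdSet_nonempty hD Q) (pdSet_mono h Q)

theorem finite_ord_ne_zero (hFb : RR.Hyp0 k Fb) (z : Fb) :
    {Q : Place k Fb | Q.ord z ≠ 0}.Finite := by
  rcases eq_or_ne z 0 with rfl | hz
  · simp
  · obtain ⟨E, hE, -⟩ := hFb.principal z hz
    refine E.support.finite_toSet.subset fun Q hQ => ?_
    rw [Finset.mem_coe, Finsupp.mem_support_iff, hE Q]
    exact hQ

theorem pdv_support_finite (hFb : RR.Hyp0 k Fb) (hb : HasBases (K := K) (k := k) V rho)
    {D : Divisor K F} (hD : 0 ≤ D) : {Q : Place k Fb | pdv V rho D Q ≠ 0}.Finite := by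
  obtain ⟨w, -, -, hspan⟩ := hb D
  refine (Set.finite_iUnion fun i => finite_ord_ne_zero hFb (rho (w i))).subset fun Q hQ => ?_
  by_contra hcon
  simp only [Set.mem_iUnion, Set.mem_ofPred_eq, not_exists, not_not] at hcon
  apply hQ
  refine le_antisymm (csSup_le (pdSet_nonempty hD Q) ?_) (pdv_nonneg hb hD Q)
  rintro n ⟨z, ⟨y, hy, rfl⟩, hz0, rfl⟩
  obtain ⟨c, hc⟩ := hspan y hy
  have hmem : rho y ∈ RR.poleLE Q 0 := by
    refine mem_poleLE_of_basis w Q _ (fun i => ?_) c hc
    rw [RR.mem_poleLE_iff]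
    right
    rw [hcon i]
    simp
  have := ((RR.mem_poleLE_iff Q).mp hmem).resolve_left hz0
  omega

variable (V rho)

variable (k) in
open Classical in
/-- The pole hull of `Λ(D)`, as a divisor of `Fb`. -/
def pd (D : Divisor K F) : Divisor k Fb :=
  if h : (Function.support (pdv V rho D)).Finite then Finsupp.ofSupportFinite (pdv V rho D) h
  else 0

/-- The standing hypotheses. -/
structure Setup (K k : Type*) {F Fb : Type*} [Field K] [Field F] [Algebra K F] [Field k]
    [Field Fb] [Algebra k Fb] (V : ValuationSubring F) (rho : V →+* Fb) : Prop where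
  hF : RR.Hyp0 K F
  hFb : RR.Hyp0 k Fb
  bases : HasBases (K := K) (k := k) V rho
  smul : ∀ c : k, ∃ a : K, ∀ y : V, ∃ h : a • (y : F) ∈ V, rho ⟨_, h⟩ = c • rho y

variable {V rho}

section Setup

variable (S : Setup K k V rho)
include S

theorem pd_apply {D : Divisor K F} (hD : 0 ≤ D) (Q : Place k Fb) :
    pd k V rho D Q = pdv V rho D Q := by
  unfold pd
  rw [dif_pos (show (Function.support (pdv V rho D)).Finite from
    pdv_support_finite S.hFb S.bases hD)]
  rfl

theorem pd_nonneg {D : Divisor K F} (hD : 0 ≤ D) : (0 : Divisor k Fb) ≤ pd k V rho D := by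
  rw [Finsupp.le_def]
  intro Q
  rw [pd_apply S hD]
  exact pdv_nonneg S.bases hD Q

theorem le_pd {D : Divisor K F} (hD : 0 ≤ D) (Q : Place k Fb) {z : Fb}
    (hz : z ∈ LamSet V rho D) (hz0 : z ≠ 0) : -Q.ord z ≤ pd k V rho D Q := by
  rw [pd_apply S hD]
  exact le_pdv S.bases Q hz hz0

theorem exists_eq_pd {D : Divisor K F} (hD : 0 ≤ D) (Q : Place k Fb) :
    ∃ z ∈ LamSet V rho D, z ≠ 0 ∧ -Q.ord z = pd k V rho D Q := by
  rw [pd_apply S hD]
  exact exists_eq_pdv S.bases hD Q

theorem pd_mono {D D' : Divisor K F} (hD : 0 ≤ D) (h : D ≤ D') :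
    pd k V rho D ≤ pd k V rho D' := by
  rw [Finsupp.le_def]
  intro Q
  rw [pd_apply S hD, pd_apply S (hD.trans h)]
  exact pdv_mono S.bases hD h Q

/-- `Λ(D) ⊆ L̄(pd D)`. -/
theorem LamSet_subset {D : Divisor K F} (hD : 0 ≤ D) {z : Fb} (hz : z ∈ LamSet V rho D) :
    z ∈ riemannRochSpace (pd k V rho D) := by
  rw [mem_riemannRochSpace_iff]
  intro Q
  rcases eq_or_ne z 0 with h0 | h0
  · exact Or.inl h0
  · right
    have := le_pd S hD Q hz h0
    omega

/-- Superadditivity of the pole hull. -/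
theorem pd_add_le {D D' : Divisor K F} (hD : 0 ≤ D) (hD' : 0 ≤ D') :
    pd k V rho D + pd k V rho D' ≤ pd k V rho (D + D') := by
  rw [Finsupp.le_def]
  intro Q
  obtain ⟨z, hz, hz0, h1⟩ := exists_eq_pd S hD Q
  obtain ⟨z', hz', hz0', h2⟩ := exists_eq_pd S hD' Q
  have h3 := le_pd S (add_nonneg hD hD') Q (mul_mem_LamSet hz hz') (mul_ne_zero hz0 hz0')
  rw [Q.ord_mul hz0 hz0'] at h3
  rw [Finsupp.add_apply]
  omega

/-- `ℓ(D) ≤ ℓ̄(pd D)`. -/
theorem ell_le_ell_pd {D : Divisor K F} (hD : 0 ≤ D) :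
    RR.ell D ≤ RR.ell (pd k V rho D) := by
  obtain ⟨w, hw, hli, -⟩ := S.bases D
  have hfin := RR.finite S.hFb (pd k V rho D)
  have hmem : ∀ i, rho (w i) ∈ riemannRochSpace (pd k V rho D) :=
    fun i => LamSet_subset S hD ⟨w i, hw i, rfl⟩
  have hli' : LinearIndependent k
      (fun i => (⟨rho (w i), hmem i⟩ : ↥(riemannRochSpace (pd k V rho D)))) := by
    refine LinearIndependent.of_comp (riemannRochSpace (pd k V rho D)).subtype ?_
    exact hli
  have := hli'.fintype_card_le_finrank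
  rw [Fintype.card_fin] at this
  exact this

/-- A generic element of `Λ(D)`: outside the subspace `Pw`, with pole divisor exactly `pd D`. -/
theorem exists_generic [Infinite k] (Pw : Submodule k Fb) {D : Divisor K F} (hD : 0 ≤ D)
    (hPw : ∃ y : V, (y : F) ∈ riemannRochSpace D ∧ rho y ∉ Pw) :
    ∃ y : V, (y : F) ∈ riemannRochSpace D ∧ rho y ∉ Pw ∧
      ∀ Q : Place k Fb, pd k V rho D Q ≠ 0 → -Q.ord (rho y) = pd k V rho D Q := by
  classical
  let Λ : Submodule k Fb := Lam V rho S.smul D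
  let W : Place k Fb → Submodule k Λ :=
    fun Q => (RR.poleLE Q (pd k V rho D Q - 1)).comap Λ.subtype
  let W0 : Submodule k Λ := Pw.comap Λ.subtype
  let s : Finset (Submodule k Λ) := insert W0 ((pd k V rho D).support.image W)
  have hs : ⊤ ∉ s := by
    intro htop
    rcases Finset.mem_insert.mp htop with h | h
    · obtain ⟨y, hy, hyP⟩ := hPw
      have hmem : (⟨rho y, ⟨y, hy, rfl⟩⟩ : Λ) ∈ W0 := by rw [← h]; trivial
      exact hyP hmem
    · obtain ⟨Q, hQ, hQW⟩ := Finset.mem_image.mp h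
      obtain ⟨z, hz, hz0, hzQ⟩ := exists_eq_pd S hD Q
      have hmem : (⟨z, hz⟩ : Λ) ∈ W Q := by rw [hQW]; trivial
      have hmem' : z ∈ RR.poleLE Q (pd k V rho D Q - 1) := hmem
      have h2 := ((RR.mem_poleLE_iff Q).mp hmem').resolve_left hz0
      omega
  have hne := Subspace.biUnion_ne_univ_of_top_notMem hs
  obtain ⟨z, hz⟩ : ∃ z : Λ, z ∉ ⋃ p ∈ s, (p : Set Λ) := by
    by_contra hcon
    push Not at hcon
    exact hne (Set.eq_univ_of_forall hcon)
  simp only [Set.mem_iUnion, not_exists] at hz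
  obtain ⟨y, hy, hyz⟩ : (z : Fb) ∈ LamSet V rho D := z.2
  refine ⟨y, hy, ?_, ?_⟩
  · intro hmem
    refine hz W0 (Finset.mem_insert_self _ _) ?_
    show (z : Fb) ∈ Pw
    rw [← hyz]
    exact hmem
  · intro Q hQ
    have hQs : Q ∈ (pd k V rho D).support := Finsupp.mem_support_iff.mpr hQ
    have h1 := hz (W Q) (Finset.mem_insert_of_mem (Finset.mem_image_of_mem W hQs))
    have h2 : ¬ ((z : Fb) ∈ RR.poleLE Q (pd k V rho D Q - 1)) := h1
    rw [RR.mem_poleLE_iff, not_or] at h2
    have h3 := le_pd S hD Q z.2 h2.1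
    rw [hyz]
    omega

/-- The degree of the pole hull is at most `deg D`, by the degree inequality for a generic
element. -/
theorem degree_pd_le [Infinite k] (Pw : Submodule k Fb)
    (hA1 : ∀ y : V, rho y ∉ Pw →
      -(∑ᶠ w ∈ {w : Place k Fb | w.ord (rho y) < 0}, w.ord (rho y)) ≤
        -(∑ᶠ v ∈ {v : Place K F | v.ord (y : F) < 0}, v.ord (y : F)))
    {D : Divisor K F} (hD : 0 ≤ D)
    (hPw : ∃ y : V, (y : F) ∈ riemannRochSpace D ∧ rho y ∉ Pw) :
    Divisor.degree (pd k V rho D) ≤ Divisor.degree D := by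
  classical
  obtain ⟨y, hy, hyP, hgen⟩ := exists_generic S Pw hD hPw
  have hz0 : rho y ≠ 0 := fun h => hyP (h ▸ Pw.zero_mem)
  have hy0 : (y : F) ≠ 0 := by
    intro h
    apply hz0
    have : y = 0 := Subtype.ext h
    rw [this, map_zero]
  have hA := hA1 y hyP
  have hL : {w : Place k Fb | w.ord (rho y) < 0} = ↑(pd k V rho D).support := by
    ext w
    simp only [Set.mem_ofPred_eq, Finset.mem_coe, Finsupp.mem_support_iff]
    constructor
    · intro hw h0
      have := le_pd S hD w ⟨y, hy, rfl⟩ hz0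
      omega
    · intro hw
      have h1 := hgen w hw
      have h2 := Finsupp.le_def.mp (pd_nonneg S hD) w
      simp only [Finsupp.coe_zero, Pi.zero_apply] at h2
      omega
  have hLsum : -(∑ᶠ w ∈ {w : Place k Fb | w.ord (rho y) < 0}, w.ord (rho y)) =
      Divisor.degree (pd k V rho D) := by
    rw [hL, finsum_mem_coe_finset, degree_eq_sum S.hFb.deg_one, ← Finset.sum_neg_distrib]
    refine Finset.sum_congr rfl fun w hw => ?_
    exact hgen w (Finsupp.mem_support_iff.mp hw)
  have hmem := mem_riemannRochSpace_iff.mp hy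
  have hR : {v : Place K F | v.ord (y : F) < 0} =
      ↑(D.support.filter fun v => v.ord (y : F) < 0) := by
    ext v
    simp only [Set.mem_ofPred_eq, Finset.coe_filter, Finsupp.mem_support_iff]
    constructor
    · intro hv
      refine ⟨?_, hv⟩
      have := (hmem v).resolve_left hy0
      omega
    · exact fun h => h.2
  have hRsum : -(∑ᶠ v ∈ {v : Place K F | v.ord (y : F) < 0}, v.ord (y : F)) ≤
      Divisor.degree D := by
    rw [hR, finsum_mem_coe_finset, degree_eq_sum S.hF.deg_one, ← Finset.sum_neg_distrib]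
    calc ∑ v ∈ D.support.filter (fun v => v.ord (y : F) < 0), -v.ord (y : F)
        ≤ ∑ v ∈ D.support.filter (fun v => v.ord (y : F) < 0), D v := by
          refine Finset.sum_le_sum fun v _ => ?_
          have := (hmem v).resolve_left hy0
          omega
      _ ≤ ∑ v ∈ D.support, D v := by
          refine Finset.sum_le_sum_of_subset_of_nonneg (Finset.filter_subset _ _) fun v _ _ => ?_
          have := Finsupp.le_def.mp hD v
          simpa using this
  omega

end Setup

/-- The squeeze data: the degree inequality `hA1` off the subspace `Pw`, Riemann's inequality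
for `F` and its converse for `Fb` in degree `≥ c`, and an effective base divisor `B` of large
degree such that `Λ(B)` is not contained in `Pw`. -/
structure Squeeze (K k : Type*) {F Fb : Type*} [Field K] [Field F] [Algebra K F] [Field k]
    [Field Fb] [Algebra k Fb] (V : ValuationSubring F) (rho : V →+* Fb) (Pw : Submodule k Fb)
    (g c : ℤ) (B : Divisor K F) : Prop where
  hA1 : ∀ y : V, rho y ∉ Pw →
    -(∑ᶠ w ∈ {w : Place k Fb | w.ord (rho y) < 0}, w.ord (rho y)) ≤
      -(∑ᶠ v ∈ {v : Place K F | v.ord (y : F) < 0}, v.ord (y : F))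
  hLE : ∀ D : Divisor K F, Divisor.degree D + 1 - g ≤ (RR.ell D : ℤ)
  hGE : ∀ E : Divisor k Fb, c ≤ Divisor.degree E → (RR.ell E : ℤ) ≤ Divisor.degree E + 1 - g
  nonneg : 0 ≤ B
  deg : c + g ≤ Divisor.degree B
  notPw : ∃ y : V, (y : F) ∈ riemannRochSpace B ∧ rho y ∉ Pw

section Squeeze

variable [Infinite k] (S : Setup K k V rho) {Pw : Submodule k Fb} {g c : ℤ} {B : Divisor K F}
  (T : Squeeze K k V rho Pw g c B)
include S T

/-- **The squeeze**: for `D ≥ B` the pole hull of `Λ(D)` has degree `deg D`. -/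
theorem degree_pd_eq {D : Divisor K F} (hD : B ≤ D) :
    Divisor.degree (pd k V rho D) = Divisor.degree D := by
  have hD0 : 0 ≤ D := T.nonneg.trans hD
  have h1 := T.hLE D
  have h2 : (RR.ell D : ℤ) ≤ RR.ell (pd k V rho D) := by exact_mod_cast ell_le_ell_pd S hD0
  have h3 := (RR.finite_and_ell_le_of_nonneg S.hFb _ (pd_nonneg S hD0)).2
  have h4 := degree_mono hD
  have h7 := T.deg
  have h5 := T.hGE (pd k V rho D) (by omega)
  have h6 := degree_pd_le S Pw T.hA1 hD0 (by
    obtain ⟨y, hy, hyP⟩ := T.notPw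
    exact ⟨y, RR.riemannRochSpace_mono hD hy, hyP⟩)
  omega

/-- Additivity of the pole hull above `B`. -/
theorem pd_add {D D' : Divisor K F} (hD : B ≤ D) (hD' : B ≤ D') :
    pd k V rho (D + D') = pd k V rho D + pd k V rho D' := by
  have hD0 := T.nonneg.trans hD
  have hD0' := T.nonneg.trans hD'
  have hle := pd_add_le S hD0 hD0'
  have hBDD : B ≤ D + D' := hD.trans (le_add_of_nonneg_right hD0')
  refine (eq_of_le_of_degree_eq S.hFb.deg_one hle ?_).symm
  rw [map_add, degree_pd_eq S T hD, degree_pd_eq S T hD', degree_pd_eq S T hBDD, map_add]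

/-- The reduction of a place. -/
theorem exists_r : ∃ r : Place K F → Place k Fb, ∀ P : Place K F,
    pd k V rho (B + Finsupp.single P 1) = pd k V rho B + Finsupp.single (r P) 1 := by
  have key : ∀ P : Place K F, ∃ Q : Place k Fb,
      pd k V rho (B + Finsupp.single P 1) - pd k V rho B = Finsupp.single Q 1 := by
    intro P
    have hle : B ≤ B + Finsupp.single P 1 := RR.le_add_single B P
    refine exists_single_of_nonneg_of_degree S.hFb.deg_one
      (sub_nonneg.mpr (pd_mono S T.nonneg hle)) ?_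
    rw [map_sub, degree_pd_eq S T hle, degree_pd_eq S T le_rfl,
      RR.degree_add_single B P (S.hF.deg_one P)]
    ring
  choose r hr using key
  exact ⟨r, fun P => by rw [← hr P]; abel⟩

theorem pd_add_mapDomain (r : Place K F → Place k Fb)
    (hr : ∀ P : Place K F,
      pd k V rho (B + Finsupp.single P 1) = pd k V rho B + Finsupp.single (r P) 1)
    {E : Divisor K F} (hE : 0 ≤ E) :
    pd k V rho (B + E) = pd k V rho B + Finsupp.mapDomain r E := by
  refine RR.induction_of_le
    (P := fun E => pd k V rho (B + E) = pd k V rho B + Finsupp.mapDomain r E) ?_ ?_ E hE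
  · simp
  · intro E v hE0 ih
    have hBE : B ≤ B + E := le_add_of_nonneg_right hE0
    have hBEv : B ≤ B + (E + Finsupp.single v 1) :=
      le_add_of_nonneg_right (add_nonneg hE0 (RR.single_one_nonneg v))
    have hBv : B ≤ B + Finsupp.single v 1 := RR.le_add_single B v
    have e1 := pd_add S T hBEv le_rfl
    have e2 := pd_add S T hBE hBv
    have e3 : B + (E + Finsupp.single v 1) + B = B + E + (B + Finsupp.single v 1) := by abel
    rw [e3, e2, ih, hr v] at e1
    rw [Finsupp.mapDomain_add, Finsupp.mapDomain_single]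
    apply add_right_cancel (b := pd k V rho B)
    rw [← e1]
    abel

end Squeeze

section Unit

variable (S : Setup K k V rho)
include S

theorem pd_unit_ge {D D' : Divisor K F} (hD : 0 ≤ D) (hD' : 0 ≤ D') (y : V) (hy0 : rho y ≠ 0)
    (hDD' : ∀ v : Place K F, D' v = D v - v.ord (y : F)) (Q : Place k Fb) :
    pd k V rho D Q - Q.ord (rho y) ≤ pd k V rho D' Q := by
  obtain ⟨z, ⟨u, hu, rfl⟩, hz0, hzQ⟩ := exists_eq_pd S hD Q
  have hyF : (y : F) ≠ 0 := by
    intro h
    apply hy0
    have : y = 0 := Subtype.ext h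
    rw [this, map_zero]
  have hmem : rho (y * u) ∈ LamSet V rho D' := by
    refine ⟨y * u, ?_, rfl⟩
    rw [mem_riemannRochSpace_iff]
    intro v
    rcases eq_or_ne (u : F) 0 with h0 | h0
    · left
      show (y : F) * (u : F) = 0
      rw [h0, mul_zero]
    · right
      have h1 := (mem_riemannRochSpace_iff.mp hu v).resolve_left h0
      show -D' v ≤ v.ord ((y : F) * (u : F))
      rw [v.ord_mul hyF h0, hDD' v]
      omega
  have h3 := le_pd S hD' Q hmem (by rw [map_mul]; exact mul_ne_zero hy0 hz0)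
  rw [map_mul, Q.ord_mul hy0 hz0] at h3
  omega

theorem pd_unit (hunit : ∀ y : V, rho y ≠ 0 → ∃ y' : V, y * y' = 1)
    {D D' : Divisor K F} (hD : 0 ≤ D) (hD' : 0 ≤ D') (y : V) (hy0 : rho y ≠ 0)
    (hDD' : ∀ v : Place K F, D' v = D v - v.ord (y : F)) (Q : Place k Fb) :
    pd k V rho D' Q = pd k V rho D Q - Q.ord (rho y) := by
  refine le_antisymm ?_ (pd_unit_ge S hD hD' y hy0 hDD' Q)
  obtain ⟨y', hy'⟩ := hunit y hy0
  have h1 : rho y * rho y' = 1 := by rw [← map_mul, hy', map_one]
  have hy0' : rho y' ≠ 0 := right_ne_zero_of_mul_eq_one h1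
  have h2 : (y : F) * (y' : F) = 1 := by
    have := congrArg (fun t : V => (t : F)) hy'
    simpa using this
  have hord : ∀ v : Place K F, v.ord (y' : F) = -v.ord (y : F) := by
    intro v
    rw [eq_inv_of_mul_eq_one_right h2, v.ord_inv]
  have hQ' : Q.ord (rho y') = -Q.ord (rho y) := by
    rw [eq_inv_of_mul_eq_one_right h1, Q.ord_inv]
  have := pd_unit_ge S hD' hD y' hy0' (fun v => by rw [hDD' v, hord v]; ring) Q
  omega

end Unit

/-- The reduction map on places, from the squeeze data. -/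
theorem exists_reduction_of_squeeze [Infinite k] (S : Setup K k V rho) {Pw : Submodule k Fb}
    {g c : ℤ} {B : Divisor K F} (T : Squeeze K k V rho Pw g c B)
    (hunit : ∀ y : V, rho y ≠ 0 → ∃ y' : V, y * y' = 1) :
    ∃ r : Place K F → Place k Fb, ∀ y : V, rho y ≠ 0 → ∀ D : Divisor K F,
      (∀ P, D P = P.ord (y : F)) → ∀ Q, Finsupp.mapDomain r D Q = Q.ord (rho y) := by
  obtain ⟨r, hr⟩ := exists_r S T
  refine ⟨r, fun y hy0 D hD Q => ?_⟩
  have hD₁ : (0 : Divisor K F) ≤ D ⊔ 0 := le_sup_right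
  have hD₂ : (0 : Divisor K F) ≤ (-D) ⊔ 0 := le_sup_right
  have hDD : D + ((-D) ⊔ 0) = D ⊔ 0 := by
    ext v
    rw [Finsupp.add_apply, Finsupp.sup_apply, Finsupp.sup_apply, Finsupp.neg_apply]
    simp only [Finsupp.coe_zero, Pi.zero_apply]
    rcases le_total (D v) 0 with h | h
    · rw [sup_eq_right.mpr h, sup_eq_left.mpr (by omega)]
      ring
    · rw [sup_eq_left.mpr h, sup_eq_right.mpr (by omega)]
      ring
  have e1 := pd_add_mapDomain S T r hr hD₁
  have e2 := pd_add_mapDomain S T r hr hD₂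
  have hu := pd_unit S hunit (D := B + D ⊔ 0) (D' := B + (-D) ⊔ 0) (add_nonneg T.nonneg hD₁)
    (add_nonneg T.nonneg hD₂) y hy0 (fun v => by
      have := congrArg (fun E : Divisor K F => E v) hDD
      simp only [Finsupp.add_apply] at this
      rw [Finsupp.add_apply, Finsupp.add_apply, ← hD v]
      omega) Q
  rw [e1, e2, Finsupp.add_apply, Finsupp.add_apply] at hu
  have h3 := congrArg (fun E : Divisor k Fb => E Q) (Finsupp.mapDomain_add (f := r)
    (v₁ := D) (v₂ := (-D) ⊔ 0))
  simp only [Finsupp.add_apply] at h3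
  rw [hDD] at h3
  omega

/-- **Deuring's reduction of places** (generic form).  Let `F / K` and `Fb / k` be function
fields (in the sense of `RR.Hyp0`), `V ⊂ F` a valuation ring with a reduction `rho : V →+* Fb`
having orthonormal bases of all Riemann–Roch spaces, and assume the genus squeeze
(`hLE`, `hGE`) and the degree inequality `hA1` for functions whose reduction lies outside a
proper subspace `Pw`.  Then there is a map `r` from places of `F` to places of `Fb` with
`r_* (div y) = div (rho y)` for all `y ∈ V` with `rho y ≠ 0`. -/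
theorem exists_reduction [Infinite k] [Nonempty (Place K F)] (hF : RR.Hyp0 K F)
    (hFb : RR.Hyp0 k Fb)
    (hsmul : ∀ c : k, ∃ a : K, ∀ y : V, ∃ h : a • (y : F) ∈ V, rho ⟨_, h⟩ = c • rho y)
    (hunit : ∀ y : V, rho y ≠ 0 → ∃ y' : V, y * y' = 1)
    (hbasis : ∀ D : Divisor K F, ∃ w : Fin (RR.ell D) → V,
      (∀ i, (w i : F) ∈ riemannRochSpace D) ∧ LinearIndependent k (fun i => rho (w i)) ∧
      ∀ y : V, (y : F) ∈ riemannRochSpace D →
        ∃ c : Fin (RR.ell D) → k, rho y = ∑ i, c i • rho (w i))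
    (g : ℤ) (hLE : ∀ D : Divisor K F, Divisor.degree D + 1 - g ≤ (RR.ell D : ℤ))
    (hGE : ∃ c : ℤ, ∀ E : Divisor k Fb, c ≤ Divisor.degree E →
      (RR.ell E : ℤ) ≤ Divisor.degree E + 1 - g)
    (Pw : Submodule k Fb) (j : V) (hj : rho j ∉ Pw)
    (hA1 : ∀ y : V, rho y ∉ Pw →
      -(∑ᶠ w ∈ {w : Place k Fb | w.ord (rho y) < 0}, w.ord (rho y)) ≤
        -(∑ᶠ v ∈ {v : Place K F | v.ord (y : F) < 0}, v.ord (y : F))) :
    ∃ r : Place K F → Place k Fb, ∀ y : V, rho y ≠ 0 → ∀ D : Divisor K F,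
      (∀ P, D P = P.ord (y : F)) → ∀ Q, Finsupp.mapDomain r D Q = Q.ord (rho y) := by
  obtain ⟨c, hc⟩ := hGE
  have S : Setup K k V rho := ⟨hF, hFb, hbasis, hsmul⟩
  obtain ⟨P₀⟩ := (inferInstance : Nonempty (Place K F))
  have hj0 : (j : F) ≠ 0 := by
    intro h
    apply hj
    have : j = 0 := Subtype.ext h
    rw [this, map_zero]
    exact Pw.zero_mem
  obtain ⟨E, hE, -⟩ := hF.principal (j : F) hj0
  -- the base divisor
  let B : Divisor K F := (-E) ⊔ 0 + (c + g).toNat • Finsupp.single P₀ 1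
  have hB₀ : (0 : Divisor K F) ≤ (-E) ⊔ 0 := le_sup_right
  have hB₁ : (0 : Divisor K F) ≤ (c + g).toNat • Finsupp.single P₀ 1 :=
    nsmul_nonneg (RR.single_one_nonneg P₀) _
  have hB : 0 ≤ B := add_nonneg hB₀ hB₁
  have hdeg : c + g ≤ Divisor.degree B := by
    have h1 := RR.degree_nonneg hB₀
    have h2 : Divisor.degree ((c + g).toNat • Finsupp.single P₀ (1 : ℤ)) = (c + g).toNat := by
      rw [map_nsmul, Divisor.degree_single, hF.deg_one P₀]
      simp
    show c + g ≤ Divisor.degree ((-E) ⊔ 0 + (c + g).toNat • Finsupp.single P₀ 1)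
    rw [map_add, h2]
    omega
  have hjB : (j : F) ∈ riemannRochSpace B := by
    refine RR.riemannRochSpace_mono (le_add_of_nonneg_right hB₁) ?_
    rw [mem_riemannRochSpace_iff]
    intro v
    right
    rw [Finsupp.sup_apply, Finsupp.neg_apply, hE v]
    simp only [Finsupp.coe_zero, Pi.zero_apply]
    have := le_sup_left (a := -v.ord (j : F)) (b := 0)
    omega
  exact exists_reduction_of_squeeze S
    (⟨hA1, hLE, hc, hB, hdeg, ⟨j, hjB, hj⟩⟩ : Squeeze K k V rho Pw g c B) hunit

end Core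

end Fermat.Agent.S37.DeuCoreB
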