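/-
S37 (wave 8), chain A (Deuring): the final statement `DeuringStmt` of `S37/Iface.lean`, assembled
from helper6's abstract core `DeuCore.exists_reduction`, helper4's degree inequality
`DeuDeg.sum_poles_le` and the modular inputs of `DeuInst.lean` (helper22).

`deuringStmt : DeuringStmt`, i.e. for every prime `ℓ`, every valuation subring `A` of `ℚ̄` over
`ℓ` and every level `M` prime to `ℓ`: `GenusSqueeze A M → ReductionInputsModL A M`.
-/
import Fermat.Agent.S37.DeuInst
import Fermat.Agent.S37.DeuCore
import Fermat.Agent.S37.DeuDeg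
import Fermat.Agent.S37.Iface

set_option autoImplicit false
set_option synthInstance.maxHeartbeats 400000
set_option linter.style.haveILetI false

noncomputable section

namespace Fermat.Agent.S37.DeuringB

open ModularCurve AlgebraicCurve
open Fermat.Agent.S18 Fermat.Agent.S20

/-- **Deuring's reduction of places** (chain A of wave 8): at every level `M` prime to `ℓ` with a
genus squeeze, the frozen reduction inputs hold. -/
theorem deuringStmt : DeuringStmt := by
  intro ℓ _ A hA M _ hℓM hGS
  obtain ⟨g, hle, hge⟩ := hGS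
  obtain ⟨c, hc⟩ := DeuInst.exists_hub M A hA hge
  obtain ⟨B, xB, hB, hxB, hxB'⟩ := DeuInst.exists_B M hℓM A hA
  obtain ⟨P₀⟩ := DeuInst.exists_place M
  haveI := DeuInst.infinite_Kb A
  have hA1 : DeuInst.A1Stmt M hℓM A hA := fun y hy => DeuDeg.sum_poles_le M hℓM A hA y hy
  exact DeuInst.reductionInputs_of_star M hℓM A hA
    (DeuCore.exists_reduction (DeuInst.hyp0 M) (DeuInst.hyp0b M A hA) P₀ A
      (IsLocalRing.residue ↥A) (DeuInst.hres A) (RGB.V M A) (RGB.rho M hℓM A hA)
      (DeuInst.hVA M A) (DeuInst.hrho M hℓM A hA) g c (DeuInst.hdim M hℓM A hA hle) hc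
      (DeuInst.Pbad M A hA) (DeuInst.hdeg M hℓM A hA hA1) B hB xB hxB hxB')

end Fermat.Agent.S37.DeuringB

end
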