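/-
S37 (wave 8), auxiliary for chain ES: divisors of the reduced Kronecker norm.

For `z ∈ F̄_M` nonzero with divisor `D`, `φ = frobAut A hA M` the coefficientwise Frobenius:
* `ord_frobAut_smul`     : `div (φ z) = φ • D`;
* `ord_qExpand`          : `div (z (q ^ ℓ)) = ℓ • (φ⁻¹ • D)`   (as `z (q ^ ℓ) = (φ⁻¹ z) ^ ℓ`);
* `ord_norm_red`         : an element `w ∈ F̄_M` with expansion `z (q ^ ℓ) * (φ z) (q)` (the shape of
  the reduction in `KRed.exists_norm_red`) has divisor `φ • D + ℓ • (φ⁻¹ • D)`.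
-/
import Fermat.Agent.S37.CoeffAut
import Fermat.Agent.S37.GalEq

set_option autoImplicit false
set_option synthInstance.maxHeartbeats 400000

noncomputable section

open HahnSeries IntermediateField AlgebraicCurve ModularCurve

namespace Fermat.Agent.S37.ESAux

open Fermat.Agent.S18 Fermat.Agent.S37.CoeffAut

variable (A : ValuationSubring Qb) {ℓ : ℕ} [Fact ℓ.Prime] (hA : A.LiesOverPrime ℓ) (M : ℕ)

/-- The coefficientwise Frobenius in the `coeffMap (frobenius _ ℓ)` form of `KRed`. -/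
theorem coe_frobAut_smul_eq [CharP (Kb A) ℓ] (z : ↥(FbN A M)) :
    ((frobAut A hA M • z : ↥(FbN A M)) : LaurentSeries (Kb A))
      = coeffMap (frobenius (Kb A) ℓ) (z : LaurentSeries (Kb A)) :=
  rfl

include hA in
/-- `z (q ^ ℓ) ∈ F̄_M` for `z ∈ F̄_M`. -/
theorem qExpand_mem [NeZero ℓ] (z : ↥(FbN A M)) :
    qExpand (Kb A) ℓ (z : LaurentSeries (Kb A)) ∈ FbN A M := by
  rw [qExpand_eq_pow_frobAut_inv A hA M z]
  exact pow_mem (Subtype.property _) _

/-- `div (φ z) = φ • div z`. -/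
theorem ord_frobAut_smul (z : ↥(FbN A M)) {D : Divisor (Kb A) ↥(FbN A M)}
    (hD : ∀ Q : Place (Kb A) ↥(FbN A M), D Q = Q.ord z) (Q : Place (Kb A) ↥(FbN A M)) :
    Q.ord (frobAut A hA M • z) = (frobAut A hA M • D) Q :=
  (GalEq.divisor_smul_apply_of_ord (frobAut A hA M) hD Q).symm

/-- `div (z (q ^ ℓ)) = ℓ • (φ⁻¹ • div z)`. -/
theorem ord_qExpand [NeZero ℓ] (z : ↥(FbN A M))
    {D : Divisor (Kb A) ↥(FbN A M)}
    (hD : ∀ Q : Place (Kb A) ↥(FbN A M), D Q = Q.ord z) (Q : Place (Kb A) ↥(FbN A M)) :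
    Q.ord (⟨qExpand (Kb A) ℓ (z : LaurentSeries (Kb A)), qExpand_mem A hA M z⟩ : ↥(FbN A M))
      = (ℓ • ((frobAut A hA M)⁻¹ • D)) Q := by
  have h1 : (⟨qExpand (Kb A) ℓ (z : LaurentSeries (Kb A)), qExpand_mem A hA M z⟩ : ↥(FbN A M))
      = ((frobAut A hA M)⁻¹ • z) ^ ℓ :=
    Subtype.ext (qExpand_eq_pow_frobAut_inv A hA M z)
  rw [h1, S24.Places.ord_pow, Finsupp.smul_apply,
    ← GalEq.divisor_smul_apply_of_ord (frobAut A hA M)⁻¹ hD Q, nsmul_eq_mul]

/-- The divisor of an element of `F̄_M` with expansion `z (q ^ ℓ) * (φ z) (q)` is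
`φ • div z + ℓ • (φ⁻¹ • div z)`. -/
theorem ord_norm_red [NeZero ℓ] [CharP (Kb A) ℓ] (z : ↥(FbN A M)) (hz : z ≠ 0)
    (w : ↥(FbN A M))
    (hw : (w : LaurentSeries (Kb A)) = qExpand (Kb A) ℓ (z : LaurentSeries (Kb A))
      * coeffMap (frobenius (Kb A) ℓ) (z : LaurentSeries (Kb A)))
    {D : Divisor (Kb A) ↥(FbN A M)}
    (hD : ∀ Q : Place (Kb A) ↥(FbN A M), D Q = Q.ord z) (Q : Place (Kb A) ↥(FbN A M)) :
    Q.ord w = (frobAut A hA M • D + ℓ • ((frobAut A hA M)⁻¹ • D)) Q := by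
  have h1 : w = (⟨qExpand (Kb A) ℓ (z : LaurentSeries (Kb A)), qExpand_mem A hA M z⟩ : ↥(FbN A M))
      * (frobAut A hA M • z) := Subtype.ext hw
  have hne1 : (⟨qExpand (Kb A) ℓ (z : LaurentSeries (Kb A)), qExpand_mem A hA M z⟩ :
      ↥(FbN A M)) ≠ 0 := by
    intro h0
    apply hz
    have h2 : qExpand (Kb A) ℓ (z : LaurentSeries (Kb A)) = 0 := congrArg Subtype.val h0
    exact Subtype.ext (qExpand_injective ℓ (h2.trans (map_zero _).symm))
  have hne2 : frobAut A hA M • z ≠ 0 := fun h0 => hz ((smul_eq_zero_iff_eq _).mp h0)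
  rw [h1, Q.ord_mul hne1 hne2, ord_qExpand A hA M z hD Q, ord_frobAut_smul A hA M z hD Q,
    Finsupp.add_apply, add_comm]

/-- Nonvanishing of the reduced norm. -/
theorem norm_red_ne_zero [NeZero ℓ] [CharP (Kb A) ℓ] {z : LaurentSeries (Kb A)} (hz : z ≠ 0) :
    qExpand (Kb A) ℓ z * coeffMap (frobenius (Kb A) ℓ) z ≠ 0 := by
  refine mul_ne_zero ?_ ?_
  · exact fun h0 => hz (qExpand_injective ℓ (h0.trans (map_zero _).symm))
  · intro h0
    apply hz
    ext n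
    have h1 := congrArg (fun s => HahnSeries.coeff s n) h0
    simp only [coeffMap_coeff, HahnSeries.coeff_zero] at h1
    exact (frobenius_inj (Kb A) ℓ) (h1.trans (map_zero _).symm)

end Fermat.Agent.S37.ESAux

end
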