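/-
S37, chain K (steps K2 + K3): the Kronecker congruence for functions.

For `ℓ ∤ N`, `A` a valuation ring of `ℚ̄` over `ℓ` and `y` in the Gauss valuation ring of
`F_N = ℚ̄(X₀(N))`, the norm of `y(q^ℓ)` from `F_{Nℓ}` down to `F_N` is Gauss-integral and its
reduction is `ȳ(q^ℓ) · ȳ^φ` (`φ` = coefficientwise Frobenius).

Input (`EmbStmt`, step K1 = `KEmb.exists_emb_bar`): the `ℓ` embeddings `E_b` of `F_{Nℓ}` into
`ℚ̄((u))`, `u = q^{1/ℓ}`, with `E_b (f) = f(u^ℓ)` on `F_N` and `E_b (f(q^ℓ)) = f(ζ^b u)`.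

Main exports: `finrank_along` (`[F_{Nℓ} : F_N] = ℓ + 1`), `norm_eq_prod_emb`, `norm_eq_prod`
(the norm is the product over the `ℓ + 1` embeddings), `norm_congr` (Gauss valuation ring form)
and `norm_red_integral` (integral `q`-expansion form) of the congruence.
-/
import Mathlib
import Fermat.Agent.S18.RGaussBar
import Fermat.Agent.S18.LiftDeg
import Fermat.Agent.S18.Defs
import Fermat.Agent.S24.CombIndex
import Fermat.Agent.S28.Phi.Basic
import Fermat.Prelude.Def_ModularCurve_HeckeOperator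
import Fermat.Prelude.Thm_ModularCurve_coeff_jqModC_neg_one
import Fermat.Agent.S37.KEmb

set_option autoImplicit false
set_option synthInstance.maxHeartbeats 400000

noncomputable section

open ModularCurve AlgebraicCurve Fermat.Agent.S18 Fermat.Agent.S28.Phi

namespace Fermat.Agent.S37.KNorm

/-! ### Generic lemmas -/

/-- Norm as a product over `finrank`-many pairwise distinct extensions of an embedding of the
base field (no algebraic closedness of the target needed). -/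
theorem norm_eq_prod_of_injective {K F Ω : Type*} [Field K] [Field F] [Field Ω] [Algebra K F]
    [FiniteDimensional K F] [Algebra.IsSeparable K F] (ι : K →+* Ω)
    {I : Type*} [Fintype I] (σ : I → F →+* Ω) (hσ : Function.Injective σ)
    (hι : ∀ i (a : K), σ i (algebraMap K F a) = ι a)
    (hcard : Fintype.card I = Module.finrank K F) (x : F) :
    ι (Algebra.norm K x) = ∏ i, σ i x := by
  classical
  let Ωb := AlgebraicClosure Ω
  let _ : Algebra K Ωb := ((algebraMap Ω Ωb).comp ι).toAlgebra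
  let τ : I → F →ₐ[K] Ωb := fun i =>
    { toRingHom := (algebraMap Ω Ωb).comp (σ i)
      commutes' := fun a => by
        show algebraMap Ω Ωb (σ i (algebraMap K F a)) = algebraMap Ω Ωb (ι a)
        rw [hι] }
  have hτinj : Function.Injective τ := by
    intro i j hij
    apply hσ
    ext y
    have h := DFunLike.congr_fun hij y
    exact (algebraMap Ω Ωb).injective h
  have hcard' : Fintype.card I = Fintype.card (F →ₐ[K] Ωb) := by
    rw [hcard, AlgHom.card K F Ωb]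
  have hbij : Function.Bijective τ :=
    (Fintype.bijective_iff_injective_and_card τ).mpr ⟨hτinj, hcard'⟩
  have h1 := Algebra.norm_eq_prod_embeddings K Ωb x
  have h2 : ∏ s : F →ₐ[K] Ωb, s x = ∏ i, τ i x :=
    (Fintype.prod_bijective τ hbij (fun i => τ i x) (fun s => s x) (fun _ => rfl)).symm
  rw [h2] at h1
  have h3 : ∏ i, τ i x = algebraMap Ω Ωb (∏ i, σ i x) := by
    rw [map_prod]
    rfl
  rw [h3] at h1
  exact (algebraMap Ω Ωb).injective h1

/-- In characteristic `ℓ`, the `ℓ`-th power of a Laurent series is `f^φ(q^ℓ)`. -/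
theorem pow_char_eq_qExpand {k : Type*} [CommRing k] (ℓ : ℕ) [Fact ℓ.Prime] [CharP k ℓ]
    (z : LaurentSeries k) :
    z ^ ℓ = qExpand k ℓ (coeffMap (frobenius k ℓ) z) := by
  have hℓ : ℓ ≠ 0 := (Fact.out : ℓ.Prime).ne_zero
  have : ExpChar k ℓ := ExpChar.prime (Fact.out : ℓ.Prime)
  -- power series
  have hP : ∀ P : PowerSeries k, (HahnSeries.ofPowerSeries ℤ k P) ^ ℓ
      = qExpand k ℓ (coeffMap (frobenius k ℓ) (HahnSeries.ofPowerSeries ℤ k P)) := by
    intro P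
    have h1 : (P.expand ℓ hℓ).map (frobenius k ℓ) = P ^ ℓ :=
      MvPowerSeries.map_frobenius_expand ℓ hℓ (f := P)
    rw [← map_pow, ← h1, coeffMap_ofPowerSeries]
    ext n
    by_cases hn : (ℓ : ℤ) ∣ n
    · obtain ⟨m, rfl⟩ := hn
      rw [qExpand_coeff_mul]
      rcases lt_or_ge m 0 with hm | hm
      · have h' : (ℓ : ℤ) * m < 0 :=
          mul_neg_of_pos_of_neg (by exact_mod_cast Nat.pos_of_ne_zero hℓ) hm
        rw [ofPowerSeries_coeff_of_neg _ hm, ofPowerSeries_coeff_of_neg _ h']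
      · lift m to ℕ using hm
        have h' : ((ℓ : ℤ) * (m : ℤ)) = ((ℓ * m : ℕ) : ℤ) := by push_cast; ring
        rw [h', HahnSeries.ofPowerSeries_apply_coeff, HahnSeries.ofPowerSeries_apply_coeff,
          PowerSeries.coeff_map, PowerSeries.coeff_map, PowerSeries.coeff_expand_mul]
    · rw [qExpand_coeff_of_not_dvd ℓ _ hn]
      rcases lt_or_ge n 0 with hn0 | hn0
      · rw [ofPowerSeries_coeff_of_neg _ hn0]
      · lift n to ℕ using hn0
        have hn' : ¬ ℓ ∣ n := fun h => hn (Int.natCast_dvd_natCast.mpr h)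
        rw [HahnSeries.ofPowerSeries_apply_coeff, PowerSeries.coeff_map,
          PowerSeries.coeff_expand_of_not_dvd ℓ hℓ P hn', map_zero]
  have hz := LaurentSeries.single_order_mul_powerSeriesPart z
  rw [← hz, mul_pow, map_mul, map_mul, ← hP, coeffMap_single, qExpand_single,
    HahnSeries.single_pow, map_one, one_pow, nsmul_eq_mul]

/-! ### Stability of the Gauss ring of Laurent series -/

section Lam

variable {L : Type*} [Field L] (A : ValuationSubring L)

local notation "incl" => coeffMap (ValuationSubring.subtype A)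
local notation "red" => coeffMap (IsLocalRing.residue A)
local notation "kA" => IsLocalRing.ResidueField A

theorem qExpand_mem_Lam (n : ℕ) [NeZero n] {x : LaurentSeries L} (hx : x ∈ RG.Lam A) :
    qExpand L n x ∈ RG.Lam A := by
  obtain ⟨a, b, hb, h⟩ := hx
  refine ⟨qExpand A n a, qExpand A n b, ?_, ?_⟩
  · rw [S24.QL.coeffMap_qExpand]
    exact fun h0 => hb (qExpand_injective n (by rw [h0, map_zero]))
  · rw [S24.QL.coeffMap_qExpand, S24.QL.coeffMap_qExpand, ← map_mul, h]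

theorem resL_qExpand (n : ℕ) [NeZero n] (x : RG.Lam A) :
    RG.resL A ⟨qExpand L n (x : LaurentSeries L), qExpand_mem_Lam A n x.2⟩
      = qExpand kA n (RG.resL A x) := by
  obtain ⟨a, b, hb, h⟩ := x.2
  have hb' : red (qExpand A n b) ≠ 0 := by
    rw [S24.QL.coeffMap_qExpand]
    exact fun h0 => hb (qExpand_injective n (by rw [h0, map_zero]))
  have h' : qExpand L n (x : LaurentSeries L) * incl (qExpand A n b) = incl (qExpand A n a) := by
    rw [S24.QL.coeffMap_qExpand, S24.QL.coeffMap_qExpand, ← map_mul, h]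
  rw [RG.resL_eq A ⟨qExpand L n (x : LaurentSeries L), qExpand_mem_Lam A n x.2⟩ hb' h',
    RG.resL_eq A x hb h, S24.QL.coeffMap_qExpand, S24.QL.coeffMap_qExpand, map_div₀]

theorem twistU_one {R : Type*} [CommRing R] (x : LaurentSeries R) : twistU (1 : Rˣ) x = x := by
  ext k
  rw [twistU_coeff, one_zpow, Units.val_one, one_mul]

theorem twistU_mem_Lam (u : (↥A)ˣ) {x : LaurentSeries L} (hx : x ∈ RG.Lam A) :
    twistU (Units.map (A.subtype : ↥A →* L) u) x ∈ RG.Lam A := by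
  obtain ⟨a, b, hb, h⟩ := hx
  refine ⟨twistU u a, twistU u b, ?_, ?_⟩
  · rw [coeffMap_twistU]
    intro h0
    apply hb
    have h1 := congrArg (twistU (Units.map ((IsLocalRing.residue A : ↥A →+* kA) : ↥A →* kA) u)⁻¹) h0
    rw [map_zero] at h1
    rw [← h1]
    ext k
    rw [twistU_coeff, twistU_coeff, ← mul_assoc, ← Units.val_mul, inv_zpow, inv_mul_cancel,
      Units.val_one, one_mul]
  · rw [coeffMap_twistU, coeffMap_twistU, ← map_mul]
    exact congrArg _ h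

theorem resL_twistU (u : (↥A)ˣ) (hu : IsLocalRing.residue A (u : ↥A) = 1) (x : RG.Lam A) :
    RG.resL A ⟨twistU (Units.map (A.subtype : ↥A →* L) u) (x : LaurentSeries L),
        twistU_mem_Lam A u x.2⟩ = RG.resL A x := by
  obtain ⟨a, b, hb, h⟩ := x.2
  have hu1 : Units.map ((IsLocalRing.residue A : ↥A →+* kA) : ↥A →* kA) u = 1 := by
    apply Units.ext
    exact hu
  have e1 : ∀ c : LaurentSeries ↥A, red (twistU u c) = red c := by
    intro c
    rw [coeffMap_twistU, hu1, twistU_one]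
  have hb' : red (twistU u b) ≠ 0 := by rw [e1]; exact hb
  have h' : twistU (Units.map (A.subtype : ↥A →* L) u) (x : LaurentSeries L) * incl (twistU u b)
      = incl (twistU u a) := by
    rw [coeffMap_twistU, coeffMap_twistU, ← map_mul]
    exact congrArg _ h
  rw [RG.resL_eq A ⟨_, twistU_mem_Lam A u x.2⟩ hb' h', RG.resL_eq A x hb h, e1, e1]

end Lam

/-! ### The degree of `F_{Nℓ}` over `F_N` -/

section Degree

variable (N ℓ : ℕ) [NeZero N] [Fact ℓ.Prime]

theorem coe_algebraMap_along (a : ↥(FN N)) :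
    letI := algebraAlong (heckeAlphaBar Qb N ℓ)
    ((algebraMap ↥(FN N) ↥(FN (N * ℓ)) a : ↥(FN (N * ℓ))) : LaurentSeries Qb)
      = (a : LaurentSeries Qb) :=
  coe_heckeAlphaBar N ℓ a

theorem finite_along :
    letI := algebraAlong (heckeAlphaBar Qb N ℓ)
    Module.Finite ↥(FN N) ↥(FN (N * ℓ)) :=
  letI := algebraAlong (heckeAlphaBar Qb N ℓ)
  LiftD.finite_bar (dvd_mul_right N ℓ) (coe_algebraMap_along N ℓ)

theorem finrank_along (hℓN : ¬ ℓ ∣ N) :
    letI := algebraAlong (heckeAlphaBar Qb N ℓ)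
    Module.finrank ↥(FN N) ↥(FN (N * ℓ)) = ℓ + 1 := by
  letI := algebraAlong (heckeAlphaBar Qb N ℓ)
  rw [LiftD.finrank_eq_relfinrank_of_algebra _ _ (coe_algebraMap_along N ℓ)]
  have h1 := LiftD.relfinrank_bar_mul (dvd_mul_right N ℓ)
  have h2 := Fermat.Agent.S24.Comb.dedekindPsi_mul_of_not_dvd (NeZero.ne N) (Fact.out : ℓ.Prime) hℓN
  rw [h2] at h1
  exact Nat.eq_of_mul_eq_mul_left (LiftD.dedekindPsi_pos N) h1

end Degree

/-! ### K2: the norm is the product over the `ℓ + 1` embeddings -/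

section Product

variable (N ℓ : ℕ) [NeZero N] [Fact ℓ.Prime]

/-- The interface with step K1: the `ℓ` non-standard embeddings of `F_{Nℓ}` over `F_N` into
`ℚ̄((u))`, `u = q^{1/ℓ}`. -/
def EmbStmt : Prop :=
  ∃ ζ : Qb, IsPrimitiveRoot ζ ℓ ∧ ∀ b : ℕ, ∃ E : ↥(FN (N * ℓ)) →+* LaurentSeries Qb,
    (∀ f : ↥(FN N), E (heckeAlphaBar Qb N ℓ f) = qExpand Qb ℓ (f : LaurentSeries Qb)) ∧
    (∀ (f : ↥(FN N)) (n : ℤ), (E (heckeBetaBar Qb N ℓ f)).coeff n
      = (ζ ^ b) ^ n * (f : LaurentSeries Qb).coeff n)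

theorem qExpand_norm_eq (hℓN : ¬ ℓ ∣ N) (ζ : Qb) (hζ : IsPrimitiveRoot ζ ℓ)
    (E : ℕ → ↥(FN (N * ℓ)) →+* LaurentSeries Qb)
    (hα : ∀ b (f : ↥(FN N)), E b (heckeAlphaBar Qb N ℓ f) = qExpand Qb ℓ (f : LaurentSeries Qb))
    (hβ : ∀ b (f : ↥(FN N)) (n : ℤ), (E b (heckeBetaBar Qb N ℓ f)).coeff n
      = (ζ ^ b) ^ n * (f : LaurentSeries Qb).coeff n)
    (w : ↥(FN (N * ℓ))) :
    letI := algebraAlong (heckeAlphaBar Qb N ℓ)
    qExpand Qb ℓ ((Algebra.norm ↥(FN N) w : ↥(FN N)) : LaurentSeries Qb)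
      = qExpand Qb ℓ (w : LaurentSeries Qb) * ∏ b ∈ Finset.range ℓ, E b w := by
  letI := algebraAlong (heckeAlphaBar Qb N ℓ)
  haveI := finite_along N ℓ
  haveI : CharZero ↥(FN N) := charZero_of_injective_algebraMap (algebraMap Qb ↥(FN N)).injective
  haveI : Algebra.IsSeparable ↥(FN N) ↥(FN (N * ℓ)) := inferInstance
  have hℓ2 : 2 ≤ ℓ := (Fact.out : ℓ.Prime).two_le
  let σ : Option (Fin ℓ) → ↥(FN (N * ℓ)) →+* LaurentSeries Qb := fun i =>
    match i with
    | none => (qExpand Qb ℓ).comp (FN (N * ℓ)).val.toRingHom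
    | some b => E b
  let ι : ↥(FN N) →+* LaurentSeries Qb := (qExpand Qb ℓ).comp (FN N).val.toRingHom
  have hι : ∀ i (a : ↥(FN N)), σ i (algebraMap ↥(FN N) ↥(FN (N * ℓ)) a) = ι a := by
    intro i a
    cases i with
    | none =>
      show qExpand Qb ℓ ((algebraMap ↥(FN N) ↥(FN (N * ℓ)) a : ↥(FN (N * ℓ))) : LaurentSeries Qb)
        = qExpand Qb ℓ (a : LaurentSeries Qb)
      rw [coe_algebraMap_along]
    | some b => exact hα b a
  -- the test element `j`
  let jN : ↥(FN N) := Fermat.Agent.S24.jElt Qb N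
  have hjN : ((jN : ↥(FN N)) : LaurentSeries Qb) = jqModC Qb := LiftD.coe_jElt Qb N
  have hcE : ∀ b, (E b (heckeBetaBar Qb N ℓ jN)).coeff (-1) = (ζ ^ b)⁻¹ := by
    intro b
    rw [hβ, hjN, ModularCurve.coeff_jqModC_neg_one, mul_one, zpow_neg_one]
  have hζ0 : ζ ≠ 0 := hζ.ne_zero (by omega)
  have hc0 : (qExpand Qb ℓ ((heckeBetaBar Qb N ℓ jN : ↥(FN (N * ℓ))) : LaurentSeries Qb)).coeff (-1)
      = 0 := by
    apply qExpand_coeff_of_not_dvd
    intro hd
    have h1 : (ℓ : ℤ) ∣ 1 := (dvd_neg (a := (ℓ : ℤ)) (b := 1)).mp hd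
    have h2 : ℓ ∣ 1 := Int.natCast_dvd_natCast.mp (by simpa using h1)
    have := Nat.le_of_dvd one_pos h2
    omega
  have hσ : Function.Injective σ := by
    intro i i' hii
    cases i with
    | none =>
      cases i' with
      | none => rfl
      | some b' =>
        exfalso
        have h1 := congrArg (fun f : ↥(FN (N * ℓ)) →+* LaurentSeries Qb =>
          (f (heckeBetaBar Qb N ℓ jN)).coeff (-1)) hii
        have h2 : (qExpand Qb ℓ ((heckeBetaBar Qb N ℓ jN : ↥(FN (N * ℓ))) :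
            LaurentSeries Qb)).coeff (-1) = (E b' (heckeBetaBar Qb N ℓ jN)).coeff (-1) := h1
        rw [hc0, hcE] at h2
        exact inv_ne_zero (pow_ne_zero _ hζ0) h2.symm
    | some b =>
      cases i' with
      | none =>
        exfalso
        have h1 := congrArg (fun f : ↥(FN (N * ℓ)) →+* LaurentSeries Qb =>
          (f (heckeBetaBar Qb N ℓ jN)).coeff (-1)) hii
        have h2 : (E b (heckeBetaBar Qb N ℓ jN)).coeff (-1)
            = (qExpand Qb ℓ ((heckeBetaBar Qb N ℓ jN : ↥(FN (N * ℓ))) :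
              LaurentSeries Qb)).coeff (-1) := h1
        rw [hc0, hcE] at h2
        exact inv_ne_zero (pow_ne_zero _ hζ0) h2
      | some b' =>
        have h1 := congrArg (fun f : ↥(FN (N * ℓ)) →+* LaurentSeries Qb =>
          (f (heckeBetaBar Qb N ℓ jN)).coeff (-1)) hii
        have h2 : (E b (heckeBetaBar Qb N ℓ jN)).coeff (-1)
            = (E b' (heckeBetaBar Qb N ℓ jN)).coeff (-1) := h1
        rw [hcE, hcE] at h2
        have h3 : ζ ^ (b : ℕ) = ζ ^ (b' : ℕ) := inv_injective h2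
        have h4 : (b : ℕ) = b' := hζ.pow_inj b.2 b'.2 h3
        exact congrArg some (Fin.ext h4)
  have hcard : Fintype.card (Option (Fin ℓ)) = Module.finrank ↥(FN N) ↥(FN (N * ℓ)) := by
    rw [finrank_along N ℓ hℓN, Fintype.card_option, Fintype.card_fin]
  have key := norm_eq_prod_of_injective ι σ hσ hι hcard w
  rw [Fintype.prod_option] at key
  have e2 : ∏ b : Fin ℓ, σ (some b) w = ∏ b ∈ Finset.range ℓ, E b w :=
    Fin.prod_univ_eq_prod_range (fun b => E b w) ℓ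
  rw [e2] at key
  exact key

end Product

/-! ### K3: integrality and reduction of the norm -/

section Congruence

variable (N ℓ : ℕ) [NeZero N] [Fact ℓ.Prime]

theorem exists_unit_of_pow_one (A : ValuationSubring Qb) {x : Qb} (hx : x ^ ℓ = 1) :
    ∃ u : (↥A)ˣ, ((u : ↥A) : Qb) = x ∧ u ^ ℓ = 1 := by
  have hN : ℓ ≠ 0 := (Fact.out : ℓ.Prime).ne_zero
  have hmem : x ∈ A := by
    rcases A.mem_or_inv_mem x with h | h
    · exact h
    · have h1 : x = x⁻¹ ^ (ℓ - 1) := by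
        have h2 : x ^ (ℓ - 1) * x = 1 := by
          rw [← pow_succ, Nat.sub_add_cancel (Nat.pos_of_ne_zero hN), hx]
        rw [inv_pow]
        exact (eq_inv_of_mul_eq_one_right h2)
      rw [h1]
      exact pow_mem h _
  have hpow : (⟨x, hmem⟩ : ↥A) ^ ℓ = 1 := Subtype.ext (by simpa using hx)
  obtain ⟨u, hu⟩ := IsUnit.of_pow_eq_one hpow hN
  refine ⟨u, by rw [hu], ?_⟩
  apply Units.ext
  rw [Units.val_pow_eq_pow_val, hu, hpow]
  rfl

/-- **Kronecker congruence for functions** (from the embeddings of step K1): for `y` in the Gauss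
valuation ring of `F_N`, the norm of `y(q^ℓ)` from `F_{Nℓ}` to `F_N` is Gauss-integral and reduces
to `ȳ(q^ℓ) · ȳ^φ`. -/
theorem norm_congr_of_emb (hℓN : ¬ ℓ ∣ N) (hemb : EmbStmt N ℓ) (A : ValuationSubring Qb)
    (hA : A.LiesOverPrime ℓ) (y : ↥(RGB.V N A)) :
    letI := algebraAlong (heckeAlphaBar Qb N ℓ)
    ∃ h : Algebra.norm ↥(FN N) (heckeBetaBar Qb N ℓ (y : ↥(FN N))) ∈ RGB.V N A,
      ∀ φ : Kb A →+* Kb A, (∀ x, φ x = x ^ ℓ) →
        ((RGB.rho N hℓN A hA ⟨_, h⟩ : ↥(FbN A N)) : LaurentSeries (Kb A))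
          = qExpand (Kb A) ℓ ((RGB.rho N hℓN A hA y : ↥(FbN A N)) : LaurentSeries (Kb A))
            * coeffMap φ ((RGB.rho N hℓN A hA y : ↥(FbN A N)) : LaurentSeries (Kb A)) := by
  letI := algebraAlong (heckeAlphaBar Qb N ℓ)
  haveI : CharP (Kb A) ℓ := RN.charP_residueField A hA
  obtain ⟨ζ, hζ, hE⟩ := hemb
  choose E hα hβ using hE
  have hℓ0 : ℓ ≠ 0 := (Fact.out : ℓ.Prime).ne_zero
  -- the roots of unity as units of `A`
  have hu : ∀ b : ℕ, ∃ u : (↥A)ˣ, ((u : ↥A) : Qb) = ζ ^ b ∧ u ^ ℓ = 1 := fun b =>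
    exists_unit_of_pow_one ℓ A (by rw [← pow_mul, mul_comm, pow_mul, hζ.pow_eq_one, one_pow])
  choose u hu1 hu2 using hu
  have hures : ∀ b, IsLocalRing.residue A (u b : ↥A) = 1 := by
    intro b
    apply frobenius_inj (Kb A) ℓ
    rw [frobenius_def, frobenius_def, one_pow, ← map_pow, ← Units.val_pow_eq_pow_val, hu2 b,
      Units.val_one, map_one]
  set nm : ↥(FN N) := Algebra.norm ↥(FN N) (heckeBetaBar Qb N ℓ (y : ↥(FN N))) with hnm
  have hprod := qExpand_norm_eq N ℓ hℓN ζ hζ E hα hβ (heckeBetaBar Qb N ℓ (y : ↥(FN N)))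
  rw [← hnm, coe_heckeBetaBar] at hprod
  -- everything lives in the Gauss ring
  let yL : RG.Lam A := ⟨((y : ↥(FN N)) : LaurentSeries Qb), y.2⟩
  have hEb : ∀ b, E b (heckeBetaBar Qb N ℓ (y : ↥(FN N)))
      = twistU (Units.map (A.subtype : ↥A →* Qb) (u b)) (yL : LaurentSeries Qb) := by
    intro b
    ext n
    rw [hβ, twistU_coeff, Units.val_zpow_eq_zpow_val, Units.coe_map]
    show (ζ ^ b) ^ n * _ = (((u b : ↥A) : Qb)) ^ n * _
    rw [hu1]
  let t0 : RG.Lam A := ⟨qExpand Qb ℓ (qExpand Qb ℓ (yL : LaurentSeries Qb)),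
    qExpand_mem_Lam A ℓ (qExpand_mem_Lam A ℓ yL.2)⟩
  let t : ℕ → RG.Lam A := fun b =>
    ⟨twistU (Units.map (A.subtype : ↥A →* Qb) (u b)) (yL : LaurentSeries Qb),
      twistU_mem_Lam A (u b) yL.2⟩
  let XL : RG.Lam A := t0 * ∏ b ∈ Finset.range ℓ, t b
  have hXL : (XL : LaurentSeries Qb) = qExpand Qb ℓ ((nm : ↥(FN N)) : LaurentSeries Qb) := by
    rw [hprod]
    show (t0 : LaurentSeries Qb) * ((∏ b ∈ Finset.range ℓ, t b : RG.Lam A) : LaurentSeries Qb) = _
    have e1 : ((∏ b ∈ Finset.range ℓ, t b : RG.Lam A) : LaurentSeries Qb)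
        = ∏ b ∈ Finset.range ℓ, ((t b : RG.Lam A) : LaurentSeries Qb) :=
      map_prod (RG.Lam A).subtype t (Finset.range ℓ)
    rw [e1]
    congr 1
    refine Finset.prod_congr rfl fun b _ => ?_
    exact (hEb b).symm
  set yb : LaurentSeries (Kb A) := RG.resL A yL with hyb
  have hres0 : RG.resL A t0 = qExpand (Kb A) ℓ (qExpand (Kb A) ℓ yb) := by
    have h1 := resL_qExpand A ℓ (⟨qExpand Qb ℓ (yL : LaurentSeries Qb),
      qExpand_mem_Lam A ℓ yL.2⟩ : RG.Lam A)
    have h2 := resL_qExpand A ℓ yL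
    rw [h2] at h1
    exact h1
  have hrest : ∀ b, RG.resL A (t b) = yb := fun b => resL_twistU A (u b) (hures b) yL
  have hresX : RG.resL A XL = qExpand (Kb A) ℓ (qExpand (Kb A) ℓ yb) * yb ^ ℓ := by
    show RG.resL A (t0 * ∏ b ∈ Finset.range ℓ, t b) = _
    rw [map_mul, map_prod, hres0, Finset.prod_congr rfl (fun b _ => hrest b), Finset.prod_const,
      Finset.card_range]
  -- the norm is Gauss-integral
  have hmem : nm ∈ RGB.V N A := by
    by_contra hnot
    have hnm0 : nm ≠ 0 := fun h0 => hnot (h0 ▸ (RGB.V N A).zero_mem)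
    have hinv : nm⁻¹ ∈ RGB.V N A := ((RGB.V N A).mem_or_inv_mem nm).resolve_left hnot
    have hnu : ¬ IsUnit (⟨nm⁻¹, hinv⟩ : ↥(RGB.V N A)) := by
      intro hunit
      obtain ⟨v', hv'⟩ := hunit.exists_right_inv
      have h1 : nm⁻¹ * (v' : ↥(FN N)) = 1 := congrArg Subtype.val hv'
      have h2 : (v' : ↥(FN N)) = nm := by
        have := congrArg (fun z => nm * z) h1
        simpa [← mul_assoc, mul_inv_cancel₀ hnm0] using this
      exact hnot (h2 ▸ v'.2)
    have hr0 : RG.rhoL A N (⟨nm⁻¹, hinv⟩ : ↥(RGB.V N A)) = 0 :=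
      (RG.rhoL_eq_zero_iff_not_isUnit A N _).mpr hnu
    let vL : RG.Lam A := ⟨((nm⁻¹ : ↥(FN N)) : LaurentSeries Qb), hinv⟩
    have hvL : RG.resL A vL = 0 := hr0
    let wL : RG.Lam A := ⟨qExpand Qb ℓ (vL : LaurentSeries Qb), qExpand_mem_Lam A ℓ vL.2⟩
    have hwL : RG.resL A wL = 0 := by
      have := resL_qExpand A ℓ vL
      rw [hvL, map_zero] at this
      exact this
    have hone : XL * wL = 1 := by
      apply Subtype.ext
      show (XL : LaurentSeries Qb) * qExpand Qb ℓ ((nm⁻¹ : ↥(FN N)) : LaurentSeries Qb) = 1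
      rw [hXL, ← map_mul]
      have h1 : ((nm : ↥(FN N)) : LaurentSeries Qb) * ((nm⁻¹ : ↥(FN N)) : LaurentSeries Qb)
          = 1 := by
        have h2 : nm * nm⁻¹ = 1 := mul_inv_cancel₀ hnm0
        have h3 := congrArg (fun z : ↥(FN N) => (z : LaurentSeries Qb)) h2
        simpa using h3
      rw [h1, map_one]
    have h1 := congrArg (RG.resL A) hone
    rw [map_mul, hwL, mul_zero, map_one] at h1
    exact zero_ne_one h1
  refine ⟨hmem, fun φ hφ => ?_⟩
  let nL : RG.Lam A := ⟨((nm : ↥(FN N)) : LaurentSeries Qb), hmem⟩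
  have h1 := resL_qExpand A ℓ nL
  have h2 : (⟨qExpand Qb ℓ (nL : LaurentSeries Qb), qExpand_mem_Lam A ℓ nL.2⟩ : RG.Lam A) = XL :=
    Subtype.ext hXL.symm
  rw [h2, hresX] at h1
  have hfrob : yb ^ ℓ = qExpand (Kb A) ℓ (coeffMap φ yb) := by
    rw [pow_char_eq_qExpand ℓ yb]
    congr 1
    exact coeffMap_congr (RingHom.ext fun x => by rw [frobenius_def, hφ]) yb
  rw [hfrob, ← map_mul] at h1
  exact (qExpand_injective ℓ h1).symm

end Congruence

/-! ### Unconditional forms (step K1 is `KEmb.exists_emb_bar`) -/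

section Final

variable (N ℓ : ℕ) [NeZero N] [Fact ℓ.Prime]

/-- Step K1 in coefficient form. -/
theorem embStmt (hℓN : ¬ ℓ ∣ N) : EmbStmt N ℓ := by
  obtain ⟨ζ, hζ, hE⟩ := KEmb.exists_emb_bar N ℓ (Fact.out : ℓ.Prime) hℓN
  refine ⟨(ζ : Qb), hζ, fun b => ?_⟩
  obtain ⟨E, -, hα, hβ⟩ := hE b
  refine ⟨E, hα, fun f n => ?_⟩
  rw [hβ, Fermat.Agent.S28.Kummer.twist_coeff, Units.val_pow_eq_pow_val]

/-- **K2**, general form: the `ℓ` embeddings of step K1 together with the standard one compute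
the norm from `F_{Nℓ}` to `F_N`. -/
theorem norm_eq_prod_emb (hℓN : ¬ ℓ ∣ N) :
    ∃ (ζ : Qbˣ) (E : ℕ → ↥(FN (N * ℓ)) →+* LaurentSeries Qb), IsPrimitiveRoot (ζ : Qb) ℓ ∧
      (∀ b (f : ↥(FN N)), E b (heckeAlphaBar Qb N ℓ f) = qExpand Qb ℓ (f : LaurentSeries Qb)) ∧
      (∀ b (f : ↥(FN N)), E b (heckeBetaBar Qb N ℓ f)
        = Fermat.Agent.S28.Kummer.twist (ζ ^ b) (f : LaurentSeries Qb)) ∧
      ∀ w : ↥(FN (N * ℓ)),
        letI := algebraAlong (heckeAlphaBar Qb N ℓ)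
        qExpand Qb ℓ ((Algebra.norm ↥(FN N) w : ↥(FN N)) : LaurentSeries Qb)
          = qExpand Qb ℓ (w : LaurentSeries Qb) * ∏ b ∈ Finset.range ℓ, E b w := by
  obtain ⟨ζ, hζ, hE⟩ := KEmb.exists_emb_bar N ℓ (Fact.out : ℓ.Prime) hℓN
  choose E _ hα hβ using hE
  refine ⟨ζ, E, hζ, hα, hβ, fun w => ?_⟩
  exact qExpand_norm_eq N ℓ hℓN (ζ : Qb) hζ E hα (fun b f n => by
    rw [hβ, Fermat.Agent.S28.Kummer.twist_coeff, Units.val_pow_eq_pow_val]) w

/-- **K2**: `(N_α (f(q^ℓ)))(u^ℓ) = f(u^{ℓ²}) · ∏_{b < ℓ} f(ζ^b u)`. -/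
theorem norm_eq_prod (hℓN : ¬ ℓ ∣ N) :
    ∃ ζ : Qbˣ, IsPrimitiveRoot (ζ : Qb) ℓ ∧ ∀ f : ↥(FN N),
      letI := algebraAlong (heckeAlphaBar Qb N ℓ)
      qExpand Qb ℓ ((Algebra.norm ↥(FN N) (heckeBetaBar Qb N ℓ f) : ↥(FN N)) : LaurentSeries Qb)
        = qExpand Qb ℓ (qExpand Qb ℓ (f : LaurentSeries Qb))
          * ∏ b ∈ Finset.range ℓ, Fermat.Agent.S28.Kummer.twist (ζ ^ b) (f : LaurentSeries Qb) := by
  obtain ⟨ζ, E, hζ, -, hβ, hnorm⟩ := norm_eq_prod_emb N ℓ hℓN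
  refine ⟨ζ, hζ, fun f => ?_⟩
  have h := hnorm (heckeBetaBar Qb N ℓ f)
  rw [coe_heckeBetaBar] at h
  rw [h]
  congr 1
  exact Finset.prod_congr rfl fun b _ => hβ b f

/-- **Kronecker congruence for functions**, Gauss valuation ring form. -/
theorem norm_congr (hℓN : ¬ ℓ ∣ N) (A : ValuationSubring Qb) (hA : A.LiesOverPrime ℓ)
    (y : ↥(RGB.V N A)) :
    letI := algebraAlong (heckeAlphaBar Qb N ℓ)
    ∃ h : Algebra.norm ↥(FN N) (heckeBetaBar Qb N ℓ (y : ↥(FN N))) ∈ RGB.V N A,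
      ∀ φ : Kb A →+* Kb A, (∀ x, φ x = x ^ ℓ) →
        ((RGB.rho N hℓN A hA ⟨_, h⟩ : ↥(FbN A N)) : LaurentSeries (Kb A))
          = qExpand (Kb A) ℓ ((RGB.rho N hℓN A hA y : ↥(FbN A N)) : LaurentSeries (Kb A))
            * coeffMap φ ((RGB.rho N hℓN A hA y : ↥(FbN A N)) : LaurentSeries (Kb A)) :=
  norm_congr_of_emb N ℓ hℓN (embStmt N ℓ hℓN) A hA y

/-- **Kronecker congruence for functions**, integral `q`-expansion form (the frozen
`integralPrincipalDivisors` shape): for `y ∈ A((q))` with `y ∈ F_N`, the norm of `y(q^ℓ)` from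
`F_{Nℓ}` to `F_N` has `A`-integral `q`-expansion `w`, and `w̄ = ȳ(q^ℓ) · ȳ^φ`. -/
theorem norm_red_integral (hℓN : ¬ ℓ ∣ N) (A : ValuationSubring Qb) (hA : A.LiesOverPrime ℓ)
    (y : LaurentSeries ↥A) (hy : coeffMap A.subtype y ∈ FN N) :
    ∃ w : LaurentSeries ↥A,
      (letI := algebraAlong (heckeAlphaBar Qb N ℓ)
       ((Algebra.norm ↥(FN N) (heckeBetaBar Qb N ℓ ⟨coeffMap A.subtype y, hy⟩) : ↥(FN N)) :
          LaurentSeries Qb)) = coeffMap A.subtype w ∧
      ∀ φ : Kb A →+* Kb A, (∀ x, φ x = x ^ ℓ) →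
        coeffMap (IsLocalRing.residue ↥A) w
          = qExpand (Kb A) ℓ (coeffMap (IsLocalRing.residue ↥A) y)
            * coeffMap φ (coeffMap (IsLocalRing.residue ↥A) y) := by
  letI := algebraAlong (heckeAlphaBar Qb N ℓ)
  haveI : CharP (Kb A) ℓ := RN.charP_residueField A hA
  obtain ⟨ζ, hζ, hnorm⟩ := norm_eq_prod N ℓ hℓN
  have hu : ∀ b : ℕ, ∃ u : (↥A)ˣ, ((u : ↥A) : Qb) = (ζ : Qb) ^ b ∧ u ^ ℓ = 1 := fun b =>
    exists_unit_of_pow_one ℓ A (by rw [← pow_mul, mul_comm, pow_mul, hζ.pow_eq_one, one_pow])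
  choose u hu1 hu2 using hu
  have hures : ∀ b, IsLocalRing.residue A (u b : ↥A) = 1 := by
    intro b
    apply frobenius_inj (Kb A) ℓ
    rw [frobenius_def, frobenius_def, one_pow, ← map_pow, ← Units.val_pow_eq_pow_val, hu2 b,
      Units.val_one, map_one]
  set nm : ↥(FN N) := Algebra.norm ↥(FN N) (heckeBetaBar Qb N ℓ ⟨coeffMap A.subtype y, hy⟩)
    with hnm
  have hprod := hnorm ⟨coeffMap A.subtype y, hy⟩
  rw [← hnm] at hprod
  have htw : ∀ b, Fermat.Agent.S28.Kummer.twist (ζ ^ b) (coeffMap A.subtype y)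
      = coeffMap A.subtype (twistU (u b) y) := by
    intro b
    ext n
    have e : ((((u b) ^ n : (↥A)ˣ) : ↥A) : Qb) = (((u b : ↥A)) : Qb) ^ n := by
      have h1 : Units.map (A.subtype : ↥A →* Qb) (u b ^ n)
          = (Units.map (A.subtype : ↥A →* Qb) (u b)) ^ n :=
        map_zpow (Units.map (A.subtype : ↥A →* Qb)) (u b) n
      have h2 := congrArg (fun v : Qbˣ => (v : Qb)) h1
      have h3 : ((Units.map (A.subtype : ↥A →* Qb) (u b) ^ n : Qbˣ) : Qb)
          = ((Units.map (A.subtype : ↥A →* Qb) (u b) : Qbˣ) : Qb) ^ n :=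
        Units.val_zpow_eq_zpow_val _ _
      exact h2.trans h3
    rw [Fermat.Agent.S28.Kummer.twist_coeff, coeffMap_coeff, coeffMap_coeff, twistU_coeff,
      Units.val_pow_eq_pow_val, ← hu1 b, map_mul]
    congr 1
    exact e.symm
  let W : LaurentSeries ↥A := qExpand ↥A ℓ (qExpand ↥A ℓ y) * ∏ b ∈ Finset.range ℓ, twistU (u b) y
  have hW : coeffMap A.subtype W = qExpand Qb ℓ ((nm : ↥(FN N)) : LaurentSeries Qb) := by
    rw [hprod]
    show coeffMap A.subtype (qExpand ↥A ℓ (qExpand ↥A ℓ y) * ∏ b ∈ Finset.range ℓ, twistU (u b) y)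
      = _
    rw [map_mul, map_prod, S24.QL.coeffMap_qExpand, S24.QL.coeffMap_qExpand]
    congr 1
    exact Finset.prod_congr rfl fun b _ => (htw b).symm
  have hcoeff : ∀ k, ((nm : ↥(FN N)) : LaurentSeries Qb).coeff k ∈ A := by
    intro k
    rw [← qExpand_coeff_mul ℓ ((nm : ↥(FN N)) : LaurentSeries Qb) k, ← hW]
    exact RC.coeffMap_subtype_coeff_mem A W _
  refine ⟨RC.liftA A ((nm : ↥(FN N)) : LaurentSeries Qb),
    (RC.coeffMap_subtype_liftA A hcoeff).symm, fun φ hφ => ?_⟩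
  set w : LaurentSeries ↥A := RC.liftA A ((nm : ↥(FN N)) : LaurentSeries Qb) with hw
  have hwW : qExpand ↥A ℓ w = W := by
    apply RC.coeffMap_subtype_injective A
    rw [S24.QL.coeffMap_qExpand, hW, hw, RC.coeffMap_subtype_liftA A hcoeff]
  set yb : LaurentSeries (Kb A) := coeffMap (IsLocalRing.residue ↥A) y with hyb
  have hred : ∀ b, coeffMap (IsLocalRing.residue ↥A) (twistU (u b) y) = yb := by
    intro b
    have hu1' : Units.map ((IsLocalRing.residue ↥A : ↥A →+* Kb A) : ↥A →* Kb A) (u b) = 1 :=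
      Units.ext (hures b)
    rw [coeffMap_twistU, hu1', twistU_one]
  have h1 : qExpand (Kb A) ℓ (coeffMap (IsLocalRing.residue ↥A) w)
      = qExpand (Kb A) ℓ (qExpand (Kb A) ℓ yb) * yb ^ ℓ := by
    rw [← S24.QL.coeffMap_qExpand, hwW]
    show coeffMap (IsLocalRing.residue ↥A)
      (qExpand ↥A ℓ (qExpand ↥A ℓ y) * ∏ b ∈ Finset.range ℓ, twistU (u b) y) = _
    rw [map_mul, map_prod, S24.QL.coeffMap_qExpand, S24.QL.coeffMap_qExpand,
      Finset.prod_congr rfl (fun b _ => hred b), Finset.prod_const, Finset.card_range]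
  have hfrob : yb ^ ℓ = qExpand (Kb A) ℓ (coeffMap φ yb) := by
    rw [pow_char_eq_qExpand ℓ yb]
    congr 1
    exact coeffMap_congr (RingHom.ext fun x => by rw [frobenius_def, hφ]) yb
  rw [hfrob, ← map_mul] at h1
  exact qExpand_injective ℓ h1

end Final

end Fermat.Agent.S37.KNorm

end
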