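/-
S37 (wave 8), piece ES, third seat (helper13): the Hecke clause of `FrobHeckeStmt`
(Eichler–Shimura congruence) and the interface statement `frobHeckeStmt : FrobHeckeStmt`.

For `ℓ ∤ M`, `N ∣ M`, `A` a valuation ring of `ℚ̄` over `ℓ`, `r` a place reduction at level `M`
(frozen sense) and `φ = frobAut A hA M` the coefficientwise Frobenius of `F̄_M`:

* `mapDomain_hecke_of_isPrincipal`: for a PRINCIPAL divisor `D` of `F_N`,
  `r_* π^* (α_* β^* D) = φ • r_* π^* D + ℓ • φ⁻¹ • r_* π^* D`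
  (Kronecker congruence `KNorm.norm_congr` for the norm of `y(q^ℓ)`, the power formula
  `ȳ(q^ℓ) = (φ⁻¹ ȳ)^ℓ` of `CoeffAut`, and `r_* div = div ∘ rho`);
* `mapDomain_hecke_of_degree_eq_zero`: the same for all divisors of degree `0`
  (rigidity, `ESCore.eq_of_principal`);
* `red_pb_hecke`: the form on `Pic⁰`, `Red (T_ℓ x) = Φ (Red x) + ℓ • Ψ (Red x)`;
* `frobHeckeStmt : FrobHeckeStmt` with `Φ = GalEq.frobPhi`, `Ψ = GalEq.frobPsi`.
-/
import Fermat.Agent.S37.Iface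
import Fermat.Agent.S37.ESCore
import Fermat.Agent.S37.HeckeInputs
import Fermat.Agent.S37.KNorm
import Fermat.Agent.S37.CoeffAut
import Fermat.Agent.S37.GalEq
import Fermat.Agent.S18.UAdapt
import Fermat.Agent.S18.UPhiB

set_option autoImplicit false
set_option synthInstance.maxHeartbeats 400000
set_option linter.style.haveILetI false
set_option linter.unusedSectionVars false

noncomputable section

open HahnSeries IntermediateField AlgebraicCurve ModularCurve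

namespace Fermat.Agent.S37.ESC

open Fermat.Agent.S18 Fermat.Agent.S20 Fermat.Agent.S37.CoeffAut

section Principal

variable {N M : ℕ} [NeZero N] [NeZero M] (h : N ∣ M) {ℓ : ℕ} [Fact ℓ.Prime] (hℓM : ¬ ℓ ∣ M)
  (A : ValuationSubring Qb) (hA : A.LiesOverPrime ℓ)

include hℓM hA

set_option maxHeartbeats 3200000 in
/-- **Eichler–Shimura on principal divisors.** -/
theorem mapDomain_hecke_of_isPrincipal [NeZero ℓ] (hℓN : ¬ ℓ ∣ N)
    {r : Place Qb ↥(FN M) → Place (Kb A) ↥(FbN A M)} (hr : IsPlaceReductionModL A M r)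
    {D : Divisor Qb ↥(FN N)} (hD : D.IsPrincipal) :
    letI := algOfLE (bar_mono h)
    haveI := isScalarTower_algOfLE (bar_mono h)
    haveI : Module.Finite ↥(FN N) ↥(FN M) := ROR.finite_bar h
    haveI := ROR.hasPrincipalDivisors_bar (M := M)
    haveI := HeckeIn.hasPrincipalDivisors (N * ℓ)
    Finsupp.mapDomain r (Divisor.pullback ↥(FN M)
        (Divisor.correspondence (heckeBetaBar Qb N ℓ) (heckeAlphaBar Qb N ℓ)
          (HeckeIn.heckeBetaBarIntegral N ℓ) (HeckeIn.heckeAlphaBarIntegral N ℓ) D))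
      = frobAut A hA M • Finsupp.mapDomain r (Divisor.pullback ↥(FN M) D)
        + ℓ • ((frobAut A hA M)⁻¹ • Finsupp.mapDomain r (Divisor.pullback ↥(FN M) D)) := by
  letI := algOfLE (bar_mono h)
  haveI := isScalarTower_algOfLE (bar_mono h)
  haveI : Module.Finite ↥(FN N) ↥(FN M) := ROR.finite_bar h
  haveI := ROR.hasPrincipalDivisors_bar (M := M)
  haveI := HeckeIn.hasPrincipalDivisors (N * ℓ)
  letI := algOfLE (fullC_mono (Kb A) h)
  obtain ⟨f, hf, hDf⟩ := hD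
  obtain ⟨c, hcV, hc, hne⟩ := RGB.exists_smul_mem N hℓN A hA f hf
  have hc' : algebraMap Qb ↥(FN N) c ≠ 0 := by
    rw [Ne, map_eq_zero]
    exact hc
  have hy0 : algebraMap Qb ↥(FN N) c * f ≠ 0 := mul_ne_zero hc' hf
  have hDx : ∀ P : Place Qb ↥(FN N), D P = P.ord (algebraMap Qb ↥(FN N) c * f) := by
    intro P
    rw [hDf P, P.ord_mul hc' hf, S24.Places.ord_algebraMap, zero_add]
  -- the norm of `y(q^ℓ)` and its reduction
  obtain ⟨hwV, hw⟩ := KNorm.norm_congr N ℓ hℓN A hA ⟨_, hcV⟩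
  have hwrho := hw (frobK A hA : Kb A →+* Kb A) (fun x => frobK_apply A hA x)
  have hT := HeckeIn.correspondence_apply_of_principal (heckeBetaBar Qb N ℓ)
    (heckeAlphaBar Qb N ℓ) (HeckeIn.heckeBetaBarIntegral N ℓ) (HeckeIn.heckeAlphaBarIntegral N ℓ)
    (HeckeIn.finiteAlong_alpha N ℓ)
    (HeckeIn.normFormulaAlong _ (HeckeIn.finiteAlong_alpha N ℓ) (HeckeIn.deg_one N)
      (HeckeIn.deg_one (N * ℓ))) hy0 hDx
  -- the levels `N ∣ M`
  have RP := UAd.redPair h hℓM A hA hℓN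
  have hyM : algebraMap ↥(FN N) ↥(FN M) (algebraMap Qb ↥(FN N) c * f) ∈ RGB.V M A :=
    (RP.mem_iff _).mpr hcV
  have hwM := (RP.mem_iff _).mpr hwV
  have hzy := RP.compat ⟨_, hcV⟩ hyM
  have hzw := RP.compat ⟨_, hwV⟩ hwM
  have hz0 : RGB.rho M hℓM A hA ⟨_, hyM⟩ ≠ 0 := by
    rw [hzy]
    intro h0
    apply hne
    apply Subtype.ext
    have h1 : ((algebraMap ↥(FbN A N) ↥(FbN A M) (RGB.rho N hℓN A hA ⟨_, hcV⟩) : ↥(FbN A M)) :
        LaurentSeries (Kb A)) = 0 := by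
      rw [h0]
      rfl
    rw [UAd.coe_algebraMap_fullC h (Kb A)] at h1
    exact h1
  have hφz : frobAut A hA M • RGB.rho M hℓM A hA ⟨_, hyM⟩ ≠ 0 := fun h0 =>
    hz0 ((smul_eq_zero_iff_eq _).mp h0)
  have hψz : (frobAut A hA M)⁻¹ • RGB.rho M hℓM A hA ⟨_, hyM⟩ ≠ 0 := fun h0 =>
    hz0 ((smul_eq_zero_iff_eq _).mp h0)
  have hwz : RGB.rho M hℓM A hA ⟨_, hwM⟩
      = ((frobAut A hA M)⁻¹ • RGB.rho M hℓM A hA ⟨_, hyM⟩) ^ ℓ
        * (frobAut A hA M • RGB.rho M hℓM A hA ⟨_, hyM⟩) := by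
    apply Subtype.ext
    rw [hzw, UAd.coe_algebraMap_fullC h (Kb A), hwrho]
    have hcoe : ((RGB.rho N hℓN A hA ⟨_, hcV⟩ : ↥(FbN A N)) : LaurentSeries (Kb A))
        = ((RGB.rho M hℓM A hA ⟨_, hyM⟩ : ↥(FbN A M)) : LaurentSeries (Kb A)) := by
      rw [hzy, UAd.coe_algebraMap_fullC h (Kb A)]
    rw [hcoe, qExpand_eq_pow_frobAut_inv A hA M]
    rfl
  have hwne : RGB.rho M hℓM A hA ⟨_, hwM⟩ ≠ 0 := by
    rw [hwz]
    exact mul_ne_zero (pow_ne_zero _ hψz) hφz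
  -- divisors
  have hpbD := Divisor.pullback_apply_eq_ord (F' := ↥(FN M)) hDx
  have hpbT := Divisor.pullback_apply_eq_ord (F' := ↥(FN M)) hT
  have h1 := RGB.mapDomain_eq_ord_rho M hℓM A hA hr ⟨_, hyM⟩ hz0 _ hpbD
  have h2 := RGB.mapDomain_eq_ord_rho M hℓM A hA hr ⟨_, hwM⟩ hwne _ hpbT
  have h3 := GalEq.divisor_smul_apply_of_ord (frobAut A hA M) h1
  have h4 := GalEq.divisor_smul_apply_of_ord (frobAut A hA M)⁻¹ h1
  ext Q
  rw [h2 Q, hwz, Finsupp.add_apply, Finsupp.smul_apply, h3 Q, h4 Q,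
    Q.ord_mul (pow_ne_zero _ hψz) hφz, LiftIRR.ord_pow, nsmul_eq_mul]
  push_cast
  ring

set_option maxHeartbeats 3200000 in
/-- **Eichler–Shimura on divisors of degree zero.** -/
theorem mapDomain_hecke_of_degree_eq_zero [NeZero ℓ] (hℓN : ¬ ℓ ∣ N)
    {r : Place Qb ↥(FN M) → Place (Kb A) ↥(FbN A M)} (hr : IsPlaceReductionModL A M r)
    (D : Divisor Qb ↥(FN N)) (hD : Divisor.degree D = 0) :
    letI := algOfLE (bar_mono h)
    haveI := isScalarTower_algOfLE (bar_mono h)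
    haveI : Module.Finite ↥(FN N) ↥(FN M) := ROR.finite_bar h
    haveI := ROR.hasPrincipalDivisors_bar (M := M)
    haveI := HeckeIn.hasPrincipalDivisors (N * ℓ)
    Finsupp.mapDomain r (Divisor.pullback ↥(FN M)
        (Divisor.correspondence (heckeBetaBar Qb N ℓ) (heckeAlphaBar Qb N ℓ)
          (HeckeIn.heckeBetaBarIntegral N ℓ) (HeckeIn.heckeAlphaBarIntegral N ℓ) D))
      = frobAut A hA M • Finsupp.mapDomain r (Divisor.pullback ↥(FN M) D)
        + ℓ • ((frobAut A hA M)⁻¹ • Finsupp.mapDomain r (Divisor.pullback ↥(FN M) D)) := by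
  letI := algOfLE (bar_mono h)
  haveI := isScalarTower_algOfLE (bar_mono h)
  haveI : Module.Finite ↥(FN N) ↥(FN M) := ROR.finite_bar h
  haveI := ROR.hasPrincipalDivisors_bar (M := M)
  haveI := HeckeIn.hasPrincipalDivisors (N * ℓ)
  haveI := fundamentalIdentity_bar h
  have h0 := PHyp.hyp0_bar N
  exact ESCore.eq_of_principal h0.deg_one (PHyp.genusR Qb ↥(FN N))
    (GalEq.exists_mem_riemannRochSpace N) h0.principal (UPhiB.hyp0_FbN A hA M).deg_one
    (heckeAlphaBar Qb N ℓ) (heckeBetaBar Qb N ℓ) (HeckeIn.heckeAlphaBarIntegral N ℓ)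
    (HeckeIn.heckeBetaBarIntegral N ℓ)
    (HeckeIn.fundamentalIdentityAlong _ (HeckeIn.finiteAlong_beta N ℓ)
      (HeckeIn.heckeBetaBarIntegral N ℓ) (HeckeIn.deg_one N) (HeckeIn.deg_one (N * ℓ)))
    r hr.1 (frobAut A hA M) ℓ
    (fun E hE => mapDomain_hecke_of_isPrincipal h hℓM A hA hℓN hr hE) D hD

end Principal

/-! ### The form on `Pic⁰` -/

section Pic

theorem nsmul_mk {K F : Type*} [Field K] [Field F] [Algebra K F] (n : ℕ)
    (E : Divisor.degZero (K := K) (F := F)) : n • Pic0.mk E = Pic0.mk (n • E) :=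
  rfl

variable {N M : ℕ} [NeZero N] [NeZero M] (h : N ∣ M) {ℓ : ℕ} [Fact ℓ.Prime] (hℓM : ¬ ℓ ∣ M)
  (A : ValuationSubring Qb) (hA : A.LiesOverPrime ℓ)

include hℓM hA

set_option maxHeartbeats 3200000 in
/-- **Eichler–Shimura congruence**: `Red (T_ℓ x) = φ • Red x + ℓ • φ⁻¹ • Red x` with
`Red = reductionModL A M ∘ pb h` and `φ = frobAut A hA M`. -/
theorem red_pb_hecke (hRI : ReductionInputsModL A M) (x : JZero N) :
    reductionModL A M (pb h (heckeOperatorBar N ⟨ℓ, Fact.out⟩ x))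
      = frobAut A hA M • reductionModL A M (pb h x)
        + ℓ • ((frobAut A hA M)⁻¹ • reductionModL A M (pb h x)) := by
  haveI : NeZero ℓ := ⟨(Fact.out : ℓ.Prime).ne_zero⟩
  have hℓN : ¬ ℓ ∣ N := fun hd => hℓM (hd.trans h)
  letI := algOfLE (bar_mono h)
  haveI := isScalarTower_algOfLE (bar_mono h)
  haveI : Module.Finite ↥(FN N) ↥(FN M) := ROR.finite_bar h
  haveI := ROR.hasPrincipalDivisors_bar (M := M)
  haveI := HeckeIn.hasPrincipalDivisors (N * ℓ)
  haveI := fundamentalIdentity_bar h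
  obtain ⟨D, rfl⟩ := Pic0.mk_surjective x
  have hT : heckeOperatorBar N ⟨ℓ, Fact.out⟩ (Pic0.mk D)
      = Pic0.mk (Pic0.degZeroCorrespondence (heckeBetaBar Qb N ℓ) (heckeAlphaBar Qb N ℓ)
        (HeckeIn.heckeBetaBarIntegral N ℓ) (HeckeIn.heckeAlphaBarIntegral N ℓ)
        (HeckeIn.fundamentalIdentityAlong _ (HeckeIn.finiteAlong_beta N ℓ)
          (HeckeIn.heckeBetaBarIntegral N ℓ) (HeckeIn.deg_one N) (HeckeIn.deg_one (N * ℓ))) D) :=
    HeckeIn.heckeOperatorAlong_mk N ℓ D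
  rw [hT, pb_mk h, pb_mk h, reductionModL_mk hRI, reductionModL_mk hRI,
    SemilinearAut.pic0_smul_mk, SemilinearAut.pic0_smul_mk, nsmul_mk, ← Pic0.mk_add]
  refine congrArg Pic0.mk (Subtype.ext ?_)
  exact mapDomain_hecke_of_degree_eq_zero h hℓM A hA hℓN
    (isPlaceReductionModL_placeReductionModL hRI) D (Divisor.mem_degZero.mp D.2)

end Pic

/-! ### The interface statement -/

/-- **[chains GAL (Frobenius) + K + HECKE + ES]** the interface statement `FrobHeckeStmt`, with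
`Φ = GalEq.frobPhi` (the coefficientwise Frobenius on `Pic⁰(F̄_M)`) and `Ψ = GalEq.frobPsi`. -/
theorem frobHeckeStmt : FrobHeckeStmt := fun ℓ hℓ A hA N M _ _ h hℓM hRI => by
  haveI : Fact ℓ.Prime := ⟨hℓ⟩
  exact ⟨GalEq.frobPhi A hA M, GalEq.frobPsi A hA M, GalEq.frobPsi_frobPhi A hA M,
    fun σ hσ x => GalEq.red_pb_frobPhi A hA h hℓM hRI σ hσ x,
    fun x => red_pb_hecke h hℓM A hA hRI x⟩

/-- The Eichler–Shimura statement `EichlerShimuraStmt`-shaped consumer form is obtained from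
`frobHeckeStmt` in `Assembly.lean`; this is the unfolded Hecke clause, for reference. -/
theorem hecke_clause (ℓ : ℕ) (hℓ : ℓ.Prime) (A : ValuationSubring Qb) (hA : A.LiesOverPrime ℓ)
    (N M : ℕ) [NeZero N] [NeZero M] (h : N ∣ M) (hℓM : ¬ ℓ ∣ M) (hRI : ReductionInputsModL A M)
    (x : JZero N) :
    haveI : Fact ℓ.Prime := ⟨hℓ⟩
    reductionModL A M (pb h (heckeOperatorBar N ⟨ℓ, hℓ⟩ x))
      = GalEq.frobPhi A hA M (reductionModL A M (pb h x))
        + ℓ • GalEq.frobPsi A hA M (reductionModL A M (pb h x)) := by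
  haveI : Fact ℓ.Prime := ⟨hℓ⟩
  exact red_pb_hecke h hℓM A hA hRI x

end Fermat.Agent.S37.ESC

end
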