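/-
S37, chain GAL (second seat, helper11): the reduction of `π^* x` is invariant under inertia.

For `N ∣ M`, `ℓ ∤ M`, a valuation ring `A` of `ℚ̄` above `ℓ`, `τ` in the inertia group of `A`
and `x ∈ J_0(N)`:

  `reductionModL A M (pb h (τ • x)) = reductionModL A M (pb h x)`     (`Iface.InertiaStmt`).

Proof.  Both sides are induced by the additive maps `D ↦ r_* π^* (τ D)` and `D ↦ r_* π^* D` from
the divisors of `F_N` to the divisors of the reduced function field `F̄_M`; both are bounded on the
places, so by the rigidity lemma (`Rigid.eq_of_degree_eq_zero`) it suffices to compare them on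
principal divisors `div f`.  There `π^* (τ div f) = div (τ f)` at level `M`; writing `f = c⁻¹ y`
with `y` a unit of the Gauss valuation ring, `τ y` is again a Gauss unit with THE SAME residue
(the coefficientwise action of `τ` on `A`-integral series reduces to the identity, by the
definition of the inertia group), and the frozen reduction property gives
`r_* div (τ y) = div (rho (τ y)) = div (rho y) = r_* div y`.
-/
import Fermat.Agent.S37.Iface
import Fermat.Agent.S37.ESCore
import Fermat.Agent.S18.RGaussBar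
import Fermat.Agent.S18.C0F
import Fermat.Agent.S18.UPhiB
import Fermat.Agent.S18.Tube

set_option autoImplicit false
set_option synthInstance.maxHeartbeats 400000
set_option linter.style.haveILetI false

noncomputable section

open HahnSeries IntermediateField AlgebraicCurve ModularCurve

namespace Fermat.Agent.S37.GalEqB

open Fermat.Agent.S18 Fermat.Agent.S24

/-! ### The decomposition and inertia groups act on `A` -/

/-- An element of the decomposition group of `A` restricts to a ring endomorphism of `A`, which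
induces on the residue field the action of the decomposition group. -/
theorem decomp_spec {K L : Type*} [Field K] [Field L] [Algebra K L] (A : ValuationSubring L)
    (σ : A.decompositionSubgroup K) :
    ∃ f : A →+* A, (∀ a : A, ((f a : A) : L) = (σ : L ≃ₐ[K] L) (a : L)) ∧
      ∀ a : A, IsLocalRing.residue A (f a) = σ • IsLocalRing.residue A a :=
  ⟨MulSemiringAction.toRingHom (A.decompositionSubgroup K) A σ, fun _ => rfl, fun _ => rfl⟩

/-- An element of the inertia group of `A` restricts to a ring endomorphism of `A` inducing the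
identity on the residue field. -/
theorem inertia_spec {K L : Type*} [Field K] [Field L] [Algebra K L] (A : ValuationSubring L)
    {τ : L ≃ₐ[K] L} (hτ : τ ∈ A.inertiaSubgroupIn K) :
    ∃ f : A →+* A, (∀ a : A, ((f a : A) : L) = τ (a : L)) ∧
      (IsLocalRing.residue A).comp f = IsLocalRing.residue A := by
  obtain ⟨τ', hτ', rfl⟩ := hτ
  refine ⟨MulSemiringAction.toRingHom (A.decompositionSubgroup K) A τ', fun a => rfl, ?_⟩
  ext a
  have h1 : MulSemiringAction.toRingAut (A.decompositionSubgroup K)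
      (IsLocalRing.ResidueField A) τ' = 1 := hτ'
  have h2 := congrArg
    (fun e : RingAut (IsLocalRing.ResidueField A) => e (IsLocalRing.residue A a)) h1
  exact h2

/-- Coefficientwise action of a ring endomorphism of `L` preserving `A` on `A`-integral series. -/
theorem coeffMap_incl {L : Type*} [Field L] (A : ValuationSubring L) (τ : L →+* L) (f : A →+* A)
    (hf : ∀ a : A, ((f a : A) : L) = τ (a : L)) (y : LaurentSeries A) :
    coeffMap τ (coeffMap A.subtype y) = coeffMap A.subtype (coeffMap f y) := by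
  rw [coeffMap_coeffMap, coeffMap_coeffMap]
  exact coeffMap_congr (RingHom.ext fun a => (hf a).symm) y

/-! ### Inertia acts trivially on the residues of the Gauss valuation ring -/

/-- The Gauss valuation ring is stable under inertia, and inertia acts trivially on its residue
field. -/
theorem rhoL_galois {L : Type*} [Field L] [Algebra ℚ L] (A : ValuationSubring L) (N : ℕ)
    [NeZero N] {τ : L ≃ₐ[ℚ] L} (hτ : τ ∈ A.inertiaSubgroupIn ℚ) (x : ↥(RG.V A N)) :
    ∃ h : arithmeticGalois (modularFunctionFieldFull N) τ • (x : ↥(FF L N)) ∈ RG.V A N,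
      RG.rhoL A N ⟨_, h⟩ = RG.rhoL A N x := by
  obtain ⟨f, hf, hres⟩ := inertia_spec A hτ
  obtain ⟨a, b, hb, hx⟩ := (RG.mem_V A N).mp x.2
  have hred : ∀ y : LaurentSeries A, coeffMap (IsLocalRing.residue A) (coeffMap f y)
      = coeffMap (IsLocalRing.residue A) y := by
    intro y
    rw [coeffMap_coeffMap, hres]
  have hb' : coeffMap (IsLocalRing.residue A) (coeffMap f b) ≠ 0 := by
    rw [hred]
    exact hb
  have hx' : ((arithmeticGalois (modularFunctionFieldFull N) τ • (x : ↥(FF L N)) : ↥(FF L N)) :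
      LaurentSeries L) * coeffMap A.subtype (coeffMap f b)
        = coeffMap A.subtype (coeffMap f a) := by
    rw [coe_arithmeticGalois_smul, ← coeffMap_incl A (τ : L →+* L) f hf,
      ← coeffMap_incl A (τ : L →+* L) f hf, ← map_mul, hx]
  have hmem : arithmeticGalois (modularFunctionFieldFull N) τ • (x : ↥(FF L N)) ∈ RG.V A N :=
    (RG.mem_V A N).mpr ⟨_, _, hb', hx'⟩
  refine ⟨hmem, ?_⟩
  rw [RG.rhoL_eq A N ⟨_, hmem⟩ hb' hx', RG.rhoL_eq A N x hb hx, hred, hred]

/-- For `f ≠ 0` in the function field: Gauss units `y`, `y'` with the divisors of `f` and of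
`τ f` and with the same residue. -/
theorem exists_units {L : Type*} [Field L] [Algebra ℚ L] (A : ValuationSubring L) (N : ℕ)
    [NeZero N] {τ : L ≃ₐ[ℚ] L} (hτ : τ ∈ A.inertiaSubgroupIn ℚ) (f : ↥(FF L N)) (hf : f ≠ 0) :
    ∃ y y' : ↥(RG.V A N), RG.rhoL A N y ≠ 0 ∧ RG.rhoL A N y' = RG.rhoL A N y ∧
      (∀ P : Place L ↥(FF L N), P.ord (y : ↥(FF L N)) = P.ord f) ∧
      (∀ P : Place L ↥(FF L N), P.ord (y' : ↥(FF L N))
        = P.ord (arithmeticGalois (modularFunctionFieldFull N) τ • f)) := by
  obtain ⟨c, hmem, hc, hne⟩ := RG.exists_smul_mem A N f hf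
  obtain ⟨hmem', hrho⟩ := rhoL_galois A N hτ ⟨_, hmem⟩
  have hgy : arithmeticGalois (modularFunctionFieldFull N) τ •
        (algebraMap L ↥(FF L N) c * f)
      = algebraMap L ↥(FF L N) (τ c) * arithmeticGalois (modularFunctionFieldFull N) τ • f := by
    rw [smul_mul', SemilinearAut.smul_algebraMap, baseAut_arithmeticGalois]
    rfl
  have hτc : τ c ≠ 0 := fun h0 => hc ((map_eq_zero τ).mp h0)
  refine ⟨⟨_, hmem⟩, ⟨_, hmem'⟩, hne, hrho, fun P => Tube.ord_const_mul P hc f, fun P => ?_⟩
  show P.ord (arithmeticGalois (modularFunctionFieldFull N) τ •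
    (algebraMap L ↥(FF L N) c * f)) = _
  rw [hgy, Tube.ord_const_mul P hτc]

/-- **Level `M`.**  For `τ` in the inertia group and `f ≠ 0` in `F_M`: the reductions of the
divisors of `τ f` and of `f` coincide. -/
theorem mapDomain_galois_eq {ℓ : ℕ} [Fact ℓ.Prime] (M : ℕ) [NeZero M] (hℓM : ¬ ℓ ∣ M)
    (A : ValuationSubring Qb) (hA : A.LiesOverPrime ℓ)
    {r : Place Qb ↥(FN M) → Place (Kb A) ↥(FbN A M)} (hr : IsPlaceReductionModL A M r)
    {τ : Qb ≃ₐ[ℚ] Qb} (hτ : τ ∈ A.inertiaSubgroupIn ℚ)
    (f : ↥(FN M)) (hf : f ≠ 0) (D₁ D₂ : Divisor Qb ↥(FN M))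
    (hD₁ : ∀ P, D₁ P = P.ord (arithmeticGalois (modularFunctionFieldFull M) τ • f))
    (hD₂ : ∀ P, D₂ P = P.ord f) :
    Finsupp.mapDomain r D₁ = Finsupp.mapDomain r D₂ := by
  obtain ⟨y, y', hne, hrho, hy, hy'⟩ := exists_units A M hτ f hf
  have hne1 : RGB.rho M hℓM A hA y ≠ 0 := fun h0 =>
    hne ((RGB.rho_eq_zero_iff_rhoL M hℓM A hA y).mp h0)
  have hrho' : RGB.rho M hℓM A hA y' = RGB.rho M hℓM A hA y :=
    Subtype.ext ((RGB.coe_rho M hℓM A hA y').trans (hrho.trans (RGB.coe_rho M hℓM A hA y).symm))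
  have hne2 : RGB.rho M hℓM A hA y' ≠ 0 := by
    rw [hrho']
    exact hne1
  have h1 : ∀ Q, Finsupp.mapDomain r D₁ Q = Q.ord (RGB.rho M hℓM A hA y') :=
    RGB.mapDomain_eq_ord_rho M hℓM A hA hr y' hne2 D₁ (fun P => (hD₁ P).trans (hy' P).symm)
  have h2 : ∀ Q, Finsupp.mapDomain r D₂ Q = Q.ord (RGB.rho M hℓM A hA y) :=
    RGB.mapDomain_eq_ord_rho M hℓM A hA hr y hne1 D₂ (fun P => (hD₂ P).trans (hy P).symm)
  ext Q
  rw [h1 Q, h2 Q, hrho']

/-! ### Rigidity: from principal divisors to divisors of degree zero -/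

section Generic

variable {K F F₂ k G : Type*} [Field K] [Field F] [Field F₂] [Field k] [Field G]
  [Algebra K F] [Algebra K F₂] [Algebra k G]
  [Algebra F F₂] [IsScalarTower K F F₂] [Algebra.IsIntegral F F₂]
  [HasPrincipalDivisors K F₂] [FundamentalIdentity K F F₂]

/-- Two maps `D ↦ r_* π^* (s D)` (for two semilinear automorphisms, or rather one and the
identity) which agree on principal divisors agree on divisors of degree zero. -/
theorem eq_of_principal
    (hdeg : ∀ v : Place K F, v.deg = 1) (g : ℤ)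
    (hRR : ∀ D : Divisor K F, Divisor.degree D = g → ∃ f : F, f ≠ 0 ∧ f ∈ riemannRochSpace D)
    (hprin : ∀ f : F, f ≠ 0 → ∃ D : Divisor K F, (∀ v, D v = v.ord f) ∧ Divisor.degree D = 0)
    (hdegG : ∀ Q : Place k G, Q.deg = 1)
    (r : Place K F₂ → Place k G) (hr : ∀ P, (r P).deg = P.deg)
    (s : SemilinearAut K F)
    (H : ∀ D : Divisor K F, D.IsPrincipal →
      Finsupp.mapDomain r (Divisor.pullback F₂ (s • D))
        = Finsupp.mapDomain r (Divisor.pullback F₂ D))
    (D : Divisor K F) (hD : Divisor.degree D = 0) :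
    Finsupp.mapDomain r (Divisor.pullback F₂ (s • D))
      = Finsupp.mapDomain r (Divisor.pullback F₂ D) := by
  set R : Divisor K F →+ Divisor k G :=
    (Finsupp.mapDomain.addMonoidHom r).comp (Divisor.pullback F₂) with hR
  set δ₁ : Divisor K F →+ Divisor k G :=
    AddMonoidHom.mk' (fun E : Divisor K F => R (s • E)) (fun a b => by
      rw [smul_add, map_add]) with hδ₁
  have hbound : ∀ (v : Place K F) (Q : Place k G),
      |R (Finsupp.single v (1 : ℤ) : Divisor K F) Q| ≤ (Module.finrank F F₂ : ℤ) := by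
    intro v Q
    have hnn : ∀ w, 0 ≤ Divisor.pullback F₂ (Finsupp.single v (1 : ℤ) : Divisor K F) w :=
      fun w => ESCore.pullback_nonneg _ (fun u => by
        classical
        rw [Finsupp.single_apply]
        split_ifs <;> norm_num) w
    have h0 : 0 ≤ R (Finsupp.single v (1 : ℤ) : Divisor K F) Q :=
      ESCore.mapDomain_nonneg r _ hnn Q
    have h1 : R (Finsupp.single v (1 : ℤ) : Divisor K F) Q
        ≤ Divisor.degree (R (Finsupp.single v (1 : ℤ) : Divisor K F)) :=
      ESCore.apply_le_degree hdegG _ (fun Q' => ESCore.mapDomain_nonneg r _ hnn Q') Q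
    have h2 : Divisor.degree (R (Finsupp.single v (1 : ℤ) : Divisor K F))
        = (Module.finrank F F₂ : ℤ) := by
      show Divisor.degree (Finsupp.mapDomain r (Divisor.pullback F₂ _)) = _
      rw [ESCore.degree_mapDomain r hr, Divisor.degree_pullback, Divisor.degree_single, hdeg v]
      simp
    rw [abs_of_nonneg h0]
    linarith
  have hbound₁ : ∀ (v : Place K F) (Q : Place k G),
      |δ₁ (Finsupp.single v (1 : ℤ) : Divisor K F) Q| ≤ (Module.finrank F F₂ : ℤ) := by
    intro v Q
    have h3 : δ₁ (Finsupp.single v (1 : ℤ) : Divisor K F)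
        = R (Finsupp.single (s • v) (1 : ℤ) : Divisor K F) := by
      show R (s • (Finsupp.single v (1 : ℤ) : Divisor K F)) = _
      rw [SemilinearAut.smul_single]
    rw [h3]
    exact hbound (s • v) Q
  have key := Rigid.eq_of_degree_eq_zero hdeg g hRR hprin δ₁ R (fun E hE => H E hE)
    (Module.finrank F F₂ : ℤ) (Module.finrank F F₂ : ℤ) hbound₁ hbound D hD
  exact key

end Generic

/-- Riemann's inequality in the form used by the rigidity lemma. -/
theorem exists_section (N : ℕ) [NeZero N] : ∃ g : ℤ, ∀ D : Divisor Qb ↥(FN N),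
    Divisor.degree D = g → ∃ f : ↥(FN N), f ≠ 0 ∧ f ∈ riemannRochSpace D := by
  obtain ⟨g, -, hg⟩ := C0F.exists_genusLE_bar N
  refine ⟨g, fun D hD => ?_⟩
  have h1 := hg D
  rw [hD] at h1
  have h2 : 0 < S20.RR.ell D := by omega
  by_contra hcon
  push Not at hcon
  have hbot : riemannRochSpace D = ⊥ := by
    rw [eq_bot_iff]
    intro f hf
    by_contra hf0
    exact hcon f (fun h0 => hf0 (by rw [h0]; exact Submodule.zero_mem _)) hf
  rw [S20.RR.ell, hbot, finrank_bot] at h2
  exact lt_irrefl _ h2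

/-- The arithmetic Galois action commutes with the inclusions of function fields. -/
theorem galois_algebraMap {L : Type*} [Field L] [Algebra ℚ L]
    (F₀ F₁ : IntermediateField ℚ (LaurentSeries ℚ))
    (hle : laurentBaseChange L F₀ ≤ laurentBaseChange L F₁) (σ : L ≃ₐ[ℚ] L)
    (f : laurentBaseChange L F₀) :
    arithmeticGalois F₁ σ • (@algebraMap _ _ _ _ (algOfLE hle) f)
      = @algebraMap _ _ _ _ (algOfLE hle) (arithmeticGalois F₀ σ • f) :=
  Subtype.ext rfl

/-! ### The statement -/

set_option maxHeartbeats 4000000 in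
/-- **Divisor form.**  For `τ` in the inertia group and `D` of degree zero on `F_N`:
`r_* π^* (τ D) = r_* π^* D` as divisors of the reduced function field at level `M`. -/
theorem mapDomain_pullback_galois {ℓ : ℕ} [Fact ℓ.Prime] (A : ValuationSubring Qb)
    (hA : A.LiesOverPrime ℓ) (N M : ℕ) [NeZero N] [NeZero M] (h : N ∣ M) (hℓM : ¬ ℓ ∣ M)
    {r : Place Qb ↥(FN M) → Place (Kb A) ↥(FbN A M)} (hr : IsPlaceReductionModL A M r)
    {τ : Qb ≃ₐ[ℚ] Qb} (hτ : τ ∈ A.inertiaSubgroupIn ℚ)
    (D : Divisor Qb ↥(FN N)) (hD : Divisor.degree D = 0) :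
    letI := algOfLE (bar_mono h)
    haveI := isScalarTower_algOfLE (bar_mono h)
    haveI : Module.Finite ↥(FN N) ↥(FN M) := ROR.finite_bar h
    haveI := ROR.hasPrincipalDivisors_bar (M := M)
    Finsupp.mapDomain r (Divisor.pullback ↥(FN M)
        (arithmeticGalois (modularFunctionFieldFull N) τ • D))
      = Finsupp.mapDomain r (Divisor.pullback ↥(FN M) D) := by
  letI := algOfLE (bar_mono h)
  haveI := isScalarTower_algOfLE (bar_mono h)
  haveI : Module.Finite ↥(FN N) ↥(FN M) := ROR.finite_bar h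
  haveI := ROR.hasPrincipalDivisors_bar (M := M)
  haveI := fundamentalIdentity_bar h
  obtain ⟨g, hg⟩ := exists_section N
  refine eq_of_principal (PHyp.hyp0_bar N).deg_one g hg (PHyp.hyp0_bar N).principal
    (UPhiB.hyp0_FbN A hA M).deg_one r hr.1
    (arithmeticGalois (modularFunctionFieldFull N) τ) ?_ D hD
  intro E hE
  obtain ⟨f, hf, hEf⟩ := hE
  refine mapDomain_galois_eq M hℓM A hA hr hτ (algebraMap ↥(FN N) ↥(FN M) f)
    (fun h0 => hf ((map_eq_zero _).mp h0)) _ _ ?_ ?_
  · intro P
    rw [galois_algebraMap (modularFunctionFieldFull N) (modularFunctionFieldFull M) (bar_mono h)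
      τ f]
    refine Divisor.pullback_apply_eq_ord
      (f := arithmeticGalois (modularFunctionFieldFull N) τ • f) (fun v => ?_) P
    rw [SemilinearAut.divisor_smul_apply, hEf,
      ← SemilinearAut.ord_smul (arithmeticGalois (modularFunctionFieldFull N) τ)
        ((arithmeticGalois (modularFunctionFieldFull N) τ)⁻¹ • v) f, smul_inv_smul]
  · intro P
    exact Divisor.pullback_apply_eq_ord hEf P

set_option maxHeartbeats 4000000 in
/-- **[chain GAL, inertia]** -/
theorem inertiaStmt : InertiaStmt := by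
  intro ℓ _ A hA N M _ _ h hℓM hRI τ hτ x
  letI := algOfLE (bar_mono h)
  haveI := isScalarTower_algOfLE (bar_mono h)
  haveI : Module.Finite ↥(FN N) ↥(FN M) := ROR.finite_bar h
  haveI := ROR.hasPrincipalDivisors_bar (M := M)
  haveI := fundamentalIdentity_bar h
  obtain ⟨D, rfl⟩ := Pic0.mk_surjective x
  have e2 : ∀ D' : Divisor.degZero (K := Qb) (F := ↥(FN N)),
      pb h (Pic0.mk D') = Pic0.mk (Pic0.pullbackDegZeroHom ↥(FN M) D') := fun _ => rfl
  have e0 : τ • (Pic0.mk D : JZero N) = Pic0.mk
      (SemilinearAut.degZeroSMulHom (arithmeticGalois (modularFunctionFieldFull N) τ) D) := rfl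
  rw [e0, e2, e2]
  rw [reductionModL_mk hRI, reductionModL_mk hRI]
  congr 1
  apply Subtype.ext
  rw [coe_reductionDegZeroAlong, coe_reductionDegZeroAlong, Pic0.coe_pullbackDegZeroHom,
    Pic0.coe_pullbackDegZeroHom, SemilinearAut.coe_degZeroSMulHom]
  exact mapDomain_pullback_galois A hA N M h hℓM (isPlaceReductionModL_placeReductionModL hRI)
    hτ D (Divisor.mem_degZero.mp D.2)

end Fermat.Agent.S37.GalEqB

end
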