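/-
S37, chain G (Galois), pieces G1 + G2 (second seat): the action of the decomposition group of a
valuation subring `A ⊂ ℚ̄` on the Gauss valuation ring of the function field of `X₀(M)` and on
its residue field.

* `resAut A σ hσ` : the automorphism of the residue field `k = A/𝔪` induced by
  `σ ∈ A.decompositionSubgroup ℚ` (the frozen action); it is `1` for `σ` in the inertia group and
  `x ↦ x ^ ℓ` for a Frobenius element at `ℓ`.
* `smul_mem_V` : the coefficientwise Galois action preserves the Gauss valuation ring `RGB.V M A`.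
* `rhoL_smul`, `rho_smul` : `rho (σ • x) = coeffAut (resAut σ) • rho x`.
-/
import Fermat.Agent.S37.CoeffAut
import Fermat.Agent.S18.RGaussBar
import Fermat.Prelude.Def_EllipticCurve_FrobeniusTrace
import Fermat.Prelude.Def_FLTPrelim_Ramification

set_option autoImplicit false
set_option synthInstance.maxHeartbeats 400000

noncomputable section

open HahnSeries IntermediateField AlgebraicCurve ModularCurve

namespace Fermat.Agent.S37.GalRho

open Fermat.Agent.S18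

variable (A : ValuationSubring Qb)

/-! ### G1: the induced automorphism of the residue field -/

/-- The automorphism of the residue field of `A` induced by an element of the decomposition
group (the frozen action). -/
def resAut (σ : Qb ≃ₐ[ℚ] Qb) (hσ : σ ∈ A.decompositionSubgroup ℚ) : Kb A ≃+* Kb A :=
  MulSemiringAction.toRingAut (A.decompositionSubgroup ℚ) (Kb A) ⟨σ, hσ⟩

theorem resAut_apply (σ : Qb ≃ₐ[ℚ] Qb) (hσ : σ ∈ A.decompositionSubgroup ℚ) (x : Kb A) :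
    resAut A σ hσ x = (⟨σ, hσ⟩ : A.decompositionSubgroup ℚ) • x :=
  rfl

/-- The restriction of `σ` to `A`. -/
def restr (σ : Qb ≃ₐ[ℚ] Qb) (hσ : σ ∈ A.decompositionSubgroup ℚ) : A →+* A :=
  MulSemiringAction.toRingHom (A.decompositionSubgroup ℚ) A ⟨σ, hσ⟩

theorem coe_restr (σ : Qb ≃ₐ[ℚ] Qb) (hσ : σ ∈ A.decompositionSubgroup ℚ) (a : A) :
    ((restr A σ hσ a : A) : Qb) = σ (a : Qb) :=
  rfl

theorem residue_restr (σ : Qb ≃ₐ[ℚ] Qb) (hσ : σ ∈ A.decompositionSubgroup ℚ) (a : A) :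
    IsLocalRing.residue A (restr A σ hσ a) = resAut A σ hσ (IsLocalRing.residue A a) :=
  IsLocalRing.ResidueField.residue_smul (A.decompositionSubgroup ℚ)
    (⟨σ, hσ⟩ : A.decompositionSubgroup ℚ) a

/-- Inertia acts trivially on the residue field. -/
theorem resAut_eq_one_of_mem_inertia {τ : Qb ≃ₐ[ℚ] Qb} (hτ : τ ∈ A.inertiaSubgroupIn ℚ) :
    ∃ h : τ ∈ A.decompositionSubgroup ℚ, resAut A τ h = 1 := by
  obtain ⟨t, ht, rfl⟩ := hτ
  exact ⟨t.2, ht⟩

theorem mem_decompositionSubgroup_of_mem_inertia {τ : Qb ≃ₐ[ℚ] Qb}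
    (hτ : τ ∈ A.inertiaSubgroupIn ℚ) : τ ∈ A.decompositionSubgroup ℚ :=
  (resAut_eq_one_of_mem_inertia A hτ).1

theorem resAut_of_mem_inertia {τ : Qb ≃ₐ[ℚ] Qb} (hτ : τ ∈ A.inertiaSubgroupIn ℚ)
    (h : τ ∈ A.decompositionSubgroup ℚ) : resAut A τ h = 1 :=
  (resAut_eq_one_of_mem_inertia A hτ).2

/-- A Frobenius element at `ℓ` induces `x ↦ x ^ ℓ`. -/
theorem resAut_of_isFrobeniusAt {σ : Qb ≃ₐ[ℚ] Qb} {ℓ : ℕ} (h : A.IsFrobeniusAt σ ℓ) (x : Kb A) :
    resAut A σ h.mem_decompositionSubgroup x = x ^ ℓ :=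
  h.smul_residue_eq x

/-! ### G2: the Gauss valuation ring -/

section Series

theorem coeffMap_incl (σ : Qb ≃ₐ[ℚ] Qb) (hσ : σ ∈ A.decompositionSubgroup ℚ)
    (a : LaurentSeries A) :
    coeffMap (σ : Qb →+* Qb) (coeffMap A.subtype a)
      = coeffMap A.subtype (coeffMap (restr A σ hσ) a) := by
  rw [coeffMap_coeffMap, coeffMap_coeffMap]
  exact coeffMap_congr (RingHom.ext fun x => rfl) a

theorem red_coeffMap_restr (σ : Qb ≃ₐ[ℚ] Qb) (hσ : σ ∈ A.decompositionSubgroup ℚ)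
    (a : LaurentSeries A) :
    coeffMap (IsLocalRing.residue A) (coeffMap (restr A σ hσ) a)
      = coeffMap ((resAut A σ hσ : Kb A ≃+* Kb A) : Kb A →+* Kb A)
          (coeffMap (IsLocalRing.residue A) a) := by
  rw [coeffMap_coeffMap, coeffMap_coeffMap]
  exact coeffMap_congr (RingHom.ext fun x => residue_restr A σ hσ x) a

theorem coeffMap_injective_of_ringEquiv {k : Type*} [Field k] (s : k ≃+* k) :
    Function.Injective (coeffMap (s : k →+* k)) := by
  intro x y h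
  ext n
  have h1 := congrArg (fun z : LaurentSeries k => z.coeff n) h
  simp only [coeffMap_coeff] at h1
  exact s.injective h1

theorem coeffMap_div {k : Type*} [Field k] (s : k →+* k) (x y : LaurentSeries k) :
    coeffMap s (x / y) = coeffMap s x / coeffMap s y :=
  map_div₀ (coeffMap s) x y

/-- The coefficientwise action of the decomposition group preserves `Lam A`. -/
theorem coeffMap_mem_Lam (σ : Qb ≃ₐ[ℚ] Qb) (hσ : σ ∈ A.decompositionSubgroup ℚ)
    {x : LaurentSeries Qb} (hx : x ∈ RG.Lam A) : coeffMap (σ : Qb →+* Qb) x ∈ RG.Lam A := by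
  obtain ⟨a, b, hb, hab⟩ := hx
  refine ⟨coeffMap (restr A σ hσ) a, coeffMap (restr A σ hσ) b, ?_, ?_⟩
  · rw [red_coeffMap_restr]
    intro h0
    exact hb (coeffMap_injective_of_ringEquiv (resAut A σ hσ) (by rw [h0, map_zero]))
  · rw [← coeffMap_incl, ← coeffMap_incl, ← map_mul, hab]

/-- ... and commutes with the residue map up to the induced automorphism of the residue field. -/
theorem resL_coeffMap (σ : Qb ≃ₐ[ℚ] Qb) (hσ : σ ∈ A.decompositionSubgroup ℚ)
    {x : LaurentSeries Qb} (hx : x ∈ RG.Lam A) :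
    RG.resL A ⟨coeffMap (σ : Qb →+* Qb) x, coeffMap_mem_Lam A σ hσ hx⟩
      = coeffMap ((resAut A σ hσ : Kb A ≃+* Kb A) : Kb A →+* Kb A) (RG.resL A ⟨x, hx⟩) := by
  have hx' := hx
  obtain ⟨a, b, hb, hab⟩ := hx'
  have hb' : coeffMap (IsLocalRing.residue A) (coeffMap (restr A σ hσ) b) ≠ 0 := by
    rw [red_coeffMap_restr]
    intro h0
    exact hb (coeffMap_injective_of_ringEquiv (resAut A σ hσ) (by rw [h0, map_zero]))
  have hab' : coeffMap (σ : Qb →+* Qb) x * coeffMap A.subtype (coeffMap (restr A σ hσ) b)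
      = coeffMap A.subtype (coeffMap (restr A σ hσ) a) := by
    rw [← coeffMap_incl, ← coeffMap_incl, ← map_mul, hab]
  have h1 := RG.resL_eq A ⟨coeffMap (σ : Qb →+* Qb) x, coeffMap_mem_Lam A σ hσ hx⟩ hb' hab'
  have h2 := RG.resL_eq A ⟨x, hx⟩ hb hab
  rw [h1, h2, red_coeffMap_restr, red_coeffMap_restr, coeffMap_div]

end Series

section Level

variable (M : ℕ) [NeZero M]

/-- The Galois action of the decomposition group preserves the Gauss valuation ring. -/
theorem smul_mem_V (σ : Qb ≃ₐ[ℚ] Qb) (hσ : σ ∈ A.decompositionSubgroup ℚ) {x : ↥(FN M)}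
    (hx : x ∈ RGB.V M A) :
    arithmeticGalois (modularFunctionFieldFull M) σ • x ∈ RGB.V M A :=
  coeffMap_mem_Lam A σ hσ hx

/-- `rho (σ • x) = σ̄ (rho x)` on Laurent series. -/
theorem rhoL_smul (σ : Qb ≃ₐ[ℚ] Qb) (hσ : σ ∈ A.decompositionSubgroup ℚ) (x : ↥(RGB.V M A)) :
    RG.rhoL A M ⟨arithmeticGalois (modularFunctionFieldFull M) σ • (x : ↥(FN M)),
        smul_mem_V A M σ hσ x.2⟩
      = coeffMap ((resAut A σ hσ : Kb A ≃+* Kb A) : Kb A →+* Kb A) (RG.rhoL A M x) :=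
  resL_coeffMap A σ hσ x.2

/-- **G2**: `rho (σ • x) = coeffAut (resAut σ) • rho x`. -/
theorem rho_smul {ℓ : ℕ} [Fact ℓ.Prime] (hℓM : ¬ ℓ ∣ M) (hA : A.LiesOverPrime ℓ)
    (σ : Qb ≃ₐ[ℚ] Qb) (hσ : σ ∈ A.decompositionSubgroup ℚ) (x : ↥(RGB.V M A)) :
    RGB.rho M hℓM A hA ⟨arithmeticGalois (modularFunctionFieldFull M) σ • (x : ↥(FN M)),
        smul_mem_V A M σ hσ x.2⟩
      = CoeffAut.coeffAut M (resAut A σ hσ) • RGB.rho M hℓM A hA x := by
  apply Subtype.ext
  rw [RGB.coe_rho, CoeffAut.coe_coeffAut_smul, RGB.coe_rho]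
  exact rhoL_smul A M σ hσ x

/-- Inertia: `rho (τ • x) = rho x`. -/
theorem rho_smul_of_mem_inertia {ℓ : ℕ} [Fact ℓ.Prime] (hℓM : ¬ ℓ ∣ M) (hA : A.LiesOverPrime ℓ)
    {τ : Qb ≃ₐ[ℚ] Qb} (hτ : τ ∈ A.inertiaSubgroupIn ℚ) (x : ↥(RGB.V M A)) :
    RGB.rho M hℓM A hA ⟨arithmeticGalois (modularFunctionFieldFull M) τ • (x : ↥(FN M)),
        smul_mem_V A M τ (mem_decompositionSubgroup_of_mem_inertia A hτ) x.2⟩
      = RGB.rho M hℓM A hA x := by
  rw [rho_smul A M hℓM hA τ (mem_decompositionSubgroup_of_mem_inertia A hτ) x,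
    resAut_of_mem_inertia A hτ, map_one, one_smul]

/-- Frobenius: `rho (σ • x) = frobAut • rho x`. -/
theorem rho_smul_of_isFrobeniusAt {ℓ : ℕ} [Fact ℓ.Prime] (hℓM : ¬ ℓ ∣ M)
    (hA : A.LiesOverPrime ℓ) {σ : Qb ≃ₐ[ℚ] Qb} (hσ : A.IsFrobeniusAt σ ℓ) (x : ↥(RGB.V M A)) :
    RGB.rho M hℓM A hA ⟨arithmeticGalois (modularFunctionFieldFull M) σ • (x : ↥(FN M)),
        smul_mem_V A M σ hσ.mem_decompositionSubgroup x.2⟩
      = CoeffAut.frobAut A hA M • RGB.rho M hℓM A hA x := by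
  rw [rho_smul A M hℓM hA σ hσ.mem_decompositionSubgroup x, CoeffAut.frobAut_eq_coeffAut,
    CoeffAut.eq_frobK A hA (s := resAut A σ hσ.mem_decompositionSubgroup)
      (fun x => resAut_of_isFrobeniusAt A hσ x)]

end Level

end Fermat.Agent.S37.GalRho

end
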