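/-
S37 (wave 8), chain GD: tame genus descent.

For `M ∣ M'`, `ℓ ∤ M'` and `ℓ ∤ [F_M' : F_M]`, the genus squeeze at level `M'` implies the genus
squeeze at level `M` (`GenusDescentStmt` of `Iface.lean`).

Route.  Let `J` be the pole divisor of `j` on `F_1 = ℚ̄(j)` and `J̄` the pole divisor of `j̄` on
`F̄_1 = k(j̄)` (both of degree one).
* (INC, level one) `L(m J) = ⟨1, j, …, j^m⟩`, and a Gauss-integral element of it has coefficients
  in `A`; hence its reduction lies in `L̄(m J̄)`.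
* (INC) the reduction of a Gauss-integral element of `L_{M'}(π^* n J)` lies in
  `L̄_{M'}(π̄^* n J̄)` (characteristic polynomial over `F_1`).
* (squeeze at `M'`) for `n` large the two spaces have the same dimension, so every element of
  `L̄_{M'}(π̄^* n J̄)` lifts.
* (trace) the lifting property descends to `M` (`[F_M' : F_M]` is a unit of `A`).
* hence `ℓ̄_M(π̄^* n J̄) ≤ ℓ_M(π^* n J) = deg + 1 - g_M` for `n` large, i.e. the Riemann genus of
  `F̄_M` is at least the Riemann genus `g_M` of `F_M`.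
-/
import Fermat.Agent.S37.Iface
import Fermat.Agent.S18.TopLiftB
import Fermat.Agent.S18.TopTrace
import Fermat.Agent.S18.UPts
import Fermat.Agent.S18.C0L
import Fermat.Agent.S18.SQOmega
import Fermat.Agent.S18.GSAdapt
import Fermat.Agent.S18.GSTop

set_option autoImplicit false
set_option synthInstance.maxHeartbeats 400000
set_option linter.style.haveILetI false
set_option linter.unusedSectionVars false

noncomputable section

open ModularCurve AlgebraicCurve IntermediateField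

namespace Fermat.Agent.S37.GD

open Fermat.Agent.S18 Fermat.Agent.S20

/-! ### Generic lemmas -/

/-- The powers of a transcendental element are linearly independent. -/
theorem linearIndependent_pow_of_transcendental {k B : Type*} [Field k] [Ring B] [Algebra k B]
    {y : B} (hy : Transcendental k y) (n : ℕ) :
    LinearIndependent k (fun i : Fin n => y ^ (i : ℕ)) := by
  have h1 : LinearIndependent k
      (fun i : ℕ => (Polynomial.aeval y).toLinearMap (Polynomial.basisMonomials k i)) :=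
    (Polynomial.basisMonomials k).linearIndependent.map' _
      (LinearMap.ker_eq_bot.mpr (transcendental_iff_injective.mp hy))
  have h2 := h1.comp (fun i : Fin n => (i : ℕ)) Fin.val_injective
  have h3 : ((fun i : ℕ => (Polynomial.aeval y).toLinearMap (Polynomial.basisMonomials k i)) ∘
      fun i : Fin n => (i : ℕ)) = fun i : Fin n => y ^ (i : ℕ) := by
    funext i
    simp [Polynomial.aeval_monomial]
  rw [h3] at h2
  exact h2

section PolePow

variable {K F : Type*} [Field K] [Field F] [Algebra K F]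

/-- Powers `x ^ i`, `i ≤ m`, lie in `L(m (x)_∞)`. -/
theorem pow_mem_rr {x : F} {J : Divisor K F} (hJ : ∀ v : Place K F, J v = max (-(v.ord x)) 0)
    {i m : ℕ} (him : i ≤ m) : x ^ i ∈ riemannRochSpace (m • J) := by
  rw [mem_riemannRochSpace_iff]
  intro v
  right
  rw [LiftIRR.ord_pow, Finsupp.smul_apply, nsmul_eq_mul, hJ v]
  have h1 : -(v.ord x) ≤ max (-(v.ord x)) 0 := le_max_left _ _
  have h2 : (0 : ℤ) ≤ max (-(v.ord x)) 0 := le_max_right _ _
  have h3 : (i : ℤ) ≤ (m : ℤ) := by exact_mod_cast him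
  have h4 : (0 : ℤ) ≤ (i : ℤ) := Int.natCast_nonneg i
  nlinarith

end PolePow

/-! ### The characteristic polynomial inclusion for a pair of divisors -/

section InclRed

open Polynomial

variable {K F F' k Fb Fb' : Type*} [Field K] [Field F] [Algebra K F] [Field F'] [Algebra F F']
  [Field k] [Field Fb] [Algebra k Fb] [Field Fb'] [Algebra Fb Fb']
  {V : ValuationSubring F} {V' : ValuationSubring F'} {ρ : V →+* Fb} {ρ' : V' →+* Fb'}

/-- **Inclusion, generic form for a pair of divisors.**  If `ρ` maps the Gauss-integral part of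
`L(m G)` into `L(m Ḡ)` for all `m`, then `ρ'` maps the Gauss-integral part of the relative
Riemann–Roch space of `G` into the relative Riemann–Roch space of `Ḡ`. -/
theorem relIntegral_rho_of_rr (hpair : LiftT.RedPair V V' ρ ρ') [FiniteDimensional F F']
    (hdeg : Module.finrank F F' ≤ Module.finrank Fb Fb')
    (G : Divisor K F) (Gb : Divisor k Fb)
    (H : ∀ (c : V) (m : ℕ), (c : F) ∈ riemannRochSpace (m • G) →
      ρ c ∈ riemannRochSpace (m • Gb))
    (x : V') (hx : UpN.RelIntegral G (x : F')) :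
    UpN.RelIntegral Gb (ρ' x) := by
  obtain ⟨p, hpm, hpmap, hpev⟩ := hpair.exists_monic_map_eq_minpoly hdeg x
  have hxint : IsIntegral F (x : F') := IsIntegral.of_finite F _
  have hnat : (p.map ρ).natDegree = (minpoly F (x : F')).natDegree := by
    rw [hpm.natDegree_map, ← hpmap, hpm.natDegree_map]
  refine UAd.relIntegral_of_root Gb (p.map ρ) (hpm.map ρ) (ρ' x) ?_ ?_
  · rw [aeval_def, eval₂_map]
    exact hpev
  · intro i _
    rw [coeff_map, hnat]
    have hcoe : ((p.coeff i : V) : F) = (minpoly F (x : F')).coeff i := by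
      rw [← hpmap, coeff_map]
      rfl
    exact H (p.coeff i) _ (by rw [hcoe]; exact UAd.minpoly_coeff_mem_rr G (x : F') hxint hx i)

end InclRed

/-! ### The rational base: `L(m (j)_∞) = ⟨1, j, …, j^m⟩` and its reduction -/

section RatBase

variable {K F k Fb : Type*} [Field K] [Field F] [Algebra K F] [Field k] [Field Fb] [Algebra k Fb]
  {A : ValuationSubring K} {V : ValuationSubring F} {res : A →+* k} {ρ : V →+* Fb}

/-- **Inclusion over a rational base.**  `F / K` with a function `j ∈ V` whose pole divisor `J`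
has degree one, and whose reduction `ρ j` is transcendental with pole divisor `J̄`: the reduction
of a Gauss-integral element of `L(m J)` lies in `L̄(m J̄)`. -/
theorem rho_mem_rr_of_rat (h0 : RR.Hyp0 K F) (hpair : LiftT.RedPair A V res ρ)
    (j : V) (J : Divisor K F) (hJ : ∀ v : Place K F, J v = max (-(v.ord (j : F))) 0)
    (hJdeg : Divisor.degree J = 1)
    (htr : Transcendental k (ρ j))
    (Jb : Divisor k Fb) (hJb : ∀ w : Place k Fb, Jb w = max (-(w.ord (ρ j))) 0)
    (c : V) (m : ℕ) (hc : (c : F) ∈ riemannRochSpace (m • J)) :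
    ρ c ∈ riemannRochSpace (m • Jb) := by
  classical
  set e : Fin (m + 1) → V := fun i => j ^ (i : ℕ) with he
  have hρe : ∀ i, ρ (e i) = ρ j ^ (i : ℕ) := fun i => map_pow ρ j _
  have hli : LinearIndependent k (fun i => ρ (e i)) := by
    have := linearIndependent_pow_of_transcendental htr (m + 1)
    have h2 : (fun i => ρ (e i)) = fun i : Fin (m + 1) => ρ j ^ (i : ℕ) := funext hρe
    rw [h2]
    exact this
  have hliK : LinearIndependent K (fun i => ((e i : V) : F)) := hpair.linearIndependent_lift e hli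
  have hJ0 : 0 ≤ J := by
    rw [Finsupp.le_def]
    intro v
    rw [hJ v]
    exact le_max_right _ _
  have hmJ0 : 0 ≤ m • J := nsmul_nonneg hJ0 m
  obtain ⟨hfin, hell⟩ := RR.finite_and_ell_le_of_nonneg h0 (m • J) hmJ0
  have hemem : ∀ i, ((e i : V) : F) ∈ riemannRochSpace (m • J) := by
    intro i
    have : ((e i : V) : F) = (j : F) ^ (i : ℕ) := rfl
    rw [this]
    exact pow_mem_rr hJ (Nat.lt_succ_iff.mp i.2)
  -- the family `e` as a family in `L(m J)`
  let v : Fin (m + 1) → riemannRochSpace (m • J) := fun i => ⟨((e i : V) : F), hemem i⟩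
  have hv : LinearIndependent K v :=
    LinearIndependent.of_comp (riemannRochSpace (m • J)).subtype hliK
  have hcard : Fintype.card (Fin (m + 1)) = Module.finrank K (riemannRochSpace (m • J)) := by
    rw [Fintype.card_fin]
    apply le_antisymm
    · simpa using hv.fintype_card_le_finrank
    · have h1 : (RR.ell (m • J) : ℤ) ≤ (m : ℤ) + 1 := by
        have h2 : Divisor.degree (m • J) = (m : ℤ) := by
          rw [map_nsmul, hJdeg, nsmul_eq_mul, mul_one]
        rw [h2] at hell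
        exact hell
      have h3 : RR.ell (m • J) ≤ m + 1 := by exact_mod_cast h1
      exact h3
  have hspan := hv.span_eq_top_of_card_eq_finrank' hcard
  have hc' : (⟨(c : F), hc⟩ : riemannRochSpace (m • J)) ∈ Submodule.span K (Set.range v) := by
    rw [hspan]
    trivial
  obtain ⟨a, ha⟩ := (Submodule.mem_span_range_iff_exists_fun K).mp hc'
  have hsum : ∑ i, a i • ((e i : V) : F) = (c : F) := by
    have h1 := congrArg (riemannRochSpace (m • J)).subtype ha
    rw [map_sum] at h1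
    simpa [v] using h1
  have haA : ∀ i, a i ∈ A := hpair.coeff_mem e hli a (by rw [hsum]; exact c.2)
  have hcV : c = ∑ i, hpair.incl ⟨a i, haA i⟩ * e i := by
    apply Subtype.ext
    rw [← hsum, AddSubmonoidClass.coe_finsetSum]
    refine Finset.sum_congr rfl fun i _ => ?_
    rw [MulMemClass.coe_mul, LiftT.RedPair.coe_incl, Algebra.smul_def]
  rw [hcV, hpair.rho'_sum_incl_mul]
  refine Submodule.sum_mem _ fun i _ => Submodule.smul_mem _ _ ?_
  rw [hρe i]
  exact pow_mem_rr hJb (Nat.lt_succ_iff.mp i.2)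

end RatBase

/-! ### The levels -/

section Levels

variable {ℓ : ℕ} [Fact ℓ.Prime] (A : ValuationSubring Qb) (hA : A.LiesOverPrime ℓ)

/-- The valuation ring `A ⊂ ℚ̄` and the Gauss valuation ring of `F_N` form a reduction pair. -/
theorem redPair_const (N : ℕ) [NeZero N] (hℓN : ¬ ℓ ∣ N) :
    LiftT.RedPair A (RGB.V N A) (IsLocalRing.residue A) (RGB.rho N hℓN A hA) :=
  ⟨fun x => RG.algebraMap_mem_V_iff A N x, RGB.rho_surjective N hℓN A hA,
    fun x _ => RGB.rho_algebraMap N hℓN A hA x⟩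

/-- `LiftPair A hA h hℓM G Ḡ`: every `y ∈ F̄_M` in the relative Riemann–Roch space of the divisor
`Ḡ` of `F̄_N` is `rho x` for some `x` in the Gauss valuation ring `V_M` lying in the relative
Riemann–Roch space of the divisor `G` of `F_N`. -/
def LiftPair {N M : ℕ} [NeZero M] (h : N ∣ M) (hℓM : ¬ ℓ ∣ M)
    (G : Divisor Qb ↥(FN N)) (Gb : Divisor (Kb A) ↥(FbN A N)) : Prop :=
  letI := algOfLE (bar_mono h)
  letI := algOfLE (fullC_mono (Kb A) h)
  ∀ y : ↥(FbN A M), UpN.RelIntegral Gb y →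
    ∃ x : ↥(RGB.V M A), UpN.RelIntegral G (x : ↥(FN M)) ∧ RGB.rho M hℓM A hA x = y

/-- **The base data at level one**: the pole divisors `J` of `j` and `J̄` of `j̄` have degree
one, and reduction maps the Gauss-integral part of `L(m J)` into `L̄(m J̄)`. -/
theorem exists_base (hℓ1 : ¬ ℓ ∣ 1) :
    ∃ (J : Divisor Qb ↥(FN 1)) (Jb : Divisor (Kb A) ↥(FbN A 1)),
      Divisor.degree J = 1 ∧ Divisor.degree Jb = 1 ∧
      ∀ (c : ↥(RGB.V 1 A)) (m : ℕ), (c : ↥(FN 1)) ∈ riemannRochSpace (m • J) →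
        RGB.rho 1 hℓ1 A hA c ∈ riemannRochSpace (m • Jb) := by
  obtain ⟨j, hj, hρj⟩ := UPts.exists_j (N := 1) A hA hℓ1
  have hj' : (j : ↥(FN 1)) = S24.jElt Qb 1 := hj.trans (GenMod.jBar_eq_jElt 1)
  have htrj : Transcendental Qb (S24.jElt Qb 1) := S24.DegreeCore.transcendental_jElt 1
  haveI : FiniteDimensional Qb⟮S24.jElt Qb 1⟯ ↥(FN 1) := PHyp.finiteDimensional_bar 1
  obtain ⟨J, hJ⟩ := C0L.exists_pole (S24.jElt Qb 1) htrj
  have hJdeg : Divisor.degree J = 1 := by
    rw [C0L.degree_pole_eq (S24.jElt Qb 1) htrj hJ]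
    obtain ⟨ι, -⟩ := PHyp.exists_embedding
    have h1 : Module.finrank Qb⟮S24.jElt Qb 1⟯ ↥(FN 1) = dedekindPsi 1 := LiftD.finrank_FF Qb ι 1
    rw [h1, dedekindPsi_one, Nat.cast_one]
  haveI := GST.isAlgClosed_Kb A
  haveI := GST.charP_Kb A hA
  haveI := PModCB.finiteDimensional_xJ (Kb A) 1 ℓ hℓ1
  haveI := PModCB.isSeparable_xJ (Kb A) 1 ℓ hℓ1
  obtain ⟨Jb, hJb, hJbdeg⟩ := SQO.exists_poleDivisor (PModCB.xJ (Kb A) 1)
    (PModCB.transcendental_xJ (Kb A) 1)
  rw [PModCB.finrank_xJ (Kb A) 1 ℓ hℓ1, dedekindPsi_one, Nat.cast_one] at hJbdeg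
  have hρj' : RGB.rho 1 hℓ1 A hA j = PModCB.xJ (Kb A) 1 := hρj
  refine ⟨J, Jb, hJdeg, hJbdeg, fun c m hc => ?_⟩
  exact rho_mem_rr_of_rat (PHyp.hyp0_bar 1) (redPair_const A hA 1 hℓ1) j J
    (fun v => by rw [hj']; exact hJ v) hJdeg
    (by rw [hρj']; exact PModCB.transcendental_xJ (Kb A) 1) Jb
    (fun w => by rw [hρj']; exact hJb w) c m hc

set_option maxHeartbeats 1000000 in
/-- **Inclusion over the base level one**: reduction maps the Gauss-integral part of the relative
Riemann–Roch space of `n J` at level `L` into the relative Riemann–Roch space of `n J̄`. -/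
theorem relIntegral_rho_base {L : ℕ} [NeZero L] (hℓL : ¬ ℓ ∣ L) (hℓ1 : ¬ ℓ ∣ 1)
    (J : Divisor Qb ↥(FN 1)) (Jb : Divisor (Kb A) ↥(FbN A 1))
    (H : ∀ (c : ↥(RGB.V 1 A)) (m : ℕ), (c : ↥(FN 1)) ∈ riemannRochSpace (m • J) →
      RGB.rho 1 hℓ1 A hA c ∈ riemannRochSpace (m • Jb))
    (n : ℕ) (x : ↥(RGB.V L A)) :
    letI := algOfLE (bar_mono (one_dvd L))
    letI := algOfLE (fullC_mono (Kb A) (one_dvd L))
    UpN.RelIntegral (n • J) (x : ↥(FN L)) →
      UpN.RelIntegral (n • Jb) (RGB.rho L hℓL A hA x) := by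
  letI := algOfLE (bar_mono (one_dvd L))
  letI := algOfLE (fullC_mono (Kb A) (one_dvd L))
  intro hx
  haveI : CharP (Kb A) ℓ := RN.charP_residueField A hA
  haveI : FiniteDimensional ↥(FN 1) ↥(FN L) :=
    LiftD.finite_bar (one_dvd L) (UAd.coe_algebraMap_bar (one_dvd L))
  have hdeg : Module.finrank ↥(FN 1) ↥(FN L) ≤ Module.finrank ↥(FbN A 1) ↥(FbN A L) :=
    (LiftD.finrank_bar_eq_finrank_fullC (Kb A) ℓ (one_dvd L) hℓL
      (UAd.coe_algebraMap_bar (one_dvd L)) (UAd.coe_algebraMap_fullC (one_dvd L) (Kb A))).le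
  have hp : LiftT.RedPair (RGB.V 1 A) (RGB.V L A) (RGB.rho 1 hℓ1 A hA) (RGB.rho L hℓL A hA) :=
    UAd.redPair (one_dvd L) hℓL A hA hℓ1
  have key := relIntegral_rho_of_rr hp hdeg (n • J) (n • Jb) (fun c m hc => by
    rw [← mul_smul] at hc ⊢
    exact H c (m * n) hc) x
  exact key hx

set_option maxHeartbeats 4000000 in
/-- **Squeeze at the top level**: for `n` large, every element of the relative Riemann–Roch
space of `n J̄` at level `M'` lifts to a Gauss-integral element of the relative Riemann–Roch space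
of `n J`. -/
theorem lift_top {M' : ℕ} [NeZero M'] (hℓM' : ¬ ℓ ∣ M') (hsq : GenusSqueeze A M')
    (J : Divisor Qb ↥(FN 1)) (Jb : Divisor (Kb A) ↥(FbN A 1))
    (hJ : Divisor.degree J = 1) (hJb : Divisor.degree Jb = 1)
    (hINC : ∀ (n : ℕ) (x : ↥(RGB.V M' A)),
      letI := algOfLE (bar_mono (one_dvd M'))
      letI := algOfLE (fullC_mono (Kb A) (one_dvd M'))
      UpN.RelIntegral (n • J) (x : ↥(FN M')) →
        UpN.RelIntegral (n • Jb) (RGB.rho M' hℓM' A hA x)) :
    ∃ c : ℕ, ∀ n : ℕ, c ≤ n → LiftPair A hA (one_dvd M') hℓM' (n • J) (n • Jb) := by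
  obtain ⟨g, hLE, hGE⟩ := hsq
  unfold LiftPair
  letI := algOfLE (bar_mono (one_dvd M'))
  letI := algOfLE (fullC_mono (Kb A) (one_dvd M'))
  haveI := isScalarTower_algOfLE (bar_mono (one_dvd M'))
  haveI := isScalarTower_algOfLE (fullC_mono (Kb A) (one_dvd M'))
  obtain ⟨c, hc⟩ := TopLiftB.finrank_relSpace_le A hA (one_dvd M') hℓM' hGE
  refine ⟨c.toNat, fun n hn y hy => ?_⟩
  have hdegb : Divisor.degree (n • Jb) = (n : ℤ) := by
    rw [map_nsmul, hJb, nsmul_eq_mul, mul_one]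
  have hdeg : Divisor.degree (n • J) = (n : ℤ) := by
    rw [map_nsmul, hJ, nsmul_eq_mul, mul_one]
  have hcn : c ≤ Divisor.degree (n • Jb) := by
    rw [hdegb]
    have h1 : c ≤ (c.toNat : ℤ) := Int.self_le_toNat c
    have h2 : (c.toNat : ℤ) ≤ (n : ℤ) := by exact_mod_cast hn
    linarith
  obtain ⟨hfinb, hub⟩ := hc (n • Jb) hcn
  have hlb := TopLiftB.le_finrank_relSpace (one_dvd M') hLE (n • J)
  haveI := ROR.finite_relSpace_bar (one_dvd M') (n • J)
  have hdim : Module.finrank (Kb A) (ROR.relSpace (F' := ↥(FbN A M')) (n • Jb)) ≤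
      Module.finrank Qb (ROR.relSpace (F' := ↥(FN M')) (n • J)) := by
    have hd := TopLiftB.finrank_eq A hA (one_dvd M') hℓM'
    rw [hdegb] at hub
    rw [hdeg] at hlb
    have h1 := TopLiftB.int_aux hub hlb (congrArg (Nat.cast (R := ℤ)) hd)
    exact_mod_cast h1
  obtain ⟨x, hxW, hx⟩ := TopLiftB.exists_rho_eq_of_finrank_le M' A hℓM' hA
    (ROR.relSpace (F' := ↥(FN M')) (n • J)) (ROR.relSpace (F' := ↥(FbN A M')) (n • Jb))
    (fun x hx => hINC n x hx) hdim y hy
  exact ⟨x, hxW, hx⟩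

set_option maxHeartbeats 3200000 in
/-- **Trace descent** for a pair of divisors: the lifting property descends from `M'` to `M`
when `[F_M' : F_M]` is prime to `ℓ`. -/
theorem lift_descent {N M M' : ℕ} [NeZero N] [NeZero M] [NeZero M'] (h : N ∣ M) (h' : M ∣ M')
    (hℓM : ¬ ℓ ∣ M) (hℓM' : ¬ ℓ ∣ M') (hℓd : ¬ ℓ ∣ levelDeg h')
    (G : Divisor Qb ↥(FN N)) (Gb : Divisor (Kb A) ↥(FbN A N))
    (hL : LiftPair A hA (h.trans h') hℓM' G Gb) : LiftPair A hA h hℓM G Gb := by
  intro y hy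
  have := RN.charP_residueField A hA
  have hfin2 : @Module.Finite (FN M) (FN M') _ _ (algOfLE (bar_mono h')).toModule :=
    @LiftD.finite_bar M M' _ _ h' (algOfLE (bar_mono h'))
      (fun a => algOfLE_algebraMap (bar_mono h') a)
  -- step 1: `y` is a section at level `M'`
  obtain ⟨x', hx'mem, hx'ρ⟩ := hL _
    (TopTR.relIntegral_algebraMap (fullC_mono (Kb A) h) (fullC_mono (Kb A) h') _ y hy)
  -- step 2: the trace
  letI := algOfLE (bar_mono h')
  letI := algOfLE (fullC_mono (Kb A) h')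
  have : Module.Finite (FN M) (FN M') := hfin2
  have hdeg : Module.finrank (FN M) (FN M') = Module.finrank (FbN A M) (FbN A M') :=
    LiftD.finrank_bar_eq_finrank_fullC (Kb A) ℓ h' hℓM'
      (fun a => algOfLE_algebraMap (bar_mono h') a)
      (fun a => algOfLE_algebraMap (fullC_mono (Kb A) h') a)
  have hd0 : ((levelDeg h' : ℕ) : Qb) ≠ 0 := by
    intro h0
    have h1 : levelDeg h' = 0 := by exact_mod_cast h0
    exact hℓd (h1 ▸ dvd_zero ℓ)
  have hcA : (((levelDeg h' : ℕ) : Qb))⁻¹ ∈ A := TopTR.inv_natCast_mem A hA _ hℓd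
  obtain ⟨u, hu_def⟩ : ∃ u : RGB.V M A,
      (u : FN M) = algebraMap Qb (FN M) (((levelDeg h' : ℕ) : Qb))⁻¹ :=
    ⟨⟨_, (RG.algebraMap_mem_V_iff A M _).mpr hcA⟩, rfl⟩
  have hu : ((u : RGB.V M A) : FN M) * ((Module.finrank (FbN A M) (FbN A M') : ℕ) : FN M) = 1 := by
    rw [hu_def, ← hdeg]
    exact TopTR.unit_aux (levelDeg h') hd0
  have htr := TopTR.trace_red A hA h' hℓM'
  obtain ⟨hmem, hρ⟩ := LiftS.trace_descent (RGB.V M A) (RGB.V M' A) (RGB.rho M hℓM A hA)
    (RGB.rho M' hℓM' A hA) htr u hu y x' hx'ρ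
  refine ⟨⟨_, hmem⟩, ?_, hρ⟩
  have h1 := TopTR.relIntegral_trace (bar_mono h) (bar_mono h') hfin2 G (x' : FN M') hx'mem
    (((levelDeg h' : ℕ) : Qb))⁻¹
  rw [← hu_def] at h1
  exact h1

set_option maxHeartbeats 2000000 in
/-- **Dimension count from the lifting property**: `dim L̄_M(π̄^* Ḡ) ≤ dim L_M(π^* G)`. -/
theorem finrank_le_of_lift {N M : ℕ} [NeZero N] [NeZero M] (h : N ∣ M) (hℓM : ¬ ℓ ∣ M)
    (G : Divisor Qb ↥(FN N)) (Gb : Divisor (Kb A) ↥(FbN A N))
    (hL : LiftPair A hA h hℓM G Gb) :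
    letI := algOfLE (bar_mono h)
    letI := algOfLE (fullC_mono (Kb A) h)
    haveI := isScalarTower_algOfLE (bar_mono h)
    haveI := isScalarTower_algOfLE (fullC_mono (Kb A) h)
    Module.Finite (Kb A) (ROR.relSpace (F' := ↥(FbN A M)) Gb) →
      Module.finrank (Kb A) (ROR.relSpace (F' := ↥(FbN A M)) Gb) ≤
        Module.finrank Qb (ROR.relSpace (F' := ↥(FN M)) G) := by
  letI := algOfLE (bar_mono h)
  letI := algOfLE (fullC_mono (Kb A) h)
  haveI := isScalarTower_algOfLE (bar_mono h)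
  haveI := isScalarTower_algOfLE (fullC_mono (Kb A) h)
  intro hfin
  let b := Module.finBasis (Kb A) (ROR.relSpace (F' := ↥(FbN A M)) Gb)
  choose x hx1 hx2 using fun i => hL ((b i : ROR.relSpace (F' := ↥(FbN A M)) Gb) : ↥(FbN A M))
    (b i).2
  have hli : LinearIndependent (Kb A) (fun i => RGB.rho M hℓM A hA (x i)) := by
    have h1 : (fun i => RGB.rho M hℓM A hA (x i)) =
        (ROR.relSpace (F' := ↥(FbN A M)) Gb).subtype ∘ b := funext hx2
    rw [h1]
    exact b.linearIndependent.map' _ (Submodule.ker_subtype _)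
  have hliQ : LinearIndependent Qb (fun i => ((x i : ↥(RGB.V M A)) : ↥(FN M))) :=
    (redPair_const A hA M hℓM).linearIndependent_lift x hli
  haveI := ROR.finite_relSpace_bar h G
  let v : Fin (Module.finrank (Kb A) (ROR.relSpace (F' := ↥(FbN A M)) Gb)) →
      ROR.relSpace (F' := ↥(FN M)) G := fun i => ⟨((x i : ↥(RGB.V M A)) : ↥(FN M)), hx1 i⟩
  have hv : LinearIndependent Qb v :=
    LinearIndependent.of_comp (ROR.relSpace (F' := ↥(FN M)) G).subtype hliQ
  simpa using hv.fintype_card_le_finrank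

set_option maxHeartbeats 4000000 in
/-- **Dimension count, in terms of pulled back divisors**:
`ℓ̄_M(π̄^* Ḡ) ≤ ℓ_M(π^* G)` from the lifting property. -/
theorem ell_le_of_lift {N M : ℕ} [NeZero N] [NeZero M] (h : N ∣ M) (hℓM : ¬ ℓ ∣ M)
    (G : Divisor Qb ↥(FN N)) (Gb : Divisor (Kb A) ↥(FbN A N))
    (hL : LiftPair A hA h hℓM G Gb) :
    letI := algOfLE (bar_mono h)
    letI := algOfLE (fullC_mono (Kb A) h)
    haveI := isScalarTower_algOfLE (bar_mono h)
    haveI := isScalarTower_algOfLE (fullC_mono (Kb A) h)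
    haveI := ROR.finite_bar h
    haveI := ROR.hasPrincipalDivisors_bar (M := M)
    haveI := PModCB.finite_FbN A hA h hℓM
    haveI := TopLiftB.hasPrincipalDivisors_Kb A hA (M := M)
    RR.ell (Divisor.pullback ↥(FbN A M) Gb) ≤ RR.ell (Divisor.pullback ↥(FN M) G) := by
  letI := algOfLE (bar_mono h)
  letI := algOfLE (fullC_mono (Kb A) h)
  haveI := isScalarTower_algOfLE (bar_mono h)
  haveI := isScalarTower_algOfLE (fullC_mono (Kb A) h)
  haveI := ROR.finite_bar h
  haveI := ROR.hasPrincipalDivisors_bar (M := M)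
  haveI := PModCB.finite_FbN A hA h hℓM
  haveI := SepLevel.isSeparable_FbN A hA h hℓM
  haveI := TopLiftB.hasPrincipalDivisors_Kb A hA (M := M)
  have hfin : Module.Finite (Kb A) (ROR.relSpace (F' := ↥(FbN A M)) Gb) := by
    rw [ROR.relSpace_eq]
    exact TopLiftB.finite_rr_Kb A hA _
  have h1 := finrank_le_of_lift A hA h hℓM G Gb hL hfin
  rw [ROR.relSpace_eq, ROR.relSpace_eq] at h1
  exact h1

set_option maxHeartbeats 4000000 in
include hA in
/-- **Tame genus descent.** -/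
theorem genusSqueeze_of_dvd {M M' : ℕ} [NeZero M] [NeZero M'] (h' : M ∣ M')
    (hℓM' : ¬ ℓ ∣ M') (hℓd : ¬ ℓ ∣ levelDeg h') (hsq : GenusSqueeze A M') :
    GenusSqueeze A M := by
  have hℓM : ¬ ℓ ∣ M := fun hd => hℓM' (hd.trans h')
  have hℓ1 : ¬ ℓ ∣ 1 := fun hd => (Fact.out : ℓ.Prime).one_lt.ne' (Nat.dvd_one.mp hd)
  refine ⟨PHyp.genusR Qb ↥(FN M), GSA.genusLE_genusR (PHyp.hyp_bar M),
    GSA.genusGE_of_le (GST.hyp_Kb A hA M) ?_⟩
  obtain ⟨J, Jb, hJ, hJb, H⟩ := exists_base A hA hℓ1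
  obtain ⟨c₁, hc₁⟩ := lift_top A hA hℓM' hsq J Jb hJ hJb
    (fun n x hx => relIntegral_rho_base A hA hℓM' hℓ1 J Jb H n x hx)
  obtain ⟨-, c₀, hc₀⟩ := PHyp.genusR_spec (PHyp.hyp_bar M)
  apply PHyp.le_genusR_of (GST.hyp_Kb A hA M)
  intro c
  set n : ℕ := max c₁ (max c₀.toNat c.toNat) with hn
  have hn1 : c₁ ≤ n := le_max_left _ _
  have hn0 : c₀ ≤ (n : ℤ) := by
    have h1 : c₀ ≤ (c₀.toNat : ℤ) := Int.self_le_toNat c₀
    have h2 : c₀.toNat ≤ n := (le_max_left _ _).trans (le_max_right _ _)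
    have h3 : (c₀.toNat : ℤ) ≤ (n : ℤ) := by exact_mod_cast h2
    linarith
  have hnc : c ≤ (n : ℤ) := by
    have h1 : c ≤ (c.toNat : ℤ) := Int.self_le_toNat c
    have h2 : c.toNat ≤ n := (le_max_right _ _).trans (le_max_right _ _)
    have h3 : (c.toNat : ℤ) ≤ (n : ℤ) := by exact_mod_cast h2
    linarith
  have hlift : LiftPair A hA (one_dvd M) hℓM (n • J) (n • Jb) :=
    lift_descent A hA (one_dvd M) h' hℓM hℓM' hℓd (n • J) (n • Jb) (hc₁ n hn1)
  have hell := ell_le_of_lift A hA (one_dvd M) hℓM (n • J) (n • Jb) hlift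
  letI := algOfLE (bar_mono (one_dvd M))
  letI := algOfLE (fullC_mono (Kb A) (one_dvd M))
  haveI := isScalarTower_algOfLE (bar_mono (one_dvd M))
  haveI := isScalarTower_algOfLE (fullC_mono (Kb A) (one_dvd M))
  haveI := ROR.finite_bar (one_dvd M)
  haveI := ROR.hasPrincipalDivisors_bar (M := M)
  haveI := PModCB.finite_FbN A hA (one_dvd M) hℓM
  haveI := TopLiftB.hasPrincipalDivisors_Kb A hA (M := M)
  have hdegb : Divisor.degree (Divisor.pullback ↥(FbN A M) (n • Jb)) =
      (Module.finrank ↥(FbN A 1) ↥(FbN A M) : ℤ) * (n : ℤ) := by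
    rw [TopLiftB.degree_pullback_Kb A hA (one_dvd M) hℓM (n • Jb), map_nsmul, hJb, nsmul_eq_mul,
      mul_one]
  have hdeg : Divisor.degree (Divisor.pullback ↥(FN M) (n • J)) =
      (Module.finrank ↥(FN 1) ↥(FN M) : ℤ) * (n : ℤ) := by
    rw [FundId.degree_pullback (PHyp.hyp0_bar 1).deg_one (PHyp.hyp0_bar M).deg_one (n • J),
      map_nsmul, hJ, nsmul_eq_mul, mul_one]
  have hd : Module.finrank ↥(FN 1) ↥(FN M) = Module.finrank ↥(FbN A 1) ↥(FbN A M) :=
    TopLiftB.finrank_eq A hA (one_dvd M) hℓM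
  have hd1 : (1 : ℤ) ≤ (Module.finrank ↥(FbN A 1) ↥(FbN A M) : ℤ) := by
    exact_mod_cast Module.finrank_pos
  have hn0' : (0 : ℤ) ≤ (n : ℤ) := Int.natCast_nonneg n
  have hdn : (n : ℤ) ≤ (Module.finrank ↥(FbN A 1) ↥(FbN A M) : ℤ) * (n : ℤ) := by nlinarith
  refine ⟨Divisor.pullback ↥(FbN A M) (n • Jb), ?_, ?_⟩
  · rw [hdegb]
    linarith
  · have h2 := hc₀ (Divisor.pullback ↥(FN M) (n • J)) (by
      rw [hdeg, hd]
      linarith)
    rw [hdeg, hd] at h2
    rw [hdegb]
    have h3 : (RR.ell (Divisor.pullback ↥(FbN A M) (n • Jb)) : ℤ) ≤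
        (RR.ell (Divisor.pullback ↥(FN M) (n • J)) : ℤ) := by exact_mod_cast hell
    linarith

end Levels

/-- **[chain GD]** tame genus descent, in the shape of `Iface.lean`. -/
theorem genusDescentStmt : GenusDescentStmt :=
  fun _ _ A hA _ _ _ _ h' hℓM' hℓd hsq => genusSqueeze_of_dvd A hA h' hℓM' hℓd hsq

end Fermat.Agent.S37.GD
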