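import Mathlib
import Fermat.Agent.S18.RContent
import Fermat.Agent.S18.Defs
import Fermat.Prelude.Thm_ModularCurve_coeffMap_qExpand
import Fermat.Prelude.Def_ModularCurve_HeckeOperator
import Fermat.Agent.S37.KNormC

/-!
# S37, chain K, piece K3 (second seat): the Kronecker congruence from the product formula

* `KRedB.pow_char` : in characteristic `ℓ`, `z ^ ℓ = qExpand ℓ (coeffMap frobenius z)` for a
  Laurent series `z`.
* `KRedB.exists_red_of_prod` (generic: `A` a valuation subring of a field `L` with residue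
  characteristic `ℓ`): if `x(q^ℓ) = y(q^{ℓ²}) · ∏_{b<ℓ} T_b` with `y` an `A`-integral series and
  `T_b` the twists `∑ c_b^n a_n q^n` of `y` by `ℓ`-th roots of unity `c_b`, then `x` is
  `A`-integral with reduction `ȳ(q^ℓ) · φ(ȳ)` (`φ` = coefficientwise Frobenius).
* `KRedB.exists_norm_red_of` : the same for the norm `N_α(β y)` from abstract twisted embeddings
  and an abstract product formula.
* `KRedB.exists_norm_red` : **(K0)**, the Kronecker congruence for functions in the
  integral-series shape, from `KNormC.exists_qExpand_norm_beta` (K1 + K2).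
-/

set_option autoImplicit false
set_option linter.style.haveILetI false

noncomputable section

namespace Fermat.Agent.S37.KRedB

open HahnSeries ModularCurve AlgebraicCurve Fermat.Agent.S18

section Frob

variable (k : Type*) [CommRing k] (ℓ : ℕ) [Fact ℓ.Prime] [CharP k ℓ]

/-- The `ℓ`-th power of a power series in characteristic `ℓ`, inside the Laurent series. -/
theorem coe_pow_char (g : PowerSeries k) :
    (HahnSeries.ofPowerSeries ℤ k g) ^ ℓ
      = qExpand k ℓ (coeffMap (frobenius k ℓ) (HahnSeries.ofPowerSeries ℤ k g)) := by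
  have hℓ : ℓ ≠ 0 := (Fact.out : ℓ.Prime).ne_zero
  have h1 : g ^ ℓ = PowerSeries.map (frobenius k ℓ) (PowerSeries.expand ℓ hℓ g) :=
    (MvPowerSeries.map_frobenius_expand (p := ℓ) hℓ (f := g)).symm
  rw [← map_pow (HahnSeries.ofPowerSeries ℤ k), h1]
  ext n
  rw [PowerSeries.coeff_coe]
  by_cases hn : (ℓ : ℤ) ∣ n
  · obtain ⟨m, rfl⟩ := hn
    rw [qExpand_coeff_mul, coeffMap_coeff, PowerSeries.coeff_coe]
    have hℓpos : (0 : ℤ) < ℓ := by exact_mod_cast Nat.pos_of_ne_zero hℓ
    by_cases hm : m < 0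
    · have hlt : (ℓ : ℤ) * m < 0 := mul_neg_of_pos_of_neg hℓpos hm
      rw [if_pos hlt, if_pos hm, map_zero]
    · have hge : ¬ (ℓ : ℤ) * m < 0 :=
        not_lt.mpr (mul_nonneg hℓpos.le (not_lt.mp hm))
      rw [if_neg hge, if_neg hm, PowerSeries.coeff_map, PowerSeries.coeff_expand,
        Int.natAbs_mul, Int.natAbs_natCast, if_pos (dvd_mul_right _ _),
        Nat.mul_div_cancel_left _ (Nat.pos_of_ne_zero hℓ)]
  · rw [qExpand_coeff_of_not_dvd ℓ _ hn]
    split_ifs with h0
    · rfl
    · rw [PowerSeries.coeff_map, PowerSeries.coeff_expand, if_neg, map_zero]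
      intro hd
      exact hn (Int.natCast_dvd.mpr hd)

/-- **Frobenius on Laurent series**: in characteristic `ℓ`,
`(∑ a_n q^n)^ℓ = ∑ a_n^ℓ q^{nℓ}`. -/
theorem pow_char (z : LaurentSeries k) :
    z ^ ℓ = qExpand k ℓ (coeffMap (frobenius k ℓ) z) := by
  have key : ∀ (o : ℤ) (g : PowerSeries k),
      ((single o 1 : LaurentSeries k) * HahnSeries.ofPowerSeries ℤ k g) ^ ℓ
        = qExpand k ℓ (coeffMap (frobenius k ℓ)
            ((single o 1 : LaurentSeries k) * HahnSeries.ofPowerSeries ℤ k g)) := by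
    intro o g
    have e1 : (single o (1 : k) : LaurentSeries k) ^ ℓ = single ((ℓ : ℤ) * o) (1 : k) := by
      rw [HahnSeries.single_pow, one_pow, nsmul_eq_mul]
    have e2 : qExpand k ℓ (coeffMap (frobenius k ℓ) (single o (1 : k) : LaurentSeries k))
        = single ((ℓ : ℤ) * o) (1 : k) := by
      rw [coeffMap_single, qExpand_single, map_one]
    rw [mul_pow, map_mul, map_mul, coe_pow_char, e1, e2]
  have hz := LaurentSeries.single_order_mul_powerSeriesPart z
  have h3 := key z.order z.powerSeriesPart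
  rwa [hz] at h3

end Frob

section Red

variable {L : Type*} [Field L] (A : ValuationSubring L)

/-- Roots of unity lie in every valuation subring. -/
theorem mem_of_pow_eq_one {x : L} {n : ℕ} (hn : n ≠ 0) (hx : x ^ n = 1) : x ∈ A := by
  by_contra hxA
  have hinv : x⁻¹ ∈ A := (A.mem_or_inv_mem x).resolve_left hxA
  obtain ⟨m, rfl⟩ := Nat.exists_eq_succ_of_ne_zero hn
  have h1 : x = (x⁻¹) ^ m := by
    rw [inv_pow]
    exact eq_inv_of_mul_eq_one_right (by rw [← pow_succ]; exact hx)
  exact hxA (h1 ▸ pow_mem hinv m)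

variable (ℓ : ℕ) [Fact ℓ.Prime] [CharP (IsLocalRing.ResidueField A) ℓ]

/-- An `ℓ`-th root of unity of `A` reduces to `1` in residue characteristic `ℓ`. -/
theorem residue_eq_one_of_pow_eq_one (a : A) (ha : a ^ ℓ = 1) : IsLocalRing.residue A a = 1 := by
  have h1 : (IsLocalRing.residue A a) ^ ℓ = 1 := by rw [← map_pow, ha, map_one]
  have h2 : (IsLocalRing.residue A a - 1) ^ ℓ = 0 := by
    rw [sub_pow_char, h1, one_pow, sub_self]
  exact sub_eq_zero.mp (pow_eq_zero_iff (Fact.out : ℓ.Prime).ne_zero |>.mp h2)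

/-- **The Kronecker congruence from the product formula** (generic form). -/
theorem exists_red_of_prod (y : LaurentSeries A) (c : ℕ → L) (hc : ∀ b, c b ^ ℓ = 1)
    (T : ℕ → LaurentSeries L)
    (hT : ∀ b (n : ℤ), (T b).coeff n = c b ^ n * (coeffMap A.subtype y).coeff n)
    (x : LaurentSeries L)
    (hx : qExpand L ℓ x = qExpand L ℓ (qExpand L ℓ (coeffMap A.subtype y))
      * ∏ b ∈ Finset.range ℓ, T b) :
    ∃ w : LaurentSeries A, x = coeffMap A.subtype w ∧
      coeffMap (IsLocalRing.residue A) w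
        = qExpand (IsLocalRing.ResidueField A) ℓ (coeffMap (IsLocalRing.residue A) y)
          * coeffMap (frobenius (IsLocalRing.ResidueField A) ℓ)
              (coeffMap (IsLocalRing.residue A) y) := by
  have hℓ : ℓ ≠ 0 := (Fact.out : ℓ.Prime).ne_zero
  have hcz : ∀ b (n : ℤ), (c b ^ n) ^ ℓ = 1 := fun b n => by
    rw [← zpow_natCast, ← zpow_mul, mul_comm, zpow_mul, zpow_natCast, hc, one_zpow]
  have hcA : ∀ b (n : ℤ), c b ^ n ∈ A := fun b n => mem_of_pow_eq_one A hℓ (hcz b n)
  have hTA : ∀ b n, (T b).coeff n ∈ A := fun b n => by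
    rw [hT]
    exact A.mul_mem _ _ (hcA b n) (RC.coeffMap_subtype_coeff_mem A y n)
  set t : ℕ → LaurentSeries A := fun b => RC.liftA A (T b) with ht_def
  have ht : ∀ b, coeffMap A.subtype (t b) = T b := fun b => RC.coeffMap_subtype_liftA A (hTA b)
  have htres : ∀ b, coeffMap (IsLocalRing.residue A) (t b)
      = coeffMap (IsLocalRing.residue A) y := by
    intro b
    ext n
    rw [coeffMap_coeff, coeffMap_coeff]
    have h1 : (t b).coeff n = ⟨c b ^ n, hcA b n⟩ * y.coeff n := by
      apply Subtype.ext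
      have h2 := congrArg (fun s => s.coeff n) (ht b)
      simp only [coeffMap_coeff] at h2
      rw [show (((t b).coeff n : A) : L) = (T b).coeff n from h2, hT]
      rfl
    rw [h1, map_mul, residue_eq_one_of_pow_eq_one A ℓ _ (Subtype.ext (hcz b n)), one_mul]
  set W : LaurentSeries A := qExpand A ℓ (qExpand A ℓ y) * ∏ b ∈ Finset.range ℓ, t b with hW_def
  have hW : coeffMap A.subtype W = qExpand L ℓ x := by
    rw [hx, hW_def, map_mul, coeffMap_qExpand, coeffMap_qExpand, map_prod]
    congr 1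
    exact Finset.prod_congr rfl (fun b _ => ht b)
  have hxA : ∀ k, x.coeff k ∈ A := fun k => by
    have h2 := congrArg (fun s => s.coeff ((ℓ : ℤ) * k)) hW
    simp only [coeffMap_coeff, qExpand_coeff_mul] at h2
    rw [← h2]
    exact (W.coeff _).2
  refine ⟨RC.liftA A x, (RC.coeffMap_subtype_liftA A hxA).symm, ?_⟩
  have hqW : qExpand A ℓ (RC.liftA A x) = W := by
    apply RC.coeffMap_subtype_injective A
    rw [coeffMap_qExpand, RC.coeffMap_subtype_liftA A hxA, hW]
  apply qExpand_injective (R := IsLocalRing.ResidueField A) ℓ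
  rw [← coeffMap_qExpand, hqW, hW_def, map_mul (qExpand _ ℓ), ← pow_char,
    map_mul (coeffMap (IsLocalRing.residue A)), coeffMap_qExpand, coeffMap_qExpand, map_prod,
    Finset.prod_congr rfl (fun b _ => htres b), Finset.prod_const, Finset.card_range]

end Red

section Levels

variable (N ℓ : ℕ) [NeZero N] [Fact ℓ.Prime] (A : ValuationSubring Qb) [CharP (Kb A) ℓ]

/-- **The Kronecker congruence for functions** from the `ℓ` twisted embeddings `E b` of
`F_{Nℓ}` (K1, in coefficient form: `E b (y(q^ℓ)) = ∑ c_b^n a_n q^n` with `c_b^ℓ = 1`) and the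
product formula for the norm (K2): for an `A`-integral series `y` in `F_N`, the norm
`N_α(β y)` is `A`-integral with reduction `ȳ(q^ℓ) · φ(ȳ)`. -/
theorem exists_norm_red_of (c : ℕ → Qb) (hc : ∀ b, c b ^ ℓ = 1)
    (E : ℕ → ↥(FN (N * ℓ)) →+* LaurentSeries Qb)
    (hE : ∀ b (f : ↥(FN N)) (n : ℤ),
      (E b (heckeBetaBar Qb N ℓ f)).coeff n = c b ^ n * (f : LaurentSeries Qb).coeff n)
    (hnorm : letI := algebraAlong (heckeAlphaBar Qb N ℓ)
      ∀ w : ↥(FN (N * ℓ)),
        qExpand Qb ℓ ((Algebra.norm ↥(FN N) w : ↥(FN N)) : LaurentSeries Qb)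
          = qExpand Qb ℓ (w : LaurentSeries Qb) * ∏ b ∈ Finset.range ℓ, E b w)
    (y : LaurentSeries A) (hy : coeffMap A.subtype y ∈ FN N) :
    ∃ w : LaurentSeries A,
      (letI := algebraAlong (heckeAlphaBar Qb N ℓ)
       ((Algebra.norm (FN N) (heckeBetaBar Qb N ℓ ⟨coeffMap A.subtype y, hy⟩) : FN N) :
        LaurentSeries Qb)) = coeffMap A.subtype w ∧
      coeffMap (IsLocalRing.residue A) w
        = qExpand (Kb A) ℓ (coeffMap (IsLocalRing.residue A) y)
          * coeffMap (frobenius (Kb A) ℓ) (coeffMap (IsLocalRing.residue A) y) := by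
  letI := algebraAlong (heckeAlphaBar Qb N ℓ)
  refine exists_red_of_prod A ℓ y c hc
    (fun b => E b (heckeBetaBar Qb N ℓ ⟨coeffMap A.subtype y, hy⟩))
    (fun b n => hE b ⟨coeffMap A.subtype y, hy⟩ n) _ ?_
  rw [hnorm (heckeBetaBar Qb N ℓ ⟨coeffMap A.subtype y, hy⟩), coe_heckeBetaBar]

end Levels

/-- **(K0), the Kronecker congruence for functions** (integral-series shape): for an
`A`-integral series `y` in `F_N`, `ℓ ∤ N`, the norm `N_α(y(q^ℓ))` from `F_{Nℓ}` to `F_N` is
`A`-integral with reduction `ȳ(q^ℓ) · φ(ȳ)`, `φ` the coefficientwise Frobenius.  Inputs: the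
product formula `KNormC.exists_qExpand_norm_beta` (K1 + K2) and `exists_red_of_prod`. -/
theorem exists_norm_red (N ℓ : ℕ) [NeZero N] [Fact ℓ.Prime] (hℓN : ¬ ℓ ∣ N)
    (A : ValuationSubring Qb) (_hA : A.LiesOverPrime ℓ) [CharP (Kb A) ℓ]
    (y : LaurentSeries A) (hy : coeffMap A.subtype y ∈ FN N) :
    ∃ w : LaurentSeries A,
      (letI := algebraAlong (heckeAlphaBar Qb N ℓ)
       ((Algebra.norm (FN N) (heckeBetaBar Qb N ℓ ⟨coeffMap A.subtype y, hy⟩) : FN N) :
        LaurentSeries Qb)) = coeffMap A.subtype w ∧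
      coeffMap (IsLocalRing.residue A) w
        = qExpand (Kb A) ℓ (coeffMap (IsLocalRing.residue A) y)
          * coeffMap (frobenius (Kb A) ℓ) (coeffMap (IsLocalRing.residue A) y) := by
  obtain ⟨ζ, hζ, hnorm⟩ := KNormC.exists_qExpand_norm_beta N ℓ (Fact.out : ℓ.Prime) hℓN
  refine exists_red_of_prod A ℓ y (fun b => ((ζ ^ b : Qbˣ) : Qb)) (fun b => ?_)
    (fun b => S28.Kummer.twist (ζ ^ b) (coeffMap A.subtype y))
    (fun b n => S28.Kummer.twist_coeff (ζ ^ b) _ n) _ (hnorm ⟨coeffMap A.subtype y, hy⟩)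
  rw [Units.val_pow_eq_pow_val, ← pow_mul, mul_comm, pow_mul, hζ.pow_eq_one, one_pow]

end Fermat.Agent.S37.KRedB
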